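/-
PROJECT R (S43), block RS = the R-side (leader helper21), file RS0: THE TWO GLOBAL DEFORMATION
CONDITIONS (definitions only; Prelude vocabulary).

`p` odd, `Smin` = `{p}` ∪ the primes where `ρbar` is ramified (for the Frey curve after S44:
`{2, p}`), `T` = the stuck primes (`l ≡ 1 mod p`, `ρbar|D_l` scalar), `Q` = a Taylor–Wiles set,
`χ : ℕ → GQ →* 𝒪ˣ` a family of characters (`χ l` of `p`-power order, ramified only at `l`,
trivial modulo `𝔪_𝒪`; only its restriction to the inertia groups at `l` is used).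

* `TypeChi χ l ρ`  : `charpoly ρ(σ) = (X - χ_l(σ)) (X - χ_l(σ)⁻¹)` for `σ` in an inertia group at `l`;
* `cond1 𝒪 p Smin T Q` : flat at `p`, determinant cyclotomic, unramified outside `Smin ∪ T ∪ Q`,
  unipotent on inertia at `q ∈ Smin ∪ T`, `q ≠ p`.  This IS main's `Unpack.flCond 𝒪 p (Smin ∪ T) Q`
  (`cond1_eq`), so every S56 statement applies to it verbatim;
* `condChi 𝒪 p Smin T Q χ` : the same with `TypeChi χ l` at `l ∈ T` in place of unipotent.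
-/
import Fermat.Agent.S56.Main.Unpack

set_option autoImplicit false

open Polynomial

namespace Fermat.Agent.S43.RSide.Cond

open Fermat.Agent.S56.Main.Unpack

/-- the absolute Galois group of `ℚ` (Prelude's literal) -/
abbrev GalQ : Type := AlgebraicClosure ℚ ≃ₐ[ℚ] AlgebraicClosure ℚ

/-- **inertial type `{χ, χ⁻¹}` at `l`** -/
def TypeChi {𝒪 : Type} [CommRing 𝒪] (χ : ℕ → GalQ →* 𝒪ˣ) (l : ℕ) {A : Type} [CommRing A]
    [IsLocalRing A] [Algebra 𝒪 A] (ρ : GaloisRepAdic A) : Prop :=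
  ∀ P : ValuationSubring (AlgebraicClosure ℚ), P.LiesOverPrime l →
    ∀ σ ∈ P.inertiaSubgroupIn ℚ,
      LinearMap.charpoly (ρ.ρ σ) =
        (X - C (algebraMap 𝒪 A ((χ l σ : 𝒪ˣ) : 𝒪))) *
          (X - C (algebraMap 𝒪 A (((χ l σ)⁻¹ : 𝒪ˣ) : 𝒪)))

/-- **the unipotent global condition** -/
def cond1 (𝒪 : Type) [CommRing 𝒪] (p : ℕ) (Smin T Q : Finset ℕ) : Cond 𝒪 :=
  fun _A _ _ _ ρ =>
    GaloisRep.flatCondition 𝒪 p (Smin ∪ T ∪ Q) ρ ∧
      ∀ q ∈ Smin ∪ T, q.Prime → q ≠ p → ρ.IsUnipotentOnInertiaAt q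

theorem cond1_eq (𝒪 : Type) [CommRing 𝒪] (p : ℕ) (Smin T Q : Finset ℕ) :
    cond1 𝒪 p Smin T Q = flCond 𝒪 p (Smin ∪ T) Q := rfl

/-- **the `χ`-type global condition** -/
def condChi (𝒪 : Type) [CommRing 𝒪] (p : ℕ) (Smin T Q : Finset ℕ) (χ : ℕ → GalQ →* 𝒪ˣ) :
    Cond 𝒪 :=
  fun _A _ _ _ ρ =>
    GaloisRep.flatCondition 𝒪 p (Smin ∪ T ∪ Q) ρ ∧
      (∀ q ∈ Smin, q.Prime → q ≠ p → ρ.IsUnipotentOnInertiaAt q) ∧
      ∀ l ∈ T, TypeChi χ l ρ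

/-- `χ l` is trivial modulo the maximal ideal -/
def ChiResTrivial {𝒪 : Type} [CommRing 𝒪] [IsLocalRing 𝒪] (χ : ℕ → GalQ →* 𝒪ˣ) : Prop :=
  ∀ (l : ℕ) (σ : GalQ), ((χ l σ : 𝒪ˣ) : 𝒪) - 1 ∈ IsLocalRing.maximalIdeal 𝒪

end Fermat.Agent.S43.RSide.Cond
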