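/-
PROJECT R (row 37 by S43), block RS (leader helper21, cut #6181 (5)), brick RS6b (helper25):
THE LOCAL GALOIS INPUTS OF `theta` AT A STUCK PRIME `l ≠ p`, IN MATRIX FORM.

`T` a local ring, `r : G_ℚ →* M₂(T)` adically continuous (helper15's `MatAdicContinuous`, restated),
`A` a valuation ring of `ℚ̄` over `l ≠ p`, `r ≡ 1` modulo the maximal ideal on the inertia group
`I_A`, `(p : T) ∈ 𝔪_T`, `T` separated.

* PART A (pure algebra) : matrices congruent to `1` modulo the maximal ideal of a local ring `E`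
  with `(p : E) ∈ 𝔪_E`, `𝔪_E ^ n = 0`, have `p`-power order (`pow_prime_pow_eq_one`,
  `isPGroup_range_of_cong`);
* PART B (one finite level) : `level_conj_pow : ρ (φ τ φ⁻¹) = ρ τ ^ l`, `level_generated`;
* PART C : `conj_eq_pow : r φ * r τ = r τ ^ l * r φ` in `M₂(T)`, its unipotent and `χ` corollaries
  in the shape of `Local/Universal.exists_theta`, the generation statement `scalar_on_Dq`, and the
  exit `unramified_of_generator_eq_one`.
-/
import Mathlib
import Fermat.Agent.S56.Tame.Global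
import Fermat.Agent.S56.Unip.ProCyclic

set_option autoImplicit false

noncomputable section

namespace Fermat.Agent.S43.RSide.LocalMat

open IsLocalRing Matrix

/-! ### PART A : congruence matrices -/

section PartA

variable {E : Type*} [CommRing E]

/-- all entries in the ideal `J` -/
def Cong (J : Ideal E) (x : Matrix (Fin 2) (Fin 2) E) : Prop := ∀ i j, x i j ∈ J

theorem Cong.mono {J J' : Ideal E} (h : J ≤ J') {x : Matrix (Fin 2) (Fin 2) E} (hx : Cong J x) :
    Cong J' x := fun i j => h (hx i j)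

theorem Cong.zero (J : Ideal E) : Cong J (0 : Matrix (Fin 2) (Fin 2) E) := fun _ _ => J.zero_mem

theorem Cong.add {J : Ideal E} {x y : Matrix (Fin 2) (Fin 2) E} (hx : Cong J x) (hy : Cong J y) :
    Cong J (x + y) := fun i j => J.add_mem (hx i j) (hy i j)

theorem Cong.sub {J : Ideal E} {x y : Matrix (Fin 2) (Fin 2) E} (hx : Cong J x) (hy : Cong J y) :
    Cong J (x - y) := fun i j => J.sub_mem (hx i j) (hy i j)

theorem Cong.mul {J J' : Ideal E} {x y : Matrix (Fin 2) (Fin 2) E} (hx : Cong J x)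
    (hy : Cong J' y) : Cong (J * J') (x * y) := by
  intro i j
  rw [Matrix.mul_apply]
  exact Ideal.sum_mem _ fun k _ => Ideal.mul_mem_mul (hx i k) (hy k j)

theorem Cong.mul_right {J : Ideal E} {x : Matrix (Fin 2) (Fin 2) E} (hx : Cong J x)
    (y : Matrix (Fin 2) (Fin 2) E) : Cong J (x * y) := by
  intro i j
  rw [Matrix.mul_apply]
  exact Ideal.sum_mem _ fun k _ => J.mul_mem_right _ (hx i k)

theorem Cong.mul_left {J : Ideal E} {x : Matrix (Fin 2) (Fin 2) E} (hx : Cong J x)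
    (y : Matrix (Fin 2) (Fin 2) E) : Cong J (y * x) := by
  intro i j
  rw [Matrix.mul_apply]
  exact Ideal.sum_mem _ fun k _ => J.mul_mem_left _ (hx k j)

theorem Cong.smul_mem {J J' : Ideal E} {x : Matrix (Fin 2) (Fin 2) E} (hx : Cong J x) {c : E}
    (hc : c ∈ J') : Cong (J' * J) (c • x) := by
  intro i j
  rw [Matrix.smul_apply, smul_eq_mul]
  exact Ideal.mul_mem_mul hc (hx i j)

theorem Cong.pow_succ {J : Ideal E} {x : Matrix (Fin 2) (Fin 2) E} (hx : Cong J x) (n : ℕ) :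
    Cong J (x ^ (n + 1)) := by
  rw [_root_.pow_succ]
  exact hx.mul_left _

theorem cong_bot_iff {x : Matrix (Fin 2) (Fin 2) E} : Cong ⊥ x ↔ x = 0 := by
  constructor
  · intro h
    ext i j
    exact (Ideal.mem_bot).mp (h i j)
  · rintro rfl
    exact Cong.zero ⊥

variable [IsLocalRing E] {p : ℕ}

/-- **the `p`-th power map improves the congruence** -/
theorem pow_prime_sub_one_cong (hp : p.Prime) (hpE : (p : E) ∈ maximalIdeal E) {J : Ideal E}
    (hJ : J ≤ maximalIdeal E) {g : Matrix (Fin 2) (Fin 2) E} (hg : Cong J (g - 1)) :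
    Cong (J * maximalIdeal E) (g ^ p - 1) := by
  set x := g - 1 with hx
  have hgx : g = 1 + x := by rw [hx]; abel
  obtain ⟨r, hr⟩ := (Commute.one_left x).exists_add_pow_prime_eq hp
  have h1 : g ^ p - 1 = x ^ p + (p : E) • (x * r) := by
    rw [hgx, hr, one_pow, mul_one]
    have : ((p : ℕ) : Matrix (Fin 2) (Fin 2) E) * x * r = (p : E) • (x * r) := by
      rw [mul_assoc, ← nsmul_eq_mul, Nat.cast_smul_eq_nsmul]
    rw [this]
    abel
  rw [h1]
  apply Cong.add
  · obtain ⟨m, rfl⟩ : ∃ m, p = m + 2 := ⟨p - 2, by have := hp.two_le; omega⟩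
    have h2 : x ^ (m + 2) = x * x ^ (m + 1) := by rw [← pow_succ']
    rw [h2]
    exact Cong.mul hg ((hg.pow_succ m).mono hJ)
  · have h3 := (hg.mul_right r).smul_mem hpE
    rw [mul_comm] at h3
    exact h3

/-- a matrix congruent to `1` modulo the maximal ideal has `p`-power order when `𝔪 ^ n = 0` -/
theorem pow_prime_pow_sub_one_cong (hp : p.Prime) (hpE : (p : E) ∈ maximalIdeal E)
    {g : Matrix (Fin 2) (Fin 2) E} (hg : Cong (maximalIdeal E) (g - 1)) (k : ℕ) :
    Cong (maximalIdeal E ^ (k + 1)) (g ^ (p ^ k) - 1) := by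
  induction k with
  | zero => simpa using hg
  | succ k ih =>
    have h1 : g ^ (p ^ (k + 1)) = (g ^ (p ^ k)) ^ p := by rw [← pow_mul, pow_succ]
    rw [h1, pow_succ (maximalIdeal E) (k + 1)]
    exact pow_prime_sub_one_cong hp hpE (Ideal.pow_le_self (Nat.succ_ne_zero k)) ih

theorem pow_prime_pow_eq_one (hp : p.Prime) (hpE : (p : E) ∈ maximalIdeal E) {n : ℕ}
    (hnil : maximalIdeal E ^ n = ⊥) {g : Matrix (Fin 2) (Fin 2) E}
    (hg : Cong (maximalIdeal E) (g - 1)) : g ^ (p ^ n) = 1 := by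
  have h1 := (pow_prime_pow_sub_one_cong hp hpE hg n).mono
    (Ideal.pow_le_pow_right (Nat.le_succ n))
  rw [hnil, cong_bot_iff, sub_eq_zero] at h1
  exact h1

/-- **a group of matrices congruent to `1` modulo the maximal ideal is a `p`-group** -/
theorem isPGroup_range_of_cong (hp : p.Prime) (hpE : (p : E) ∈ maximalIdeal E) {n : ℕ}
    (hnil : maximalIdeal E ^ n = ⊥) {I : Type*} [Group I]
    (f : I →* (Matrix (Fin 2) (Fin 2) E)ˣ)
    (hf : ∀ s, Cong (maximalIdeal E) (((f s : (Matrix (Fin 2) (Fin 2) E)ˣ) :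
      Matrix (Fin 2) (Fin 2) E) - 1)) : IsPGroup p f.range := by
  rintro ⟨g, s, rfl⟩
  refine ⟨n, ?_⟩
  apply Subtype.ext
  apply Units.ext
  rw [Subgroup.coe_pow, Units.val_pow_eq_pow_val]
  exact pow_prime_pow_eq_one hp hpE hnil (hf s)

end PartA

/-! ### PART B : one finite level -/

section PartB

open Fermat.Agent.CFT.Bridge

variable {E : Type} [CommRing E]

/-- the restriction of a matrix representation to the inertia group of `A`, as a homomorphism
into the group of units -/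
def inertiaHom (A : ValuationSubring Qbar) (ρ : GQ →* Matrix (Fin 2) (Fin 2) E) :
    A.inertiaSubgroupIn ℚ →* (Matrix (Fin 2) (Fin 2) E)ˣ :=
  ρ.toHomUnits.comp (A.inertiaSubgroupIn ℚ).subtype

theorem coe_inertiaHom (A : ValuationSubring Qbar) (ρ : GQ →* Matrix (Fin 2) (Fin 2) E)
    (s : A.inertiaSubgroupIn ℚ) :
    ((inertiaHom A ρ s : (Matrix (Fin 2) (Fin 2) E)ˣ) : Matrix (Fin 2) (Fin 2) E) = ρ (s : GQ) :=
  rfl

/-- the Galois closure of a finite level -/
def galLevel (L : IntermediateField ℚ Qbar) : IntermediateField ℚ Qbar :=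
  IntermediateField.normalClosure ℚ L Qbar

theorem le_galLevel (L : IntermediateField ℚ Qbar) : L ≤ galLevel L :=
  IntermediateField.le_normalClosure L

instance finiteDimensional_galLevel (L : IntermediateField ℚ Qbar) [FiniteDimensional ℚ L] :
    FiniteDimensional ℚ (galLevel L) :=
  normalClosure.is_finiteDimensional ℚ L Qbar

instance isGalois_galLevel (L : IntermediateField ℚ Qbar) : IsGalois ℚ (galLevel L) := by
  have : Normal ℚ (galLevel L) := normalClosure.normal ℚ L Qbar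
  exact IsGalois.mk

/-- the inertia part of a matrix representation which is trivial on a finite level : it factors
through the Galois closure of the level -/
theorem inertiaHom_factors (A : ValuationSubring Qbar) (ρ : GQ →* Matrix (Fin 2) (Fin 2) E)
    (L : IntermediateField ℚ Qbar)
    (hL : ∀ σ : GQ, (∀ x ∈ L, σ x = x) → ρ σ = 1) :
    ∀ s : A.inertiaSubgroupIn ℚ, (s : GQ) ∈ (galLevel L).fixingSubgroup → inertiaHom A ρ s = 1 := by
  intro s hs
  apply Units.ext
  rw [coe_inertiaHom, Units.val_one]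
  apply hL
  intro x hx
  exact (IntermediateField.mem_fixingSubgroup_iff _ _).mp hs x (le_galLevel L hx)

variable [IsLocalRing E]

theorem isPGroup_range_inertiaHom {p : ℕ} (hp : p.Prime) (hpE : (p : E) ∈ maximalIdeal E) {n : ℕ}
    (hnil : maximalIdeal E ^ n = ⊥) (A : ValuationSubring Qbar)
    (ρ : GQ →* Matrix (Fin 2) (Fin 2) E)
    (hres : ∀ s ∈ A.inertiaSubgroupIn ℚ, Cong (maximalIdeal E) (ρ s - 1)) :
    IsPGroup p (inertiaHom A ρ).range :=
  isPGroup_range_of_cong hp hpE hnil _ fun s => hres _ s.2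

/-- **`ρ (φ τ φ⁻¹) = ρ τ ^ l`** at one finite level -/
theorem level_conj_pow {l p : ℕ} (hl : l.Prime) (hp : p.Prime) (hpl : p ≠ l)
    (hpE : (p : E) ∈ maximalIdeal E) {n : ℕ} (hnil : maximalIdeal E ^ n = ⊥)
    {A : ValuationSubring Qbar} (hA : A.LiesOverPrime l)
    (ρ : GQ →* Matrix (Fin 2) (Fin 2) E)
    (L : IntermediateField ℚ Qbar) [FiniteDimensional ℚ L]
    (hL : ∀ σ : GQ, (∀ x ∈ L, σ x = x) → ρ σ = 1)
    (hres : ∀ s ∈ A.inertiaSubgroupIn ℚ, Cong (maximalIdeal E) (ρ s - 1))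
    {φ : GQ} (hφ : A.IsFrobeniusAt φ l) {τ : GQ} (hτ : τ ∈ A.inertiaSubgroupIn ℚ) :
    ρ (φ * τ * φ⁻¹) = ρ τ ^ l := by
  have h1 := Fermat.Agent.S56.Tame.map_conj_eq_pow (galLevel L) hl hA hp hpl (inertiaHom A ρ)
    (inertiaHom_factors A ρ L hL) (isPGroup_range_inertiaHom hp hpE hnil A ρ hres) hφ ⟨τ, hτ⟩
  have h2 := congrArg (fun u : (Matrix (Fin 2) (Fin 2) E)ˣ => (u : Matrix (Fin 2) (Fin 2) E)) h1
  simpa only [coe_inertiaHom, Units.val_pow_eq_pow_val] using h2

/-- **generation at one finite level**, from the clause of `RSide/TameGen.exists_tame_generator`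
(restated verbatim as a hypothesis) -/
theorem level_generated {p : ℕ} (hp : p.Prime)
    (hpE : (p : E) ∈ maximalIdeal E) {n : ℕ} (hnil : maximalIdeal E ^ n = ⊥)
    {A : ValuationSubring Qbar}
    (ρ : GQ →* Matrix (Fin 2) (Fin 2) E)
    (L : IntermediateField ℚ Qbar) [FiniteDimensional ℚ L]
    (hL : ∀ σ : GQ, (∀ x ∈ L, σ x = x) → ρ σ = 1)
    (hres : ∀ s ∈ A.inertiaSubgroupIn ℚ, Cong (maximalIdeal E) (ρ s - 1))
    (σ : A.inertiaSubgroupIn ℚ)
    (hσ : ∀ (F : IntermediateField ℚ Qbar) [IsGalois ℚ F] [FiniteDimensional ℚ F] (Γ : Type)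
      [Group Γ] (f : A.inertiaSubgroupIn ℚ →* Γ),
      (∀ s : A.inertiaSubgroupIn ℚ, (s : GQ) ∈ F.fixingSubgroup → f s = 1) →
      IsPGroup p f.range → ∀ s : A.inertiaSubgroupIn ℚ, ∃ m : ℕ, f s = f σ ^ m) :
    ∀ s ∈ A.inertiaSubgroupIn ℚ, ∃ m : ℕ, ρ s = ρ (σ : GQ) ^ m := by
  intro s hs
  obtain ⟨m, hm⟩ := hσ (galLevel L) _ (inertiaHom A ρ) (inertiaHom_factors A ρ L hL)
    (isPGroup_range_inertiaHom hp hpE hnil A ρ hres) ⟨s, hs⟩
  refine ⟨m, ?_⟩
  have h2 := congrArg (fun u : (Matrix (Fin 2) (Fin 2) E)ˣ => (u : Matrix (Fin 2) (Fin 2) E)) hm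
  simpa only [coe_inertiaHom, Units.val_pow_eq_pow_val] using h2

end PartB

/-! ### PART C : the adically continuous matrix representation -/

section PartC

open Fermat.Agent.CFT.Bridge

variable {T : Type} [CommRing T] {E : Type} [CommRing E]

/-- the push-forward of a matrix representation along a ring homomorphism -/
def push (ψ : T →+* E) (r : GQ →* Matrix (Fin 2) (Fin 2) T) : GQ →* Matrix (Fin 2) (Fin 2) E :=
  (ψ.mapMatrix (m := Fin 2)).toMonoidHom.comp r

theorem push_apply (ψ : T →+* E) (r : GQ →* Matrix (Fin 2) (Fin 2) T) (σ : GQ) :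
    push ψ r σ = (r σ).map ψ := rfl

theorem Cong.map {J : Ideal T} {x : Matrix (Fin 2) (Fin 2) T} (hx : Cong J x) (ψ : T →+* E) :
    Cong (J.map ψ) (x.map ψ) := fun i j => Ideal.mem_map_of_mem ψ (hx i j)

variable [IsLocalRing T]

/-- adic continuity of a matrix representation : the literal of `Rho/CarayolAdic`'s
`MatAdicContinuous` (definitionally the same proposition) -/
def AdicCont (r : GQ →* Matrix (Fin 2) (Fin 2) T) : Prop :=
  ∀ n : ℕ, ∃ L : IntermediateField ℚ Qbar, FiniteDimensional ℚ L ∧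
    ∀ σ : GQ, (∀ x ∈ L, σ x = x) → ∀ a b, (r σ - 1) a b ∈ maximalIdeal T ^ n

theorem adicCont_iff (r : GQ →* Matrix (Fin 2) (Fin 2) T) :
    AdicCont r ↔ ∀ n : ℕ, ∃ L : IntermediateField ℚ Qbar, FiniteDimensional ℚ L ∧
      ∀ σ : GQ, (∀ x ∈ L, σ x = x) → ∀ a b, (r σ - 1) a b ∈ maximalIdeal T ^ n := Iff.rfl

variable [IsLocalRing E]

/-- the push-forward to a local ring with nilpotent maximal ideal is trivial on a finite level -/
theorem push_level (ψ : T →+* E) (hψ : (maximalIdeal T).map ψ ≤ maximalIdeal E) {n : ℕ}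
    (hnil : maximalIdeal E ^ n = ⊥) (r : GQ →* Matrix (Fin 2) (Fin 2) T) (hcont : AdicCont r) :
    ∃ L : IntermediateField ℚ Qbar, FiniteDimensional ℚ L ∧
      ∀ σ : GQ, (∀ x ∈ L, σ x = x) → push ψ r σ = 1 := by
  obtain ⟨L, hLfin, hL⟩ := hcont n
  refine ⟨L, hLfin, fun σ hσ => ?_⟩
  have h1 : Cong (maximalIdeal T ^ n) (r σ - 1) := hL σ hσ
  have h2 := h1.map ψ
  have h3 : (maximalIdeal T ^ n).map ψ ≤ ⊥ := by
    rw [Ideal.map_pow, ← hnil]
    exact Ideal.pow_right_mono hψ n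
  have h4 := cong_bot_iff.mp (h2.mono h3)
  rw [push_apply]
  have h5 : (r σ - 1).map ψ = (r σ).map ψ - 1 := by
    rw [Matrix.map_sub (f := ψ) (fun a b => map_sub ψ a b), Matrix.map_one ψ (map_zero ψ)
      (map_one ψ)]
  rw [h5, sub_eq_zero] at h4
  exact h4

/-- the push-forward is congruent to `1` on inertia -/
theorem push_res (ψ : T →+* E) (hψ : (maximalIdeal T).map ψ ≤ maximalIdeal E)
    (A : ValuationSubring Qbar) (r : GQ →* Matrix (Fin 2) (Fin 2) T)
    (hres : ∀ s ∈ A.inertiaSubgroupIn ℚ, Cong (maximalIdeal T) (r s - 1)) :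
    ∀ s ∈ A.inertiaSubgroupIn ℚ, Cong (maximalIdeal E) (push ψ r s - 1) := by
  intro s hs
  have h2 := ((hres s hs).map ψ).mono hψ
  have h5 : (r s - 1).map ψ = (r s).map ψ - 1 := by
    rw [Matrix.map_sub (f := ψ) (fun a b => map_sub ψ a b), Matrix.map_one ψ (map_zero ψ)
      (map_one ψ)]
  rw [h5] at h2
  exact h2

theorem natCast_mem_of_map_le (ψ : T →+* E) (hψ : (maximalIdeal T).map ψ ≤ maximalIdeal E)
    {p : ℕ} (hpT : (p : T) ∈ maximalIdeal T) : (p : E) ∈ maximalIdeal E := by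
  have := hψ (Ideal.mem_map_of_mem ψ hpT)
  rwa [map_natCast] at this

/-- **`ρ (φ τ φ⁻¹) = ρ τ ^ l`** for the push-forward to a local ring with nilpotent maximal ideal -/
theorem push_conj_pow {l p : ℕ} (hl : l.Prime) (hp : p.Prime) (hpl : p ≠ l)
    (hpT : (p : T) ∈ maximalIdeal T) (ψ : T →+* E)
    (hψ : (maximalIdeal T).map ψ ≤ maximalIdeal E) {n : ℕ} (hnil : maximalIdeal E ^ n = ⊥)
    {A : ValuationSubring Qbar} (hA : A.LiesOverPrime l)
    (r : GQ →* Matrix (Fin 2) (Fin 2) T) (hcont : AdicCont r)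
    (hres : ∀ s ∈ A.inertiaSubgroupIn ℚ, Cong (maximalIdeal T) (r s - 1))
    {φ : GQ} (hφ : A.IsFrobeniusAt φ l) {τ : GQ} (hτ : τ ∈ A.inertiaSubgroupIn ℚ) :
    (r (φ * τ * φ⁻¹)).map ψ = ((r τ).map ψ) ^ l := by
  obtain ⟨L, hLfin, hL⟩ := push_level ψ hψ hnil r hcont
  exact level_conj_pow hl hp hpl (natCast_mem_of_map_le ψ hψ hpT) hnil hA (push ψ r) L hL
    (push_res ψ hψ A r hres) hφ hτ

/-- **generation** for the push-forward to a local ring with nilpotent maximal ideal -/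
theorem push_generated {p : ℕ} (hp : p.Prime)
    (hpT : (p : T) ∈ maximalIdeal T) (ψ : T →+* E)
    (hψ : (maximalIdeal T).map ψ ≤ maximalIdeal E) {n : ℕ} (hnil : maximalIdeal E ^ n = ⊥)
    {A : ValuationSubring Qbar}
    (r : GQ →* Matrix (Fin 2) (Fin 2) T) (hcont : AdicCont r)
    (hres : ∀ s ∈ A.inertiaSubgroupIn ℚ, Cong (maximalIdeal T) (r s - 1))
    (σ : A.inertiaSubgroupIn ℚ)
    (hσ : ∀ (F : IntermediateField ℚ Qbar) [IsGalois ℚ F] [FiniteDimensional ℚ F] (Γ : Type)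
      [Group Γ] (f : A.inertiaSubgroupIn ℚ →* Γ),
      (∀ s : A.inertiaSubgroupIn ℚ, (s : GQ) ∈ F.fixingSubgroup → f s = 1) →
      IsPGroup p f.range → ∀ s : A.inertiaSubgroupIn ℚ, ∃ m : ℕ, f s = f σ ^ m) :
    ∀ s ∈ A.inertiaSubgroupIn ℚ, ∃ m : ℕ, (r s).map ψ = ((r (σ : GQ)).map ψ) ^ m := by
  obtain ⟨L, hLfin, hL⟩ := push_level ψ hψ hnil r hcont
  exact level_generated hp (natCast_mem_of_map_le ψ hψ hpT) hnil (push ψ r) L hL
    (push_res ψ hψ A r hres) σ hσ

/-! #### the levels `T ⧸ 𝔪 ^ (k + 1)` -/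

omit [IsLocalRing E] in
theorem nontrivial_quot (k : ℕ) : Nontrivial (T ⧸ maximalIdeal T ^ (k + 1)) := by
  rw [Ideal.Quotient.nontrivial_iff]
  intro h
  have h1 : maximalIdeal T ^ (k + 1) ≤ maximalIdeal T := Ideal.pow_le_self (Nat.succ_ne_zero k)
  rw [h, top_le_iff] at h1
  exact (maximalIdeal.isMaximal T).ne_top h1

omit [IsLocalRing E] in
theorem isLocalRing_quot (k : ℕ) : IsLocalRing (T ⧸ maximalIdeal T ^ (k + 1)) := by
  have := nontrivial_quot (T := T) k
  exact IsLocalRing.of_surjective' (Ideal.Quotient.mk _) Ideal.Quotient.mk_surjective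

omit [IsLocalRing E] in
theorem map_mk_le (k : ℕ) :
    letI := isLocalRing_quot (T := T) k
    (maximalIdeal T).map (Ideal.Quotient.mk (maximalIdeal T ^ (k + 1)))
      ≤ maximalIdeal (T ⧸ maximalIdeal T ^ (k + 1)) := by
  have := isLocalRing_quot (T := T) k
  exact (IsLocalRing.map_maximalIdeal_of_surjective _ Ideal.Quotient.mk_surjective).le

omit [IsLocalRing E] in
theorem maximalIdeal_quot_pow (k : ℕ) :
    letI := isLocalRing_quot (T := T) k
    maximalIdeal (T ⧸ maximalIdeal T ^ (k + 1)) ^ (k + 1) = ⊥ := by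
  have := isLocalRing_quot (T := T) k
  rw [← IsLocalRing.map_maximalIdeal_of_surjective (Ideal.Quotient.mk (maximalIdeal T ^ (k + 1)))
    Ideal.Quotient.mk_surjective, ← Ideal.map_pow, Ideal.map_quotient_self]

omit [IsLocalRing E] in
/-- the separation hypothesis `hsep` below holds in a noetherian local ring (Krull) -/
theorem sep_of_isNoetherianRing [IsNoetherianRing T] (x : T)
    (hx : ∀ n, x ∈ maximalIdeal T ^ n) : x = 0 := by
  have h1 : x ∈ ⨅ n : ℕ, maximalIdeal T ^ n := (Submodule.mem_iInf _).mpr hx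
  rw [Ideal.iInf_pow_eq_bot_of_isLocalRing (maximalIdeal T) (maximalIdeal.isMaximal T).ne_top]
    at h1
  exact h1

omit [IsLocalRing E] in
/-- the separation hypothesis `hsep` below holds in an adically separated (e.g. complete) local
ring -/
theorem sep_of_isHausdorff [IsHausdorff (maximalIdeal T) T] (x : T)
    (hx : ∀ n, x ∈ maximalIdeal T ^ n) : x = 0 := by
  apply IsHausdorff.haus (I := maximalIdeal T) inferInstance
  intro n
  rw [SModEq.zero, smul_eq_mul, Ideal.mul_top]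
  exact hx n

omit [IsLocalRing E] in
/-- a matrix identity in a separated local ring can be checked at all levels `T ⧸ 𝔪 ^ (k + 1)` -/
theorem eq_of_forall_map_mk (hsep : ∀ x : T, (∀ n, x ∈ maximalIdeal T ^ n) → x = 0)
    {x y : Matrix (Fin 2) (Fin 2) T}
    (h : ∀ k : ℕ, x.map (Ideal.Quotient.mk (maximalIdeal T ^ (k + 1)))
      = y.map (Ideal.Quotient.mk (maximalIdeal T ^ (k + 1)))) : x = y := by
  ext i j
  rw [← sub_eq_zero]
  apply hsep
  intro n
  rcases n with _ | k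
  · rw [pow_zero, Ideal.one_eq_top]
    exact Submodule.mem_top
  · have h1 := congrFun (congrFun (h k) i) j
    rw [Matrix.map_apply, Matrix.map_apply] at h1
    rw [← Ideal.Quotient.eq]
    exact h1

/-- **(i) the tame relation in `M₂(T)`** : `r (φ τ φ⁻¹) = r τ ^ l` -/
theorem map_conj_eq_pow {l p : ℕ} (hl : l.Prime) (hp : p.Prime) (hpl : p ≠ l)
    (hpT : (p : T) ∈ maximalIdeal T)
    (hsep : ∀ x : T, (∀ n, x ∈ maximalIdeal T ^ n) → x = 0)
    {A : ValuationSubring Qbar} (hA : A.LiesOverPrime l)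
    (r : GQ →* Matrix (Fin 2) (Fin 2) T) (hcont : AdicCont r)
    (hres : ∀ s ∈ A.inertiaSubgroupIn ℚ, Cong (maximalIdeal T) (r s - 1))
    {φ : GQ} (hφ : A.IsFrobeniusAt φ l) {τ : GQ} (hτ : τ ∈ A.inertiaSubgroupIn ℚ) :
    r (φ * τ * φ⁻¹) = r τ ^ l := by
  apply eq_of_forall_map_mk hsep
  intro k
  have := isLocalRing_quot (T := T) k
  have h1 := push_conj_pow hl hp hpl hpT (Ideal.Quotient.mk (maximalIdeal T ^ (k + 1)))
    (map_mk_le k) (maximalIdeal_quot_pow k) hA r hcont hres hφ hτ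
  rw [h1]
  exact (map_pow (Ideal.Quotient.mk (maximalIdeal T ^ (k + 1))).mapMatrix (r τ) l).symm

/-- **(i), the form consumed by `Local/Universal.mul_sub_one_eq` and `commute_of_pow_eq`** :
`Φ Σ = Σ ^ l Φ` with `Φ = r φ`, `Σ = r τ` -/
theorem conj_eq_pow {l p : ℕ} (hl : l.Prime) (hp : p.Prime) (hpl : p ≠ l)
    (hpT : (p : T) ∈ maximalIdeal T)
    (hsep : ∀ x : T, (∀ n, x ∈ maximalIdeal T ^ n) → x = 0)
    {A : ValuationSubring Qbar} (hA : A.LiesOverPrime l)
    (r : GQ →* Matrix (Fin 2) (Fin 2) T) (hcont : AdicCont r)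
    (hres : ∀ s ∈ A.inertiaSubgroupIn ℚ, Cong (maximalIdeal T) (r s - 1))
    {φ : GQ} (hφ : A.IsFrobeniusAt φ l) {τ : GQ} (hτ : τ ∈ A.inertiaSubgroupIn ℚ) :
    r φ * r τ = r τ ^ l * r φ := by
  rw [← map_conj_eq_pow hl hp hpl hpT hsep hA r hcont hres hφ hτ, ← map_mul, ← map_mul]
  congr 1
  group

/-- if the generator goes to `1` in a local ring with nilpotent maximal ideal, so does the whole
inertia group -/
theorem push_eq_one_of_generator {p : ℕ} (hp : p.Prime)
    (hpT : (p : T) ∈ maximalIdeal T) (ψ : T →+* E)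
    (hψ : (maximalIdeal T).map ψ ≤ maximalIdeal E) {n : ℕ} (hnil : maximalIdeal E ^ n = ⊥)
    {A : ValuationSubring Qbar}
    (r : GQ →* Matrix (Fin 2) (Fin 2) T) (hcont : AdicCont r)
    (hres : ∀ s ∈ A.inertiaSubgroupIn ℚ, Cong (maximalIdeal T) (r s - 1))
    (σ : A.inertiaSubgroupIn ℚ)
    (hσ : ∀ (F : IntermediateField ℚ Qbar) [IsGalois ℚ F] [FiniteDimensional ℚ F] (Γ : Type)
      [Group Γ] (f : A.inertiaSubgroupIn ℚ →* Γ),
      (∀ s : A.inertiaSubgroupIn ℚ, (s : GQ) ∈ F.fixingSubgroup → f s = 1) →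
      IsPGroup p f.range → ∀ s : A.inertiaSubgroupIn ℚ, ∃ m : ℕ, f s = f σ ^ m)
    (h1 : (r (σ : GQ)).map ψ = 1) : ∀ s ∈ A.inertiaSubgroupIn ℚ, (r s).map ψ = 1 := by
  intro s hs
  obtain ⟨m, hm⟩ := push_generated hp hpT ψ hψ hnil r hcont hres σ hσ s hs
  rw [hm, h1, one_pow]

/-- **the exit** : if `r` kills the tame generator, it is unramified at `A` -/
theorem unramified_of_generator_eq_one {p : ℕ} (hp : p.Prime)
    (hpT : (p : T) ∈ maximalIdeal T)
    (hsep : ∀ x : T, (∀ n, x ∈ maximalIdeal T ^ n) → x = 0)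
    {A : ValuationSubring Qbar}
    (r : GQ →* Matrix (Fin 2) (Fin 2) T) (hcont : AdicCont r)
    (hres : ∀ s ∈ A.inertiaSubgroupIn ℚ, Cong (maximalIdeal T) (r s - 1))
    (σ : A.inertiaSubgroupIn ℚ)
    (hσ : ∀ (F : IntermediateField ℚ Qbar) [IsGalois ℚ F] [FiniteDimensional ℚ F] (Γ : Type)
      [Group Γ] (f : A.inertiaSubgroupIn ℚ →* Γ),
      (∀ s : A.inertiaSubgroupIn ℚ, (s : GQ) ∈ F.fixingSubgroup → f s = 1) →
      IsPGroup p f.range → ∀ s : A.inertiaSubgroupIn ℚ, ∃ m : ℕ, f s = f σ ^ m)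
    (h1 : r (σ : GQ) = 1) : ∀ s ∈ A.inertiaSubgroupIn ℚ, r s = 1 := by
  intro s hs
  apply eq_of_forall_map_mk hsep
  intro k
  have := isLocalRing_quot (T := T) k
  have h2 : (r (σ : GQ)).map (Ideal.Quotient.mk (maximalIdeal T ^ (k + 1))) = 1 := by
    rw [h1]
    exact map_one (Ideal.Quotient.mk (maximalIdeal T ^ (k + 1))).mapMatrix
  rw [push_eq_one_of_generator hp hpT (Ideal.Quotient.mk (maximalIdeal T ^ (k + 1)))
    (map_mk_le k) (maximalIdeal_quot_pow k) r hcont hres σ hσ h2 s hs]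
  exact (map_one (Ideal.Quotient.mk (maximalIdeal T ^ (k + 1))).mapMatrix).symm

/-! #### scalar on the decomposition group -/

omit [IsLocalRing E] in
/-- the subgroup on which a matrix representation is scalar -/
def scalarSubgroup {G : Type*} [Group G] (ρ : G →* Matrix (Fin 2) (Fin 2) E) : Subgroup G where
  carrier := {g | ∃ e : E, ρ g = e • (1 : Matrix (Fin 2) (Fin 2) E)}
  one_mem' := ⟨1, by rw [map_one, one_smul]⟩
  mul_mem' := by
    rintro a b ⟨e, he⟩ ⟨e', he'⟩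
    exact ⟨e * e', by rw [map_mul, he, he', smul_mul_smul_comm, mul_one]⟩
  inv_mem' := by
    rintro a ⟨e, he⟩
    have h1 : ρ a⁻¹ * ρ a = 1 := by rw [← map_mul, inv_mul_cancel, map_one]
    rw [he, Matrix.mul_smul, mul_one] at h1
    have h00 : e * (ρ a⁻¹) 0 0 = 1 := by
      have := congrFun (congrFun h1 0) 0
      rwa [Matrix.smul_apply, smul_eq_mul, Matrix.one_apply_eq] at this
    refine ⟨(ρ a⁻¹) 0 0, ?_⟩
    calc ρ a⁻¹ = (e * (ρ a⁻¹) 0 0) • ρ a⁻¹ := by rw [h00, one_smul]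
      _ = (ρ a⁻¹) 0 0 • (e • ρ a⁻¹) := by rw [smul_smul, mul_comm]
      _ = (ρ a⁻¹) 0 0 • (1 : Matrix (Fin 2) (Fin 2) E) := by rw [h1]

omit [IsLocalRing E] in
theorem mem_scalarSubgroup {G : Type*} [Group G] (ρ : G →* Matrix (Fin 2) (Fin 2) E) (g : G) :
    g ∈ scalarSubgroup ρ ↔ ∃ e : E, ρ g = e • (1 : Matrix (Fin 2) (Fin 2) E) := Iff.rfl

open Fermat.Agent.CFT.LocalBridge Fermat.Agent.S56.Coh in
/-- **(iv) scalar on the decomposition group** : if the tame generator and a Frobenius element go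
to scalars in a local ring with nilpotent maximal ideal, so does the whole decomposition group of
`padicPlace l` -/
theorem scalar_on_Dq {l p : ℕ} [Fact l.Prime] (hp : p.Prime)
    (hpT : (p : T) ∈ maximalIdeal T) (ψ : T →+* E)
    (hψ : (maximalIdeal T).map ψ ≤ maximalIdeal E) {n : ℕ} (hnil : maximalIdeal E ^ n = ⊥)
    (r : GQ →* Matrix (Fin 2) (Fin 2) T) (hcont : AdicCont r)
    (hres : ∀ s ∈ (padicPlace l).inertiaSubgroupIn ℚ, Cong (maximalIdeal T) (r s - 1))
    (σ : (padicPlace l).inertiaSubgroupIn ℚ)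
    (hσ : ∀ (F : IntermediateField ℚ Qbar) [IsGalois ℚ F] [FiniteDimensional ℚ F] (Γ : Type)
      [Group Γ] (f : (padicPlace l).inertiaSubgroupIn ℚ →* Γ),
      (∀ s : (padicPlace l).inertiaSubgroupIn ℚ, (s : GQ) ∈ F.fixingSubgroup → f s = 1) →
      IsPGroup p f.range → ∀ s : (padicPlace l).inertiaSubgroupIn ℚ, ∃ m : ℕ, f s = f σ ^ m)
    {φ : GQ} (hφ : (padicPlace l).IsFrobeniusAt φ l) {c d : E}
    (hσc : (r (σ : GQ)).map ψ = c • (1 : Matrix (Fin 2) (Fin 2) E))
    (hφd : (r φ).map ψ = d • (1 : Matrix (Fin 2) (Fin 2) E)) :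
    ∀ s ∈ (padicPlace l).decompositionSubgroup ℚ,
      ∃ e : E, (r s).map ψ = e • (1 : Matrix (Fin 2) (Fin 2) E) := by
  set K : Subgroup ↥(Dq l) := scalarSubgroup ((push ψ r).comp (Dq l).subtype) with hK
  have hI : ∀ s : ↥(Dq l), (s : GQ) ∈ Iq l → s ∈ K := by
    intro s hs
    obtain ⟨m, hm⟩ := push_generated hp hpT ψ hψ hnil r hcont hres σ hσ (s : GQ) hs
    refine ⟨c ^ m, ?_⟩
    change (r (s : GQ)).map ψ = _
    rw [hm, hσc, smul_pow, one_pow]
  have hU : ∃ U ∈ (levelsOf (Dq l).subtype).sets, U ≤ K := by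
    obtain ⟨L, hLfin, hL⟩ := push_level ψ hψ hnil r hcont
    obtain ⟨U, hU, hUL⟩ := exists_levelAll_le L
    refine ⟨U.comap (Dq l).subtype, Fermat.Agent.CFT.LC.Levels.mem_comap_sets hU, ?_⟩
    intro s hs
    refine ⟨1, ?_⟩
    rw [one_smul]
    apply hL
    intro x hx
    exact (IntermediateField.mem_fixingSubgroup_iff _ _).mp (hUL hs) x hx
  have hφK : (⟨φ, hφ.mem_decompositionSubgroup⟩ : ↥(Dq l)) ∈ K := ⟨d, hφd⟩
  have htop := Fermat.Agent.S56.Unip.ProCyclic.eq_top_of_frobenius_mem l K hI hU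
    ⟨φ, hφ.mem_decompositionSubgroup⟩ hφ hφK
  intro s hs
  have h1 : (⟨s, hs⟩ : ↥(Dq l)) ∈ K := htop ▸ Subgroup.mem_top _
  exact h1

end PartC

end Fermat.Agent.S43.RSide.LocalMat
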