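/-
PROJECT R (S43), block RS (leader helper21), brick (N3): THE HYPOTHESIS `TrivOnBaseM` OF
`Num/RelTanT.exists_surjective_traces` FROM THE LOCAL MODEL.

`rR : G_ℚ → M₂(R)` continuous, `R` a local `A`-algebra.  At a stuck prime `l ∈ T` (`l ≠ p`, the
inertia at `l` residually trivial) let `σ_l` be a tame generator (`RSide/TameGen`) and `φ_l` a
Frobenius element.  If every ring map `ψ : R → k[ε]` killing `𝔪_A R` sends `rR σ_l` and `rR φ_l`
to scalar matrices (the last clause of `Local/Universal.exists_theta`), then `TrivOnBaseM`: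

* `RSide/LocalMat.scalar_on_Dq` : the whole decomposition group at `l` goes to scalars `e(s)`;
* the determinant of a matrix lift has no `ε`-part and `2 ≠ 0` : `e(s)` has no `ε`-part;
* so the cocycle of the lift vanishes on `D_l`.
-/
import Fermat.Agent.S43.Num.RelTanT
import Fermat.Agent.S43.RSide.LocalMat

set_option autoImplicit false
set_option linter.unusedSectionVars false

noncomputable section

namespace Fermat.Agent.S43.RSide.TrivBase

open IsLocalRing
open Fermat.Agent.CFT.Bridge
open Fermat.Agent.S56.Coh Fermat.Agent.S56.Coh.CocDefs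
open Fermat.Agent.S53.Dictionary hiding GQ
open Fermat.Agent.S53.TangentBound
open Fermat.Agent.S56.Tan.DualHom Fermat.Agent.S56.Tan.Universal Fermat.Agent.S56.Tan.Cocycle
open Fermat.Agent.S43.Num.RelTanT Fermat.Agent.S43.RSide.LocalMat

attribute [local instance] algDual

/-! ### scalar matrices over the dual numbers -/

section Dual

variable {k : Type} [Field k]

/-- a scalar matrix over `k[ε]` whose determinant has no `ε`-part and whose residue is
invertible has no `ε`-part (`2 ≠ 0`) -/
theorem msnd_eq_zero_of_scalar (h2 : (2 : k) ≠ 0) (X : Mat (DualNumber k)) (e : DualNumber k)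
    (hX : X = e • (1 : Matrix (Fin 2) (Fin 2) (DualNumber k)))
    (hdet : TrivSqZeroExt.snd X.det = 0) (hne : (mfst X).det ≠ 0) : msnd X = 0 := by
  have hfst : mfst X = TrivSqZeroExt.fst e • (1 : Matrix (Fin 2) (Fin 2) k) := by
    ext i j
    rw [mfst_apply, hX, Matrix.smul_apply, Matrix.smul_apply]
    by_cases hij : i = j
    · subst hij
      simp
    · simp [Matrix.one_apply_ne hij]
  have hsnd : msnd X = TrivSqZeroExt.snd e • (1 : Matrix (Fin 2) (Fin 2) k) := by
    ext i j
    rw [msnd_apply, hX, Matrix.smul_apply, Matrix.smul_apply]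
    by_cases hij : i = j
    · subst hij
      simp
    · simp [Matrix.one_apply_ne hij]
  have hfe : TrivSqZeroExt.fst e ≠ 0 := by
    intro h0
    apply hne
    rw [hfst, h0, zero_smul, Matrix.det_zero]
  have hdet' : X.det = e * e := by
    rw [hX, Matrix.det_smul, Matrix.det_one, Fintype.card_fin, mul_one, pow_two]
  rw [hdet', TrivSqZeroExt.snd_mul] at hdet
  simp only [smul_eq_mul, MulOpposite.smul_eq_mul_unop, MulOpposite.unop_op] at hdet
  have h3 : (2 : k) * (TrivSqZeroExt.fst e * TrivSqZeroExt.snd e) = 0 := by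
    linear_combination hdet
  have h4 : TrivSqZeroExt.snd e = 0 := by
    rcases mul_eq_zero.1 h3 with h | h
    · exact absurd h h2
    · exact (mul_eq_zero.1 h).resolve_left hfe
  rw [hsnd, h4, zero_smul]

end Dual

/-! ### the theorem -/

section Main

variable {𝒪 : Type} [CommRing 𝒪] [IsLocalRing 𝒪]
  {R : Type} [CommRing R] [IsLocalRing R] [Algebra 𝒪 R] [IsLocalHom (algebraMap 𝒪 R)]
  (hres : Function.Surjective (residue R ∘ algebraMap 𝒪 R))
  (rbar : GQ →* GL (Fin 2) (ResidueField 𝒪))
  (rR : GQ →* Mat R) (hR : IsContMat R rR)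

/-- the tame-generator clause of `RSide/TameGen.exists_tame_generator` at the place
`padicPlace l`, for the prime `p` -/
def TameClause (p l : ℕ) [Fact l.Prime] (σ : (padicPlace l).inertiaSubgroupIn ℚ) : Prop :=
  ∀ (F : IntermediateField ℚ Qbar) [IsGalois ℚ F] [FiniteDimensional ℚ F] (Γ : Type)
    [Group Γ] (f : (padicPlace l).inertiaSubgroupIn ℚ →* Γ),
    (∀ s : (padicPlace l).inertiaSubgroupIn ℚ, (s : GQ) ∈ F.fixingSubgroup → f s = 1) →
    IsPGroup p f.range → ∀ s : (padicPlace l).inertiaSubgroupIn ℚ, ∃ m : ℕ, f s = f σ ^ m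

/-- **the local input at the stuck primes** : at every `l ∈ T` the inertia is residually trivial,
and there are a tame generator `σ` and a Frobenius element `φ` which every tangent vector killing
`𝔪_A R` sends to scalar matrices. -/
def ScalarOnBase (p : ℕ) (T : Finset ℕ) (A : Type) [CommRing A] [IsLocalRing A] [Algebra A R] :
    Prop :=
  ∀ (l : ℕ) [Fact l.Prime], l ∈ T →
    (∀ s ∈ (padicPlace l).inertiaSubgroupIn ℚ, Cong (maximalIdeal R) (rR s - 1)) ∧
    ∃ (σ : (padicPlace l).inertiaSubgroupIn ℚ) (φ : GQ), TameClause p l σ ∧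
      (padicPlace l).IsFrobeniusAt φ l ∧
      ∀ ψ : R →+* DualNumber (ResidueField 𝒪),
        (∀ a ∈ (maximalIdeal A).map (algebraMap A R), ψ a = 0) →
        (∃ c : DualNumber (ResidueField 𝒪), (rR (σ : GQ)).map ψ =
          c • (1 : Matrix (Fin 2) (Fin 2) (DualNumber (ResidueField 𝒪)))) ∧
        ∃ d : DualNumber (ResidueField 𝒪), (rR φ).map ψ =
          d • (1 : Matrix (Fin 2) (Fin 2) (DualNumber (ResidueField 𝒪)))

include hres hR in
/-- **(N3)** `TrivOnBaseM` from the local input at the stuck primes. -/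
theorem trivOnBaseM_of_scalarOnBase {p : ℕ} (hp : p.Prime) (hpR : (p : R) ∈ maximalIdeal R)
    (h2 : (2 : ResidueField 𝒪) ≠ 0) (T : Finset ℕ)
    (A : Type) [CommRing A] [IsLocalRing A] [Algebra A R]
    (hloc : ScalarOnBase (𝒪 := 𝒪) rR p T A) :
    TrivOnBaseM (𝒪 := 𝒪) rbar rR T A := by
  intro φ hφ L hL l _ hlT
  obtain ⟨hresI, σ, fr, hσ, hfr, hsc⟩ := hloc l hlT
  obtain ⟨⟨c, hc⟩, ⟨d, hd⟩⟩ := hsc (φ : R →+* DualNumber (ResidueField 𝒪)) hφ
  have : IsLocalHom (φ : R →+* DualNumber (ResidueField 𝒪)) := isLocalHom_algHom hres φ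
  have hψ : (maximalIdeal R).map (φ : R →+* DualNumber (ResidueField 𝒪)) ≤
      maximalIdeal (DualNumber (ResidueField 𝒪)) :=
    IsLocalRing.map_maximalIdeal_le _
  have hall := scalar_on_Dq (l := l) (p := p) hp hpR (φ : R →+* DualNumber (ResidueField 𝒪)) hψ
    (maximalIdeal_dual_sq (ResidueField 𝒪)) rR hR hresI σ hσ hfr hc hd
  -- the cocycle vanishes on the decomposition group
  have hzero : resFun (Dq l) (cocOf L) = 0 := by
    funext s
    have hs : (s : GQ) ∈ (padicPlace l).decompositionSubgroup ℚ := s.2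
    obtain ⟨e, he⟩ := hall (s : GQ) hs
    have hLs : L.r (s : GQ) = e • (1 : Matrix (Fin 2) (Fin 2) (DualNumber (ResidueField 𝒪))) := by
      rw [hL]
      exact he
    have hne : (mfst (L.r (s : GQ))).det ≠ 0 := by
      rw [L.fst_eq]
      have h := (Matrix.isUnit_iff_isUnit_det
        (rbar (s : GQ) : Matrix (Fin 2) (Fin 2) (ResidueField 𝒪))).1 (rbar (s : GQ)).isUnit
      exact h.ne_zero
    have h0 := msnd_eq_zero_of_scalar h2 (L.r (s : GQ)) e hLs (L.det_eq _) hne
    show cocOf L (s : GQ) = 0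
    apply Subtype.ext
    rw [cocOf_coe, h0, Matrix.zero_mul]
    rfl
  rw [hzero]
  exact Submodule.zero_mem _

end Main

end Fermat.Agent.S43.RSide.TrivBase
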