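/-
PROJECT R (S43), block RS (leader helper21), brick RS9 / FEED, part 2: **the hypotheses of
`Local/Universal.exists_theta` (= of `RSide/Theta.exists_theta_onto`) at one stuck prime, from the
inertial type and the tame relation.**  Pure matrix algebra over a commutative ring.

`S = rR σ` (image of the tame generator), `Φ = rR φ` (image of a Frobenius element),
`hconj : Φ * S = S ^ l * Φ` (`RSide/LocalMat.conj_eq_pow`).
* `trace_det_of_charpoly` : `charpoly S = (X - a)(X - b)` gives `tr S = a + b`, `det S = a b`;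
* unipotent type `charpoly S = (X - 1) ^ 2` : `unip_htr`, `unip_hdet`, `unip_hrel`
  (`Φ (S - 1) = l (S - 1) Φ`, `τ = 1`, `q = l`);
* type `χ`, `charpoly S = (X - ζ)(X - ζ⁻¹)` with `ζ ∈ 𝒪` (a domain), `ζ ^ n = 1`, `ζ ≠ ζ⁻¹`,
  `l ≡ 1 mod n` : `pow_eq_one_of_charpoly` (`S ^ n = 1`), `chi_htr`, `chi_hdet`, `chi_hrel`
  (`Φ (S - τ) = (S - τ) Φ`, `2 τ = ζ + ζ⁻¹`, `q = 1`);
* `cong_sub_smul` : `S ≡ 1`, `τ ≡ 1` give `S - τ ≡ 0` (the hypothesis `hresS`).
-/
import Mathlib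
import Fermat.Agent.S43.Local.Universal

set_option autoImplicit false
set_option linter.unusedSectionVars false

noncomputable section

namespace Fermat.Agent.S43.RSide.LocalData

open Polynomial Matrix

section Charpoly

variable {T : Type*} [CommRing T]

/-- the trace and the determinant from a split characteristic polynomial -/
theorem trace_det_of_charpoly (S : Matrix (Fin 2) (Fin 2) T) (a b : T)
    (h : S.charpoly = (X - C a) * (X - C b)) : S.trace = a + b ∧ S.det = a * b := by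
  rcases subsingleton_or_nontrivial T with hT | hT
  · exact ⟨Subsingleton.elim _ _, Subsingleton.elim _ _⟩
  have h1 := Matrix.charpoly_fin_two S
  rw [h] at h1
  have h2 : (X - C a) * (X - C b) = X ^ 2 - C (a + b) * X + C (a * b) := by
    rw [C_add, C_mul]
    ring
  rw [h2] at h1
  constructor
  · have := congrArg (fun f => f.coeff 1) h1
    simp only [coeff_add, coeff_sub, coeff_X_pow, coeff_C_mul, coeff_X_one, coeff_C] at this
    have h3 : -S.trace = -(a + b) := by simpa using this.symm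
    exact neg_injective h3
  · have := congrArg (fun f => f.coeff 0) h1
    simp only [coeff_add, coeff_sub, coeff_X_pow, coeff_C_mul, coeff_X_zero, coeff_C_zero] at this
    simpa using this.symm

/-- Cayley--Hamilton in the split form -/
theorem mul_sub_eq_zero_of_charpoly (S : Matrix (Fin 2) (Fin 2) T) (a b : T)
    (h : S.charpoly = (X - C a) * (X - C b)) :
    (S - a • (1 : Matrix (Fin 2) (Fin 2) T)) * (S - b • (1 : Matrix (Fin 2) (Fin 2) T)) = 0 := by
  have h1 := Matrix.aeval_self_charpoly S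
  rw [h, map_mul, map_sub, map_sub, aeval_X, aeval_C, aeval_C, Algebra.algebraMap_eq_smul_one,
    Algebra.algebraMap_eq_smul_one] at h1
  exact h1

end Charpoly

/-! ### the unipotent type -/

section Unip

variable {𝒪 : Type*} [CommRing 𝒪] {T : Type*} [CommRing T] [Algebra 𝒪 T]
  (S Φ : Matrix (Fin 2) (Fin 2) T)

theorem unip_htr (h : S.charpoly = (X - C 1) * (X - C 1)) :
    S.trace = 2 * algebraMap 𝒪 T 1 := by
  rw [(trace_det_of_charpoly S 1 1 h).1, map_one]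
  ring

theorem unip_hdet (h : S.charpoly = (X - C 1) * (X - C 1)) : S.det = 1 := by
  rw [(trace_det_of_charpoly S 1 1 h).2, mul_one]

theorem unip_hrel (h : S.charpoly = (X - C 1) * (X - C 1)) (l : ℕ)
    (hconj : Φ * S = S ^ l * Φ) :
    Φ * (S - algebraMap 𝒪 T 1 • (1 : Matrix (Fin 2) (Fin 2) T))
      = algebraMap 𝒪 T (l : 𝒪) •
        ((S - algebraMap 𝒪 T 1 • (1 : Matrix (Fin 2) (Fin 2) T)) * Φ) := by
  have htr : S.trace = 2 := by
    rw [(trace_det_of_charpoly S 1 1 h).1]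
    norm_num
  have hdet : S.det = 1 := unip_hdet S h
  rw [map_one, one_smul, map_natCast]
  exact Fermat.Agent.S43.Local.Universal.mul_sub_one_eq S Φ htr hdet l hconj

end Unip

/-! ### the type `χ` -/

section Chi

variable {𝒪 : Type*} [CommRing 𝒪] [IsDomain 𝒪] {T : Type*} [CommRing T] [Algebra 𝒪 T]

/-- `(X - ζ)(X - ζ')` divides `X ^ n - 1` when `ζ ≠ ζ'` are two `n`-th roots of unity of a
domain -/
theorem exists_mul_eq_X_pow_sub_one {ζ ζ' : 𝒪} {n : ℕ} (hζ : ζ ^ n = 1) (hζ' : ζ' ^ n = 1)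
    (hne : ζ ≠ ζ') :
    ∃ h : 𝒪[X], (X : 𝒪[X]) ^ n - 1 = (X - C ζ) * (X - C ζ') * h := by
  have h1 : (X - C ζ) ∣ ((X : 𝒪[X]) ^ n - 1) := by
    rw [dvd_iff_isRoot]
    simp [hζ]
  obtain ⟨g, hg⟩ := h1
  have h2 : g.IsRoot ζ' := by
    have h3 := congrArg (eval ζ') hg
    simp only [eval_sub, eval_pow, eval_X, eval_one, eval_mul, eval_C, hζ', sub_self] at h3
    rcases mul_eq_zero.mp h3.symm with h | h
    · exact absurd (sub_eq_zero.mp h).symm hne
    · exact h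
  obtain ⟨h, hh⟩ := dvd_iff_isRoot.mpr h2
  exact ⟨h, by rw [hg, hh, mul_assoc]⟩

/-- **`S ^ n = 1`** for a matrix with characteristic polynomial `(X - ζ)(X - ζ')`, `ζ ≠ ζ'` two
`n`-th roots of unity of the domain `𝒪` -/
theorem pow_eq_one_of_charpoly (S : Matrix (Fin 2) (Fin 2) T) {ζ ζ' : 𝒪} {n : ℕ}
    (hζ : ζ ^ n = 1) (hζ' : ζ' ^ n = 1) (hne : ζ ≠ ζ')
    (h : S.charpoly = (X - C (algebraMap 𝒪 T ζ)) * (X - C (algebraMap 𝒪 T ζ'))) :
    S ^ n = 1 := by
  obtain ⟨f, hf⟩ := exists_mul_eq_X_pow_sub_one hζ hζ' hne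
  have h0 := mul_sub_eq_zero_of_charpoly S _ _ h
  have h1 := congrArg (aeval (R := 𝒪) S) hf
  rw [map_sub, map_pow, aeval_X, map_one, map_mul, map_mul, map_sub, map_sub, aeval_X, aeval_C,
    aeval_C] at h1
  have h2 : algebraMap 𝒪 (Matrix (Fin 2) (Fin 2) T) ζ
      = algebraMap 𝒪 T ζ • (1 : Matrix (Fin 2) (Fin 2) T) := by
    rw [Algebra.algebraMap_eq_smul_one, algebraMap_smul]
  have h3 : algebraMap 𝒪 (Matrix (Fin 2) (Fin 2) T) ζ'
      = algebraMap 𝒪 T ζ' • (1 : Matrix (Fin 2) (Fin 2) T) := by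
    rw [Algebra.algebraMap_eq_smul_one, algebraMap_smul]
  rw [h2, h3, h0, zero_mul] at h1
  exact sub_eq_zero.mp h1

variable (S Φ : Matrix (Fin 2) (Fin 2) T) {ζ ζ' τ : 𝒪}

theorem chi_htr (hτ : 2 * τ = ζ + ζ')
    (h : S.charpoly = (X - C (algebraMap 𝒪 T ζ)) * (X - C (algebraMap 𝒪 T ζ'))) :
    S.trace = 2 * algebraMap 𝒪 T τ := by
  rw [(trace_det_of_charpoly S _ _ h).1, ← map_add, ← hτ, map_mul, map_ofNat]

theorem chi_hdet (hζζ' : ζ * ζ' = 1)
    (h : S.charpoly = (X - C (algebraMap 𝒪 T ζ)) * (X - C (algebraMap 𝒪 T ζ'))) :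
    S.det = 1 := by
  rw [(trace_det_of_charpoly S _ _ h).2, ← map_mul, hζζ', map_one]

theorem chi_hrel {n l : ℕ} (hζ : ζ ^ n = 1) (hζ' : ζ' ^ n = 1) (hne : ζ ≠ ζ')
    (h : S.charpoly = (X - C (algebraMap 𝒪 T ζ)) * (X - C (algebraMap 𝒪 T ζ')))
    (hl : l ≡ 1 [MOD n]) (hconj : Φ * S = S ^ l * Φ) :
    Φ * (S - algebraMap 𝒪 T τ • (1 : Matrix (Fin 2) (Fin 2) T))
      = algebraMap 𝒪 T (1 : 𝒪) •
        ((S - algebraMap 𝒪 T τ • (1 : Matrix (Fin 2) (Fin 2) T)) * Φ) := by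
  rw [map_one, one_smul]
  exact Fermat.Agent.S43.Local.Universal.commute_of_pow_eq S Φ
    (pow_eq_one_of_charpoly S hζ hζ' hne h) hl hconj _

end Chi

/-! ### the residual condition on `S - τ` -/

section Res

variable {𝒪 : Type*} [CommRing 𝒪] {T : Type*} [CommRing T] [Algebra 𝒪 T] (I : Ideal T)

theorem cong_sub_smul (S : Matrix (Fin 2) (Fin 2) T) (τ : 𝒪)
    (hS : ∀ a b, (S - 1) a b ∈ I) (hτ : algebraMap 𝒪 T τ - 1 ∈ I) (a b : Fin 2) :
    (S - algebraMap 𝒪 T τ • (1 : Matrix (Fin 2) (Fin 2) T)) a b ∈ I := by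
  have h1 : S - algebraMap 𝒪 T τ • (1 : Matrix (Fin 2) (Fin 2) T)
      = (S - 1) - (algebraMap 𝒪 T τ - 1) • (1 : Matrix (Fin 2) (Fin 2) T) := by
    rw [sub_smul, one_smul]
    abel
  rw [h1, Matrix.sub_apply, Matrix.smul_apply, smul_eq_mul]
  exact I.sub_mem (hS a b) (I.mul_mem_right _ hτ)

end Res

end Fermat.Agent.S43.RSide.LocalData
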