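/-
PROJECT R (S43, row 37), block RS (leader helper21), instance lemma (D) of #6563 (helper16):
**THE TYPES AT THE STUCK PRIMES, PUSHED TO THE HECKE MODULES** = the hypotheses `hdetσ`, `htr1`,
`htrχ` of `RSide/FeedQ.nonempty_datumJ_Q`.

`T' ≤ T` two commutative local subalgebras of `End_{R₀}(Λ)` with density data (`T` = the full Hecke
algebra `TQ` with the diamonds, `T'` = the trace algebra `TQtr`: the ring `R` of `FeedQ`),
`rR := CH.rep hin'` over `T'`.  The inertial type is known over `T` (the gate cubic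
`(r τ - u)² (r τ - v) = 0` has its eigenvalues `u = ⟨d⟩`, `v = ⟨d⁻¹⟩` in `T`, NOT in `T'`); the
action on the Hecke module is a ring map `Φ : T →+* F`, restricted to `T'`.

* PURE ALGEBRA : `map_trace_of_charpoly`, `comp_trace_eq_two`, `comp_trace_eq_map` ;
* `tr_eq_of_gate`, `tT_eq_of_gate` : `tr ρ_T(τ) = u + v` in `T` from the gate cubic (binders of
  `Rho/Props/TypeDatum.charpoly_rhoT_of_gate`) ;
* `inclusion_tT` : the trace function does not depend on the subalgebra ;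
* **`trace_push`** : `Φ (incl (tr rR τ)) = Φ u + Φ v` ;
* **`htr1`** : `Φ u = 1 = Φ v ⟹ (Φ ∘ incl) (tr rR τ) = 2` ;
* **`htrχ`** : `Φ u = Φ ζ`, `Φ v = Φ ζ'` (`ζ ζ' : R₀`) `⟹ (Φ ∘ incl) (tr rR τ) = (Φ ∘ incl) (ζ + ζ')` ;
* **`hdetσ`** : `det rR τ = 1` where `ε τ = 1` ;
* THE DIAMONDS AT `d = cyc M τ ^ m`, `τ` IN AN INERTIA GROUP AT `ℓ` (`Assembly/ChiChar` vocabulary) :
  `unitsMap_cyc_eq_one` (`cyc M τ ≡ 1` modulo every `K ∣ M` prime to `ℓ`), `cyc_pow_self`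
  (`(cyc M τ) ^ ℓ = cyc M τ` when `ℓ ∥ M`: the `hul` of the gate), `xiOf_cyc_pow` (`xiOf 𝒪 π d = 1`
  when `π` kills the units `≡ 1` modulo such a `K`), `coe_xiChi_cyc_pow`
  (`Ξ' d = algebraMap (χ ℓ τ)`, `χ = chiGal ψ m`), `coe_xiChi_cyc_pow_inv`.
-/
import Mathlib
import Fermat.Agent.S43.Rho.Props.TypeDatum
import Fermat.Agent.S43.RSide.LocalData
import Fermat.Agent.S43.Assembly.ChiChar
import Fermat.Agent.S48.B.Chain.GalChar

set_option autoImplicit false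
set_option linter.unusedSectionVars false

noncomputable section

namespace Fermat.Agent.S43.RSide.TypePush

open Polynomial IsLocalRing
open Fermat.Agent.S31.Core Fermat.Agent.S43.Rho
open Fermat.Agent.S53.Dictionary hiding GQ
open scoped IsMulCommutative

/-! ### pure algebra -/

section Algebra

variable {R T F : Type*} [CommRing R] [CommRing T] [Semiring F] (incl : R →+* T) (Φ : T →+* F)

/-- the image of the trace of a matrix with a split characteristic polynomial -/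
theorem map_trace_of_charpoly (S : Matrix (Fin 2) (Fin 2) T) (u v : T)
    (hS : S.charpoly = (X - C u) * (X - C v)) : Φ S.trace = Φ u + Φ v := by
  rw [(Fermat.Agent.S43.RSide.LocalData.trace_det_of_charpoly S u v hS).1, map_add]

/-- `Φ u = 1 = Φ v ⟹ (Φ ∘ incl) t = 2` -/
theorem comp_trace_eq_two {t : R} {u v : T} (ht : incl t = u + v) (hu : Φ u = 1) (hv : Φ v = 1) :
    (Φ.comp incl) t = 2 := by
  rw [RingHom.comp_apply, ht, map_add, hu, hv, one_add_one_eq_two]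

/-- `Φ u = Φ (incl a)`, `Φ v = Φ (incl b) ⟹ (Φ ∘ incl) t = (Φ ∘ incl) (a + b)` -/
theorem comp_trace_eq_map {t a b : R} {u v : T} (ht : incl t = u + v) (hu : Φ u = Φ (incl a))
    (hv : Φ v = Φ (incl b)) : (Φ.comp incl) t = (Φ.comp incl) (a + b) := by
  rw [RingHom.comp_apply, RingHom.comp_apply, ht, map_add, map_add, map_add, hu, hv]

end Algebra

/-! ### the trace on inertia from the gate cubic -/

section Datum

variable {R₀ : Type} [CommRing R₀] [IsLocalRing R₀] [IsNoetherianRing R₀]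
  {Λ : Type} [AddCommGroup Λ] [Module R₀ Λ] [Module.Finite R₀ Λ]
  {Sg : Finset ℕ} {r : GQ →* Module.End R₀ Λ} {ε : GQ →* R₀}
  {T : Subalgebra R₀ (Module.End R₀ Λ)} [IsMulCommutative ↥T] [IsLocalRing ↥T]
  [IsLocalHom (algebraMap R₀ ↥T)] [Invertible (2 : ↥T)]

attribute [local instance] Glue.smulCommClassT Glue.algebraEnd

variable (h : Dens.Datum Sg (maximalIdeal R₀) r ε T) {c g₀ h₀ : GQ}
  (hin : CH.Input (E := Module.End ↥T Λ) (Dens.rT h) (Dens.tT h) (Glue.dHom ε T) c g₀ h₀)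

section gate

variable {l p : ℕ} (hl : l.Prime) (hp : p.Prime) (hpl : p ≠ l)
  (hpR : (p : R₀) ∈ maximalIdeal R₀)
  (rbar : ResidualGaloisRep (ResidueField R₀))
  (b : Module.Basis (Fin 2) (ResidueField R₀) rbar.V)
  (hmap : mapMat (residue ↥T) (CH.rep hin) =
    mapMat (ResidueField.map (algebraMap R₀ ↥T)) (resMatOf rbar b))

include hl hp hpl hpR hmap in
/-- **the characteristic polynomial of the MATRIX `ρ_T(τ)`** on inertia at a residually unramified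
`l ≠ p`, from the gate cubic in `End_{R₀}(Λ)` -/
theorem charpoly_rep_of_gate (hunr : rbar.IsUnramifiedAt l)
    {A : ValuationSubring Qbar} (hA : A.LiesOverPrime l)
    {τ : GQ} (hτ : τ ∈ A.inertiaSubgroupIn ℚ)
    (u v : ↥T) (huv : u * v = 1) (hε : ε τ = 1)
    (hcube : (r τ - (u : Module.End R₀ Λ)) * (r τ - (u : Module.End R₀ Λ)) *
      (r τ - (v : Module.End R₀ Λ)) = 0)
    (hul : u ^ l = u) (htf : ∀ w : Λ, ((l : R₀) ^ 2 - 1) • w = 0 → w = 0) :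
    (CH.rep hin τ).charpoly = (X - C u) * (X - C v) := by
  rw [← Props.TypeRhoT.charpoly_ofMat (CH.rep hin) (Exists.isContMat_rep h hin) τ]
  exact Props.TypeDatum.charpoly_rhoT_of_gate h hin hl hp hpl hpR rbar b hmap hunr hA hτ u v huv hε
    hcube hul htf

include hl hp hpl hpR hmap in
/-- **`tr ρ_T(τ) = u + v`** on inertia at a residually unramified `l ≠ p` -/
theorem tr_eq_of_gate (hunr : rbar.IsUnramifiedAt l)
    {A : ValuationSubring Qbar} (hA : A.LiesOverPrime l)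
    {τ : GQ} (hτ : τ ∈ A.inertiaSubgroupIn ℚ)
    (u v : ↥T) (huv : u * v = 1) (hε : ε τ = 1)
    (hcube : (r τ - (u : Module.End R₀ Λ)) * (r τ - (u : Module.End R₀ Λ)) *
      (r τ - (v : Module.End R₀ Λ)) = 0)
    (hul : u ^ l = u) (htf : ∀ w : Λ, ((l : R₀) ^ 2 - 1) • w = 0 → w = 0) :
    (CH.rep hin τ).trace = u + v :=
  (Fermat.Agent.S43.RSide.LocalData.trace_det_of_charpoly _ u v
    (charpoly_rep_of_gate h hin hl hp hpl hpR rbar b hmap hunr hA hτ u v huv hε hcube hul htf)).1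

include hin hl hp hpl hpR hmap in
/-- the same for the trace function of the datum -/
theorem tT_eq_of_gate (hunr : rbar.IsUnramifiedAt l)
    {A : ValuationSubring Qbar} (hA : A.LiesOverPrime l)
    {τ : GQ} (hτ : τ ∈ A.inertiaSubgroupIn ℚ)
    (u v : ↥T) (huv : u * v = 1) (hε : ε τ = 1)
    (hcube : (r τ - (u : Module.End R₀ Λ)) * (r τ - (u : Module.End R₀ Λ)) *
      (r τ - (v : Module.End R₀ Λ)) = 0)
    (hul : u ^ l = u) (htf : ∀ w : Λ, ((l : R₀) ^ 2 - 1) • w = 0 → w = 0) :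
    Dens.tT h τ = u + v := by
  rw [← CH.trace_rep hin τ]
  exact tr_eq_of_gate h hin hl hp hpl hpR rbar b hmap hunr hA hτ u v huv hε hcube hul htf

end gate

/-- **`det ρ_T(τ) = 1`** where `ε τ = 1` (`hdetσ` of `FeedQ`) -/
theorem hdetσ {τ : GQ} (hε : ε τ = 1) : (CH.rep hin τ).det = 1 := by
  rw [CH.det_rep hin τ, Glue.dHom_apply, hε, map_one]

/-! ### the trace subalgebra -/

variable {T' : Subalgebra R₀ (Module.End R₀ Λ)} [IsMulCommutative ↥T'] [IsLocalRing ↥T']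
  [IsLocalHom (algebraMap R₀ ↥T')] [Invertible (2 : ↥T')]
  (h' : Dens.Datum Sg (maximalIdeal R₀) r ε T') {c' g₀' h₀' : GQ}
  (hin' : CH.Input (E := Module.End ↥T' Λ) (Dens.rT h') (Dens.tT h') (Glue.dHom ε T') c' g₀' h₀')
  (hle : T' ≤ T)

/-- **the trace function does not depend on the subalgebra** -/
theorem inclusion_tT (g : GQ) : Subalgebra.inclusion hle (Dens.tT h' g) = Dens.tT h g :=
  Subtype.ext rfl

/-- the trace of the matrix over `T'`, in `T` -/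
theorem inclusion_trace_rep (g : GQ) :
    Subalgebra.inclusion hle ((CH.rep hin' g).trace) = (CH.rep hin g).trace := by
  rw [CH.trace_rep hin' g, CH.trace_rep hin g, inclusion_tT h h' hle g]

section push

variable {l p : ℕ} (hl : l.Prime) (hp : p.Prime) (hpl : p ≠ l)
  (hpR : (p : R₀) ∈ maximalIdeal R₀)
  (rbar : ResidualGaloisRep (ResidueField R₀))
  (b : Module.Basis (Fin 2) (ResidueField R₀) rbar.V)
  (hmap : mapMat (residue ↥T) (CH.rep hin) =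
    mapMat (ResidueField.map (algebraMap R₀ ↥T)) (resMatOf rbar b))
  {F : Type*} [Semiring F] (Φ : ↥T →+* F)

include hl hp hpl hpR hmap in
/-- **the trace of `rR = CH.rep hin'` (over the trace algebra `T'`) on inertia, in `T`** -/
theorem inclusion_trace_of_gate (hunr : rbar.IsUnramifiedAt l)
    {A : ValuationSubring Qbar} (hA : A.LiesOverPrime l)
    {τ : GQ} (hτ : τ ∈ A.inertiaSubgroupIn ℚ)
    (u v : ↥T) (huv : u * v = 1) (hε : ε τ = 1)
    (hcube : (r τ - (u : Module.End R₀ Λ)) * (r τ - (u : Module.End R₀ Λ)) *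
      (r τ - (v : Module.End R₀ Λ)) = 0)
    (hul : u ^ l = u) (htf : ∀ w : Λ, ((l : R₀) ^ 2 - 1) • w = 0 → w = 0) :
    (Subalgebra.inclusion hle).toRingHom ((CH.rep hin' τ).trace) = u + v := by
  show Subalgebra.inclusion hle ((CH.rep hin' τ).trace) = u + v
  rw [inclusion_trace_rep h hin h' hin' hle τ]
  exact tr_eq_of_gate h hin hl hp hpl hpR rbar b hmap hunr hA hτ u v huv hε hcube hul htf

include hl hp hpl hpR hmap in
/-- **THE PUSH** : `Φ (tr rR τ) = Φ u + Φ v` -/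
theorem trace_push (hunr : rbar.IsUnramifiedAt l)
    {A : ValuationSubring Qbar} (hA : A.LiesOverPrime l)
    {τ : GQ} (hτ : τ ∈ A.inertiaSubgroupIn ℚ)
    (u v : ↥T) (huv : u * v = 1) (hε : ε τ = 1)
    (hcube : (r τ - (u : Module.End R₀ Λ)) * (r τ - (u : Module.End R₀ Λ)) *
      (r τ - (v : Module.End R₀ Λ)) = 0)
    (hul : u ^ l = u) (htf : ∀ w : Λ, ((l : R₀) ^ 2 - 1) • w = 0 → w = 0) :
    (Φ.comp (Subalgebra.inclusion hle).toRingHom) ((CH.rep hin' τ).trace) = Φ u + Φ v := by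
  rw [RingHom.comp_apply, inclusion_trace_of_gate h hin h' hin' hle hl hp hpl hpR rbar b hmap hunr hA
    hτ u v huv hε hcube hul htf, map_add]

include hl hp hpl hpR hmap in
/-- **`htr1` of `FeedQ.nonempty_datumJ_Q`** : the diamonds `u`, `v` act trivially on `M1` -/
theorem htr1 (hunr : rbar.IsUnramifiedAt l)
    {A : ValuationSubring Qbar} (hA : A.LiesOverPrime l)
    {τ : GQ} (hτ : τ ∈ A.inertiaSubgroupIn ℚ)
    (u v : ↥T) (huv : u * v = 1) (hε : ε τ = 1)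
    (hcube : (r τ - (u : Module.End R₀ Λ)) * (r τ - (u : Module.End R₀ Λ)) *
      (r τ - (v : Module.End R₀ Λ)) = 0)
    (hul : u ^ l = u) (htf : ∀ w : Λ, ((l : R₀) ^ 2 - 1) • w = 0 → w = 0)
    (hΦu : Φ u = 1) (hΦv : Φ v = 1) :
    (Φ.comp (Subalgebra.inclusion hle).toRingHom) ((CH.rep hin' τ).trace) = 2 :=
  comp_trace_eq_two _ Φ (inclusion_trace_of_gate h hin h' hin' hle hl hp hpl hpR rbar b hmap hunr hA
    hτ u v huv hε hcube hul htf) hΦu hΦv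

include hl hp hpl hpR hmap in
/-- **`htrχ` of `FeedQ.nonempty_datumJ_Q`** : the diamonds `u`, `v` act on `Mχ` as the scalars
`ζ`, `ζ'` of `R₀` -/
theorem htrχ (hunr : rbar.IsUnramifiedAt l)
    {A : ValuationSubring Qbar} (hA : A.LiesOverPrime l)
    {τ : GQ} (hτ : τ ∈ A.inertiaSubgroupIn ℚ)
    (u v : ↥T) (huv : u * v = 1) (hε : ε τ = 1)
    (hcube : (r τ - (u : Module.End R₀ Λ)) * (r τ - (u : Module.End R₀ Λ)) *
      (r τ - (v : Module.End R₀ Λ)) = 0)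
    (hul : u ^ l = u) (htf : ∀ w : Λ, ((l : R₀) ^ 2 - 1) • w = 0 → w = 0)
    (ζ ζ' : R₀) (hΦu : Φ u = Φ (algebraMap R₀ ↥T ζ)) (hΦv : Φ v = Φ (algebraMap R₀ ↥T ζ')) :
    (Φ.comp (Subalgebra.inclusion hle).toRingHom) ((CH.rep hin' τ).trace) =
      (Φ.comp (Subalgebra.inclusion hle).toRingHom) (algebraMap R₀ ↥T' (ζ + ζ')) :=
  comp_trace_eq_map (a := algebraMap R₀ ↥T' ζ) (b := algebraMap R₀ ↥T' ζ') _ Φ
    (inclusion_trace_of_gate h hin h' hin' hle hl hp hpl hpR rbar b hmap hunr hA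
      hτ u v huv hε hcube hul htf) hΦu hΦv |>.trans (by rw [map_add (algebraMap R₀ ↥T')])

end push

end Datum

/-! ### the diamonds at `d = cyc M τ ^ m`, `τ` in an inertia group at `ℓ` -/

section Diamonds

open Fermat.Agent.S43.Assembly.ChiChar Fermat.Agent.S43.Hecke.Inst
open Fermat.Agent.S43.Tw.Defs (cyc)
open Fermat.Agent.S56.Cheb.Galois.CycChar (chi)

/-- a unit of `ZMod (A * B)`, `A`, `B` coprime, which is `1` modulo `A` and modulo `B` is `1` -/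
theorem eq_one_of_unitsMap_eq_one {M A B : ℕ} [NeZero M] (hM : M = A * B) (hcop : A.Coprime B)
    (hA : A ∣ M) (hB : B ∣ M) {d : (ZMod M)ˣ} (h1 : ZMod.unitsMap hA d = 1)
    (h2 : ZMod.unitsMap hB d = 1) : d = 1 := by
  apply Units.ext
  have e1 : (((d : ZMod M).val : ℕ) : ZMod A) = ((1 : ℕ) : ZMod A) := by
    have := congrArg (fun x : (ZMod A)ˣ => (x : ZMod A)) h1
    simp only [ZMod.unitsMap_val, Units.val_one] at this
    rw [ZMod.natCast_val, this, Nat.cast_one]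
  have e2 : (((d : ZMod M).val : ℕ) : ZMod B) = ((1 : ℕ) : ZMod B) := by
    have := congrArg (fun x : (ZMod B)ˣ => (x : ZMod B)) h2
    simp only [ZMod.unitsMap_val, Units.val_one] at this
    rw [ZMod.natCast_val, this, Nat.cast_one]
  have m1 := (ZMod.natCast_eq_natCast_iff _ _ _).mp e1
  have m2 := (ZMod.natCast_eq_natCast_iff _ _ _).mp e2
  have m3 : (d : ZMod M).val ≡ 1 [MOD A * B] :=
    (Nat.modEq_and_modEq_iff_modEq_mul hcop).mp ⟨m1, m2⟩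
  rw [← hM] at m3
  have e3 := (ZMod.natCast_eq_natCast_iff _ _ _).mpr m3
  rw [ZMod.natCast_val, ZMod.cast_id', id, Nat.cast_one] at e3
  rw [e3, Units.val_one]

variable {M : ℕ} [NeZero M] {ℓ : ℕ} (hℓ : ℓ.Prime) {A : ValuationSubring Qbar}
  (hA : A.LiesOverPrime ℓ) {τ : GQ} (hτ : τ ∈ A.inertiaSubgroupIn ℚ)

include hℓ hA hτ in
/-- **`cyc M τ ≡ 1` modulo every divisor `K` of `M` prime to `ℓ`** (`τ` in inertia at `ℓ`) -/
theorem unitsMap_cyc_eq_one {K : ℕ} (hK : K ∣ M) (hℓK : ¬ ℓ ∣ K) :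
    ZMod.unitsMap hK (cyc M τ) = 1 := by
  have : NeZero K := ⟨fun h0 => by
    rw [h0, zero_dvd_iff] at hK
    exact NeZero.ne M hK⟩
  have h1 : ZMod.unitsMap hK (cyc M τ) = chi K τ := unitsMap_chi hK τ
  rw [h1]
  exact Fermat.Agent.S48.B.Chain.GalChar.chi_inertia K hℓ hℓK A hA τ hτ

include hℓ hA hτ in
/-- the same for the powers -/
theorem unitsMap_cyc_pow_eq_one {K : ℕ} (hK : K ∣ M) (hℓK : ¬ ℓ ∣ K) (m : ℕ) :
    ZMod.unitsMap hK (cyc M τ ^ m) = 1 := by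
  rw [map_pow, unitsMap_cyc_eq_one hℓ hA hτ hK hℓK, one_pow]

include hℓ hA hτ in
/-- **`(cyc M τ) ^ (ℓ - 1) = 1`** for `τ` in inertia at `ℓ ∥ M` -/
theorem cyc_pow_pred (hℓM : ℓ ∣ M) (hcop : ℓ.Coprime (M / ℓ)) : cyc M τ ^ (ℓ - 1) = 1 := by
  have : Fact ℓ.Prime := ⟨hℓ⟩
  have hℓK : ¬ ℓ ∣ M / ℓ := fun hd =>
    hℓ.one_lt.ne' (Nat.Coprime.eq_one_of_dvd hcop hd)
  refine eq_one_of_unitsMap_eq_one (Nat.mul_div_cancel' hℓM).symm hcop hℓM
    (Nat.div_dvd_of_dvd hℓM) ?_ ?_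
  · rw [map_pow]
    exact ZMod.units_pow_card_sub_one_eq_one ℓ _
  · exact unitsMap_cyc_pow_eq_one hℓ hA hτ (Nat.div_dvd_of_dvd hℓM) hℓK (ℓ - 1)

include hℓ hA hτ in
/-- **`(cyc M τ ^ m) ^ ℓ = cyc M τ ^ m`** for `τ` in inertia at `ℓ ∥ M`: the `hul` of the gate at the
diamond `u = ⟨cyc M τ ^ m⟩` -/
theorem cyc_pow_pow_self (hℓM : ℓ ∣ M) (hcop : ℓ.Coprime (M / ℓ)) (m : ℕ) :
    (cyc M τ ^ m) ^ ℓ = cyc M τ ^ m := by
  have h1 : ℓ = (ℓ - 1) + 1 := (Nat.sub_add_cancel hℓ.one_le).symm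
  conv_lhs => rw [h1]
  rw [pow_succ, ← pow_mul, mul_comm m, pow_mul, cyc_pow_pred hℓ hA hτ hℓM hcop, one_pow, one_mul]

variable {Δ : Type*} [CommGroup Δ] (𝒪 : Type) [CommRing 𝒪] (π : (ZMod M)ˣ →* Δ)

include hℓ hA hτ in
/-- **the diamond `⟨cyc M τ ^ m⟩` is trivial for `xiOf 𝒪 π`** when `π` kills the units `≡ 1` modulo
a divisor `K` of `M` prime to `ℓ` (`K = ∏ Q_i`: `Assembly/TwGroup.piTW_eq_one`) -/
theorem xiOf_cyc_pow {K : ℕ} (hK : K ∣ M) (hℓK : ¬ ℓ ∣ K)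
    (hπ : ∀ d : (ZMod M)ˣ, ZMod.unitsMap hK d = 1 → π d = 1) (m : ℕ) :
    xiOf 𝒪 π (cyc M τ ^ m) = 1 := by
  rw [xiOf_apply, hπ _ (unitsMap_cyc_pow_eq_one hℓ hA hτ hK hℓK m)]
  unfold Fermat.Agent.S43.Hecke.Shapiro.unitOf
  rw [map_one, map_one]

include hℓ hA hτ in
/-- the same for the inverse -/
theorem xiOf_cyc_pow_inv {K : ℕ} (hK : K ∣ M) (hℓK : ¬ ℓ ∣ K)
    (hπ : ∀ d : (ZMod M)ˣ, ZMod.unitsMap hK d = 1 → π d = 1) (m : ℕ) :
    xiOf 𝒪 π (cyc M τ ^ m)⁻¹ = 1 := by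
  rw [map_inv, xiOf_cyc_pow hℓ hA hτ 𝒪 π hK hℓK hπ m, inv_one]

variable (ψ : (ZMod M)ˣ →* 𝒪ˣ)

include hℓ hA hτ in
/-- **the diamond `⟨cyc M τ ^ m⟩` is the scalar `χ ℓ τ` for `Ξ' = xiChi 𝒪 π ψ`**,
`χ = chiGal ψ m` -/
theorem coe_xiChi_cyc_pow {K : ℕ} (hK : K ∣ M) (hℓK : ¬ ℓ ∣ K)
    (hπ : ∀ d : (ZMod M)ˣ, ZMod.unitsMap hK d = 1 → π d = 1) (m : ℕ) :
    ((xiChi 𝒪 π ψ (cyc M τ ^ m) : (MonoidAlgebra 𝒪 Δ)ˣ) : MonoidAlgebra 𝒪 Δ) =
      algebraMap 𝒪 (MonoidAlgebra 𝒪 Δ) ((chiGal ψ m ℓ τ : 𝒪ˣ) : 𝒪) := by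
  rw [coe_xiChi, hπ _ (unitsMap_cyc_pow_eq_one hℓ hA hτ hK hℓK m), chiGal_apply, map_pow,
    MonoidAlgebra.coe_algebraMap, Function.comp_apply, Algebra.algebraMap_self_apply]

include hℓ hA hτ in
/-- the same for the inverse -/
theorem coe_xiChi_cyc_pow_inv {K : ℕ} (hK : K ∣ M) (hℓK : ¬ ℓ ∣ K)
    (hπ : ∀ d : (ZMod M)ˣ, ZMod.unitsMap hK d = 1 → π d = 1) (m : ℕ) :
    ((xiChi 𝒪 π ψ (cyc M τ ^ m)⁻¹ : (MonoidAlgebra 𝒪 Δ)ˣ) : MonoidAlgebra 𝒪 Δ) =
      algebraMap 𝒪 (MonoidAlgebra 𝒪 Δ) (((chiGal ψ m ℓ τ)⁻¹ : 𝒪ˣ) : 𝒪) := by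
  have h1 : π (cyc M τ ^ m)⁻¹ = 1 := by
    rw [map_inv, hπ _ (unitsMap_cyc_pow_eq_one hℓ hA hτ hK hℓK m), inv_one]
  rw [coe_xiChi, h1, chiGal_apply, map_inv, map_pow,
    MonoidAlgebra.coe_algebraMap, Function.comp_apply, Algebra.algebraMap_self_apply]

end Diamonds

end Fermat.Agent.S43.RSide.TypePush
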