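/-
PROJECT R (S43, row 37), R-SIDE (helper21): THE TYPE-`χ` PARAMETER DOES NOT DEPEND ON THE LEVEL.

In `FeedQ.nonempty_datumJ_Q` the parameters `e' i`, `τχ i` (with `τχ i ^ 2 = 1 + e' i`) are fixed
BEFORE the level `n`, and at each level `2 * τχ i = ζ i + ζ' i` with `ζ i = χ ℓ_i σ_i`,
`χ = chiGal (psi ζ T M) a` of `Assembly/ChiChar`.  Both the level `M` and the twist exponent `a`
(`p ∣ 2 * a + 1`) vary with `n`; the value on an inertia element at `ℓ ∈ T` does not: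

* `chiGal_psi_of_mem_inertia` : `chiGal (psi ζ T M) a ℓ s = chiL ζ ℓ (chi ℓ s) ^ a` for `s` in an
  inertia group at `ℓ ∈ T`, `ℓ ∣ M` (no `M` on the right);
* `pow_eq_pow_half` : `x ^ a = x ^ ((p - 1) / 2)` for `x ^ p = 1`, `p` odd, `p ∣ 2 * a + 1`;
* **`chiGal_psi_eq_uFix`** : `chiGal (psi ζ T M) a ℓ s = uFix ζ p ℓ s`, where
  `uFix ζ p ℓ s := chiL ζ ℓ (chi ℓ s) ^ ((p - 1) / 2)` mentions neither `M` nor `a`;
* `uFix_sq` : `uFix ζ p ℓ s ^ 2 = (chiL ζ ℓ (chi ℓ s))⁻¹`.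
-/
import Mathlib
import Fermat.Agent.S43.Assembly.ChiChar

set_option autoImplicit false

noncomputable section

namespace Fermat.Agent.S43.RSide.ChiFix

open Fermat.Agent.S43.Assembly.ChiChar
open Fermat.Agent.S56.Cheb.Galois.CycChar
open Fermat.Agent.S43.Tw.Defs (cyc)

local notation "Qbar" => AlgebraicClosure ℚ
local notation "GQ" => (AlgebraicClosure ℚ ≃ₐ[ℚ] AlgebraicClosure ℚ)

/-- `x ^ a = x ^ b` for `x ^ p = 1`, `a ≡ b mod p` -/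
theorem pow_eq_pow_of_modEq {G : Type*} [Monoid G] {x : G} {p a b : ℕ} (hx : x ^ p = 1)
    (hab : a ≡ b [MOD p]) : x ^ a = x ^ b := by
  rw [← Nat.mod_add_div a p, ← Nat.mod_add_div b p, pow_add, pow_add, pow_mul, pow_mul, hx,
    one_pow, one_pow, mul_one, mul_one]
  exact congrArg (x ^ ·) hab

/-- `a ≡ (p - 1) / 2 mod p` for `p` odd, `p ∣ 2 * a + 1` -/
theorem modEq_half {p a : ℕ} (hp : Odd p) (ha : p ∣ 2 * a + 1) : a ≡ (p - 1) / 2 [MOD p] := by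
  obtain ⟨k, hk⟩ := hp
  have h1 : (p - 1) / 2 = k := by omega
  rw [h1]
  have hcop : Nat.gcd p 2 = 1 := by
    rw [hk, Nat.gcd_comm, Nat.gcd_mul_left_add_right, Nat.gcd_one_right]
  have h2 : 2 * a ≡ 2 * k [MOD p] := by
    have h3 : 2 * a + 1 ≡ 2 * k + 1 [MOD p] := by
      have h4 : 2 * a + 1 ≡ 0 [MOD p] := (Nat.modEq_zero_iff_dvd).mpr ha
      have h5 : 2 * k + 1 ≡ 0 [MOD p] := (Nat.modEq_zero_iff_dvd).mpr ⟨1, by omega⟩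
      exact h4.trans h5.symm
    exact Nat.ModEq.add_right_cancel' 1 h3
  exact Nat.ModEq.cancel_left_of_coprime hcop h2

/-- `x ^ a = x ^ ((p - 1) / 2)` for `x ^ p = 1`, `p` odd, `p ∣ 2 * a + 1` -/
theorem pow_eq_pow_half {G : Type*} [Monoid G] {x : G} {p a : ℕ} (hx : x ^ p = 1) (hp : Odd p)
    (ha : p ∣ 2 * a + 1) : x ^ a = x ^ ((p - 1) / 2) :=
  pow_eq_pow_of_modEq hx (modEq_half hp ha)

section Fix

variable {𝒪 : Type} [CommRing 𝒪] (ζ : 𝒪ˣ) (T : Finset ℕ)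

/-- **the level-independent value of the type-`χ` character at an inertia element at `ℓ`** -/
def uFix (p ℓ : ℕ) [Fact ℓ.Prime] (s : GQ) : 𝒪ˣ := chiL ζ ℓ (chi ℓ s) ^ ((p - 1) / 2)

/-- `chiGal (psi ζ T M) a ℓ s = chiL ζ ℓ (chi ℓ s) ^ a` on inertia at `ℓ ∈ T` -/
theorem chiGal_psi_of_mem_inertia {M : ℕ} [NeZero M] (hT : ∀ ℓ ∈ T, ℓ.Prime) {ℓ : ℕ}
    [Fact ℓ.Prime] (hℓ : ℓ ∈ T) (hℓM : ℓ ∣ M) {A : ValuationSubring Qbar}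
    (hA : A.LiesOverPrime ℓ) {s : GQ} (hs : s ∈ A.inertiaSubgroupIn ℚ) (a : ℕ) :
    chiGal (psi ζ T M) a ℓ s = chiL ζ ℓ (chi ℓ s) ^ a := by
  rw [chiGal_apply, psi_cyc_of_mem_inertia ζ T hT hℓ hℓM hA hs]

/-- **THE TYPE-`χ` PARAMETER IS LEVEL-INDEPENDENT** -/
theorem chiGal_psi_eq_uFix {p : ℕ} (hp : Odd p) (hζ : ζ ^ p = 1) {M : ℕ} [NeZero M]
    (hT : ∀ ℓ ∈ T, ℓ.Prime) {ℓ : ℕ} [Fact ℓ.Prime] (hℓ : ℓ ∈ T) (hℓM : ℓ ∣ M)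
    {A : ValuationSubring Qbar} (hA : A.LiesOverPrime ℓ) {s : GQ}
    (hs : s ∈ A.inertiaSubgroupIn ℚ) {a : ℕ} (ha : p ∣ 2 * a + 1) :
    chiGal (psi ζ T M) a ℓ s = uFix ζ p ℓ s := by
  rw [chiGal_psi_of_mem_inertia ζ T hT hℓ hℓM hA hs, uFix]
  refine pow_eq_pow_half (G := 𝒪ˣ) ?_ hp ha
  obtain ⟨k, hk⟩ := Subgroup.mem_zpowers_iff.mp (chiL_mem_zpowers ζ ℓ (chi ℓ s))
  rw [← hk, ← zpow_natCast, ← zpow_mul, mul_comm, zpow_mul, zpow_natCast, hζ, one_zpow]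

/-- `uFix ^ 2` is the inverse of the value of `chiL` -/
theorem uFix_sq {p : ℕ} (hp : Odd p) (hζ : ζ ^ p = 1) (ℓ : ℕ) [Fact ℓ.Prime] (s : GQ) :
    uFix ζ p ℓ s ^ 2 = (chiL ζ ℓ (chi ℓ s))⁻¹ := by
  have hx : chiL ζ ℓ (chi ℓ s) ^ p = 1 := by
    obtain ⟨k, hk⟩ := Subgroup.mem_zpowers_iff.mp (chiL_mem_zpowers ζ ℓ (chi ℓ s))
    rw [← hk, ← zpow_natCast, ← zpow_mul, mul_comm, zpow_mul, zpow_natCast, hζ, one_zpow]
  obtain ⟨k, hk⟩ := hp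
  have h1 : (p - 1) / 2 = k := by omega
  rw [uFix, h1, ← pow_mul, eq_inv_iff_mul_eq_one, ← pow_succ]
  have h2 : k * 2 + 1 = p := by omega
  rw [h2, hx]

open Fermat.Agent.S43.RSide.TrivBase (TameClause) in
/-- **`uFix ζ p ℓ σ` is a primitive `p`-th root of unity for `σ` a tame generator at `ℓ ≡ 1 mod p`**
(`ChiChar.isPrimitiveRoot_chiGal_tame` at the level `M = ℓ`, `T = {ℓ}`, `a = (p - 1) / 2`) -/
theorem isPrimitiveRoot_uFix {p : ℕ} (hp : p.Prime) (hp2 : p ≠ 2) (hζ : IsPrimitiveRoot ζ p)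
    {ℓ : ℕ} [hℓ : Fact ℓ.Prime] (hpℓ : p ∣ ℓ - 1) {σ : (padicPlace ℓ).inertiaSubgroupIn ℚ}
    (hσ : TameClause p ℓ σ) : IsPrimitiveRoot (uFix ζ p ℓ (σ : GQ)) p := by
  have hodd : Odd p := hp.odd_of_ne_two hp2
  have hT : ∀ l ∈ ({ℓ} : Finset ℕ), l.Prime := by
    intro l hl
    rw [Finset.mem_singleton] at hl
    rw [hl]
    exact hℓ.out
  have ha : p ∣ 2 * ((p - 1) / 2) + 1 := by
    obtain ⟨k, hk⟩ := hodd
    exact ⟨1, by omega⟩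
  have hcop : ((p - 1) / 2).Coprime p := by
    rw [Nat.coprime_comm, hp.coprime_iff_not_dvd]
    intro hdvd
    have h2 : 2 ≤ p := hp.two_le
    have h3 : 0 < (p - 1) / 2 := by
      obtain ⟨k, hk⟩ := hodd
      omega
    have h4 := Nat.le_of_dvd h3 hdvd
    omega
  have : NeZero ℓ := ⟨hℓ.out.ne_zero⟩
  have h1 := isPrimitiveRoot_chiGal_tame (M := ℓ) ζ ({ℓ} : Finset ℕ) hp hζ hT hcop
    (Finset.mem_singleton_self ℓ) dvd_rfl hpℓ hσ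
  rwa [chiGal_psi_eq_uFix ζ ({ℓ} : Finset ℕ) hodd hζ.pow_eq_one hT (Finset.mem_singleton_self ℓ)
    dvd_rfl (Fermat.Agent.CFT.LocalBridge.liesOverPrime_padicPlace ℓ) σ.2 ha] at h1

/-- `uFix ^ p = 1` -/
theorem uFix_pow {p : ℕ} (hζ : ζ ^ p = 1) (ℓ : ℕ) [Fact ℓ.Prime] (s : GQ) :
    uFix ζ p ℓ s ^ p = 1 := by
  obtain ⟨k, hk⟩ := Subgroup.mem_zpowers_iff.mp (chiL_mem_zpowers ζ ℓ (chi ℓ s))
  have hx : (ζ ^ k) ^ p = 1 := by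
    rw [← zpow_natCast, ← zpow_mul, mul_comm, zpow_mul, zpow_natCast, hζ, one_zpow]
  rw [uFix, ← hk, ← pow_mul, mul_comm, pow_mul, hx, one_pow]

open Fermat.Agent.S43.RSide.TrivBase (TameClause) in
/-- `uFix ^ 2 ≠ 1` at a tame generator (`hu2` of `Assembly/Coeff.params`) -/
theorem uFix_sq_ne {p : ℕ} (hp : p.Prime) (hp2 : p ≠ 2) (hζ : IsPrimitiveRoot ζ p)
    {ℓ : ℕ} [Fact ℓ.Prime] (hpℓ : p ∣ ℓ - 1) {σ : (padicPlace ℓ).inertiaSubgroupIn ℚ}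
    (hσ : TameClause p ℓ σ) : uFix ζ p ℓ (σ : GQ) ^ 2 ≠ 1 := by
  intro h
  have h1 := (isPrimitiveRoot_uFix ζ hp hp2 hζ hpℓ hσ).dvd_of_pow_eq_one 2 h
  have h2 : p ≤ 2 := Nat.le_of_dvd (by norm_num) h1
  have h3 : 2 ≤ p := hp.two_le
  omega

end Fix

end Fermat.Agent.S43.RSide.ChiFix
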