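/-
PROJECT R (S43, row 37), block RS (leader helper21), brick RS10: THE EXIT OF THE PATCHING, pure
algebra (no Galois group, no Hecke operator in this file).

* `eps κ : P O ι Empty →ₐ[O] P O ι κ` : the inclusion of the LOCAL variables `sg i j`, `ph i j`
  (`MvPowerSeries.rename`); it carries `SigmaU`, `PhiU` to `SigmaU`, `PhiU`.
* `Jzero κ q θ₀ m` : for `θ₀ : P O ι Empty →ₐ[O] T0` (the local model mapping to the LEVEL ZERO Hecke
  algebra), the ideal `(K₀ᵉ) ^ m` of `A1 κ q`, `K₀ᵉ` generated by the classes of `eps f`,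
  `f ∈ ker θ₀`.  It does not depend on the level `n` of the patching.
* `exists_prime_of_point` : a prime `𝔮` of `A1 κ q` containing the classes of the `sg i j` and
  `Jzero κ q θ₀ m`, not containing the class of `C ϖ`, gives (lying over, `T0` integral over `O`)
  a prime `𝔭₀` of `T0` with `ϖ ∉ 𝔭₀` and `θ₀ (sg i j) ∈ 𝔭₀` for all `i j`.
-/
import Mathlib
import Fermat.Agent.S43.Local.Export

set_option autoImplicit false
set_option linter.style.haveILetI false

noncomputable section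

namespace Fermat.Agent.S43.RSide.Exit0

open MvPowerSeries
open Fermat.Agent.S43.Local.Model Fermat.Agent.S43.Local.Export

variable {O : Type*} [CommRing O] {ι : Type*} (κ : Type*)

/-- the inclusion of the local variables -/
def incl : Var ι Empty ↪ Var ι κ :=
  ⟨Sum.map id (Sum.map id Empty.elim),
    Sum.map_injective.mpr ⟨Function.injective_id,
      Sum.map_injective.mpr ⟨Function.injective_id, fun x => x.elim⟩⟩⟩

theorem incl_inl (x : ι × Fin 3) : incl κ (Sum.inl x : Var ι Empty) = Sum.inl x := rfl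

theorem incl_inr_inl (x : ι × Fin 3) :
    incl κ (Sum.inr (Sum.inl x) : Var ι Empty) = Sum.inr (Sum.inl x) := rfl

/-- **the inclusion of the local model without extra variables** -/
def eps : P O ι Empty →ₐ[O] P O ι κ := rename (incl κ)

theorem eps_X (v : Var ι Empty) : eps (O := O) κ (X v) = X (incl κ v) := rename_X _ v

theorem eps_C (a : O) : eps (ι := ι) κ (C a : P O ι Empty) = C a := rename_C _ a

theorem eps_sg (i : ι) (j : Fin 3) : eps κ (sg O Empty i j) = sg O κ i j := rename_X _ _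

theorem eps_ph (i : ι) (j : Fin 3) : eps κ (ph O Empty i j) = ph O κ i j := rename_X _ _

theorem eps_injective : Function.Injective (eps (O := O) (ι := ι) κ) := rename_injective _

theorem eps_nrm (i : ι) : eps κ (nrm O Empty i) = nrm O κ i := by
  unfold nrm
  rw [map_add, map_pow, map_mul, eps_ph, eps_ph, eps_ph]

theorem eps_nrmInv (i : ι) : eps κ (nrmInv O Empty i) = nrmInv O κ i := by
  have h1 : (1 - nrm O κ i) * eps κ (nrmInv O Empty i) = 1 := by
    rw [← eps_nrm, ← map_one (eps (O := O) (ι := ι) κ), ← map_sub, ← map_mul, nrm_mul_nrmInv]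
  have h2 : (1 - nrm O κ i) * nrmInv O κ i = 1 := nrm_mul_nrmInv i
  calc eps κ (nrmInv O Empty i) = (nrmInv O κ i * (1 - nrm O κ i)) * eps κ (nrmInv O Empty i) := by
        rw [mul_comm (nrmInv O κ i), h2, one_mul]
    _ = nrmInv O κ i := by rw [mul_assoc, h1, mul_one]

theorem map_B0 (i : ι) : (B0 O Empty i).map (eps (O := O) κ) = B0 O κ i := by
  ext a b
  fin_cases a <;> fin_cases b <;> simp [B0, eps_sg]

theorem map_A0 (i : ι) : (A0 O Empty i).map (eps (O := O) κ) = A0 O κ i := by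
  ext a b
  fin_cases a <;> fin_cases b <;> simp [A0, eps_ph]

theorem map_SigmaU (τ : ι → O) (i : ι) :
    (SigmaU O Empty τ i).map (eps (O := O) κ) = SigmaU O κ τ i := by
  unfold SigmaU
  rw [Matrix.map_add _ (by intro a b; exact map_add _ a b), map_B0]
  congr 1
  ext a b
  fin_cases a <;> fin_cases b <;> simp [eps_C]

theorem map_PhiU (s : ι → O) (i : ι) :
    (PhiU O Empty s i).map (eps (O := O) κ) = PhiU O κ s i := by
  have hA : ∀ a b, eps κ (A0 O Empty i a b) = A0 O κ i a b := fun a b => by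
    have := congrFun (congrFun (map_A0 (O := O) κ i) a) b
    simpa using this
  have h1 : ∀ a b, eps κ ((1 : Matrix (Fin 2) (Fin 2) (P O ι Empty)) a b)
      = (1 : Matrix (Fin 2) (Fin 2) (P O ι κ)) a b := fun a b => by
    fin_cases a <;> fin_cases b <;> simp
  unfold PhiU
  ext a b
  simp only [Matrix.map_apply, Matrix.smul_apply, Matrix.add_apply, smul_eq_mul, map_mul, map_add,
    eps_C, eps_nrmInv, eps_nrm, map_one, map_ofNat, hA, h1]

/-! ### the level-independent ideal and the exit -/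

/-- the local model without extra variables, mapped to the unipotent side -/
def epsBar (q : ι → O) : P O ι Empty →ₐ[O] A1 κ q :=
  (Ideal.Quotient.mkₐ O (relIdeal O κ 0 q)).comp (eps κ)

theorem epsBar_apply (q : ι → O) (f : P O ι Empty) :
    epsBar κ q f = Ideal.Quotient.mk (relIdeal O κ 0 q) (eps κ f) := rfl

/-- **the level-independent ideal of `R_∞^1`** : the `m`-th power of the ideal generated by the
classes of the `eps f`, `f` in the kernel of the level-zero map `θ₀`. -/
def Jzero (q : ι → O) {T0 : Type*} [CommRing T0] [Algebra O T0] (θ₀ : P O ι Empty →ₐ[O] T0)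
    (m : ℕ) : Ideal (A1 κ q) :=
  ((RingHom.ker (θ₀ : P O ι Empty →+* T0)).map (epsBar κ q : P O ι Empty →+* A1 κ q)) ^ m

theorem Jzero_le_of_forall (q : ι → O) {T0 : Type*} [CommRing T0] [Algebra O T0]
    (θ₀ : P O ι Empty →ₐ[O] T0) (m : ℕ) (K : Ideal (A1 κ q))
    (h : ∀ f : P O ι Empty, θ₀ f = 0 → epsBar κ q f ∈ K) : Jzero κ q θ₀ m ≤ K ^ m := by
  unfold Jzero
  refine Ideal.pow_right_mono ?_ m
  rw [Ideal.map_le_iff_le_comap]
  intro f hf
  exact h f hf

/-- **THE EXIT OF THE PATCHING** : a prime of `R_∞^1` of characteristic `0` which contains the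
`Σ`-variables and the level-independent ideal gives a prime of characteristic `0` of the level-zero
Hecke algebra `T0` at which `θ₀` kills every `Σ`-variable (`ρ_{T0}` modulo this prime is unramified
at every stuck prime). -/
theorem exists_prime_of_point (q : ι → O) (ϖ : O) {T0 : Type*} [CommRing T0] [Algebra O T0]
    [Algebra.IsIntegral O T0] (θ₀ : P O ι Empty →ₐ[O] T0) (m : ℕ)
    (𝔮 : Ideal (A1 κ q)) [𝔮.IsPrime]
    (hsg : ∀ i j, Ideal.Quotient.mk (relIdeal O κ 0 q) (sg O κ i j) ∈ 𝔮)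
    (hJ : Jzero κ q θ₀ m ≤ 𝔮)
    (hϖ : Ideal.Quotient.mk (relIdeal O κ 0 q) (C ϖ) ∉ 𝔮) :
    ∃ 𝔭₀ : Ideal T0, 𝔭₀.IsPrime ∧ algebraMap O T0 ϖ ∉ 𝔭₀ ∧
      ∀ i j, θ₀ (sg O Empty i j) ∈ 𝔭₀ := by
  -- the prime of the small local model
  set 𝔮₀ : Ideal (P O ι Empty) := 𝔮.comap (epsBar κ q : P O ι Empty →+* A1 κ q) with h𝔮₀
  have hprime : 𝔮₀.IsPrime := Ideal.comap_isPrime _ 𝔮
  have hK : RingHom.ker (θ₀ : P O ι Empty →+* T0) ≤ 𝔮₀ := by
    rw [h𝔮₀, ← Ideal.map_le_iff_le_comap]
    exact Ideal.IsPrime.le_of_pow_le hJ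
  -- `T0` is integral over the small local model
  letI : Algebra (P O ι Empty) T0 := (θ₀ : P O ι Empty →+* T0).toAlgebra
  haveI : IsScalarTower O (P O ι Empty) T0 :=
    IsScalarTower.of_algebraMap_eq fun a => (θ₀.commutes a).symm
  haveI : Algebra.IsIntegral (P O ι Empty) T0 :=
    ⟨fun x => (Algebra.IsIntegral.isIntegral (R := O) x).tower_top⟩
  obtain ⟨𝔭₀, -, h𝔭₀, hcomap⟩ :=
    Ideal.exists_ideal_over_prime_of_isIntegral 𝔮₀ (⊥ : Ideal T0) (by
      rw [← RingHom.ker_eq_comap_bot]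
      exact hK)
  have hmem : ∀ f : P O ι Empty, θ₀ f ∈ 𝔭₀ ↔ epsBar κ q f ∈ 𝔮 := by
    intro f
    have h1 : f ∈ 𝔭₀.comap (algebraMap (P O ι Empty) T0) ↔ f ∈ 𝔮₀ := by rw [hcomap]
    exact h1
  refine ⟨𝔭₀, h𝔭₀, ?_, fun i j => ?_⟩
  · intro h
    apply hϖ
    have h2 : θ₀ (C ϖ : P O ι Empty) = algebraMap O T0 ϖ := θ₀.commutes ϖ
    rw [← h2, hmem, epsBar_apply, eps_C] at h
    exact h
  · rw [hmem, epsBar_apply, eps_sg]
    exact hsg i j

end Fermat.Agent.S43.RSide.Exit0
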