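/-
PROJECT R (S43), block RS (leader helper21), brick RS9: THE ADAPTER TOWARDS `Patch/LevelJ.DatumJ`
(pure algebra; no Galois group, no Hecke operator in this file).

`P = O⟦X_v⟧` (the ambient power series ring of the local model), `A₁ = P / I₁`, `Aχ = P / Iχ` with
a common quotient `π₁ : A₁ → Abar ← Aχ : πχ`, `ker π₁ = (ϖ)`.  At a level `n` the producers give
* an `A₁`-module `N₁`, an `Aχ`-module `Nχ` (the two Hecke modules, `A₁` acting through
  `A₁ ↠ T₁`), both `S`-modules, the `S`-action being the action of `φ₁ : S → A₁`, `φχ : S → Aχ`;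
* their common reduction `q₁ : N₁ → Nb ← Nχ : qχ` (`S`-linear, onto, kernels `ϖ N`);
* the compatibility of the two actions ON THE VARIABLES ONLY:
  `q₁ x₁ = qχ xχ → q₁ (X_v • x₁) = qχ (X_v • xχ)` (`Compat`), the variables acting
  nilpotently on `Nb`.
Then
* `compat_of_forall_X` : the compatibility holds for every `f : P`;
* `moduleDescent`       : `Nb` becomes an `Abar`-module with `π₁ a • q₁ x = q₁ (a • x)`;
* `nonempty_datumJ`     : a `DatumJ` (all its fields).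
* `exists_phi`          : the maps `φ₁`, `φχ` from elements `a_i ∈ 𝔪_A` acting as the variables of
  `S` (`Local/Universal.exists_algHom_X_eq` + `Patch/PSExt.smul_eq_of_forall_X`).
-/
import Mathlib
import Fermat.Agent.S43.Patch.LevelJ
import Fermat.Agent.S43.Patch.PSExt
import Fermat.Agent.S43.Local.Universal

set_option autoImplicit false
set_option linter.unusedSectionVars false
set_option linter.style.haveILetI false

noncomputable section

namespace Fermat.Agent.S43.RSide.Out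

open Fermat.Agent.S43.Patch.Level Fermat.Agent.S43.Patch.LevelJ

universe u

/-! ### the compatibility of two actions on a common quotient -/

section Compat

variable {A₁ Aχ : Type*} [CommRing A₁] [CommRing Aχ]
  {N₁ Nχ Nb : Type*} [AddCommGroup N₁] [AddCommGroup Nχ] [AddCommGroup Nb]
  [Module A₁ N₁] [Module Aχ Nχ] (q₁ : N₁ →+ Nb) (qχ : Nχ →+ Nb)

/-- `a₁` and `aχ` induce the same operator on the common quotient `Nb` -/
def Compat (a₁ : A₁) (aχ : Aχ) : Prop :=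
  ∀ (x₁ : N₁) (xχ : Nχ), q₁ x₁ = qχ xχ → q₁ (a₁ • x₁) = qχ (aχ • xχ)

variable {q₁ qχ}

theorem Compat.add {a₁ b₁ : A₁} {aχ bχ : Aχ} (ha : Compat q₁ qχ a₁ aχ) (hb : Compat q₁ qχ b₁ bχ) :
    Compat q₁ qχ (a₁ + b₁) (aχ + bχ) := by
  intro x₁ xχ h
  rw [add_smul, add_smul, map_add, map_add, ha x₁ xχ h, hb x₁ xχ h]

theorem Compat.mul {a₁ b₁ : A₁} {aχ bχ : Aχ} (ha : Compat q₁ qχ a₁ aχ) (hb : Compat q₁ qχ b₁ bχ) :
    Compat q₁ qχ (a₁ * b₁) (aχ * bχ) := by
  intro x₁ xχ h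
  rw [mul_smul, mul_smul]
  exact ha _ _ (hb x₁ xχ h)

theorem Compat.of_zero {a₁ : A₁} {aχ : Aχ} (h₁ : ∀ x, q₁ (a₁ • x) = 0)
    (hχ : ∀ x, qχ (aχ • x) = 0) : Compat q₁ qχ a₁ aχ := by
  intro x₁ xχ _
  rw [h₁, hχ]

theorem Compat.neg {a₁ : A₁} {aχ : Aχ} (ha : Compat q₁ qχ a₁ aχ) :
    Compat q₁ qχ (-a₁) (-aχ) := by
  intro x₁ xχ h
  rw [neg_smul, neg_smul, map_neg, map_neg, ha x₁ xχ h]

theorem Compat.sub {a₁ b₁ : A₁} {aχ bχ : Aχ} (ha : Compat q₁ qχ a₁ aχ)
    (hb : Compat q₁ qχ b₁ bχ) : Compat q₁ qχ (a₁ - b₁) (aχ - bχ) := by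
  rw [sub_eq_add_neg, sub_eq_add_neg]
  exact ha.add hb.neg

theorem Compat.one : Compat q₁ qχ (1 : A₁) (1 : Aχ) := by
  intro x₁ xχ h
  rwa [one_smul, one_smul]

theorem Compat.natCast (n : ℕ) : Compat q₁ qχ (n : A₁) (n : Aχ) := by
  induction n with
  | zero =>
    intro x₁ xχ _
    simp
  | succ n ih =>
    rw [Nat.cast_succ, Nat.cast_succ]
    exact ih.add Compat.one

/-- the inverses of two compatible units are compatible (`qχ` onto, its kernel `Aχ`-stable) -/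
theorem Compat.inv (hqχ : Function.Surjective qχ)
    (hkχ : ∀ (a : Aχ) (x : Nχ), qχ x = 0 → qχ (a • x) = 0)
    {u₁ v₁ : A₁} {uχ vχ : Aχ} (hu : Compat q₁ qχ u₁ uχ) (h₁ : u₁ * v₁ = 1) (hχ : uχ * vχ = 1) :
    Compat q₁ qχ v₁ vχ := by
  intro x₁ xχ h
  obtain ⟨zχ, hz⟩ := hqχ (q₁ (v₁ • x₁))
  have h1 := hu (v₁ • x₁) zχ hz.symm
  rw [← mul_smul, h₁, one_smul, h] at h1
  have h2 : qχ (xχ - uχ • zχ) = 0 := by rw [map_sub, h1, sub_self]
  have h3 := hkχ vχ _ h2
  rw [smul_sub, ← mul_smul, mul_comm, hχ, one_smul, map_sub, sub_eq_zero] at h3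
  rw [h3, hz]

end Compat

section Closure

variable {O : Type*} [CommRing O] {σ : Type*} [Finite σ]
  {A₁ Aχ : Type*} [CommRing A₁] [CommRing Aχ]
  {N₁ Nχ Nb : Type*} [AddCommGroup N₁] [AddCommGroup Nχ] [AddCommGroup Nb]
  [Module A₁ N₁] [Module Aχ Nχ] (q₁ : N₁ →+ Nb) (qχ : Nχ →+ Nb)
  (θ₁ : MvPowerSeries σ O →+* A₁) (θχ : MvPowerSeries σ O →+* Aχ)

/-- the series acting by `0` on the quotient -/
def zeroIdeal {A N : Type*} [CommRing A] [AddCommGroup N] [Module A N] (q : N →+ Nb)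
    (θ : MvPowerSeries σ O →+* A) : Ideal (MvPowerSeries σ O) where
  carrier := {f | ∀ x : N, q (θ f • x) = 0}
  add_mem' := by
    intro a b ha hb x
    rw [map_add, add_smul, map_add, ha x, hb x, add_zero]
  zero_mem' := by
    intro x
    rw [map_zero, zero_smul, map_zero]
  smul_mem' := by
    intro c a ha x
    rw [smul_eq_mul, mul_comm, map_mul, mul_smul]
    exact ha _

theorem exists_pow_le_zeroIdeal {A N : Type*} [CommRing A] [AddCommGroup N] [Module A N]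
    (q : N →+ Nb) (θ : MvPowerSeries σ O →+* A)
    (hnil : ∀ v, ∃ k : ℕ, ∀ x : N, q (θ (MvPowerSeries.X v) ^ k • x) = 0) :
    ∃ m : ℕ, Ideal.span (Set.range fun v => (MvPowerSeries.X v : MvPowerSeries σ O)) ^ m ≤
      zeroIdeal (O := O) q θ := by
  refine Ideal.exists_pow_le_of_le_radical_of_fg ?_ (Submodule.fg_span (Set.finite_range _))
  rw [Ideal.span_le]
  rintro _ ⟨v, rfl⟩
  obtain ⟨k, hk⟩ := hnil v
  refine ⟨k, fun x => ?_⟩
  rw [map_pow]
  exact hk x

/-- **the compatibility on the variables (and the constants) gives the compatibility of the two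
actions of the whole power series ring.** -/
theorem compat_of_forall_X
    (hC : ∀ a : O, Compat q₁ qχ (θ₁ (MvPowerSeries.C a)) (θχ (MvPowerSeries.C a)))
    (hX : ∀ v, Compat q₁ qχ (θ₁ (MvPowerSeries.X v)) (θχ (MvPowerSeries.X v)))
    (hnil₁ : ∀ v, ∃ k : ℕ, ∀ x : N₁, q₁ (θ₁ (MvPowerSeries.X v) ^ k • x) = 0)
    (hnilχ : ∀ v, ∃ k : ℕ, ∀ x : Nχ, qχ (θχ (MvPowerSeries.X v) ^ k • x) = 0)
    (f : MvPowerSeries σ O) : Compat q₁ qχ (θ₁ f) (θχ f) := by
  obtain ⟨m₁, hm₁⟩ := exists_pow_le_zeroIdeal (O := O) q₁ θ₁ hnil₁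
  obtain ⟨mχ, hmχ⟩ := exists_pow_le_zeroIdeal (O := O) qχ θχ hnilχ
  obtain ⟨g, hg⟩ := Fermat.Agent.S43.Patch.GroupRing.exists_polynomial_sub_mem (max m₁ mχ) f
  have hpoly : ∀ g : MvPolynomial σ O,
      Compat q₁ qχ (θ₁ (g : MvPowerSeries σ O)) (θχ (g : MvPowerSeries σ O)) := by
    intro g
    induction g using MvPolynomial.induction_on with
    | C a =>
      rw [MvPolynomial.coe_C]
      exact hC a
    | add p q hp hq =>
      rw [MvPolynomial.coe_add, map_add, map_add]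
      exact hp.add hq
    | mul_X p v hp =>
      rw [MvPolynomial.coe_mul, MvPolynomial.coe_X, map_mul, map_mul]
      exact hp.mul (hX v)
  have hrem : Compat q₁ qχ (θ₁ (f - (g : MvPowerSeries σ O))) (θχ (f - (g : MvPowerSeries σ O))) :=
    Compat.of_zero (fun x => hm₁ (Ideal.pow_le_pow_right (le_max_left _ _) hg) x)
      (fun x => hmχ (Ideal.pow_le_pow_right (le_max_right _ _) hg) x)
  have hf : f = (f - (g : MvPowerSeries σ O)) + (g : MvPowerSeries σ O) := by ring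
  rw [hf, map_add, map_add]
  exact hrem.add (hpoly g)

end Closure

/-! ### the module structure on the common quotient -/

section Descent

variable {A B : Type*} [CommRing A] [CommRing B] {N Nb : Type*} [AddCommGroup N] [AddCommGroup Nb]
  [Module A N] (π : A →+* B) (hπ : Function.Surjective π) (q : N →+ Nb)
  (hq : Function.Surjective q)
  (hwd : ∀ (a a' : A) (x x' : N), π a = π a' → q x = q x' → q (a • x) = q (a' • x'))

/-- the descended scalar multiplication, by chosen lifts -/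
@[reducible] def smulDescent : SMul B Nb := ⟨fun b y => q ((hπ b).choose • (hq y).choose)⟩

include hwd in
theorem smulDescent_apply (a : A) (x : N) :
    letI := smulDescent π hπ q hq
    π a • q x = q (a • x) := by
  letI := smulDescent π hπ q hq
  show q ((hπ (π a)).choose • (hq (q x)).choose) = q (a • x)
  exact hwd _ _ _ _ (hπ (π a)).choose_spec (hq (q x)).choose_spec

/-- **`Nb` is a module over `B`** when the action of `A` on `N` descends. -/
@[reducible] def moduleDescent : Module B Nb :=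
  letI := smulDescent π hπ q hq
  have key : ∀ (a : A) (x : N), π a • q x = q (a • x) := smulDescent_apply π hπ q hq hwd
  { one_smul := by
      intro y
      obtain ⟨x, rfl⟩ := hq y
      rw [← map_one π, key, one_smul]
    mul_smul := by
      intro b b' y
      obtain ⟨x, rfl⟩ := hq y
      obtain ⟨a, rfl⟩ := hπ b
      obtain ⟨a', rfl⟩ := hπ b'
      rw [← map_mul, key, key, key, mul_smul]
    smul_zero := by
      intro b
      obtain ⟨a, rfl⟩ := hπ b
      have := key a 0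
      rwa [map_zero, smul_zero, map_zero] at this
    smul_add := by
      intro b y y'
      obtain ⟨x, rfl⟩ := hq y
      obtain ⟨x', rfl⟩ := hq y'
      obtain ⟨a, rfl⟩ := hπ b
      rw [← map_add, key, key, key, smul_add, map_add]
    add_smul := by
      intro b b' y
      obtain ⟨x, rfl⟩ := hq y
      obtain ⟨a, rfl⟩ := hπ b
      obtain ⟨a', rfl⟩ := hπ b'
      rw [← map_add, key, key, key, add_smul, map_add]
    zero_smul := by
      intro y
      obtain ⟨x, rfl⟩ := hq y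
      rw [← map_zero π, key, zero_smul, map_zero] }

include hwd in
theorem moduleDescent_apply (a : A) (x : N) :
    letI := moduleDescent π hπ q hq hwd
    π a • q x = q (a • x) :=
  smulDescent_apply π hπ q hq hwd a x

end Descent

/-! ### the adapter -/

section Adapter

variable {O : Type*} [CommRing O] {r : ℕ} {σ : Type*} [Finite σ]
  {A₁ Aχ Abar : Type*} [CommRing A₁] [CommRing Aχ] [CommRing Abar]
  (π₁ : A₁ →+* Abar) (πχ : Aχ →+* Abar)
  (θ₁ : MvPowerSeries σ O →+* A₁) (θχ : MvPowerSeries σ O →+* Aχ)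
  (ϖ : O)

/-- **RS9 : a `DatumJ` from the two Hecke modules, their common reduction, and the compatibility
of the two actions on the variables of the local model.** -/
theorem nonempty_datumJ
    (hθχ : Function.Surjective θχ)
    (hπθ : ∀ f, π₁ (θ₁ f) = πχ (θχ f)) (hπ₁ : Function.Surjective π₁)
    (hker : ∀ a : A₁, π₁ a = 0 → ∃ a' : A₁, a = θ₁ (MvPowerSeries.C ϖ) * a')
    (mS 𝔞 : Ideal (MvPowerSeries (Fin r) O)) (J : Ideal A₁) (d n : ℕ)
    {N₁ Nχ Nb : Type u} [AddCommGroup N₁] [AddCommGroup Nχ] [AddCommGroup Nb]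
    [Module (MvPowerSeries (Fin r) O) N₁] [Module (MvPowerSeries (Fin r) O) Nχ]
    [Module (MvPowerSeries (Fin r) O) Nb] [Module A₁ N₁] [Module Aχ Nχ]
    (φ₁ : MvPowerSeries (Fin r) O →+* A₁) (φχ : MvPowerSeries (Fin r) O →+* Aχ)
    (hφ₁ : ∀ (s : MvPowerSeries (Fin r) O) (x : N₁), φ₁ s • x = s • x)
    (hφχ : ∀ (s : MvPowerSeries (Fin r) O) (x : Nχ), φχ s • x = s • x)
    (hφ₁C : ∀ a : O, φ₁ (MvPowerSeries.C a) = θ₁ (MvPowerSeries.C a))
    (hφχC : ∀ a : O, φχ (MvPowerSeries.C a) = θχ (MvPowerSeries.C a))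
    (free₁ : ∃ b : Fin d → N₁, IsBasisMod (mS ^ n) b)
    (freeχ : ∃ b : Fin d → Nχ, IsBasisMod (mS ^ n) b)
    (q₁ : N₁ →ₗ[MvPowerSeries (Fin r) O] Nb) (qχ : Nχ →ₗ[MvPowerSeries (Fin r) O] Nb)
    (hq₁ : Function.Surjective q₁) (hqχ : Function.Surjective qχ)
    (hq₁ker : ∀ x : N₁, q₁ x = 0 ↔ ∃ x' : N₁, x = (MvPowerSeries.C ϖ : MvPowerSeries (Fin r) O) • x')
    (hqχker : ∀ x : Nχ, qχ x = 0 ↔ ∃ x' : Nχ, x = (MvPowerSeries.C ϖ : MvPowerSeries (Fin r) O) • x')
    (hX : ∀ v, Compat q₁.toAddMonoidHom qχ.toAddMonoidHom (θ₁ (MvPowerSeries.X v))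
      (θχ (MvPowerSeries.X v)))
    (hnil₁ : ∀ v, ∃ k : ℕ, ∀ x : N₁, q₁ (θ₁ (MvPowerSeries.X v) ^ k • x) = 0)
    (hnilχ : ∀ v, ∃ k : ℕ, ∀ x : Nχ, qχ (θχ (MvPowerSeries.X v) ^ k • x) = 0)
    (hJ : ∀ a ∈ J, ∀ x : N₁, a • x ∈ (𝔞 • ⊤ : Submodule (MvPowerSeries (Fin r) O) N₁)) :
    Nonempty (DatumJ.{u} (MvPowerSeries (Fin r) O) A₁ Aχ Abar mS π₁ πχ (MvPowerSeries.C ϖ)
      (θ₁ (MvPowerSeries.C ϖ)) (θχ (MvPowerSeries.C ϖ)) 𝔞 J d n) := by
  classical
  -- the constants are compatible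
  have hC : ∀ a : O, Compat q₁.toAddMonoidHom qχ.toAddMonoidHom (θ₁ (MvPowerSeries.C a))
      (θχ (MvPowerSeries.C a)) := by
    intro a x₁ xχ h
    show q₁ (θ₁ (MvPowerSeries.C a) • x₁) = qχ (θχ (MvPowerSeries.C a) • xχ)
    rw [← hφ₁C, ← hφχC, hφ₁, hφχ, map_smul, map_smul]
    exact congrArg _ h
  have hall : ∀ f : MvPowerSeries σ O,
      Compat q₁.toAddMonoidHom qχ.toAddMonoidHom (θ₁ f) (θχ f) :=
    compat_of_forall_X q₁.toAddMonoidHom qχ.toAddMonoidHom θ₁ θχ hC hX hnil₁ hnilχ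
  -- `ϖ` kills `Nb`
  have hϖ : ∀ y : Nb, (MvPowerSeries.C ϖ : MvPowerSeries (Fin r) O) • y = 0 := by
    intro y
    obtain ⟨x, rfl⟩ := hq₁ y
    rw [← map_smul]
    exact (hq₁ker _).mpr ⟨x, rfl⟩
  -- the action of `A₁` descends
  have hwd : ∀ (a a' : A₁) (x x' : N₁), π₁ a = π₁ a' → q₁.toAddMonoidHom x = q₁.toAddMonoidHom x' →
      q₁.toAddMonoidHom (a • x) = q₁.toAddMonoidHom (a' • x') := by
    intro a a' x x' ha hx
    show q₁ (a • x) = q₁ (a' • x')
    have hx' : q₁ x = q₁ x' := hx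
    have h1 : π₁ (a - a') = 0 := by rw [map_sub, ha, sub_self]
    obtain ⟨a'', ha''⟩ := hker _ h1
    have h2 : q₁ (x - x') = 0 := by rw [map_sub, hx', sub_self]
    obtain ⟨z, hz⟩ := (hq₁ker _).mp h2
    have h3 : a • x - a' • x' = (a - a') • x + a' • (x - x') := by
      rw [sub_smul, smul_sub]
      abel
    rw [← sub_eq_zero, ← map_sub, h3, map_add, ha'', hz, mul_smul, ← hφ₁C, hφ₁, map_smul, hϖ,
      zero_add, ← hφ₁ (MvPowerSeries.C ϖ) z, smul_comm, hφ₁, map_smul, hϖ]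
  letI modAb : Module Abar Nb := moduleDescent π₁ hπ₁ q₁.toAddMonoidHom hq₁ hwd
  have key : ∀ (a : A₁) (x : N₁), π₁ a • q₁ x = q₁ (a • x) :=
    moduleDescent_apply π₁ hπ₁ q₁.toAddMonoidHom hq₁ hwd
  refine ⟨{
    N₁ := N₁
    Nχ := Nχ
    Nb := Nb
    φ₁ := φ₁
    φχ := φχ
    φ₁_smul := hφ₁
    φχ_smul := hφχ
    φ₁_lam := hφ₁C ϖ
    φχ_lam := hφχC ϖ
    free₁ := free₁
    freeχ := freeχ
    q₁ := q₁
    qχ := qχ
    q₁_surj := hq₁
    qχ_surj := hqχ
    q₁_ker := ?_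
    qχ_ker := ?_
    q₁_smul := fun a x => (key a x).symm
    qχ_smul := ?_
    J_smul := hJ }⟩
  · intro x hx
    obtain ⟨x', rfl⟩ := (hq₁ker x).mp hx
    exact Submodule.smul_mem_smul (Ideal.subset_span rfl) Submodule.mem_top
  · intro x hx
    obtain ⟨x', rfl⟩ := (hqχker x).mp hx
    exact Submodule.smul_mem_smul (Ideal.subset_span rfl) Submodule.mem_top
  · intro a x
    obtain ⟨f, rfl⟩ := hθχ a
    obtain ⟨x₁, hx₁⟩ := hq₁ (qχ x)
    rw [← hπθ f, ← hx₁, key]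
    exact (hall f x₁ x hx₁).symm

end Adapter

/-! ### the maps `φ` -/

section Phi

variable {O : Type*} [CommRing O] [IsLocalRing O] [IsAdicComplete (IsLocalRing.maximalIdeal O) O]
  {A : Type*} [CommRing A] [IsLocalRing A] [Algebra O A]
  [IsAdicComplete (IsLocalRing.maximalIdeal A) A] [IsLocalHom (algebraMap O A)]
  {r : ℕ} {N : Type*} [AddCommGroup N] [Module O N] [Module (MvPowerSeries (Fin r) O) N]
  [Module A N] [IsScalarTower O (MvPowerSeries (Fin r) O) N] [IsScalarTower O A N]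

/-- **the map `S → A` of a level**: if `a i ∈ 𝔪_A` acts on `N` as the variable `X i` of `S`, the
evaluation map `φ : S → A`, `X i ↦ a i`, acts on `N` as `S` does (`N` separated, the variables
topologically nilpotent). -/
theorem exists_phi (𝔪 : Ideal O)
    (hsep : ∀ x : N, (∀ n, x ∈ (𝔪 ^ n • ⊤ : Submodule O N)) → x = 0)
    (hnil : ∀ i : Fin r, ∃ k : ℕ, ∀ x : N,
      (MvPowerSeries.X i : MvPowerSeries (Fin r) O) ^ k • x ∈ (𝔪 • ⊤ : Submodule O N))
    (a : Fin r → A) (ha : ∀ i, a i ∈ IsLocalRing.maximalIdeal A)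
    (hact : ∀ (i : Fin r) (x : N), a i • x = (MvPowerSeries.X i : MvPowerSeries (Fin r) O) • x) :
    ∃ φ : MvPowerSeries (Fin r) O →ₐ[O] A, (∀ i, φ (MvPowerSeries.X i) = a i) ∧
      ∀ (s : MvPowerSeries (Fin r) O) (x : N), φ s • x = s • x := by
  obtain ⟨φ, hφ⟩ := Fermat.Agent.S43.Local.Universal.exists_algHom_X_eq (O := O) (T := A) a ha
  refine ⟨φ, hφ, fun s x => ?_⟩
  have h := Fermat.Agent.S43.Patch.PSExt.smul_eq_of_forall_X (M := N)
    (AlgHom.id O (MvPowerSeries (Fin r) O)) φ 𝔪 hsep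
    (fun i => by simpa using hnil i)
    (fun i x => by rw [AlgHom.id_apply, hφ i, hact i x]) s x
  rw [← h, AlgHom.id_apply]

end Phi

end Fermat.Agent.S43.RSide.Out
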