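/-
PROJECT R (S43, row 37), block RS (leader helper21), brick RS11: THE FEED OF THE PATCHING AT ONE
LEVEL, pure algebra (no Galois group in this file).

From helper24's `HeckeSide` (the three Hecke modules `M1`, `Mχ`, `Mb` over `𝒪[Δ]`, the level-zero
module `M0`), the actions of `A1 κ q` (`= R_∞^1`) on `M1` and of `Achi κ e` (`= R_∞^χ`) on `Mχ`
(through the maps `Θ` of `RSide/Theta`), the compatibility of the two actions ON THE VARIABLES,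
elements acting as the variables of `S' = 𝒪⟦t_i⟧`, and the level-zero map `θ₀ : P 𝒪 ι Empty → T0`
compatible with `p0` ON THE LOCAL VARIABLES:

  a `LevelJ.DatumJ` for the LEVEL-INDEPENDENT ideal `Exit0.Jzero κ q θ₀ (2 r + 1)`.
-/
import Mathlib
import Fermat.Agent.S43.Patch.Adapter
import Fermat.Agent.S43.RSide.Out
import Fermat.Agent.S43.RSide.Exit0
import Fermat.Agent.S43.Patch.Quot
import Fermat.Agent.Lib.MvPSComplete

set_option autoImplicit false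
set_option linter.unusedSectionVars false
set_option linter.style.haveILetI false

noncomputable section

namespace Fermat.Agent.S43.RSide.Feed

open MvPowerSeries IsLocalRing
open Fermat.Agent.S43.Local.Model Fermat.Agent.S43.Local.Export
open Fermat.Agent.S43.Hecke.Seam
open Fermat.Agent.S43.Patch.Level Fermat.Agent.S43.Patch.LevelJ
open Fermat.Agent.S43.RSide.Out Fermat.Agent.S43.RSide.Exit0

universe u

/-! ### two actions of a power series ring in finitely many variables -/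

section PSExt

variable {O : Type*} [CommRing O] {σ : Type*} [Finite σ] {M : Type*} [AddCommGroup M] [Module O M]
  {T A : Type*} [CommRing T] [CommRing A] [Algebra O T] [Algebra O A] [Module T M]
  [Module A M] [IsScalarTower O T M] [IsScalarTower O A M]

/-- `Patch/PSExt.smul_eq_of_forall_X` for any finite type of variables. -/
theorem smul_eq_of_forall_X_finite (ψ₁ : MvPowerSeries σ O →ₐ[O] T)
    (ψ₂ : MvPowerSeries σ O →ₐ[O] A) (𝔪 : Ideal O)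
    (hsep : ∀ x : M, (∀ n, x ∈ (𝔪 ^ n • ⊤ : Submodule O M)) → x = 0)
    (hnil : ∀ v, ∃ k : ℕ, ∀ x : M, ψ₁ (X v) ^ k • x ∈ (𝔪 • ⊤ : Submodule O M))
    (hX : ∀ v (x : M), ψ₁ (X v) • x = ψ₂ (X v) • x)
    (s : MvPowerSeries σ O) (x : M) : ψ₁ s • x = ψ₂ s • x := by
  obtain ⟨r, ⟨e⟩⟩ := Finite.exists_equiv_fin σ
  have h := Fermat.Agent.S43.Patch.PSExt.smul_eq_of_forall_X (M := M)
    (ψ₁.comp (rename e.symm)) (ψ₂.comp (rename e.symm)) 𝔪 hsep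
    (fun i => by
      obtain ⟨k, hk⟩ := hnil (e.symm i)
      refine ⟨k, fun x => ?_⟩
      rw [AlgHom.comp_apply, rename_X]
      exact hk x)
    (fun i x => by
      rw [AlgHom.comp_apply, AlgHom.comp_apply, rename_X]
      exact hX _ x) (rename e s) x
  rw [AlgHom.comp_apply, AlgHom.comp_apply, rename_rename] at h
  have h1 : (⇑e.symm ∘ ⇑e) = id := by
    funext v
    simp
  simpa [h1] using h

end PSExt

/-! ### the action on the common reduction -/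

section Reduction

variable {A₁ Aχ Abar : Type*} [CommRing A₁] [CommRing Aχ] [CommRing Abar]
  {N₁ Nχ Nb : Type*} [AddCommGroup N₁] [AddCommGroup Nχ] [AddCommGroup Nb]
  [Module A₁ N₁] [Module Aχ Nχ] (π₁ : A₁ →+* Abar) (q₁ : N₁ →+ Nb) (lam₁ : A₁)

/-- the action of `A₁` on `N₁` descends to an action of `Abar` on `Nb` : `ker π₁ = (lam₁)`,
`ker q₁ = lam₁ N₁`, `lam₁ Nb = 0`. -/
theorem hwd_of_ker
    (hker : ∀ a : A₁, π₁ a = 0 → ∃ a' : A₁, a = lam₁ * a')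
    (hlamb : ∀ x : N₁, q₁ (lam₁ • x) = 0)
    (hq₁ker : ∀ x : N₁, q₁ x = 0 → ∃ x' : N₁, x = lam₁ • x')
    (a a' : A₁) (x x' : N₁) (ha : π₁ a = π₁ a') (hx : q₁ x = q₁ x') :
    q₁ (a • x) = q₁ (a' • x') := by
  have h1 : π₁ (a - a') = 0 := by rw [map_sub, ha, sub_self]
  obtain ⟨a'', ha''⟩ := hker _ h1
  have h2 : q₁ (x - x') = 0 := by rw [map_sub, hx, sub_self]
  obtain ⟨z, hz⟩ := hq₁ker _ h2
  have h3 : a • x - a' • x' = (a - a') • x + a' • (x - x') := by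
    rw [sub_smul, smul_sub]
    abel
  rw [← sub_eq_zero, ← map_sub, h3, map_add, ha'', hz, mul_smul, hlamb, zero_add, smul_comm, hlamb]

end Reduction

/-! ### the level -/

section Level

attribute [local instance] HeckeSide.acg1 HeckeSide.acgχ HeckeSide.acgb HeckeSide.mod1
  HeckeSide.modχ HeckeSide.modb

variable {𝒪 : Type u} [CommRing 𝒪] {ϖ : 𝒪} {Δ : Type u} [CommGroup Δ] {I : Type u}
  {M0 : Type u} [AddCommGroup M0] [Module 𝒪 M0] {t0 : I → Module.End 𝒪 M0} {d : ℕ}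
  (H : HeckeSide 𝒪 ϖ Δ I M0 t0 d)

/-- `p0` is semilinear along the augmentation. -/
theorem p0_smul_aug (t : MonoidAlgebra 𝒪 Δ) (x : H.M1) :
    H.p0 (t • x) = Fermat.Agent.S43.Patch.GroupRing.aug 𝒪 Δ t • H.p0 x := by
  induction t using MonoidAlgebra.induction_linear with
  | zero => rw [zero_smul, map_zero, map_zero, zero_smul]
  | add f g hf hg => rw [add_smul, map_add, hf, hg, map_add, add_smul]
  | single δ a => rw [H.p0_smul, Fermat.Agent.S43.Patch.GroupRing.aug_single]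

/-- the kernel of `p0` is stable under every additive endomorphism commuting with `𝒪[Δ]`. -/
theorem p0_eq_zero_of_comm (φ : H.M1 →+ H.M1)
    (hφ : ∀ (t : MonoidAlgebra 𝒪 Δ) (x : H.M1), φ (t • x) = t • φ x) (x : H.M1)
    (hx : H.p0 x = 0) : H.p0 (φ x) = 0 := by
  have key : ∀ y ∈ (Submodule.span (MonoidAlgebra 𝒪 Δ) {y : H.M1 | ∃ (δ : Δ) (z : H.M1),
      y = (MonoidAlgebra.single δ (1 : 𝒪) : MonoidAlgebra 𝒪 Δ) • z - z}), H.p0 (φ y) = 0 := by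
    intro y hmem
    induction hmem using Submodule.span_induction with
    | mem y hy =>
      obtain ⟨δ, z, rfl⟩ := hy
      rw [map_sub, hφ, map_sub, H.p0_smul, one_smul, sub_self]
    | zero => rw [map_zero, map_zero]
    | add y z _ _ hy hz => rw [map_add, map_add, hy, hz, add_zero]
    | smul t y _ hy => rw [hφ, p0_smul_aug, hy, smul_zero]
  exact key x (H.p0_ker x hx)

variable {A : Type*} [CommRing A] [Module A H.M1]
  (hcomm : ∀ (a : A) (t : MonoidAlgebra 𝒪 Δ) (x : H.M1), a • t • x = t • a • x)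

include hcomm in
theorem hwd_p0 (a a' : A) (x x' : H.M1) (ha : RingHom.id A a = RingHom.id A a')
    (hx : H.p0 x = H.p0 x') : H.p0 (a • x) = H.p0 (a' • x') := by
  have ha' : a = a' := ha
  subst ha'
  have h2 : H.p0 (x - x') = 0 := by rw [map_sub, hx, sub_self]
  have h3 := p0_eq_zero_of_comm H (DistribSMul.toAddMonoidHom H.M1 a)
    (fun t y => hcomm a t y) _ h2
  have h4 : H.p0 (a • (x - x')) = 0 := h3
  rw [smul_sub, map_sub, sub_eq_zero] at h4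
  exact h4

/-- **the action on the level-zero module**, by descent along `p0`. -/
@[reducible] def modM0 : Module A M0 :=
  moduleDescent (RingHom.id A) Function.surjective_id H.p0 H.p0_surj (hwd_p0 H hcomm)

theorem p0_smul_modM0 (a : A) (x : H.M1) :
    letI := modM0 H hcomm
    H.p0 (a • x) = a • H.p0 x :=
  (moduleDescent_apply (RingHom.id A) Function.surjective_id H.p0 H.p0_surj (hwd_p0 H hcomm)
    a x).symm

end Level

/-! ### the maps `φ` from the diamond side -/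

section PhiGamma

open Fermat.Agent.S43.Patch.GroupRing Fermat.Agent.S43.Patch.GroupRingInv
  Fermat.Agent.S43.Patch.EvenOdd Fermat.Agent.S43.Patch.Adapter

variable {𝒪 : Type*} [CommRing 𝒪] [IsLocalRing 𝒪] {Δ : Type*} [CommGroup Δ]
  {r : ℕ} {p : ℕ} [Fact p.Prime] (N : Fin r → ℕ)
  (e : Δ ≃* ((i : Fin r) → Multiplicative (ZMod (p ^ N i))))
  (γ : MvPowerSeries (Fin r) 𝒪 →ₐ[𝒪] MonoidAlgebra 𝒪 Δ)

omit [IsLocalRing 𝒪] in
theorem zel_pow_mem (i : Fin r) :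
    zel 𝒪 (gen N e) i ^ p ^ N i ∈ Ideal.span {((p : ℕ) : MonoidAlgebra 𝒪 Δ)} := by
  rw [zel_eq, mul_pow]
  refine Ideal.mul_mem_left _ _ ?_
  refine sub_one_pow_prime_pow_mem (Fact.out : p.Prime) ?_
  rw [← map_pow, gen_pow, map_one]

variable {M : Type*} [AddCommGroup M] [Module (MonoidAlgebra 𝒪 Δ) M]

/-- the `𝒪`-module structure of an `𝒪[Δ]`-module -/
@[reducible] def modO : Module 𝒪 M := Module.compHom M (algebraMap 𝒪 (MonoidAlgebra 𝒪 Δ))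

omit [IsLocalRing 𝒪] in
theorem modO_smul (a : 𝒪) (x : M) :
    letI := modO (𝒪 := 𝒪) (Δ := Δ) (M := M)
    a • x = (MonoidAlgebra.single (1 : Δ) a : MonoidAlgebra 𝒪 Δ) • x := by
  letI := modO (𝒪 := 𝒪) (Δ := Δ) (M := M)
  show algebraMap 𝒪 (MonoidAlgebra 𝒪 Δ) a • x = _
  rw [MonoidAlgebra.coe_algebraMap]
  rfl

variable [IsNoetherianRing 𝒪] [IsAdicComplete (maximalIdeal 𝒪) 𝒪]
  {A : Type*} [CommRing A] [IsLocalRing A] [Algebra 𝒪 A] [IsAdicComplete (maximalIdeal A) A]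
  [IsLocalHom (algebraMap 𝒪 A)] [Module A M]

/-- **the map `S' → A` of a level** : elements `a i ∈ 𝔪_A` acting on the finite `𝒪[Δ]`-module `M` as
`γ (t_i) = z_i ^ 2` give `φ : S' → A` acting as `γ ∘ sq`. -/
theorem exists_phi_gamma [Module.Finite (MonoidAlgebra 𝒪 Δ) M]
    (hp𝒪 : (p : 𝒪) ∈ maximalIdeal 𝒪)
    (hγ : ∀ i, γ (MvPowerSeries.X i) = zel 𝒪 (gen N e) i)
    (hC : ∀ (a : 𝒪) (x : M),
      algebraMap 𝒪 A a • x = (MonoidAlgebra.single (1 : Δ) a : MonoidAlgebra 𝒪 Δ) • x)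
    (a : Fin r → A) (ha : ∀ i, a i ∈ maximalIdeal A)
    (hact : ∀ (i : Fin r) (x : M), a i • x = γ (sq 𝒪 (MvPowerSeries.X i)) • x) :
    ∃ φ : MvPowerSeries (Fin r) 𝒪 →ₐ[𝒪] A, (∀ i, φ (MvPowerSeries.X i) = a i) ∧
      ∀ (s : MvPowerSeries (Fin r) 𝒪) (x : M), φ s • x = γ (sq 𝒪 s) • x := by
  haveI : Finite Δ := finite_of_mulEquiv N e
  letI iO : Module 𝒪 M := modO (𝒪 := 𝒪) (Δ := Δ) (M := M)
  have hO : ∀ (c : 𝒪) (x : M), c • x = algebraMap 𝒪 (MonoidAlgebra 𝒪 Δ) c • x := fun _ _ => rfl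
  haveI t1 : IsScalarTower 𝒪 (MonoidAlgebra 𝒪 Δ) M := ⟨fun c t x => by
    rw [hO, Algebra.smul_def, mul_smul]⟩
  letI iS : Module (MvPowerSeries (Fin r) 𝒪) M :=
    Module.compHom M (γ.comp (sq 𝒪)).toRingHom
  have hS : ∀ (s : MvPowerSeries (Fin r) 𝒪) (x : M), s • x = γ (sq 𝒪 s) • x := fun _ _ => rfl
  haveI t2 : IsScalarTower 𝒪 (MvPowerSeries (Fin r) 𝒪) M := ⟨fun c s x => by
    rw [hS, hS, map_smul, map_smul, smul_assoc]⟩
  haveI t3 : IsScalarTower 𝒪 A M := ⟨fun c b x => by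
    rw [Algebra.smul_def, mul_smul, hC, modO_smul]⟩
  haveI : Module.Finite 𝒪 (MonoidAlgebra 𝒪 Δ) :=
    Module.Finite.of_basis (MonoidAlgebra.basis Δ 𝒪)
  haveI : Module.Finite 𝒪 M := Module.Finite.trans (MonoidAlgebra 𝒪 Δ) M
  have hsep : ∀ x : M, (∀ n, x ∈ ((maximalIdeal 𝒪) ^ n • ⊤ : Submodule 𝒪 M)) → x = 0 := by
    intro x hx
    have h1 : x ∈ (⨅ i : ℕ, (maximalIdeal 𝒪) ^ i • ⊤ : Submodule 𝒪 M) :=
      (Submodule.mem_iInf _).mpr hx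
    rw [Ideal.iInf_pow_smul_eq_bot_of_isLocalRing (maximalIdeal 𝒪)
      (Ideal.IsPrime.ne_top inferInstance)] at h1
    exact (Submodule.mem_bot 𝒪).mp h1
  have hnil : ∀ i : Fin r, ∃ k : ℕ, ∀ x : M,
      (MvPowerSeries.X i : MvPowerSeries (Fin r) 𝒪) ^ k • x ∈
        ((maximalIdeal 𝒪) • ⊤ : Submodule 𝒪 M) := by
    intro i
    refine ⟨p ^ N i, fun x => ?_⟩
    rw [hS, map_pow, map_pow, sq_X, map_pow, hγ, ← pow_mul, mul_comm, pow_mul]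
    obtain ⟨c, hc⟩ := Ideal.mem_span_singleton'.mp (zel_pow_mem (𝒪 := 𝒪) N e i)
    rw [← hc, mul_pow, sq ((p : ℕ) : MonoidAlgebra 𝒪 Δ), ← mul_assoc, mul_comm, mul_smul]
    have h2 : (((p : ℕ) : MonoidAlgebra 𝒪 Δ)) = algebraMap 𝒪 (MonoidAlgebra 𝒪 Δ) ((p : ℕ) : 𝒪) :=
      (map_natCast _ p).symm
    rw [h2, ← hO]
    exact Submodule.smul_mem_smul hp𝒪 Submodule.mem_top
  obtain ⟨φ, hφX, hφ⟩ := exists_phi (O := 𝒪) (A := A) (N := M) (maximalIdeal 𝒪) hsep hnil a ha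
    (fun i x => by rw [hact, hS])
  exact ⟨φ, hφX, fun s x => by rw [hφ, hS]⟩

end PhiGamma

/-! ### the feed -/

section Main

open Fermat.Agent.S43.Patch.GroupRing Fermat.Agent.S43.Patch.GroupRingInv
  Fermat.Agent.S43.Patch.EvenOdd Fermat.Agent.S43.Patch.Adapter Fermat.Agent.S43.Patch.Points

/-- a `DatumJ` for `J` is a `DatumJ` for every smaller ideal. -/
def datumJ_mono {S A₁ Aχ Abar : Type*} [CommRing S] [CommRing A₁] [CommRing Aχ]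
    [CommRing Abar] {mS : Ideal S} {π₁ : A₁ →+* Abar} {πχ : Aχ →+* Abar} {lam : S} {lam₁ : A₁}
    {lamχ : Aχ} {𝔞 : Ideal S} {J J' : Ideal A₁} (h : J' ≤ J) {d n : ℕ}
    (D : DatumJ.{u} S A₁ Aχ Abar mS π₁ πχ lam lam₁ lamχ 𝔞 J d n) :
    DatumJ.{u} S A₁ Aχ Abar mS π₁ πχ lam lam₁ lamχ 𝔞 J' d n where
  N₁ := D.N₁
  Nχ := D.Nχ
  Nb := D.Nb
  φ₁ := D.φ₁
  φχ := D.φχ
  φ₁_smul := D.φ₁_smul
  φχ_smul := D.φχ_smul
  φ₁_lam := D.φ₁_lam
  φχ_lam := D.φχ_lam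
  free₁ := D.free₁
  freeχ := D.freeχ
  q₁ := D.q₁
  qχ := D.qχ
  q₁_surj := D.q₁_surj
  qχ_surj := D.qχ_surj
  q₁_ker := D.q₁_ker
  qχ_ker := D.qχ_ker
  q₁_smul := D.q₁_smul
  qχ_smul := D.qχ_smul
  J_smul := fun a ha x => D.J_smul a (h ha) x

variable {𝒪 : Type u} [CommRing 𝒪] {ι κ : Type*}

theorem ker_pi1 (ϖ : 𝒪) (q : ι → 𝒪) (a : A1 κ q) (ha : pi1 ϖ q a = 0) :
    ∃ a' : A1 κ q, a = Ideal.Quotient.mk (relIdeal 𝒪 κ 0 q) (C ϖ) * a' := by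
  obtain ⟨f, rfl⟩ := Ideal.Quotient.mk_surjective a
  rw [pi1_mk, Ideal.Quotient.eq_zero_iff_mem] at ha
  obtain ⟨g, hg, h, hh, rfl⟩ := Submodule.mem_sup.mp ha
  obtain ⟨c, rfl⟩ := Ideal.mem_span_singleton'.mp hh
  refine ⟨Ideal.Quotient.mk _ c, ?_⟩
  rw [map_add, Ideal.Quotient.eq_zero_iff_mem.mpr hg, zero_add, map_mul, mul_comm]

theorem algebraMap_quot (J : Ideal (P 𝒪 ι κ)) (a : 𝒪) :
    algebraMap 𝒪 (P 𝒪 ι κ ⧸ J) a = Ideal.Quotient.mk J (C a) := rfl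

theorem isLocalHom_algebraMap_quot [IsLocalRing 𝒪] (J : Ideal (P 𝒪 ι κ)) (hJ : J ≠ ⊤) :
    IsLocalHom (algebraMap 𝒪 (P 𝒪 ι κ ⧸ J)) := by
  haveI : Nontrivial (P 𝒪 ι κ ⧸ J) := Ideal.Quotient.nontrivial_iff.mpr hJ
  haveI h1 : IsLocalHom (Ideal.Quotient.mk J) :=
    IsLocalHom.of_surjective _ Ideal.Quotient.mk_surjective
  constructor
  intro a ha
  rw [algebraMap_quot] at ha
  have h2 := h1.map_nonunit _ ha
  have h3 := h2.map (MvPowerSeries.constantCoeff (σ := Var ι κ) (R := 𝒪))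
  rwa [MvPowerSeries.constantCoeff_C] at h3

attribute [local instance] HeckeSide.acg1 HeckeSide.acgχ HeckeSide.acgb HeckeSide.mod1
  HeckeSide.modχ HeckeSide.modb

variable [IsLocalRing 𝒪] {ϖ : 𝒪} {Δ : Type u} [CommGroup Δ] {I : Type u}
  {M0 : Type u} [AddCommGroup M0] [Module 𝒪 M0] {t0 : I → Module.End 𝒪 M0} {d : ℕ}
  (H : HeckeSide 𝒪 ϖ Δ I M0 t0 d)

/-- **RS11, THE FEED** : the `DatumJ` of one level, for the level-independent ideal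
`Jzero κ q θ₀ (2 r + 1)`. -/
theorem nonempty_datumJ [Fintype ι] [Fintype κ]
    [IsNoetherianRing 𝒪] [IsAdicComplete (maximalIdeal 𝒪) 𝒪]
    (hϖb : ∀ y : H.Mb, (MonoidAlgebra.single (1 : Δ) ϖ : MonoidAlgebra 𝒪 Δ) • y = 0)
    {r : ℕ} {p : ℕ} [Fact p.Prime] (N : Fin r → ℕ)
    (e : Δ ≃* ((i : Fin r) → Multiplicative (ZMod (p ^ N i))))
    (γ : MvPowerSeries (Fin r) 𝒪 →ₐ[𝒪] MonoidAlgebra 𝒪 Δ)
    (h2 : IsUnit (2 : 𝒪)) (hp𝒪 : (p : 𝒪) ∈ maximalIdeal 𝒪)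
    (hsurj : Function.Surjective γ)
    (hγ : ∀ i, γ (MvPowerSeries.X i) = zel 𝒪 (gen N e) i)
    (hker : ∀ n, (∀ i, n ≤ N i) →
      RingHom.ker γ ≤ maximalIdeal (MvPowerSeries (Fin r) 𝒪) ^ n)
    -- the local model
    (e' q : ι → 𝒪) (he : ∀ i, ϖ ∣ e' i) (hq : ∀ i, ϖ ∣ q i - 1)
    (h1top : relIdeal 𝒪 κ 0 q ≠ ⊤) (hχtop : relIdeal 𝒪 κ e' 1 ≠ ⊤)
    -- the two actions
    [Module (A1 κ q) H.M1] [Module (Achi κ e') H.Mχ]
    (hcomm1 : ∀ (a : A1 κ q) (t : MonoidAlgebra 𝒪 Δ) (x : H.M1), a • t • x = t • a • x)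
    (hC1 : ∀ (a : 𝒪) (x : H.M1), (Ideal.Quotient.mk (relIdeal 𝒪 κ 0 q) (C a)) • x =
      (MonoidAlgebra.single (1 : Δ) a : MonoidAlgebra 𝒪 Δ) • x)
    (hCχ : ∀ (a : 𝒪) (x : H.Mχ), (Ideal.Quotient.mk (relIdeal 𝒪 κ e' 1) (C a)) • x =
      (MonoidAlgebra.single (1 : Δ) a : MonoidAlgebra 𝒪 Δ) • x)
    (hX : ∀ v : Var ι κ, Compat H.q1.toAddMonoidHom H.qχ.toAddMonoidHom
      (Ideal.Quotient.mk (relIdeal 𝒪 κ 0 q) (X v)) (Ideal.Quotient.mk (relIdeal 𝒪 κ e' 1) (X v)))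
    (hnil1 : ∀ v : Var ι κ, ∃ k : ℕ, ∀ x : H.M1,
      H.q1 ((Ideal.Quotient.mk (relIdeal 𝒪 κ 0 q) (X v)) ^ k • x) = 0)
    (hnilχ : ∀ v : Var ι κ, ∃ k : ℕ, ∀ x : H.Mχ,
      H.qχ ((Ideal.Quotient.mk (relIdeal 𝒪 κ e' 1) (X v)) ^ k • x) = 0)
    -- the diamond variables
    (a₁ : Fin r → A1 κ q) (ha₁ : ∀ i, ¬ IsUnit (a₁ i))
    (hact₁ : ∀ (i : Fin r) (x : H.M1), a₁ i • x = γ (sq 𝒪 (MvPowerSeries.X i)) • x)
    (aχ : Fin r → Achi κ e') (haχ : ∀ i, ¬ IsUnit (aχ i))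
    (hactχ : ∀ (i : Fin r) (x : H.Mχ), aχ i • x = γ (sq 𝒪 (MvPowerSeries.X i)) • x)
    -- level zero
    {T0 : Type*} [CommRing T0] [Algebra 𝒪 T0] [Module T0 M0] [IsScalarTower 𝒪 T0 M0]
    (θ₀ : P 𝒪 ι Empty →ₐ[𝒪] T0)
    (hsep0 : ∀ y : M0, (∀ n, y ∈ ((maximalIdeal 𝒪) ^ n • ⊤ : Submodule 𝒪 M0)) → y = 0)
    (hnil0 : ∀ v : Var ι Empty, ∃ k : ℕ, ∀ y : M0,
      θ₀ (X v) ^ k • y ∈ ((maximalIdeal 𝒪) • ⊤ : Submodule 𝒪 M0))
    (hX0 : ∀ (v : Var ι Empty) (x : H.M1),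
      H.p0 ((Ideal.Quotient.mk (relIdeal 𝒪 κ 0 q) (X (incl κ v))) • x) = θ₀ (X v) • H.p0 x)
    (n : ℕ) (hn : ∀ i, (2 * r + 2) * n ≤ N i) :
    Nonempty (DatumJ.{u} (MvPowerSeries (Fin r) 𝒪) (A1 κ q) (Achi κ e') (Abar κ ϖ q)
      (maximalIdeal (MvPowerSeries (Fin r) 𝒪)) (pi1 ϖ q) (pichi ϖ e' q he hq)
      (MvPowerSeries.C ϖ) (Ideal.Quotient.mk _ (C ϖ)) (Ideal.Quotient.mk _ (C ϖ))
      (augIdeal (Fin r) 𝒪) (Jzero κ q θ₀ (2 * r + 1)) (2 ^ r * d) n) := by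
  classical
  -- the rings
  haveI : IsAdicComplete (maximalIdeal (P 𝒪 ι κ)) (P 𝒪 ι κ) :=
    Fermat.Agent.Lib.MvPSComplete.isAdicComplete_maximalIdeal
  haveI : IsLocalRing (A1 κ q) := Fermat.Agent.S43.Patch.Quot.isLocalRing_quotient _ h1top
  haveI : IsAdicComplete (maximalIdeal (A1 κ q)) (A1 κ q) :=
    Fermat.Agent.S43.Patch.Quot.isAdicComplete_quotient _
  haveI : IsLocalRing (Achi κ e') := Fermat.Agent.S43.Patch.Quot.isLocalRing_quotient _ hχtop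
  haveI : IsAdicComplete (maximalIdeal (Achi κ e')) (Achi κ e') :=
    Fermat.Agent.S43.Patch.Quot.isAdicComplete_quotient _
  haveI : IsLocalHom (algebraMap 𝒪 (A1 κ q)) := isLocalHom_algebraMap_quot _ h1top
  haveI : IsLocalHom (algebraMap 𝒪 (Achi κ e')) := isLocalHom_algebraMap_quot _ hχtop
  haveI : Module.Finite (MonoidAlgebra 𝒪 Δ) H.M1 := by
    obtain ⟨b⟩ := H.basis1
    exact Module.Finite.of_basis b
  haveI : Module.Finite (MonoidAlgebra 𝒪 Δ) H.Mχ := by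
    obtain ⟨b⟩ := H.basisχ
    exact Module.Finite.of_basis b
  -- the maps `φ`
  obtain ⟨φ₁, -, hφ₁⟩ := exists_phi_gamma (A := A1 κ q) (M := H.M1) N e γ hp𝒪 hγ
    (fun a x => hC1 a x) a₁ (fun i => (mem_maximalIdeal _).mpr (ha₁ i)) hact₁
  obtain ⟨φχ, -, hφχ⟩ := exists_phi_gamma (A := Achi κ e') (M := H.Mχ) N e γ hp𝒪 hγ
    (fun a x => hCχ a x) aχ (fun i => (mem_maximalIdeal _).mpr (haχ i)) hactχ
  have hφ₁lam : (φ₁ : MvPowerSeries (Fin r) 𝒪 →+* A1 κ q) (MvPowerSeries.C ϖ) =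
      Ideal.Quotient.mk _ (C ϖ) := φ₁.commutes ϖ
  have hφχlam : (φχ : MvPowerSeries (Fin r) 𝒪 →+* Achi κ e') (MvPowerSeries.C ϖ) =
      Ideal.Quotient.mk _ (C ϖ) := φχ.commutes ϖ
  -- the action on the common reduction
  have hlamb : ∀ x : H.M1,
      H.q1.toAddMonoidHom ((Ideal.Quotient.mk (relIdeal 𝒪 κ 0 q) (C ϖ)) • x) = 0 := by
    intro x
    show H.q1 _ = 0
    rw [hC1, map_smul, hϖb]
  have hq1ker : ∀ x : H.M1, H.q1.toAddMonoidHom x = 0 →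
      ∃ x' : H.M1, x = (Ideal.Quotient.mk (relIdeal 𝒪 κ 0 q) (C ϖ)) • x' := by
    intro x hx
    obtain ⟨y, rfl⟩ := H.q1_ker x hx
    exact ⟨y, (hC1 ϖ y).symm⟩
  have hwd := hwd_of_ker (pi1 (κ := κ) ϖ q) H.q1.toAddMonoidHom
    (Ideal.Quotient.mk (relIdeal 𝒪 κ 0 q) (C ϖ)) (ker_pi1 ϖ q) hlamb hq1ker
  letI modAb : Module (Abar κ ϖ q) H.Mb :=
    moduleDescent (pi1 (κ := κ) ϖ q) (pi1_surjective ϖ q) H.q1.toAddMonoidHom H.q1_surj hwd
  have hq1 : ∀ (a : A1 κ q) (x : H.M1), H.q1 (a • x) = pi1 ϖ q a • H.q1 x := fun a x =>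
    (moduleDescent_apply (pi1 (κ := κ) ϖ q) (pi1_surjective ϖ q) H.q1.toAddMonoidHom H.q1_surj hwd
      a x).symm
  have hC : ∀ a : 𝒪, Compat H.q1.toAddMonoidHom H.qχ.toAddMonoidHom
      (Ideal.Quotient.mk (relIdeal 𝒪 κ 0 q) (C a)) (Ideal.Quotient.mk (relIdeal 𝒪 κ e' 1) (C a)) := by
    intro a x₁ xχ h
    show H.q1 _ = H.qχ _
    rw [hC1, hCχ, map_smul, map_smul]
    exact congrArg _ h
  have hall : ∀ f : P 𝒪 ι κ, Compat H.q1.toAddMonoidHom H.qχ.toAddMonoidHom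
      (Ideal.Quotient.mk (relIdeal 𝒪 κ 0 q) f) (Ideal.Quotient.mk (relIdeal 𝒪 κ e' 1) f) :=
    compat_of_forall_X H.q1.toAddMonoidHom H.qχ.toAddMonoidHom
      (Ideal.Quotient.mk (relIdeal 𝒪 κ 0 q)) (Ideal.Quotient.mk (relIdeal 𝒪 κ e' 1)) hC hX
      (fun v => hnil1 v) (fun v => hnilχ v)
  have hqχ : ∀ (a : Achi κ e') (x : H.Mχ),
      H.qχ (a • x) = pichi ϖ e' q he hq a • H.qχ x := by
    intro a x
    obtain ⟨f, rfl⟩ := Ideal.Quotient.mk_surjective a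
    obtain ⟨x₁, hx₁⟩ := H.q1_surj (H.qχ x)
    rw [pichi_mk, ← pi1_mk ϖ q f, ← hx₁, ← hq1]
    exact (hall f x₁ x hx₁).symm
  -- level zero
  letI modA0 : Module (A1 κ q) M0 := modM0 H hcomm1
  have hp0 : ∀ (a : A1 κ q) (x : H.M1), H.p0 (a • x) = a • H.p0 x := p0_smul_modM0 H hcomm1
  -- the datum for the annihilator
  have D := datumJ H N e γ (pi1 (κ := κ) ϖ q) (pichi ϖ e' q he hq)
    (Ideal.Quotient.mk _ (C ϖ)) (Ideal.Quotient.mk _ (C ϖ))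
    (φ₁ : MvPowerSeries (Fin r) 𝒪 →+* A1 κ q) (φχ : MvPowerSeries (Fin r) 𝒪 →+* Achi κ e')
    h2 hp𝒪 hsurj hγ hker hφ₁ hφχ hφ₁lam hφχlam hq1 hqχ hcomm1 hp0 n hn
  refine ⟨datumJ_mono ?_ D⟩
  refine Jzero_le_of_forall κ q θ₀ (2 * r + 1) (Module.annihilator (A1 κ q) M0) ?_
  intro f hf
  rw [Module.mem_annihilator]
  intro y
  -- the two actions of the small local model on `M0`
  haveI t3 : IsScalarTower 𝒪 (A1 κ q) M0 := ⟨fun c b y => by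
    obtain ⟨x, rfl⟩ := H.p0_surj y
    have hcb : c • b = Ideal.Quotient.mk (relIdeal 𝒪 κ 0 q) (C c) * b := Algebra.smul_def c b
    rw [← hp0, ← hp0, hcb, mul_smul, hC1, H.p0_smul]⟩
  have key := smul_eq_of_forall_X_finite (M := M0) θ₀ (epsBar κ q) (maximalIdeal 𝒪) hsep0 hnil0
    (fun v y => by
      obtain ⟨x, rfl⟩ := H.p0_surj y
      rw [epsBar_apply, eps_X, ← hp0, hX0]) f y
  rw [← key, hf, zero_smul]

end Main

end Fermat.Agent.S43.RSide.Feed
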