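/-
PROJECT R (S43), block RS (leader helper21), brick RS9 / FEED, part 3: **from the compatibility of
the TRACES to the compatibility of the VARIABLES of the local model.**  Pure algebra.

`T₁`, `Tχ` commutative rings acting on `M₁`, `Mχ`; `q₁ : M₁ → Nb ← Mχ : qχ` onto, with kernels
stable under `T₁`, `Tχ`; `Out.Compat q₁ qχ a₁ aχ` : `a₁`, `aχ` induce the same operator on `Nb`.
* (`Out.Compat.neg/.sub/.inv` : the compatible pairs form a subring closed under inverses);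
* `compat_rep` : two Cayley--Hamilton representations (`Rho/CH.rep`) with the SAME `c, g₀, h₀` and
  compatible trace functions have compatible matrix entries;
* `theta_sg_*`, `theta_ph_*` : the images of the variables of `P O ι κ` under a map `Θ` sending the
  universal matrices `SigmaU`, `PhiU` to `Σ`, `Φ`, as rational functions of the entries of `Σ`,
  `Φ` (denominator `tr Φ + 2 s`);
* `compat_vars` : the hypothesis `hX` of `Out.compat_of_forall_X`;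
* `compat_lucas`, `compat_of_approx`, `compat_trace` : the compatibility of the trace functions from
  the joint Frobenius approximation (`Rho/Props/JointRing.exists_joint_approx_ring`) and the
  compatibility of the Hecke operators `T_ℓ`.
-/
import Mathlib
import Fermat.Agent.S43.RSide.Out
import Fermat.Agent.S43.Rho.CH
import Fermat.Agent.S43.Local.Cayley
import Fermat.Agent.S31.Core

set_option autoImplicit false
set_option linter.unusedSectionVars false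

noncomputable section

namespace Fermat.Agent.S43.RSide.TraceCompat

open Fermat.Agent.S43.RSide.Out Fermat.Agent.S43.Rho Fermat.Agent.S43.Local.Model


/-! ### the compatibility of the traces from the joint approximation -/

section Trace

variable {T₁ Tχ : Type*} [CommRing T₁] [CommRing Tχ]
  {M₁ Mχ Nb : Type*} [AddCommGroup M₁] [AddCommGroup Mχ] [AddCommGroup Nb]
  [Module T₁ M₁] [Module Tχ Mχ] {q₁ : M₁ →+ Nb} {qχ : Mχ →+ Nb}

open Fermat.Agent.S31.Core in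
theorem compat_lucas {a₁ d₁ : T₁} {aχ dχ : Tχ} (ha : Compat q₁ qχ a₁ aχ)
    (hd : Compat q₁ qχ d₁ dχ) (j : ℕ) : Compat q₁ qχ (lucas a₁ d₁ j) (lucas aχ dχ j) := by
  have h2 : Compat q₁ qχ (2 : T₁) (2 : Tχ) := by
    simpa using Compat.natCast (q₁ := q₁) (qχ := qχ) 2
  have key : ∀ j, Compat q₁ qχ (lucas a₁ d₁ j) (lucas aχ dχ j) ∧
      Compat q₁ qχ (lucas a₁ d₁ (j + 1)) (lucas aχ dχ (j + 1)) := by
    intro j
    induction j with
    | zero => exact ⟨by simpa using h2, by simpa using ha⟩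
    | succ j ih =>
      refine ⟨ih.2, ?_⟩
      rw [lucas_add_two, lucas_add_two]
      exact (ha.mul ih.2).sub (hd.mul ih.1)
  exact (key j).1

/-- a pair which is approximated, modulo ideals acting by `0` on `Nb`, by compatible pairs is
compatible -/
theorem compat_of_approx (I₁ : Ideal T₁) (Iχ : Ideal Tχ)
    (h₁ : ∀ a ∈ I₁, ∀ x : M₁, q₁ (a • x) = 0) (hχ : ∀ a ∈ Iχ, ∀ x : Mχ, qχ (a • x) = 0)
    {u₁ : T₁} {uχ : Tχ}
    (happrox : ∃ (a₁ : T₁) (aχ : Tχ), Compat q₁ qχ a₁ aχ ∧ u₁ - a₁ ∈ I₁ ∧ uχ - aχ ∈ Iχ) :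
    Compat q₁ qχ u₁ uχ := by
  obtain ⟨a₁, aχ, ha, hu₁, huχ⟩ := happrox
  have e₁ : u₁ = a₁ + (u₁ - a₁) := by ring
  have eχ : uχ = aχ + (uχ - aχ) := by ring
  rw [e₁, eχ]
  exact ha.add (Compat.of_zero (h₁ _ hu₁) (hχ _ huχ))

open Fermat.Agent.S31.Core in
/-- **the trace functions are compatible**: at every `g` both are approximated by the SAME Lucas
polynomial of compatible Hecke operators (`JointRing.exists_joint_approx_ring`). -/
theorem compat_trace {G : Type*} (I₁ : Ideal T₁) (Iχ : Ideal Tχ)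
    (h₁ : ∀ a ∈ I₁, ∀ x : M₁, q₁ (a • x) = 0) (hχ : ∀ a ∈ Iχ, ∀ x : Mχ, qχ (a • x) = 0)
    (t₁ : G → T₁) (tχ : G → Tχ)
    (hjoint : ∀ g : G, ∃ (ℓ : ℕ) (τ : G) (j : ℕ), Compat q₁ qχ (t₁ τ) (tχ τ) ∧
      t₁ g - lucas (t₁ τ) ((ℓ : ℕ) : T₁) j ∈ I₁ ∧ tχ g - lucas (tχ τ) ((ℓ : ℕ) : Tχ) j ∈ Iχ)
    (g : G) : Compat q₁ qχ (t₁ g) (tχ g) := by
  obtain ⟨ℓ, τ, j, hτ, a1, a2⟩ := hjoint g
  exact compat_of_approx I₁ Iχ h₁ hχ
    ⟨_, _, compat_lucas hτ (Compat.natCast ℓ) j, a1, a2⟩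

end Trace

/-! ### the entries of two Cayley--Hamilton representations -/

section Rep

variable {T₁ Tχ : Type*} [CommRing T₁] [CommRing Tχ] [Invertible (2 : T₁)] [Invertible (2 : Tχ)]
  {E₁ Eχ : Type*} [Ring E₁] [Ring Eχ] [Algebra T₁ E₁] [Algebra Tχ Eχ] {G : Type*} [Group G]
  {M₁ Mχ Nb : Type*} [AddCommGroup M₁] [AddCommGroup Mχ] [AddCommGroup Nb]
  [Module T₁ M₁] [Module Tχ Mχ] {q₁ : M₁ →+ Nb} {qχ : Mχ →+ Nb}
  {r₁ : G →* E₁} {rχ : G →* Eχ} {t₁ : G → T₁} {tχ : G → Tχ} {d₁ : G →* T₁} {dχ : G →* Tχ}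
  {c g₀ h₀ : G}

variable (hqχ : Function.Surjective qχ)
  (hkχ : ∀ (a : Tχ) (x : Mχ), qχ x = 0 → qχ (a • x) = 0)
  (htr : ∀ g, Compat q₁ qχ (t₁ g) (tχ g))

include hqχ hkχ htr

theorem compat_half : Compat q₁ qχ (⅟2 : T₁) (⅟2 : Tχ) :=
  Compat.inv hqχ hkχ (by simpa using Compat.natCast (q₁ := q₁) (qχ := qχ) 2) (mul_invOf_self 2)
    (mul_invOf_self 2)

theorem compat_aT (g : G) : Compat q₁ qχ (CH.aT t₁ c g) (CH.aT tχ c g) :=
  (compat_half hqχ hkχ htr).mul ((htr g).add (htr (g * c)))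

theorem compat_dT (g : G) : Compat q₁ qχ (CH.dT t₁ c g) (CH.dT tχ c g) :=
  (compat_half hqχ hkχ htr).mul ((htr g).sub (htr (g * c)))

theorem compat_xT (g h : G) : Compat q₁ qχ (CH.xT t₁ c g h) (CH.xT tχ c g h) :=
  (compat_aT hqχ hkχ htr (g * h)).sub ((compat_aT hqχ hkχ htr g).mul (compat_aT hqχ hkχ htr h))

/-- **the entries of the two representations are compatible** -/
theorem compat_rep (H₁ : CH.Input r₁ t₁ d₁ c g₀ h₀) (Hχ : CH.Input rχ tχ dχ c g₀ h₀) (g : G)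
    (a b : Fin 2) : Compat q₁ qχ (CH.rep H₁ g a b) (CH.rep Hχ g a b) := by
  have hu : Compat q₁ qχ (CH.uinv H₁) (CH.uinv Hχ) :=
    Compat.inv hqχ hkχ (compat_xT hqχ hkχ htr g₀ h₀)
      (by rw [mul_comm]; exact CH.uinv_mul H₁) (by rw [mul_comm]; exact CH.uinv_mul Hχ)
  rw [CH.rep_apply, CH.rep_apply]
  fin_cases a <;> fin_cases b
  · exact compat_aT hqχ hkχ htr g
  · exact compat_xT hqχ hkχ htr g h₀
  · exact hu.mul (compat_xT hqχ hkχ htr g₀ g)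
  · exact compat_dT hqχ hkχ htr g

end Rep

/-! ### the images of the variables of the local model -/

section Vars

variable {O : Type*} [CommRing O] {T : Type*} [CommRing T] [Algebra O T] {ι κ : Type*}
  (Θ : P O ι κ →ₐ[O] T)

theorem theta_C (a : O) : Θ (MvPowerSeries.C a : P O ι κ) = algebraMap O T a := by
  have : (MvPowerSeries.C a : P O ι κ) = algebraMap O (P O ι κ) a := rfl
  rw [this, AlgHom.commutes]

variable {Θ}

theorem sigmaU_eq (τ : ι → O) (i : ι) :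
    SigmaU O κ τ i = (MvPowerSeries.C (τ i) : P O ι κ) • (1 : Matrix (Fin 2) (Fin 2) (P O ι κ))
      + B0 O κ i := rfl

theorem phiU_eq (s : ι → O) (i : ι) :
    PhiU O κ s i = ((MvPowerSeries.C (s i) : P O ι κ) * nrmInv O κ i) •
      ((1 + nrm O κ i) • (1 : Matrix (Fin 2) (Fin 2) (P O ι κ)) + (2 : P O ι κ) • A0 O κ i) := rfl

/-- the `Σ`-variables -/
theorem theta_sg (τ : ι → O) (i : ι) {Sg : Matrix (Fin 2) (Fin 2) T}
    (h : (SigmaU O κ τ i).map Θ = Sg) :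
    Θ (sg O κ i 0) = Sg 0 0 - algebraMap O T (τ i) ∧ Θ (sg O κ i 1) = Sg 0 1 ∧
      Θ (sg O κ i 2) = Sg 1 0 := by
  have h00 := congrFun (congrFun h 0) 0
  have h01 := congrFun (congrFun h 0) 1
  have h10 := congrFun (congrFun h 1) 0
  rw [sigmaU_eq] at h00 h01 h10
  simp only [Matrix.map_apply, B0, Matrix.add_apply, Matrix.smul_apply, smul_eq_mul,
    Matrix.one_apply_eq, Matrix.one_apply_ne (show (0 : Fin 2) ≠ 1 by decide),
    Matrix.one_apply_ne (show (1 : Fin 2) ≠ 0 by decide), mul_one, mul_zero, zero_add,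
    Matrix.of_apply, Matrix.cons_val_zero, Matrix.cons_val_one, Matrix.cons_val',
    Matrix.cons_val_fin_one, map_add, theta_C] at h00 h01 h10
  exact ⟨by rw [← h00]; ring, h01, h10⟩

/-- the `Φ`-variables: `w * Θ (ph i j)` is an entry combination of `Φ`, `w = tr Φ + 2 s` -/
theorem theta_ph (s : ι → O) (i : ι) {Φ : Matrix (Fin 2) (Fin 2) T}
    (h : (PhiU O κ s i).map Θ = Φ) :
    (Φ.trace + 2 * algebraMap O T (s i)) * Θ (ph O κ i 0) = Φ 0 0 - Φ 1 1 ∧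
    (Φ.trace + 2 * algebraMap O T (s i)) * Θ (ph O κ i 1) = 2 * Φ 0 1 ∧
    (Φ.trace + 2 * algebraMap O T (s i)) * Θ (ph O κ i 2) = 2 * Φ 1 0 := by
  have h00 := congrFun (congrFun h 0) 0
  have h01 := congrFun (congrFun h 0) 1
  have h10 := congrFun (congrFun h 1) 0
  have h11 := congrFun (congrFun h 1) 1
  have hm : (1 - Θ (nrm O κ i)) * Θ (nrmInv O κ i) = 1 := by
    rw [← map_one Θ, ← map_sub, ← map_mul, nrm_mul_nrmInv]
  rw [phiU_eq] at h00 h01 h10 h11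
  simp only [Matrix.map_apply, A0, Matrix.add_apply, Matrix.smul_apply, smul_eq_mul,
    Matrix.one_apply_eq, Matrix.one_apply_ne (show (0 : Fin 2) ≠ 1 by decide),
    Matrix.one_apply_ne (show (1 : Fin 2) ≠ 0 by decide), mul_one, mul_zero, zero_add,
    Matrix.of_apply, Matrix.cons_val_zero, Matrix.cons_val_one, Matrix.cons_val',
    Matrix.cons_val_fin_one, map_add, map_mul, map_neg, map_one, map_ofNat, theta_C]
    at h00 h01 h10 h11
  rw [Matrix.trace_fin_two, ← h00, ← h01, ← h10, ← h11]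
  refine ⟨?_, ?_, ?_⟩
  · linear_combination (-(2 * algebraMap O T (s i) * Θ (ph O κ i 0))) * hm
  · linear_combination (-(2 * algebraMap O T (s i) * Θ (ph O κ i 1))) * hm
  · linear_combination (-(2 * algebraMap O T (s i) * Θ (ph O κ i 2))) * hm

end Vars

/-! ### the compatibility on the variables -/

section Main

variable {O : Type*} [CommRing O] {T₁ Tχ : Type*} [CommRing T₁] [CommRing Tχ]
  [Algebra O T₁] [Algebra O Tχ] {ι κ : Type*}
  {M₁ Mχ Nb : Type*} [AddCommGroup M₁] [AddCommGroup Mχ] [AddCommGroup Nb]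
  [Module T₁ M₁] [Module Tχ Mχ] {q₁ : M₁ →+ Nb} {qχ : Mχ →+ Nb}
  (Θ₁ : P O ι κ →ₐ[O] T₁) (Θχ : P O ι κ →ₐ[O] Tχ)

/-- **the hypothesis `hX` of `Out.compat_of_forall_X`**, from the compatibility of the entries of
`Σ_i`, `Φ_i`, of the extra variables, and of the congruent constants. -/
theorem compat_vars (hqχ : Function.Surjective qχ)
    (hkχ : ∀ (a : Tχ) (x : Mχ), qχ x = 0 → qχ (a • x) = 0)
    (τ₁ τχ s : ι → O)
    (Sg₁ Φ₁ : ι → Matrix (Fin 2) (Fin 2) T₁) (Sgχ Φχ : ι → Matrix (Fin 2) (Fin 2) Tχ)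
    (hS₁ : ∀ i, (SigmaU O κ τ₁ i).map Θ₁ = Sg₁ i) (hSχ : ∀ i, (SigmaU O κ τχ i).map Θχ = Sgχ i)
    (hΦ₁ : ∀ i, (PhiU O κ s i).map Θ₁ = Φ₁ i) (hΦχ : ∀ i, (PhiU O κ s i).map Θχ = Φχ i)
    (hSg : ∀ i a b, Compat q₁ qχ (Sg₁ i a b) (Sgχ i a b))
    (hΦ : ∀ i a b, Compat q₁ qχ (Φ₁ i a b) (Φχ i a b))
    (hτ : ∀ i, Compat q₁ qχ (algebraMap O T₁ (τ₁ i)) (algebraMap O Tχ (τχ i)))
    (hs : ∀ i, Compat q₁ qχ (algebraMap O T₁ (s i)) (algebraMap O Tχ (s i)))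
    (hw₁ : ∀ i, IsUnit ((Φ₁ i).trace + 2 * algebraMap O T₁ (s i)))
    (hwχ : ∀ i, IsUnit ((Φχ i).trace + 2 * algebraMap O Tχ (s i)))
    (hex : ∀ k, Compat q₁ qχ (Θ₁ (ex O κ k)) (Θχ (ex O κ k))) :
    ∀ v : Var ι κ, Compat q₁ qχ (Θ₁ (MvPowerSeries.X v)) (Θχ (MvPowerSeries.X v)) := by
  have h2 : Compat q₁ qχ (2 : T₁) (2 : Tχ) := by
    simpa using Compat.natCast (q₁ := q₁) (qχ := qχ) 2
  -- the denominators
  have hw : ∀ i, Compat q₁ qχ ((Φ₁ i).trace + 2 * algebraMap O T₁ (s i))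
      ((Φχ i).trace + 2 * algebraMap O Tχ (s i)) := by
    intro i
    rw [Matrix.trace_fin_two, Matrix.trace_fin_two]
    exact ((hΦ i 0 0).add (hΦ i 1 1)).add (h2.mul (hs i))
  have hdiv : ∀ i (n₁ : T₁) (nχ : Tχ) (y₁ : T₁) (yχ : Tχ), Compat q₁ qχ n₁ nχ →
      ((Φ₁ i).trace + 2 * algebraMap O T₁ (s i)) * y₁ = n₁ →
      ((Φχ i).trace + 2 * algebraMap O Tχ (s i)) * yχ = nχ → Compat q₁ qχ y₁ yχ := by
    intro i n₁ nχ y₁ yχ hn h₁ hχ
    obtain ⟨u₁, hu₁⟩ := hw₁ i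
    obtain ⟨uχ, huχ⟩ := hwχ i
    have hinv : Compat q₁ qχ ((u₁⁻¹ : T₁ˣ) : T₁) ((uχ⁻¹ : Tχˣ) : Tχ) :=
      Compat.inv hqχ hkχ (hw i) (by rw [← hu₁, Units.mul_inv]) (by rw [← huχ, Units.mul_inv])
    have e₁ : y₁ = ((u₁⁻¹ : T₁ˣ) : T₁) * n₁ := by
      rw [← h₁, ← hu₁, ← mul_assoc, Units.inv_mul, one_mul]
    have eχ : yχ = ((uχ⁻¹ : Tχˣ) : Tχ) * nχ := by
      rw [← hχ, ← huχ, ← mul_assoc, Units.inv_mul, one_mul]
    rw [e₁, eχ]
    exact hinv.mul hn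
  rintro (⟨i, j⟩ | ⟨i, j⟩ | k)
  · obtain ⟨a0, a1, a2⟩ := theta_sg τ₁ i (hS₁ i)
    obtain ⟨b0, b1, b2⟩ := theta_sg τχ i (hSχ i)
    fin_cases j
    · show Compat q₁ qχ (Θ₁ (sg O κ i 0)) (Θχ (sg O κ i 0))
      rw [a0, b0]
      exact (hSg i 0 0).sub (hτ i)
    · show Compat q₁ qχ (Θ₁ (sg O κ i 1)) (Θχ (sg O κ i 1))
      rw [a1, b1]
      exact hSg i 0 1
    · show Compat q₁ qχ (Θ₁ (sg O κ i 2)) (Θχ (sg O κ i 2))
      rw [a2, b2]
      exact hSg i 1 0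
  · obtain ⟨a0, a1, a2⟩ := theta_ph s i (hΦ₁ i)
    obtain ⟨b0, b1, b2⟩ := theta_ph s i (hΦχ i)
    fin_cases j
    · exact hdiv i _ _ _ _ ((hΦ i 0 0).sub (hΦ i 1 1)) a0 b0
    · exact hdiv i _ _ _ _ (h2.mul (hΦ i 0 1)) a1 b1
    · exact hdiv i _ _ _ _ (h2.mul (hΦ i 1 0)) a2 b2
  · exact hex k

end Main

end Fermat.Agent.S43.RSide.TraceCompat
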