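/-
PROJECT R (S43, row 37), block RS (leader helper21), brick RS12: THE FEED, `T`-LAYER.

`RSide/Feed.nonempty_datumJ` asks for the actions of `A1 κ q`, `Achi κ e` on the Hecke modules and
for the compatibilities on the variables.  Here they are produced from
* commutative rings `T1`, `Tχ`, `T0` (the Hecke algebras) acting on `M1`, `Mχ`, `M0`;
* ONTO maps `Θ₁ : P 𝒪 ι κ → T1`, `Θχ : P 𝒪 ι κ → Tχ` killing the relation ideals
  (`RSide/Theta.exists_theta_onto`), and `θ₀ : P 𝒪 ι Empty → T0`;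
* the compatibilities `hX`, `hX0` ON THE VARIABLES, in terms of `Θ₁`, `Θχ`, `θ₀`
  (`compat_X_of_traces` derives them from the compatibility of the TRACES and the Cayley--Hamilton
  inputs at the SAME normalisation `(c, g₀, h₀)`);
* elements of `T1`, `Tχ` acting as the diamond variables `γ (sq (X i))` (display at the
  Taylor--Wiles primes).
Also: `exists_pow_smul_eq_zero` (a non-unit of a local ring acts nilpotently on a FINITE quotient),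
`finite_Mb`, `not_isUnit_of_hact`.
-/
import Mathlib
import Fermat.Agent.S43.RSide.Feed
import Fermat.Agent.S43.RSide.TraceCompat

set_option autoImplicit false
set_option linter.unusedSectionVars false
set_option linter.style.haveILetI false

noncomputable section

namespace Fermat.Agent.S43.RSide.FeedT

open MvPowerSeries IsLocalRing
open Fermat.Agent.S43.Local.Model Fermat.Agent.S43.Local.Export
open Fermat.Agent.S43.Hecke.Seam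
open Fermat.Agent.S43.Patch.Level Fermat.Agent.S43.Patch.LevelJ
open Fermat.Agent.S43.RSide.Out Fermat.Agent.S43.RSide.Exit0 Fermat.Agent.S43.RSide.Feed

universe u

/-! ### nilpotence on a finite quotient -/

section Nil

variable {A : Type*} [CommRing A] [IsLocalRing A] {N Nb : Type*} [AddCommGroup N]
  [AddCommGroup Nb] [Module A N] (q : N →+ Nb)

/-- **a non-unit of a local ring acts nilpotently on a finite quotient.** -/
theorem exists_pow_smul_eq_zero [Finite Nb] (hq : Function.Surjective q)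
    (hk : ∀ (a : A) (x : N), q x = 0 → q (a • x) = 0) (a : A) (ha : ¬ IsUnit a) :
    ∃ k : ℕ, ∀ x : N, q (a ^ k • x) = 0 := by
  classical
  -- the induced maps on the quotient
  let f : ℕ → Nb → Nb := fun j y => q (a ^ j • (Function.surjInv hq y))
  have hf : ∀ j x, f j (q x) = q (a ^ j • x) := by
    intro j x
    have h1 : q (Function.surjInv hq (q x) - x) = 0 := by
      rw [map_sub, Function.surjInv_eq hq, sub_self]
    have h2 := hk (a ^ j) _ h1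
    rw [smul_sub, map_sub, sub_eq_zero] at h2
    exact h2
  obtain ⟨i, j, hij, hfij⟩ := Finite.exists_ne_map_eq_of_infinite f
  -- wlog `i < j`
  have key : ∀ i j : ℕ, i < j → f i = f j → ∃ k : ℕ, ∀ x : N, q (a ^ k • x) = 0 := by
    intro i j hlt hfe
    obtain ⟨m, rfl⟩ := Nat.exists_eq_add_of_lt hlt
    have hm : a ^ (m + 1) ∈ maximalIdeal A :=
      Ideal.pow_mem_of_mem _ ((mem_maximalIdeal _).mpr ha) _ (Nat.succ_pos m)
    have hu : IsUnit (1 - a ^ (m + 1)) := by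
      by_contra hnu
      have h1 : (1 - a ^ (m + 1)) ∈ maximalIdeal A := (mem_maximalIdeal _).mpr hnu
      have h2 := Ideal.add_mem _ h1 hm
      rw [sub_add_cancel] at h2
      exact (Ideal.ne_top_iff_one _).mp (Ideal.IsPrime.ne_top inferInstance) h2
    obtain ⟨u, hu⟩ := hu
    refine ⟨i, fun x => ?_⟩
    have h3 : ∀ y : N, q (a ^ i • ((1 - a ^ (m + 1)) • y)) = 0 := by
      intro y
      have h4 : f i (q y) = f (i + m + 1) (q y) := by rw [hfe]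
      rw [hf, hf] at h4
      rw [sub_smul, one_smul, smul_sub, map_sub, h4, ← mul_smul, ← pow_add, add_assoc, sub_self]
    have h5 := h3 ((↑u⁻¹ : A) • x)
    rwa [← hu, smul_smul (u : A), Units.mul_inv, one_smul] at h5
  rcases Nat.lt_or_gt_of_ne hij with h | h
  · exact key i j h hfij
  · exact key j i h hfij.symm

end Nil

/-! ### the diamond variables -/

section Diamond

open Fermat.Agent.S43.Patch.GroupRing Fermat.Agent.S43.Patch.GroupRingInv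
  Fermat.Agent.S43.Patch.EvenOdd

variable {𝒪 : Type*} [CommRing 𝒪] [IsLocalRing 𝒪] {Δ : Type*} [CommGroup Δ]
  {r : ℕ} {p : ℕ} [Fact p.Prime] (N : Fin r → ℕ)
  (e : Δ ≃* ((i : Fin r) → Multiplicative (ZMod (p ^ N i))))
  (γ : MvPowerSeries (Fin r) 𝒪 →ₐ[𝒪] MonoidAlgebra 𝒪 Δ)
  {M : Type*} [AddCommGroup M] [Module (MonoidAlgebra 𝒪 Δ) M]

/-- `z_i ^ 2` is topologically nilpotent on every `𝒪[Δ]`-module. -/
theorem gamma_sq_pow_smul_mem (hp𝒪 : (p : 𝒪) ∈ maximalIdeal 𝒪)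
    (hγ : ∀ i, γ (MvPowerSeries.X i) = zel 𝒪 (gen N e) i) (i : Fin r) (x : M) :
    letI := modO (𝒪 := 𝒪) (Δ := Δ) (M := M)
    (γ (sq 𝒪 (MvPowerSeries.X i))) ^ (p ^ N i) • x ∈
      ((maximalIdeal 𝒪) • ⊤ : Submodule 𝒪 M) := by
  letI := modO (𝒪 := 𝒪) (Δ := Δ) (M := M)
  have hO : ∀ (c : 𝒪) (x : M), c • x = algebraMap 𝒪 (MonoidAlgebra 𝒪 Δ) c • x := fun _ _ => rfl
  rw [sq_X, map_pow, hγ, ← pow_mul, mul_comm, pow_mul]
  obtain ⟨c, hc⟩ := Ideal.mem_span_singleton'.mp (zel_pow_mem (𝒪 := 𝒪) N e i)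
  rw [← hc, mul_pow, sq ((p : ℕ) : MonoidAlgebra 𝒪 Δ), ← mul_assoc, mul_comm, mul_smul]
  have h2 : (((p : ℕ) : MonoidAlgebra 𝒪 Δ)) = algebraMap 𝒪 (MonoidAlgebra 𝒪 Δ) ((p : ℕ) : 𝒪) :=
    (map_natCast _ p).symm
  rw [h2, ← hO]
  exact Submodule.smul_mem_smul hp𝒪 Submodule.mem_top

/-- an element acting as `z_i ^ 2` on a non-zero finite `𝒪[Δ]`-module is not a unit. -/
theorem not_isUnit_of_hact [Module.Finite (MonoidAlgebra 𝒪 Δ) M] [Nontrivial M]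
    (hp𝒪 : (p : 𝒪) ∈ maximalIdeal 𝒪)
    (hγ : ∀ i, γ (MvPowerSeries.X i) = zel 𝒪 (gen N e) i)
    {A : Type*} [CommRing A] [Module A M] (a : A) (i : Fin r)
    (hact : ∀ x : M, a • x = γ (sq 𝒪 (MvPowerSeries.X i)) • x) : ¬ IsUnit a := by
  intro hu
  haveI : Finite Δ := finite_of_mulEquiv N e
  letI iO : Module 𝒪 M := modO (𝒪 := 𝒪) (Δ := Δ) (M := M)
  have hO : ∀ (c : 𝒪) (x : M), c • x = algebraMap 𝒪 (MonoidAlgebra 𝒪 Δ) c • x := fun _ _ => rfl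
  haveI t1 : IsScalarTower 𝒪 (MonoidAlgebra 𝒪 Δ) M := ⟨fun c t x => by
    rw [hO, Algebra.smul_def, mul_smul]⟩
  haveI : Module.Finite 𝒪 (MonoidAlgebra 𝒪 Δ) :=
    Module.Finite.of_basis (MonoidAlgebra.basis Δ 𝒪)
  haveI : Module.Finite 𝒪 M := Module.Finite.trans (MonoidAlgebra 𝒪 Δ) M
  obtain ⟨u, rfl⟩ := hu
  have hpow : ∀ (k : ℕ) (x : M), (u : A) ^ k • x = (γ (sq 𝒪 (MvPowerSeries.X i))) ^ k • x := by
    intro k
    induction k with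
    | zero => intro x; simp
    | succ k ih =>
      intro x
      rw [pow_succ, pow_succ, mul_smul, mul_smul, hact, ih]
  have htop : (⊤ : Submodule 𝒪 M) ≤ (maximalIdeal 𝒪) • ⊤ := by
    intro x _
    have h1 : x = (u : A) ^ (p ^ N i) • (((↑u⁻¹ : A)) ^ (p ^ N i) • x) := by
      rw [← mul_smul, ← mul_pow, Units.mul_inv, one_pow, one_smul]
    rw [h1, hpow]
    exact gamma_sq_pow_smul_mem N e γ hp𝒪 hγ i _
  have hbot : (⊤ : Submodule 𝒪 M) = ⊥ :=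
    Submodule.eq_bot_of_le_smul_of_le_jacobson_bot (maximalIdeal 𝒪) ⊤ Module.Finite.fg_top htop
      (maximalIdeal_le_jacobson ⊥)
  obtain ⟨x, hx⟩ := exists_ne (0 : M)
  exact hx ((Submodule.mem_bot 𝒪).mp (hbot ▸ Submodule.mem_top))

end Diamond

/-! ### the common reduction is finite -/

section FiniteMb

attribute [local instance] HeckeSide.acg1 HeckeSide.acgχ HeckeSide.acgb HeckeSide.mod1
  HeckeSide.modχ HeckeSide.modb

variable {𝒪 : Type u} [CommRing 𝒪] {ϖ : 𝒪} {Δ : Type u} [CommGroup Δ] {I : Type u}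
  {M0 : Type u} [AddCommGroup M0] [Module 𝒪 M0] {t0 : I → Module.End 𝒪 M0} {d : ℕ}
  (H : HeckeSide 𝒪 ϖ Δ I M0 t0 d)

/-- `Mb` is a finite set when `Δ` and `𝒪 / ϖ` are finite. -/
theorem finite_Mb [Finite Δ] [Finite (𝒪 ⧸ Ideal.span {ϖ})]
    (hϖb : ∀ y : H.Mb, (MonoidAlgebra.single (1 : Δ) ϖ : MonoidAlgebra 𝒪 Δ) • y = 0) :
    Finite H.Mb := by
  classical
  letI iO : Module 𝒪 H.M1 := modO (𝒪 := 𝒪) (Δ := Δ) (M := H.M1)
  have hO : ∀ (c : 𝒪) (x : H.M1), c • x = algebraMap 𝒪 (MonoidAlgebra 𝒪 Δ) c • x :=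
    fun _ _ => rfl
  haveI t1 : IsScalarTower 𝒪 (MonoidAlgebra 𝒪 Δ) H.M1 := ⟨fun c t x => by
    rw [hO, Algebra.smul_def, mul_smul]⟩
  haveI : Module.Finite (MonoidAlgebra 𝒪 Δ) H.M1 := by
    obtain ⟨b⟩ := H.basis1
    exact Module.Finite.of_basis b
  haveI : Module.Finite 𝒪 (MonoidAlgebra 𝒪 Δ) :=
    Module.Finite.of_basis (MonoidAlgebra.basis Δ 𝒪)
  haveI : Module.Finite 𝒪 H.M1 := Module.Finite.trans (MonoidAlgebra 𝒪 Δ) H.M1
  obtain ⟨n, f, hf⟩ := Module.Finite.exists_fin' 𝒪 H.M1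
  let G : (Fin n → 𝒪 ⧸ Ideal.span {ϖ}) → H.Mb :=
    fun c => H.q1 (f (fun i => Quotient.out (c i)))
  refine Finite.of_surjective G ?_
  intro y
  obtain ⟨x, rfl⟩ := H.q1_surj y
  obtain ⟨v, rfl⟩ := hf x
  refine ⟨fun i => Ideal.Quotient.mk _ (v i), ?_⟩
  have h1 : ∀ i, ∃ z : 𝒪,
      Quotient.out (Ideal.Quotient.mk (Ideal.span {ϖ}) (v i)) = v i + ϖ * z := by
    intro i
    have h := Ideal.Quotient.mk_out (Ideal.Quotient.mk (Ideal.span {ϖ}) (v i))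
    rw [Ideal.Quotient.eq, Ideal.mem_span_singleton'] at h
    obtain ⟨a, ha⟩ := h
    exact ⟨a, by rw [mul_comm, ha]; ring⟩
  choose z hz using h1
  have h2 : (fun i => Quotient.out (Ideal.Quotient.mk (Ideal.span {ϖ}) (v i))) = v + ϖ • z := by
    funext i
    rw [hz i]
    rfl
  show H.q1 (f _) = H.q1 (f v)
  rw [h2, map_add, map_add, map_smul, modO_smul, map_smul, hϖb, add_zero]

end FiniteMb

/-! ### the compatibility on the variables from the compatibility of the traces -/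

section Traces

open Fermat.Agent.S43.Rho Fermat.Agent.S43.RSide.TraceCompat

variable {O : Type*} [CommRing O] {T₁ Tχ : Type*} [CommRing T₁] [CommRing Tχ]
  [Invertible (2 : T₁)] [Invertible (2 : Tχ)] [Algebra O T₁] [Algebra O Tχ] {ι κ : Type*}
  {E₁ Eχ : Type*} [Ring E₁] [Ring Eχ] [Algebra T₁ E₁] [Algebra Tχ Eχ] {G : Type*} [Group G]
  {M₁ Mχ Nb : Type*} [AddCommGroup M₁] [AddCommGroup Mχ] [AddCommGroup Nb]
  [Module T₁ M₁] [Module Tχ Mχ] {q₁ : M₁ →+ Nb} {qχ : Mχ →+ Nb}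
  {r₁ : G →* E₁} {rχ : G →* Eχ} {t₁ : G → T₁} {tχ : G → Tχ} {d₁ : G →* T₁} {dχ : G →* Tχ}
  {c g₀ h₀ : G}

/-- **`hX` from the traces** : two Cayley--Hamilton inputs at the SAME normalisation with
compatible traces, `Θ₁`, `Θχ` sending the universal matrices to `rep (σ i)`, `rep (φ i)` and the
extra variables to `t (τg k) - c' k`. -/
theorem compat_X_of_traces (hqχ : Function.Surjective qχ)
    (hkχ : ∀ (a : Tχ) (x : Mχ), qχ x = 0 → qχ (a • x) = 0)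
    (htr : ∀ g, Compat q₁ qχ (t₁ g) (tχ g))
    (hO : ∀ a : O, Compat q₁ qχ (algebraMap O T₁ a) (algebraMap O Tχ a))
    (H₁ : CH.Input r₁ t₁ d₁ c g₀ h₀) (Hχ : CH.Input rχ tχ dχ c g₀ h₀)
    (Θ₁ : P O ι κ →ₐ[O] T₁) (Θχ : P O ι κ →ₐ[O] Tχ)
    (τ₁ τχ s : ι → O) (σ φ : ι → G)
    (hS₁ : ∀ i, (SigmaU O κ τ₁ i).map Θ₁ = CH.rep H₁ (σ i))
    (hSχ : ∀ i, (SigmaU O κ τχ i).map Θχ = CH.rep Hχ (σ i))
    (hΦ₁ : ∀ i, (PhiU O κ s i).map Θ₁ = CH.rep H₁ (φ i))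
    (hΦχ : ∀ i, (PhiU O κ s i).map Θχ = CH.rep Hχ (φ i))
    (hτ : ∀ i, Compat q₁ qχ (algebraMap O T₁ (τ₁ i)) (algebraMap O Tχ (τχ i)))
    (hw₁ : ∀ i, IsUnit ((CH.rep H₁ (φ i)).trace + 2 * algebraMap O T₁ (s i)))
    (hwχ : ∀ i, IsUnit ((CH.rep Hχ (φ i)).trace + 2 * algebraMap O Tχ (s i)))
    (τg : κ → G) (c' : κ → O)
    (hex₁ : ∀ k, Θ₁ (ex O κ k) = t₁ (τg k) - algebraMap O T₁ (c' k))
    (hexχ : ∀ k, Θχ (ex O κ k) = tχ (τg k) - algebraMap O Tχ (c' k)) :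
    ∀ v : Var ι κ, Compat q₁ qχ (Θ₁ (MvPowerSeries.X v)) (Θχ (MvPowerSeries.X v)) :=
  compat_vars Θ₁ Θχ hqχ hkχ τ₁ τχ s (fun i => CH.rep H₁ (σ i)) (fun i => CH.rep H₁ (φ i))
    (fun i => CH.rep Hχ (σ i)) (fun i => CH.rep Hχ (φ i)) hS₁ hSχ hΦ₁ hΦχ
    (fun i a b => compat_rep hqχ hkχ htr H₁ Hχ (σ i) a b)
    (fun i a b => compat_rep hqχ hkχ htr H₁ Hχ (φ i) a b) hτ (fun i => hO (s i)) hw₁ hwχ
    (fun k => by
      rw [hex₁, hexχ]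
      exact (htr (τg k)).sub (hO (c' k)))

end Traces

/-! ### the feed from the Hecke algebras -/

section Main

open Fermat.Agent.S43.Patch.GroupRing Fermat.Agent.S43.Patch.GroupRingInv
  Fermat.Agent.S43.Patch.EvenOdd Fermat.Agent.S43.Patch.Points

attribute [local instance] HeckeSide.acg1 HeckeSide.acgχ HeckeSide.acgb HeckeSide.mod1
  HeckeSide.modχ HeckeSide.modb

variable {𝒪 : Type u} [CommRing 𝒪] [IsLocalRing 𝒪] {ϖ : 𝒪} {Δ : Type u} [CommGroup Δ] {I : Type u}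
  {M0 : Type u} [AddCommGroup M0] [Module 𝒪 M0] {t0 : I → Module.End 𝒪 M0} {d : ℕ}
  (H : HeckeSide 𝒪 ϖ Δ I M0 t0 d) {ι κ : Type*}

omit [IsLocalRing 𝒪] in
theorem nontrivial_M1 [Nontrivial 𝒪] (hd : 0 < d) : Nontrivial H.M1 := by
  obtain ⟨b⟩ := H.basis1
  refine ⟨⟨b ⟨0, hd⟩, 0, b.ne_zero _⟩⟩

/-- the variables are not units of a proper quotient of the power series ring -/
theorem not_isUnit_mk_X (J : Ideal (P 𝒪 ι κ)) (hJ : J ≠ ⊤) (v : Var ι κ) :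
    ¬ IsUnit (Ideal.Quotient.mk J (X v)) := by
  haveI : Nontrivial (P 𝒪 ι κ ⧸ J) := Ideal.Quotient.nontrivial_iff.mpr hJ
  haveI h1 : IsLocalHom (Ideal.Quotient.mk J) :=
    IsLocalHom.of_surjective _ Ideal.Quotient.mk_surjective
  intro hu
  have h2 := h1.map_nonunit _ hu
  have h3 := h2.map (MvPowerSeries.constantCoeff (σ := Var ι κ) (R := 𝒪))
  rw [MvPowerSeries.constantCoeff_X] at h3
  exact not_isUnit_zero h3

/-- **RS12, THE FEED FROM THE HECKE ALGEBRAS.** -/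
theorem nonempty_datumJ_T [Fintype ι] [Fintype κ]
    [IsNoetherianRing 𝒪] [IsAdicComplete (maximalIdeal 𝒪) 𝒪] (hd : 0 < d) [Finite H.Mb]
    (hϖb : ∀ y : H.Mb, (MonoidAlgebra.single (1 : Δ) ϖ : MonoidAlgebra 𝒪 Δ) • y = 0)
    {r : ℕ} {p : ℕ} [Fact p.Prime] (N : Fin r → ℕ)
    (e : Δ ≃* ((i : Fin r) → Multiplicative (ZMod (p ^ N i))))
    (γ : MvPowerSeries (Fin r) 𝒪 →ₐ[𝒪] MonoidAlgebra 𝒪 Δ)
    (h2 : IsUnit (2 : 𝒪)) (hp𝒪 : (p : 𝒪) ∈ maximalIdeal 𝒪)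
    (hsurj : Function.Surjective γ)
    (hγ : ∀ i, γ (MvPowerSeries.X i) = zel 𝒪 (gen N e) i)
    (hker : ∀ n, (∀ i, n ≤ N i) →
      RingHom.ker γ ≤ maximalIdeal (MvPowerSeries (Fin r) 𝒪) ^ n)
    -- the local model
    (e' q : ι → 𝒪) (he : ∀ i, ϖ ∣ e' i) (hq : ∀ i, ϖ ∣ q i - 1)
    (h1top : relIdeal 𝒪 κ 0 q ≠ ⊤) (hχtop : relIdeal 𝒪 κ e' 1 ≠ ⊤)
    -- the three Hecke algebras
    {T1 Tχ T0 : Type*} [CommRing T1] [CommRing Tχ] [CommRing T0]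
    [Algebra 𝒪 T1] [Algebra 𝒪 Tχ] [Algebra 𝒪 T0]
    [Module T1 H.M1] [Module Tχ H.Mχ] [Module T0 M0] [IsScalarTower 𝒪 T0 M0]
    (hcomm1 : ∀ (a : T1) (t : MonoidAlgebra 𝒪 Δ) (x : H.M1), a • t • x = t • a • x)
    (hO1 : ∀ (a : 𝒪) (x : H.M1), algebraMap 𝒪 T1 a • x =
      (MonoidAlgebra.single (1 : Δ) a : MonoidAlgebra 𝒪 Δ) • x)
    (hOχ : ∀ (a : 𝒪) (x : H.Mχ), algebraMap 𝒪 Tχ a • x =
      (MonoidAlgebra.single (1 : Δ) a : MonoidAlgebra 𝒪 Δ) • x)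
    -- the maps from the local model
    (Θ₁ : P 𝒪 ι κ →ₐ[𝒪] T1) (hΘ₁ : Function.Surjective Θ₁)
    (hrel₁ : relIdeal 𝒪 κ 0 q ≤ RingHom.ker (Θ₁ : P 𝒪 ι κ →+* T1))
    (Θχ : P 𝒪 ι κ →ₐ[𝒪] Tχ) (hΘχ : Function.Surjective Θχ)
    (hrelχ : relIdeal 𝒪 κ e' 1 ≤ RingHom.ker (Θχ : P 𝒪 ι κ →+* Tχ))
    (θ₀ : P 𝒪 ι Empty →ₐ[𝒪] T0)
    -- the compatibilities on the variables
    (hX : ∀ v : Var ι κ, Compat H.q1.toAddMonoidHom H.qχ.toAddMonoidHom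
      (Θ₁ (X v)) (Θχ (X v)))
    (hX0 : ∀ (v : Var ι Empty) (x : H.M1),
      H.p0 (Θ₁ (X (incl κ v)) • x) = θ₀ (X v) • H.p0 x)
    -- the diamond variables
    (hdisp₁ : ∀ i : Fin r, ∃ b : T1, ∀ x : H.M1, b • x = γ (sq 𝒪 (MvPowerSeries.X i)) • x)
    (hdispχ : ∀ i : Fin r, ∃ b : Tχ, ∀ x : H.Mχ, b • x = γ (sq 𝒪 (MvPowerSeries.X i)) • x)
    -- level zero
    (hsep0 : ∀ y : M0, (∀ n, y ∈ ((maximalIdeal 𝒪) ^ n • ⊤ : Submodule 𝒪 M0)) → y = 0)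
    (hnil0 : ∀ v : Var ι Empty, ∃ k : ℕ, ∀ y : M0,
      θ₀ (X v) ^ k • y ∈ ((maximalIdeal 𝒪) • ⊤ : Submodule 𝒪 M0))
    (n : ℕ) (hn : ∀ i, (2 * r + 2) * n ≤ N i) :
    Nonempty (DatumJ.{u} (MvPowerSeries (Fin r) 𝒪) (A1 κ q) (Achi κ e') (Abar κ ϖ q)
      (maximalIdeal (MvPowerSeries (Fin r) 𝒪)) (pi1 ϖ q) (pichi ϖ e' q he hq)
      (MvPowerSeries.C ϖ) (Ideal.Quotient.mk _ (C ϖ)) (Ideal.Quotient.mk _ (C ϖ))
      (augIdeal (Fin r) 𝒪) (Jzero κ q θ₀ (2 * r + 1)) (2 ^ r * d) n) := by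
  classical
  -- the two actions
  have hrel₁' : ∀ a ∈ relIdeal 𝒪 κ 0 q, (Θ₁ : P 𝒪 ι κ →+* T1) a = 0 := fun a ha => hrel₁ ha
  have hrelχ' : ∀ a ∈ relIdeal 𝒪 κ e' 1, (Θχ : P 𝒪 ι κ →+* Tχ) a = 0 := fun a ha => hrelχ ha
  letI m1 : Module (A1 κ q) H.M1 :=
    Module.compHom H.M1 (Ideal.Quotient.lift _ (Θ₁ : P 𝒪 ι κ →+* T1) hrel₁')
  letI mχ : Module (Achi κ e') H.Mχ :=
    Module.compHom H.Mχ (Ideal.Quotient.lift _ (Θχ : P 𝒪 ι κ →+* Tχ) hrelχ')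
  have hm1 : ∀ (f : P 𝒪 ι κ) (x : H.M1),
      (Ideal.Quotient.mk (relIdeal 𝒪 κ 0 q) f) • x = Θ₁ f • x := fun f x => rfl
  have hmχ : ∀ (f : P 𝒪 ι κ) (x : H.Mχ),
      (Ideal.Quotient.mk (relIdeal 𝒪 κ e' 1) f) • x = Θχ f • x := fun f x => rfl
  have hcommA : ∀ (a : A1 κ q) (t : MonoidAlgebra 𝒪 Δ) (x : H.M1), a • t • x = t • a • x := by
    intro a t x
    obtain ⟨f, rfl⟩ := Ideal.Quotient.mk_surjective a
    rw [hm1, hm1, hcomm1]
  have hC1 : ∀ (a : 𝒪) (x : H.M1), (Ideal.Quotient.mk (relIdeal 𝒪 κ 0 q) (C a)) • x =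
      (MonoidAlgebra.single (1 : Δ) a : MonoidAlgebra 𝒪 Δ) • x := by
    intro a x
    rw [hm1, ← hO1]
    exact congrArg (· • x) (Θ₁.commutes a)
  have hCχ : ∀ (a : 𝒪) (x : H.Mχ), (Ideal.Quotient.mk (relIdeal 𝒪 κ e' 1) (C a)) • x =
      (MonoidAlgebra.single (1 : Δ) a : MonoidAlgebra 𝒪 Δ) • x := by
    intro a x
    rw [hmχ, ← hOχ]
    exact congrArg (· • x) (Θχ.commutes a)
  -- the kernels of the reductions are stable
  have hk1 : ∀ (a : A1 κ q) (x : H.M1), H.q1.toAddMonoidHom x = 0 →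
      H.q1.toAddMonoidHom (a • x) = 0 := by
    intro a x hx
    obtain ⟨y, rfl⟩ := H.q1_ker x hx
    show H.q1 _ = 0
    rw [hcommA, map_smul, hϖb]
  have hkχ : ∀ (a : Achi κ e') (x : H.Mχ), H.qχ.toAddMonoidHom x = 0 →
      H.qχ.toAddMonoidHom (a • x) = 0 := by
    intro a x hx
    obtain ⟨y, rfl⟩ := H.qχ_ker x hx
    obtain ⟨f, rfl⟩ := Ideal.Quotient.mk_surjective a
    show H.qχ _ = 0
    rw [hmχ, ← hmχ, ← hCχ, ← mul_smul, mul_comm, mul_smul, hCχ, map_smul, hϖb]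
  haveI : IsLocalRing (A1 κ q) := Fermat.Agent.S43.Patch.Quot.isLocalRing_quotient _ h1top
  haveI : IsLocalRing (Achi κ e') := Fermat.Agent.S43.Patch.Quot.isLocalRing_quotient _ hχtop
  have hnil1 : ∀ v : Var ι κ, ∃ k : ℕ, ∀ x : H.M1,
      H.q1 ((Ideal.Quotient.mk (relIdeal 𝒪 κ 0 q) (X v)) ^ k • x) = 0 := fun v =>
    exists_pow_smul_eq_zero H.q1.toAddMonoidHom H.q1_surj hk1 _ (not_isUnit_mk_X _ h1top v)
  have hnilχ : ∀ v : Var ι κ, ∃ k : ℕ, ∀ x : H.Mχ,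
      H.qχ ((Ideal.Quotient.mk (relIdeal 𝒪 κ e' 1) (X v)) ^ k • x) = 0 := fun v =>
    exists_pow_smul_eq_zero H.qχ.toAddMonoidHom H.qχ_surj hkχ _ (not_isUnit_mk_X _ hχtop v)
  -- the diamond variables
  haveI : Nontrivial H.M1 := nontrivial_M1 H hd
  haveI : Nontrivial H.Mχ := by
    obtain ⟨b⟩ := H.basisχ
    exact ⟨⟨b ⟨0, hd⟩, 0, b.ne_zero _⟩⟩
  haveI : Module.Finite (MonoidAlgebra 𝒪 Δ) H.M1 := by
    obtain ⟨b⟩ := H.basis1
    exact Module.Finite.of_basis b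
  haveI : Module.Finite (MonoidAlgebra 𝒪 Δ) H.Mχ := by
    obtain ⟨b⟩ := H.basisχ
    exact Module.Finite.of_basis b
  choose b₁ hb₁ using hdisp₁
  choose bχ hbχ using hdispχ
  choose f₁ hf₁ using fun i => hΘ₁ (b₁ i)
  choose fχ hfχ using fun i => hΘχ (bχ i)
  have hact₁ : ∀ (i : Fin r) (x : H.M1), (Ideal.Quotient.mk (relIdeal 𝒪 κ 0 q) (f₁ i)) • x =
      γ (sq 𝒪 (MvPowerSeries.X i)) • x := fun i x => by rw [hm1, hf₁, hb₁]
  have hactχ : ∀ (i : Fin r) (x : H.Mχ), (Ideal.Quotient.mk (relIdeal 𝒪 κ e' 1) (fχ i)) • x =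
      γ (sq 𝒪 (MvPowerSeries.X i)) • x := fun i x => by rw [hmχ, hfχ, hbχ]
  exact nonempty_datumJ H hϖb N e γ h2 hp𝒪 hsurj hγ hker e' q he hq h1top hχtop hcommA hC1 hCχ
    (fun v x₁ xχ h => hX v x₁ xχ h) hnil1 hnilχ
    (fun i => Ideal.Quotient.mk _ (f₁ i))
    (fun i => not_isUnit_of_hact N e γ hp𝒪 hγ _ i (hact₁ i)) hact₁
    (fun i => Ideal.Quotient.mk _ (fχ i))
    (fun i => not_isUnit_of_hact N e γ hp𝒪 hγ _ i (hactχ i)) hactχ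
    θ₀ hsep0 hnil0 (fun v x => hX0 v x) n hn

end Main

end Fermat.Agent.S43.RSide.FeedT
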