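/-
PROJECT R (S43, row 37), block RS (leader helper21), brick RS14: THE R-SIDE HYPOTHESES PASS TO
QUOTIENTS.

`R` a complete local `𝒪`-algebra with `rR : G_ℚ → M₂(R)` (`= T_Q` with `ρ_Q`), `b : R →ₐ[𝒪] R'` ONTO
(`R' = T1`, the image of `T_Q` in `End M1`; or `Tχ`; or the level-zero quotient).  Then for
`rR' := mapMat b rR`:
* `hres_map`, `isContMat_map`, `hrR_map` : the standing hypotheses of `Num/RelTanT`, `RSide/Theta`;
* `liftHypM_map` : `LiftHypM` (every tangent vector of `R'` is a tangent vector of `R`);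
* `traceSepM_map` : `TraceSepM`.
Also the quotient `R ⧸ ker Φ` for an algebra map `Φ : R →ₐ[𝒪] E` into ANY (non-commutative) algebra
acting on a module `Y` : `quotModule`, with the instances of a complete local ring.
-/
import Fermat.Agent.S43.Num.RelTanT
import Fermat.Agent.S43.Patch.Quot

set_option autoImplicit false
set_option linter.unusedSectionVars false
set_option linter.style.haveILetI false

noncomputable section

namespace Fermat.Agent.S43.RSide.Quot

open IsLocalRing
open Fermat.Agent.CFT.Bridge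
open Fermat.Agent.S53.Dictionary hiding GQ
open Fermat.Agent.S56.Tan.Universal Fermat.Agent.S56.Tan.Cocycle
open Fermat.Agent.S53.TangentBound
open Fermat.Agent.S43.Num.RelTanT

attribute [local instance] algDual

variable {𝒪 : Type} [CommRing 𝒪] [IsLocalRing 𝒪]
  {R : Type} [CommRing R] [IsLocalRing R] [Algebra 𝒪 R] [IsLocalHom (algebraMap 𝒪 R)]
  {R' : Type} [CommRing R'] [IsLocalRing R'] [Algebra 𝒪 R'] [IsLocalHom (algebraMap 𝒪 R')]
  (b : R →ₐ[𝒪] R') (hb : Function.Surjective b)
  (hres : Function.Surjective (residue R ∘ algebraMap 𝒪 R))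
  {rbar : GQ →* GL (Fin 2) (ResidueField 𝒪)}
  (rR : GQ →* Mat R) (hR : IsContMat R rR)
  (hrR : mapMat (residue R) rR = mapMat (ResidueField.map (algebraMap 𝒪 R)) (rbarM rbar))

include hb in
theorem isLocalHom_of_surjective : IsLocalHom (b : R →+* R') :=
  IsLocalHom.of_surjective _ hb

include hb hres in
theorem hres_map : Function.Surjective (residue R' ∘ algebraMap 𝒪 R') := by
  haveI := isLocalHom_of_surjective b hb
  intro y
  obtain ⟨x', rfl⟩ := residue_surjective y
  obtain ⟨x, rfl⟩ := hb x'
  obtain ⟨a, ha⟩ := hres (residue R x)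
  refine ⟨a, ?_⟩
  rw [Function.comp_apply] at ha ⊢
  have h1 : algebraMap 𝒪 R a - x ∈ maximalIdeal R := by
    rw [← residue_eq_zero_iff, map_sub, ha, sub_self]
  have h2 : (b : R →+* R') (algebraMap 𝒪 R a - x) ∈ maximalIdeal R' := by
    rw [mem_maximalIdeal, mem_nonunits_iff]
    intro hu
    exact (mem_maximalIdeal _).mp h1 (isUnit_of_map_unit (b : R →+* R') _ hu)
  rw [map_sub, RingHom.coe_coe, AlgHom.commutes, ← residue_eq_zero_iff, map_sub, sub_eq_zero] at h2
  exact h2

include hb hR in
theorem isContMat_map : IsContMat R' (mapMat (b : R →+* R') rR) :=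
  isContMat_mapMat _ (isLocalHom_of_surjective b hb) rR hR

include hb hrR in
theorem hrR_map : mapMat (residue R') (mapMat (b : R →+* R') rR) =
    mapMat (ResidueField.map (algebraMap 𝒪 R')) (rbarM rbar) := by
  haveI := isLocalHom_of_surjective b hb
  have h1 : (residue R').comp (b : R →+* R') = (ResidueField.map (b : R →+* R')).comp (residue R) :=
    rfl
  have h2 : (ResidueField.map (b : R →+* R')).comp (ResidueField.map (algebraMap 𝒪 R)) =
      ResidueField.map (algebraMap 𝒪 R') := by
    refine RingHom.ext fun y => ?_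
    obtain ⟨a, rfl⟩ := residue_surjective y
    rw [RingHom.comp_apply, ResidueField.map_residue, ResidueField.map_residue,
      ResidueField.map_residue, RingHom.coe_coe, AlgHom.commutes]
  rw [mapMat_comp, h1, ← mapMat_comp, hrR, mapMat_comp, h2]

/-- the push-forward along `φ'` of the image representation is the push-forward along `φ' ∘ b` -/
theorem pushMat_map (φ' : R' →ₐ[𝒪] DualNumber (ResidueField 𝒪)) :
    pushMat (mapMat (b : R →+* R') rR) φ' = pushMat rR (φ'.comp b) := by
  unfold pushMat
  rw [mapMat_comp]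
  rfl

theorem ofMat_congr {A : Type} [CommRing A] [IsLocalRing A] {r r' : GQ →* Mat A} (h : r = r')
    (hr : IsContMat A r) (hr' : IsContMat A r') : ofMat r hr = ofMat r' hr' := by
  subst h
  rfl

include hb in
theorem pushRep_map (φ' : R' →ₐ[𝒪] DualNumber (ResidueField 𝒪)) :
    pushRep (hres_map b hb hres) (mapMat (b : R →+* R') rR) (isContMat_map b hb rR hR) φ' =
      pushRep hres rR hR (φ'.comp b) :=
  ofMat_congr (pushMat_map b rR φ') _ _

variable (p : ℕ) [Fact p.Prime] (Smin T Q : Finset ℕ)
  (Pp : GaloisRepAdic (DualNumber (ResidueField 𝒪)) → Prop)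

include hb in
/-- **`LiftHypM` passes to quotients.** -/
theorem liftHypM_map (hH : LiftHypM hres rR hR p Smin T Q Pp) :
    LiftHypM (hres_map b hb hres) (mapMat (b : R →+* R') rR) (isContMat_map b hb rR hR)
      p Smin T Q Pp := by
  intro φ'
  rw [pushRep_map b hb hres rR hR φ']
  exact hH (φ'.comp b)

include hb in
/-- **`TraceSepM` passes to quotients.** -/
theorem traceSepM_map (hSep : TraceSepM (𝒪 := 𝒪) rR) :
    TraceSepM (𝒪 := 𝒪) (mapMat (b : R →+* R') rR) := by
  intro φ' ψ' h
  have h1 : φ'.comp b = ψ'.comp b := by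
    refine hSep _ _ fun σ => ?_
    have h2 := h σ
    have h3 : (mapMat (b : R →+* R') rR σ).trace = b ((rR σ).trace) := by
      rw [Matrix.trace_fin_two, Matrix.trace_fin_two, map_add]
      rfl
    rw [h3] at h2
    exact h2
  refine AlgHom.ext fun y => ?_
  obtain ⟨x, rfl⟩ := hb y
  exact congrArg (fun f : R →ₐ[𝒪] DualNumber (ResidueField 𝒪) => f x) h1

end Fermat.Agent.S43.RSide.Quot
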