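/-
PROJECT R (S43), block RS (leader helper21), brick RS9 / FEED, part 1: **`Θ : P O ι κ ↠ T_Q`**.

`R` (`= T_Q^?`) a complete local `𝒪`-algebra with residue field `k`, `rR : G_ℚ → M₂(R)` continuous
lifting `rbar` (`= ρ_T` in matrix form), `κ = Fin g`, `τg : Fin g → G_ℚ` the trace generators of
`Num/ExportTau.RelTauT`.  At every stuck prime `ℓ i` (`i : ι`) a tame generator `σ i` and a
Frobenius element `φ i` are given with `tr rR σ_i = 2 τ_i`, `det rR σ_i = 1`, `det rR φ_i = s_i²`,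
`Φ_i B_i = q_i B_i Φ_i` (`B_i = rR σ_i - τ_i`), residually scalar.  Then the map
`Θ : P 𝒪 ι (Fin g) → R` of `Local/Universal.exists_theta` with `x_k := tr rR (τg k) - c_k`
* kills `relIdeal e q`, sends the universal matrices to `rR σ_i`, `rR φ_i`;
* is ONTO: `(N3)` `TrivOnBaseM` holds for the base `A := P 𝒪 ι (Fin g)` (last clause of
  `exists_theta` + `RSide/TrivBase`), the trace generators lie in `Θ (𝔪_P)`, so
  `Num/RelTanT.surjective_algebraMap_of_traces` applies.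
-/
import Fermat.Agent.S43.RSide.TrivBase
import Fermat.Agent.S43.Local.Universal
import Fermat.Agent.Lib.MvPSComplete

set_option autoImplicit false
set_option linter.unusedSectionVars false
set_option linter.style.haveILetI false

noncomputable section

namespace Fermat.Agent.S43.RSide.Theta

open IsLocalRing
open Fermat.Agent.CFT.Bridge
open Fermat.Agent.S56.Coh Fermat.Agent.S56.Coh.CocDefs
open Fermat.Agent.S53.Dictionary hiding GQ
open Fermat.Agent.S53.TangentBound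
open Fermat.Agent.S56.Tan.DualHom Fermat.Agent.S56.Tan.Universal Fermat.Agent.S56.Tan.Cocycle
open Fermat.Agent.S43.Num.RelCount
open Fermat.Agent.S43.Num.RelTanT Fermat.Agent.S43.RSide.LocalMat Fermat.Agent.S43.RSide.TrivBase
open Fermat.Agent.S43.Local.Model Fermat.Agent.S43.Local.Universal

attribute [local instance] algDual

/-! ### an algebra map out of a power series ring which sends the variables into the maximal
ideal is local -/

section LocalHom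

variable {O : Type*} [CommRing O] [IsLocalRing O] {σ : Type*} [Finite σ]
  {R : Type*} [CommRing R] [IsLocalRing R] [Algebra O R] [IsLocalHom (algebraMap O R)]

theorem isLocalHom_C : IsLocalHom (MvPowerSeries.C (σ := σ) (R := O)) := by
  constructor
  intro a ha
  have := ha.map (MvPowerSeries.constantCoeff (σ := σ) (R := O))
  rwa [MvPowerSeries.constantCoeff_C] at this

theorem map_sub_C_mem (Θ : MvPowerSeries σ O →ₐ[O] R)
    (hΘ : ∀ v, Θ (MvPowerSeries.X v) ∈ maximalIdeal R) (f : MvPowerSeries σ O) :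
    Θ f - algebraMap O R (MvPowerSeries.constantCoeff f) ∈ maximalIdeal R := by
  have h0 : f - MvPowerSeries.C (MvPowerSeries.constantCoeff f) ∈
      Ideal.span (Set.range fun s => (MvPowerSeries.X s : MvPowerSeries σ O)) :=
    Fermat.Agent.Lib.MvPSComplete.mem_span_range_X_of_constantCoeff_eq_zero _ (by simp)
  have h1 : Ideal.span (Set.range fun s => (MvPowerSeries.X s : MvPowerSeries σ O)) ≤
      (maximalIdeal R).comap (Θ : MvPowerSeries σ O →+* R) := by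
    rw [Ideal.span_le]
    rintro _ ⟨v, rfl⟩
    exact hΘ v
  have h2 := h1 h0
  rw [Ideal.mem_comap, map_sub] at h2
  have h3 : (Θ : MvPowerSeries σ O →+* R) (MvPowerSeries.C (MvPowerSeries.constantCoeff f)) =
      algebraMap O R (MvPowerSeries.constantCoeff f) := by
    have : (MvPowerSeries.C (MvPowerSeries.constantCoeff f) : MvPowerSeries σ O) =
        algebraMap O (MvPowerSeries σ O) (MvPowerSeries.constantCoeff f) := rfl
    rw [this]
    exact Θ.commutes _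
  rw [h3] at h2
  exact h2

theorem isLocalHom_of_forall_X (Θ : MvPowerSeries σ O →ₐ[O] R)
    (hΘ : ∀ v, Θ (MvPowerSeries.X v) ∈ maximalIdeal R) :
    IsLocalHom (Θ : MvPowerSeries σ O →+* R) := by
  constructor
  intro f hf
  rw [MvPowerSeries.isUnit_iff_constantCoeff]
  have h1 := map_sub_C_mem Θ hΘ f
  by_contra hnu
  have h2 : algebraMap O R (MvPowerSeries.constantCoeff f) ∈ maximalIdeal R := by
    rw [mem_maximalIdeal, mem_nonunits_iff]
    intro hu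
    exact hnu (isUnit_of_map_unit (algebraMap O R) _ hu)
  have h3 : (Θ : MvPowerSeries σ O →+* R) f ∈ maximalIdeal R := by
    have := Ideal.add_mem _ h1 h2
    rwa [sub_add_cancel] at this
  exact (mem_maximalIdeal _).mp h3 hf

theorem mem_map_maximalIdeal_of_X (Θ : MvPowerSeries σ O →ₐ[O] R) (v : σ) :
    Θ (MvPowerSeries.X v) ∈ (maximalIdeal (MvPowerSeries σ O)).map
      (Θ : MvPowerSeries σ O →+* R) := by
  refine Ideal.mem_map_of_mem _ ?_
  rw [mem_maximalIdeal, mem_nonunits_iff, MvPowerSeries.isUnit_iff_constantCoeff]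
  simp

end LocalHom

/-! ### the theorem -/

section Main

variable {𝒪 : Type} [CommRing 𝒪] [IsLocalRing 𝒪] [IsNoetherianRing 𝒪]
  [IsAdicComplete (maximalIdeal 𝒪) 𝒪]
  {R : Type} [CommRing R] [IsLocalRing R] [Algebra 𝒪 R] [IsLocalHom (algebraMap 𝒪 R)]
  [IsAdicComplete (maximalIdeal R) R]
  (hres : Function.Surjective (residue R ∘ algebraMap 𝒪 R))
  {rbar : GQ →* GL (Fin 2) (ResidueField 𝒪)}
  (rR : GQ →* Mat R) (hR : IsContMat R rR)
  (hrR : mapMat (residue R) rR = mapMat (ResidueField.map (algebraMap 𝒪 R)) (rbarM rbar))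
  (p : ℕ) [Fact p.Prime] (Smin T Q : Finset ℕ)
  (Pp : GaloisRepAdic (DualNumber (ResidueField 𝒪)) → Prop)
  (hH : LiftHypM hres rR hR p Smin T Q Pp)
  (hSep : TraceSepM (𝒪 := 𝒪) rR)

include hres hR hrR hH hSep in
/-- **`Θ : P 𝒪 ι (Fin g) ↠ R`.** -/
theorem exists_theta_onto {g : ℕ} (τg : Fin g → GQ)
    (hτg : ∀ x : Sel (Smin ∪ T ∪ Q) (LocCond.ofLocal (LcFamT rbar p Smin T Pp)),
      (∀ j, trSel _ _ (τg j) x = 0) → x = 0)
    (c : Fin g → 𝒪)
    (hc : ∀ j, residue 𝒪 (c j) =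
      (rbar (τg j) : Matrix (Fin 2) (Fin 2) (ResidueField 𝒪)).trace)
    (h2 : IsUnit (2 : 𝒪)) (h2k : (2 : ResidueField 𝒪) ≠ 0) (hpR : (p : R) ∈ maximalIdeal R)
    {ι : Type} [Fintype ι] (ℓ : ι → ℕ) [hℓp : ∀ i, Fact (ℓ i).Prime]
    (hℓ : ∀ l ∈ T, ∃ i, ℓ i = l)
    (e q τ s : ι → 𝒪) (hτ : ∀ i, τ i ^ 2 = 1 + e i) (hs : ∀ i, IsUnit (s i))
    (σ : ∀ i, (padicPlace (ℓ i)).inertiaSubgroupIn ℚ) (φ : ι → GQ)
    (hσ : ∀ i, TameClause p (ℓ i) (σ i))
    (hφ : ∀ i, (padicPlace (ℓ i)).IsFrobeniusAt (φ i) (ℓ i))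
    (hresI : ∀ i, ∀ u ∈ (padicPlace (ℓ i)).inertiaSubgroupIn ℚ,
      Cong (maximalIdeal R) (rR u - 1))
    (htr : ∀ i, (rR (σ i : GQ)).trace = 2 * algebraMap 𝒪 R (τ i))
    (hdetS : ∀ i, (rR (σ i : GQ)).det = 1)
    (hdetΦ : ∀ i, (rR (φ i)).det = algebraMap 𝒪 R (s i) ^ 2)
    (hrel : ∀ i, rR (φ i) *
        (rR (σ i : GQ) - algebraMap 𝒪 R (τ i) • (1 : Matrix (Fin 2) (Fin 2) R))
      = algebraMap 𝒪 R (q i) •
        ((rR (σ i : GQ) - algebraMap 𝒪 R (τ i) • (1 : Matrix (Fin 2) (Fin 2) R)) * rR (φ i)))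
    (hresS : ∀ i a b,
      (rR (σ i : GQ) - algebraMap 𝒪 R (τ i) • (1 : Matrix (Fin 2) (Fin 2) R)) a b ∈
        maximalIdeal R)
    (hresΦ : ∀ i a b,
      (rR (φ i) - algebraMap 𝒪 R (s i) • (1 : Matrix (Fin 2) (Fin 2) R)) a b ∈ maximalIdeal R) :
    ∃ Θ : P 𝒪 ι (Fin g) →ₐ[𝒪] R, Function.Surjective Θ ∧
      Fermat.Agent.S43.Local.Model.relIdeal 𝒪 (Fin g) e q ≤ RingHom.ker (Θ : P 𝒪 ι (Fin g) →+* R) ∧
      (∀ i, (SigmaU 𝒪 (Fin g) τ i).map Θ = rR (σ i : GQ)) ∧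
      (∀ i, (PhiU 𝒪 (Fin g) s i).map Θ = rR (φ i)) ∧
      (∀ k, Θ (ex 𝒪 (Fin g) k) = (rR (τg k)).trace - algebraMap 𝒪 R (c k)) ∧
      ∀ v : Var ι (Fin g), Θ (MvPowerSeries.X v) ∈ maximalIdeal R := by
  classical
  -- the trace generators lie in the maximal ideal
  have hx : ∀ k, (rR (τg k)).trace - algebraMap 𝒪 R (c k) ∈ maximalIdeal R := by
    intro k
    rw [← resk_eq_zero_iff hres, map_sub, resk_trace hres rbar rR hrR, resk_algebraMap, hc k,
      sub_self]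
  obtain ⟨Θ, hΘS, hΘΦ, hΘx, hΘm, hΘker, hΘtriv⟩ :=
    exists_theta (O := 𝒪) (T := R) (κ := Fin g) h2 e q τ s hτ hs
      (fun i => rR (φ i)) (fun i => rR (σ i : GQ))
      (fun k => (rR (τg k)).trace - algebraMap 𝒪 R (c k)) htr hdetS hdetΦ hrel hresS hresΦ hx
  refine ⟨Θ, ?_, hΘker, hΘS, hΘΦ, hΘx, hΘm⟩
  -- the algebra structure of `R` over `P`
  letI algPR : Algebra (P 𝒪 ι (Fin g)) R := (Θ : P 𝒪 ι (Fin g) →+* R).toAlgebra
  have halg : ∀ f, algebraMap (P 𝒪 ι (Fin g)) R f = Θ f := fun f => rfl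
  haveI : IsScalarTower 𝒪 (P 𝒪 ι (Fin g)) R :=
    IsScalarTower.of_algebraMap_eq fun o => (Θ.commutes o).symm
  haveI : IsLocalHom (algebraMap 𝒪 (P 𝒪 ι (Fin g))) := isLocalHom_C
  haveI : IsLocalHom (algebraMap (P 𝒪 ι (Fin g)) R) := isLocalHom_of_forall_X Θ hΘm
  haveI : IsAdicComplete (maximalIdeal (P 𝒪 ι (Fin g))) (P 𝒪 ι (Fin g)) :=
    Fermat.Agent.Lib.MvPSComplete.isAdicComplete_maximalIdeal
  -- (N3)
  have hloc : ScalarOnBase (𝒪 := 𝒪) rR p T (P 𝒪 ι (Fin g)) := by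
    intro l _ hlT
    obtain ⟨i, rfl⟩ := hℓ l hlT
    refine ⟨hresI i, σ i, φ i, hσ i, hφ i, fun ψ hψ => ?_⟩
    have hψ' : ∀ v : Var ι (Fin g), ψ (Θ (MvPowerSeries.X v)) = 0 := fun v =>
      hψ _ (mem_map_maximalIdeal_of_X Θ v)
    obtain ⟨h1, h2'⟩ := hΘtriv ψ hψ'
    exact ⟨⟨_, h1 i⟩, ⟨_, h2' i⟩⟩
  have hTriv : TrivOnBaseM (𝒪 := 𝒪) rbar rR T (P 𝒪 ι (Fin g)) :=
    trivOnBaseM_of_scalarOnBase hres rbar rR hR (Fact.out : p.Prime) hpR h2k T _ hloc
  have hbase : ∀ j, (rR (τg j)).trace - algebraMap 𝒪 R (c j) ∈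
      (maximalIdeal (P 𝒪 ι (Fin g))).map (algebraMap (P 𝒪 ι (Fin g)) R) := by
    intro j
    rw [← hΘx j]
    exact mem_map_maximalIdeal_of_X Θ _
  exact surjective_algebraMap_of_traces hres rR hR hrR p Smin T Q Pp hH hSep hTriv τg hτg c hc
    hbase

end Main

end Fermat.Agent.S43.RSide.Theta
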