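/-
PROJECT R (S43, row 37), block RS (leader helper21), brick RS15: `Θ` ONTO A QUOTIENT OF `T_Q`.

`R` (`= T_Q`) a complete noetherian local `𝒪`-algebra with `rR : G_ℚ → M₂(R)` satisfying the
hypotheses of `Num/RelTanT` (`LiftHypM`, `TraceSepM`), `J ≠ ⊤` an ideal (`= ker (T_Q → End M1)` or
`ker (T_Q → End Mχ)`).  The local data at the stuck primes are asked
* residually over `R` (`hresI`, `hresΦ`, `hτm`), and `det rR (φ i) = s i ^ 2` over `R`;
* IN THE QUOTIENT for the type at `σ i` (`htr`, `hdetS`, `hrel`): the two quotients have different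
  types (`RSide/LocalData.unip_*`, `chi_*`).
Then `RSide/Theta.exists_theta_onto` applies to `R ⧸ J` (`RSide/Quot` transfers the hypotheses).
-/
import Mathlib
import Fermat.Agent.S43.RSide.Theta
import Fermat.Agent.S43.RSide.Quot
import Fermat.Agent.S43.RSide.LocalData

set_option autoImplicit false
set_option linter.unusedSectionVars false
set_option linter.style.haveILetI false

noncomputable section

namespace Fermat.Agent.S43.RSide.ThetaQuot

open IsLocalRing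
open Fermat.Agent.CFT.Bridge
open Fermat.Agent.S56.Coh Fermat.Agent.S56.Coh.CocDefs
open Fermat.Agent.S53.Dictionary hiding GQ
open Fermat.Agent.S53.TangentBound
open Fermat.Agent.S56.Tan.DualHom Fermat.Agent.S56.Tan.Universal Fermat.Agent.S56.Tan.Cocycle
open Fermat.Agent.S43.Num.RelCount
open Fermat.Agent.S43.Num.RelTanT Fermat.Agent.S43.RSide.LocalMat Fermat.Agent.S43.RSide.TrivBase
open Fermat.Agent.S43.Local.Model Fermat.Agent.S43.Local.Universal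
open Fermat.Agent.S43.RSide.Quot Fermat.Agent.S43.RSide.Theta

attribute [local instance] algDual

variable {𝒪 : Type} [CommRing 𝒪] [IsLocalRing 𝒪] [IsNoetherianRing 𝒪]
  [IsAdicComplete (maximalIdeal 𝒪) 𝒪]
  {R : Type} [CommRing R] [IsLocalRing R] [IsNoetherianRing R] [Algebra 𝒪 R]
  [IsLocalHom (algebraMap 𝒪 R)] [IsAdicComplete (maximalIdeal R) R]

/-- the quotient map as an algebra map -/
abbrev bJ (J : Ideal R) : R →ₐ[𝒪] R ⧸ J := Ideal.Quotient.mkₐ 𝒪 J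

theorem bJ_surjective (J : Ideal R) : Function.Surjective (bJ (𝒪 := 𝒪) J) :=
  Ideal.Quotient.mkₐ_surjective 𝒪 J

/-- the structure map of a proper quotient is local -/
theorem isLocalHom_algebraMap_quotient (J : Ideal R) (hJ : J ≠ ⊤) :
    IsLocalHom (algebraMap 𝒪 (R ⧸ J)) := by
  haveI : Nontrivial (R ⧸ J) := Ideal.Quotient.nontrivial_iff.mpr hJ
  haveI h1 : IsLocalHom (Ideal.Quotient.mk J) :=
    IsLocalHom.of_surjective _ Ideal.Quotient.mk_surjective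
  constructor
  intro a ha
  have h2 : IsUnit (Ideal.Quotient.mk J (algebraMap 𝒪 R a)) := ha
  exact isUnit_of_map_unit (algebraMap 𝒪 R) a (h1.map_nonunit _ h2)

/-- the image of the maximal ideal lies in the maximal ideal -/
theorem mk_mem_maximalIdeal (J : Ideal R) [IsLocalRing (R ⧸ J)] {x : R} (hx : x ∈ maximalIdeal R) :
    Ideal.Quotient.mk J x ∈ maximalIdeal (R ⧸ J) := by
  rw [mem_maximalIdeal, mem_nonunits_iff]
  intro hu
  haveI h1 : IsLocalHom (Ideal.Quotient.mk J) :=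
    IsLocalHom.of_surjective _ Ideal.Quotient.mk_surjective
  exact (mem_maximalIdeal _).mp hx (h1.map_nonunit _ hu)

variable (hres : Function.Surjective (residue R ∘ algebraMap 𝒪 R))
  {rbar : GQ →* GL (Fin 2) (ResidueField 𝒪)}
  (rR : GQ →* Mat R) (hR : IsContMat R rR)
  (hrR : mapMat (residue R) rR = mapMat (ResidueField.map (algebraMap 𝒪 R)) (rbarM rbar))
  (p : ℕ) [Fact p.Prime] (Smin T Q : Finset ℕ)
  (Pp : GaloisRepAdic (DualNumber (ResidueField 𝒪)) → Prop)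
  (hH : LiftHypM hres rR hR p Smin T Q Pp)
  (hSep : TraceSepM (𝒪 := 𝒪) rR)

include hres hR hrR hH hSep in
/-- **`Θ : P 𝒪 ι (Fin g) ↠ R ⧸ J`.** -/
theorem exists_theta_quot (J : Ideal R) (hJ : J ≠ ⊤) {g : ℕ} (τg : Fin g → GQ)
    (hτg : ∀ x : Sel (Smin ∪ T ∪ Q) (LocCond.ofLocal (LcFamT rbar p Smin T Pp)),
      (∀ j, trSel _ _ (τg j) x = 0) → x = 0)
    (c : Fin g → 𝒪)
    (hc : ∀ j, residue 𝒪 (c j) =
      (rbar (τg j) : Matrix (Fin 2) (Fin 2) (ResidueField 𝒪)).trace)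
    (h2 : IsUnit (2 : 𝒪)) (h2k : (2 : ResidueField 𝒪) ≠ 0) (hpR : (p : R) ∈ maximalIdeal R)
    {ι : Type} [Fintype ι] (ℓ : ι → ℕ) [hℓp : ∀ i, Fact (ℓ i).Prime]
    (hℓ : ∀ l ∈ T, ∃ i, ℓ i = l)
    (e q τ s : ι → 𝒪) (hτ : ∀ i, τ i ^ 2 = 1 + e i) (hs : ∀ i, IsUnit (s i))
    (σ : ∀ i, (padicPlace (ℓ i)).inertiaSubgroupIn ℚ) (φ : ι → GQ)
    (hσ : ∀ i, TameClause p (ℓ i) (σ i))
    (hφ : ∀ i, (padicPlace (ℓ i)).IsFrobeniusAt (φ i) (ℓ i))
    (hresI : ∀ i, ∀ u ∈ (padicPlace (ℓ i)).inertiaSubgroupIn ℚ,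
      Cong (maximalIdeal R) (rR u - 1))
    (hτm : ∀ i, algebraMap 𝒪 R (τ i) - 1 ∈ maximalIdeal R)
    (hresΦ : ∀ i a b,
      (rR (φ i) - algebraMap 𝒪 R (s i) • (1 : Matrix (Fin 2) (Fin 2) R)) a b ∈ maximalIdeal R)
    (hdetΦ : ∀ i, (rR (φ i)).det = algebraMap 𝒪 R (s i) ^ 2)
    (htr : ∀ i, (mapMat (bJ (𝒪 := 𝒪) J : R →+* R ⧸ J) rR (σ i : GQ)).trace =
      2 * algebraMap 𝒪 (R ⧸ J) (τ i))
    (hdetS : ∀ i, (mapMat (bJ (𝒪 := 𝒪) J : R →+* R ⧸ J) rR (σ i : GQ)).det = 1)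
    (hrel : ∀ i, mapMat (bJ (𝒪 := 𝒪) J : R →+* R ⧸ J) rR (φ i) *
        (mapMat (bJ (𝒪 := 𝒪) J : R →+* R ⧸ J) rR (σ i : GQ) -
          algebraMap 𝒪 (R ⧸ J) (τ i) • (1 : Matrix (Fin 2) (Fin 2) (R ⧸ J)))
      = algebraMap 𝒪 (R ⧸ J) (q i) •
        ((mapMat (bJ (𝒪 := 𝒪) J : R →+* R ⧸ J) rR (σ i : GQ) -
          algebraMap 𝒪 (R ⧸ J) (τ i) • (1 : Matrix (Fin 2) (Fin 2) (R ⧸ J))) *
            mapMat (bJ (𝒪 := 𝒪) J : R →+* R ⧸ J) rR (φ i))) :
    ∃ Θ : P 𝒪 ι (Fin g) →ₐ[𝒪] R ⧸ J, Function.Surjective Θ ∧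
      Fermat.Agent.S43.Local.Model.relIdeal 𝒪 (Fin g) e q ≤
        RingHom.ker (Θ : P 𝒪 ι (Fin g) →+* R ⧸ J) ∧
      (∀ i, (SigmaU 𝒪 (Fin g) τ i).map Θ = mapMat (bJ (𝒪 := 𝒪) J : R →+* R ⧸ J) rR (σ i : GQ)) ∧
      (∀ i, (PhiU 𝒪 (Fin g) s i).map Θ = mapMat (bJ (𝒪 := 𝒪) J : R →+* R ⧸ J) rR (φ i)) ∧
      (∀ k, Θ (ex 𝒪 (Fin g) k) =
        Ideal.Quotient.mk J ((rR (τg k)).trace) - algebraMap 𝒪 (R ⧸ J) (c k)) ∧
      ∀ v : Var ι (Fin g), ¬ IsUnit (Θ (MvPowerSeries.X v)) := by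
  haveI iL : IsLocalRing (R ⧸ J) := Fermat.Agent.S43.Patch.Quot.isLocalRing_quotient J hJ
  haveI iH : IsLocalHom (algebraMap 𝒪 (R ⧸ J)) := isLocalHom_algebraMap_quotient J hJ
  haveI iC : IsAdicComplete (maximalIdeal (R ⧸ J)) (R ⧸ J) :=
    Fermat.Agent.S43.Patch.Quot.isAdicComplete_quotient J
  have hb := bJ_surjective (𝒪 := 𝒪) J
  have hmk : ∀ x : R, (bJ (𝒪 := 𝒪) J : R →+* R ⧸ J) x = Ideal.Quotient.mk J x := fun _ => rfl
  have hmap : ∀ (x : R), x ∈ maximalIdeal R → Ideal.Quotient.mk J x ∈ maximalIdeal (R ⧸ J) :=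
    fun x hx => mk_mem_maximalIdeal J hx
  have halg : ∀ a : 𝒪, algebraMap 𝒪 (R ⧸ J) a = Ideal.Quotient.mk J (algebraMap 𝒪 R a) :=
    fun _ => rfl
  obtain ⟨Θ, h1, h2', h3, h4, h5, h6⟩ := exists_theta_onto
    (hres_map (bJ (𝒪 := 𝒪) J) hb hres) (mapMat (bJ (𝒪 := 𝒪) J : R →+* R ⧸ J) rR)
    (isContMat_map (bJ (𝒪 := 𝒪) J) hb rR hR) (hrR_map (bJ (𝒪 := 𝒪) J) hb rR hrR) p Smin T Q Pp
    (liftHypM_map (bJ (𝒪 := 𝒪) J) hb hres rR hR p Smin T Q Pp hH)
    (traceSepM_map (bJ (𝒪 := 𝒪) J) hb rR hSep) τg hτg c hc h2 h2k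
    (by
      have := hmap _ hpR
      rwa [map_natCast] at this)
    ℓ hℓ e q τ s hτ hs σ φ hσ hφ
    (fun i u hu a b => by
      have h7 := hmap _ (hresI i u hu a b)
      have h8 : (mapMat (bJ (𝒪 := 𝒪) J : R →+* R ⧸ J) rR u - 1) a b =
          Ideal.Quotient.mk J ((rR u - 1) a b) := by
        rw [Matrix.sub_apply, Matrix.sub_apply, map_sub, mapMat_apply, hmk]
        congr 1
        by_cases hab : a = b
        · subst hab
          rw [Matrix.one_apply_eq, Matrix.one_apply_eq, map_one]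
        · rw [Matrix.one_apply_ne hab, Matrix.one_apply_ne hab, map_zero]
      rw [h8]
      exact h7)
    htr hdetS
    (fun i => by
      have h7 : (mapMat (bJ (𝒪 := 𝒪) J : R →+* R ⧸ J) rR (φ i)).det =
          Ideal.Quotient.mk J ((rR (φ i)).det) := by
        rw [Matrix.det_fin_two, Matrix.det_fin_two, map_sub, map_mul, map_mul]
        rfl
      rw [h7, hdetΦ i, map_pow, halg])
    hrel
    (fun i a b => by
      have h7 : (mapMat (bJ (𝒪 := 𝒪) J : R →+* R ⧸ J) rR (σ i : GQ) -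
          algebraMap 𝒪 (R ⧸ J) (τ i) • (1 : Matrix (Fin 2) (Fin 2) (R ⧸ J))) a b =
          Ideal.Quotient.mk J ((rR (σ i : GQ) -
            algebraMap 𝒪 R (τ i) • (1 : Matrix (Fin 2) (Fin 2) R)) a b) := by
        rw [Matrix.sub_apply, Matrix.sub_apply, map_sub, mapMat_apply, hmk, Matrix.smul_apply,
          Matrix.smul_apply, smul_eq_mul, smul_eq_mul, map_mul, halg]
        congr 2
        by_cases hab : a = b
        · subst hab
          rw [Matrix.one_apply_eq, Matrix.one_apply_eq, map_one]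
        · rw [Matrix.one_apply_ne hab, Matrix.one_apply_ne hab, map_zero]
      rw [h7]
      exact hmap _ (Fermat.Agent.S43.RSide.LocalData.cong_sub_smul (I := maximalIdeal R)
        (rR (σ i : GQ)) (τ i) (hresI i _ (σ i).2) (hτm i) a b))
    (fun i a b => by
      have h7 : (mapMat (bJ (𝒪 := 𝒪) J : R →+* R ⧸ J) rR (φ i) -
          algebraMap 𝒪 (R ⧸ J) (s i) • (1 : Matrix (Fin 2) (Fin 2) (R ⧸ J))) a b =
          Ideal.Quotient.mk J ((rR (φ i) -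
            algebraMap 𝒪 R (s i) • (1 : Matrix (Fin 2) (Fin 2) R)) a b) := by
        rw [Matrix.sub_apply, Matrix.sub_apply, map_sub, mapMat_apply, hmk, Matrix.smul_apply,
          Matrix.smul_apply, smul_eq_mul, smul_eq_mul, map_mul, halg]
        congr 2
        by_cases hab : a = b
        · subst hab
          rw [Matrix.one_apply_eq, Matrix.one_apply_eq, map_one]
        · rw [Matrix.one_apply_ne hab, Matrix.one_apply_ne hab, map_zero]
      rw [h7]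
      exact hmap _ (hresΦ i a b))
  refine ⟨Θ, h1, h2', h3, h4, fun k => ?_, fun v hu => ?_⟩
  · rw [h5 k]
    congr 1
  · exact (mem_maximalIdeal _).mp (h6 v) hu

end Fermat.Agent.S43.RSide.ThetaQuot
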