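/-
PROJECT R (S43, row 37), block RS (leader helper21), brick RS16: THE FEED, `T_Q`-LAYER.

ONE complete noetherian local `𝒪`-algebra `R` (`= T_Q`, the Hecke algebra of the Tate side at the
Taylor--Wiles level) with its representation `rR : G_ℚ → M₂(R)` (`= ρ_Q`, hypotheses of
`Num/RelTanT`: `LiftHypM`, `TraceSepM`), acting on BOTH Hecke modules of the seam through two ring
maps `Φ₁ : R → End_{𝒪[Δ]} M1`, `Φχ : R → End_{𝒪[Δ]} Mχ` (helper24's export (E)).  Then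
`T1 := R ⧸ ker Φ₁`, `Tχ := R ⧸ ker Φχ` with the pushed representations satisfy the hypotheses of
`RSide/FeedT.nonempty_datumJ_T`:
* the maps `Θ₁`, `Θχ` are `RSide/ThetaQuot.exists_theta_quot` (the types at the stuck primes from
  `det (rR σ_i) = 1` over `R` and the images of the TRACE: `Φ₁ (tr rR σ_i) = 2`,
  `Φχ (tr rR σ_i) = ζ_i + ζ_i'` : `RSide/LocalData`; `R` may be the trace-generated subalgebra, no
  diamond operator is asked to lie in `R`);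
* `hX` from `hcompat` (the two actions of EVERY element of `R` agree on the common reduction) by
  `RSide/TraceCompat.compat_vars`;
* `hX0` from the compatibility of the entries at the stuck primes with level zero (`hentS`, `hentF`)
  by `compat_vars` at `κ := Empty`;
* `hsep0` (Krull), `hnil0` (`T0` finite local over `𝒪`).
-/
import Mathlib
import Fermat.Agent.S43.RSide.FeedT
import Fermat.Agent.S43.RSide.ThetaQuot

set_option autoImplicit false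
set_option linter.unusedSectionVars false
set_option linter.style.haveILetI false

noncomputable section

namespace Fermat.Agent.S43.RSide.FeedQ

open MvPowerSeries IsLocalRing
open Fermat.Agent.CFT.Bridge
open Fermat.Agent.S56.Coh Fermat.Agent.S56.Coh.CocDefs
open Fermat.Agent.S53.Dictionary hiding GQ
open Fermat.Agent.S53.TangentBound
open Fermat.Agent.S56.Tan.DualHom Fermat.Agent.S56.Tan.Universal Fermat.Agent.S56.Tan.Cocycle
open Fermat.Agent.S43.Num.RelCount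
open Fermat.Agent.S43.Num.RelTanT Fermat.Agent.S43.RSide.LocalMat Fermat.Agent.S43.RSide.TrivBase
open Fermat.Agent.S43.Local.Model Fermat.Agent.S43.Local.Universal Fermat.Agent.S43.Local.Export
open Fermat.Agent.S43.Hecke.Seam
open Fermat.Agent.S43.Patch.Level Fermat.Agent.S43.Patch.LevelJ
open Fermat.Agent.S43.RSide.Out Fermat.Agent.S43.RSide.Exit0 Fermat.Agent.S43.RSide.Feed
open Fermat.Agent.S43.RSide.FeedT Fermat.Agent.S43.RSide.ThetaQuot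
open Fermat.Agent.S43.RSide.TraceCompat Fermat.Agent.S43.RSide.LocalData
open Fermat.Agent.S43.Patch.GroupRing Fermat.Agent.S43.Patch.GroupRingInv
  Fermat.Agent.S43.Patch.EvenOdd Fermat.Agent.S43.Patch.Points

attribute [local instance] algDual

/-! ### nilpotence of the maximal ideal of a finite local algebra modulo the base -/

section Nil

variable {O : Type*} [CommRing O] [IsLocalRing O] {T0 : Type*} [CommRing T0] [IsLocalRing T0]
  [Algebra O T0] [Module.Finite O T0]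

/-- in a local ring finite over the local ring `O`, a power of every non-unit lies in `𝔪_O T0` -/
theorem exists_pow_mem_map_maximalIdeal (x : T0) (hx : x ∈ maximalIdeal T0) :
    ∃ k : ℕ, x ^ k ∈ (maximalIdeal O).map (algebraMap O T0) := by
  set I : Ideal T0 := (maximalIdeal O).map (algebraMap O T0) with hI
  by_cases hItop : I = ⊤
  · exact ⟨0, by rw [hItop]; trivial⟩
  -- the quotient is a finite-dimensional algebra over the residue field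
  letI : Algebra (ResidueField O) (T0 ⧸ I) :=
    (Ideal.Quotient.lift (maximalIdeal O) ((Ideal.Quotient.mk I).comp (algebraMap O T0))
      (fun a ha => by
        rw [RingHom.comp_apply, Ideal.Quotient.eq_zero_iff_mem]
        exact Ideal.mem_map_of_mem _ ha)).toAlgebra
  haveI : IsScalarTower O (ResidueField O) (T0 ⧸ I) := IsScalarTower.of_algebraMap_eq fun a => rfl
  haveI : Module.Finite O (T0 ⧸ I) :=
    Module.Finite.of_surjective (Ideal.Quotient.mkₐ O I).toLinearMap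
      (Ideal.Quotient.mkₐ_surjective O I)
  haveI : Module.Finite (ResidueField O) (T0 ⧸ I) := Module.Finite.of_restrictScalars_finite O _ _
  haveI : IsArtinianRing (T0 ⧸ I) := IsArtinianRing.of_finite (ResidueField O) (T0 ⧸ I)
  haveI : IsLocalRing (T0 ⧸ I) := Fermat.Agent.S43.Patch.Quot.isLocalRing_quotient I hItop
  have h1 : Ideal.Quotient.mk I x ∈ maximalIdeal (T0 ⧸ I) := by
    rw [mem_maximalIdeal, mem_nonunits_iff]
    intro hu
    haveI h2 : IsLocalHom (Ideal.Quotient.mk I) :=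
      IsLocalHom.of_surjective _ Ideal.Quotient.mk_surjective
    exact (mem_maximalIdeal _).mp hx (h2.map_nonunit _ hu)
  have h3 : IsNilpotent (Ideal.jacobson (⊥ : Ideal (T0 ⧸ I))) :=
    IsArtinianRing.isNilpotent_jacobson_bot
  rw [IsLocalRing.jacobson_eq_maximalIdeal _ bot_ne_top] at h3
  obtain ⟨k, hk⟩ := h3
  refine ⟨k, ?_⟩
  have h4 : Ideal.Quotient.mk I x ^ k ∈ maximalIdeal (T0 ⧸ I) ^ k := Ideal.pow_mem_pow h1 k
  rw [hk] at h4
  rw [← Ideal.Quotient.eq_zero_iff_mem, map_pow]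
  exact h4

variable {M0 : Type*} [AddCommGroup M0] [Module O M0] [Module T0 M0] [IsScalarTower O T0 M0]

/-- the corresponding statement on a module -/
theorem smul_mem_of_mem_map (z : T0) (hz : z ∈ (maximalIdeal O).map (algebraMap O T0)) (y : M0) :
    z • y ∈ ((maximalIdeal O) • ⊤ : Submodule O M0) := by
  induction hz using Submodule.span_induction generalizing y with
  | mem w hw =>
    obtain ⟨a, ha, rfl⟩ := hw
    rw [algebraMap_smul]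
    exact Submodule.smul_mem_smul ha Submodule.mem_top
  | zero =>
    rw [zero_smul]
    exact Submodule.zero_mem _
  | add w w' _ _ h1 h2 =>
    rw [add_smul]
    exact Submodule.add_mem _ (h1 y) (h2 y)
  | smul a w _ h1 =>
    rw [smul_eq_mul, mul_comm, mul_smul]
    exact h1 _

end Nil

/-! ### the residual hypotheses from `rbar` -/

section Res

variable {𝒪 : Type} [CommRing 𝒪] [IsLocalRing 𝒪]
  {R : Type} [CommRing R] [IsLocalRing R] [Algebra 𝒪 R] [IsLocalHom (algebraMap 𝒪 R)]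
  (hres : Function.Surjective (residue R ∘ algebraMap 𝒪 R))
  {rbar : GQ →* GL (Fin 2) (ResidueField 𝒪)}
  (rR : GQ →* Mat R)
  (hrR : mapMat (residue R) rR = mapMat (ResidueField.map (algebraMap 𝒪 R)) (rbarM rbar))

include hres hrR in
/-- `rR u ≡ 1` when `rbar u = 1` -/
theorem cong_of_rbar_one (u : GQ) (hu : rbar u = 1) : Cong (maximalIdeal R) (rR u - 1) := by
  intro a b
  rw [← resk_eq_zero_iff hres, Matrix.sub_apply, map_sub, resk_entry hres rbar rR hrR, hu]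
  by_cases hab : a = b
  · subst hab
    rw [Matrix.one_apply_eq, map_one, Units.val_one, Matrix.one_apply_eq, sub_self]
  · rw [Matrix.one_apply_ne hab, map_zero, Units.val_one, Matrix.one_apply_ne hab, sub_self]

include hres hrR in
/-- `rR g ≡ s` when `rbar g` is the scalar `residue s` -/
theorem cong_of_rbar_scalar (g : GQ) (s : 𝒪)
    (hg : (rbar g : Matrix (Fin 2) (Fin 2) (ResidueField 𝒪)) =
      residue 𝒪 s • (1 : Matrix (Fin 2) (Fin 2) (ResidueField 𝒪))) (a b : Fin 2) :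
    (rR g - algebraMap 𝒪 R s • (1 : Matrix (Fin 2) (Fin 2) R)) a b ∈ maximalIdeal R := by
  rw [← resk_eq_zero_iff hres, Matrix.sub_apply, map_sub, resk_entry hres rbar rR hrR, hg,
    Matrix.smul_apply, Matrix.smul_apply, smul_eq_mul, smul_eq_mul, map_mul, resk_algebraMap]
  by_cases hab : a = b
  · subst hab
    rw [Matrix.one_apply_eq, Matrix.one_apply_eq, map_one, sub_self]
  · rw [Matrix.one_apply_ne hab, Matrix.one_apply_ne hab, map_zero, sub_self]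

end Res

/-! ### the feed from `T_Q` -/

section Main

attribute [local instance] HeckeSide.acg1 HeckeSide.acgχ HeckeSide.acgb HeckeSide.mod1
  HeckeSide.modχ HeckeSide.modb

/-- a `2 × 2` matrix with trace `a + b` and determinant `a b` has characteristic polynomial
`(X - a)(X - b)` -/
theorem charpoly_of_trace_det {R' : Type} [CommRing R'] (S : Matrix (Fin 2) (Fin 2) R')
    (a b : R') (htr : S.trace = a + b) (hdet : S.det = a * b) :
    S.charpoly = (Polynomial.X - Polynomial.C a) * (Polynomial.X - Polynomial.C b) := by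
  rcases subsingleton_or_nontrivial R' with hT | hT
  · haveI : Subsingleton (Polynomial R') := Polynomial.subsingleton_iff_subsingleton.mpr hT
    exact Subsingleton.elim _ _
  rw [Matrix.charpoly_fin_two, htr, hdet, Polynomial.C_add, Polynomial.C_mul]
  ring

/-- trace and determinant of the image of a matrix -/
theorem trace_mapMat_apply {R : Type} [CommRing R] {R' : Type} [CommRing R'] (f : R →+* R')
    (rR : GQ →* Mat R) (g : GQ) : (mapMat f rR g).trace = f ((rR g).trace) := by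
  rw [Matrix.trace_fin_two, Matrix.trace_fin_two, map_add]
  rfl

theorem det_mapMat_apply {R : Type} [CommRing R] {R' : Type} [CommRing R'] (f : R →+* R')
    (rR : GQ →* Mat R) (g : GQ) : (mapMat f rR g).det = f ((rR g).det) := by
  rw [Matrix.det_fin_two, Matrix.det_fin_two, map_sub, map_mul, map_mul]
  rfl

variable {𝒪 : Type} [CommRing 𝒪] [IsDomain 𝒪] [IsLocalRing 𝒪] [IsNoetherianRing 𝒪]
  [IsAdicComplete (maximalIdeal 𝒪) 𝒪] {ϖ : 𝒪} {Δ : Type} [CommGroup Δ] {I : Type}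
  {M0 : Type} [AddCommGroup M0] [Module 𝒪 M0] {t0 : I → Module.End 𝒪 M0} {d : ℕ}
  (H : HeckeSide 𝒪 ϖ Δ I M0 t0 d)

/-- **RS16, THE FEED FROM `T_Q`.** -/
theorem nonempty_datumJ_Q (hd : 0 < d) [Finite H.Mb]
    (hϖb : ∀ y : H.Mb, (MonoidAlgebra.single (1 : Δ) ϖ : MonoidAlgebra 𝒪 Δ) • y = 0)
    {r : ℕ} {p : ℕ} [Fact p.Prime] (N : Fin r → ℕ)
    (e : Δ ≃* ((i : Fin r) → Multiplicative (ZMod (p ^ N i))))
    (γ : MvPowerSeries (Fin r) 𝒪 →ₐ[𝒪] MonoidAlgebra 𝒪 Δ)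
    (h2 : IsUnit (2 : 𝒪)) (hp𝒪 : (p : 𝒪) ∈ maximalIdeal 𝒪)
    (hsurj : Function.Surjective γ)
    (hγ : ∀ i, γ (MvPowerSeries.X i) = zel 𝒪 (gen N e) i)
    (hker : ∀ n, (∀ i, n ≤ N i) →
      RingHom.ker γ ≤ maximalIdeal (MvPowerSeries (Fin r) 𝒪) ^ n)
    -- the local model
    {ι : Type} [Fintype ι] {g : ℕ}
    (e' q : ι → 𝒪) (he : ∀ i, ϖ ∣ e' i) (hq : ∀ i, ϖ ∣ q i - 1)
    (h1top : relIdeal 𝒪 (Fin g) 0 q ≠ ⊤) (hχtop : relIdeal 𝒪 (Fin g) e' 1 ≠ ⊤)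
    -- the ring `T_Q` and its representation
    {R : Type} [CommRing R] [IsLocalRing R] [IsNoetherianRing R] [Algebra 𝒪 R]
    [IsLocalHom (algebraMap 𝒪 R)] [IsAdicComplete (maximalIdeal R) R]
    (hres : Function.Surjective (residue R ∘ algebraMap 𝒪 R))
    {rbar : GQ →* GL (Fin 2) (ResidueField 𝒪)}
    (rR : GQ →* Mat R) (hR : IsContMat R rR)
    (hrR : mapMat (residue R) rR = mapMat (ResidueField.map (algebraMap 𝒪 R)) (rbarM rbar))
    (Smin T Q : Finset ℕ) (Pp : GaloisRepAdic (DualNumber (ResidueField 𝒪)) → Prop)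
    (hH : LiftHypM hres rR hR p Smin T Q Pp) (hSep : TraceSepM (𝒪 := 𝒪) rR)
    (τg : Fin g → GQ)
    (hτg : ∀ x : Sel (Smin ∪ T ∪ Q) (LocCond.ofLocal (LcFamT rbar p Smin T Pp)),
      (∀ j, trSel _ _ (τg j) x = 0) → x = 0)
    (c : Fin g → 𝒪)
    (hc : ∀ j, residue 𝒪 (c j) =
      (rbar (τg j) : Matrix (Fin 2) (Fin 2) (ResidueField 𝒪)).trace)
    (h2k : (2 : ResidueField 𝒪) ≠ 0)
    -- the stuck primes
    (ℓ : ι → ℕ) [hℓp : ∀ i, Fact (ℓ i).Prime] (hℓ : ∀ l ∈ T, ∃ i, ℓ i = l)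
    (hpℓ : ∀ i, p ≠ ℓ i) (hqℓ : ∀ i, q i = (ℓ i : 𝒪))
    (τχ s : ι → 𝒪) (hτχ : ∀ i, τχ i ^ 2 = 1 + e' i) (hτχϖ : ∀ i, ϖ ∣ τχ i - 1)
    (hϖ : ϖ ∈ maximalIdeal 𝒪) (hs : ∀ i, IsUnit (s i))
    (σ : ∀ i, (padicPlace (ℓ i)).inertiaSubgroupIn ℚ) (φ : ι → GQ)
    (hσ : ∀ i, TameClause p (ℓ i) (σ i))
    (hφ : ∀ i, (padicPlace (ℓ i)).IsFrobeniusAt (φ i) (ℓ i))
    (hresI : ∀ i, ∀ u ∈ (padicPlace (ℓ i)).inertiaSubgroupIn ℚ,
      Cong (maximalIdeal R) (rR u - 1))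
    (hresΦ : ∀ i a b,
      (rR (φ i) - algebraMap 𝒪 R (s i) • (1 : Matrix (Fin 2) (Fin 2) R)) a b ∈ maximalIdeal R)
    (hdetΦ : ∀ i, (rR (φ i)).det = algebraMap 𝒪 R (s i) ^ 2)
    -- the two actions
    (Φ₁ : R →+* Module.End (MonoidAlgebra 𝒪 Δ) H.M1)
    (hΦ₁O : ∀ (a : 𝒪) (x : H.M1), Φ₁ (algebraMap 𝒪 R a) x =
      (MonoidAlgebra.single (1 : Δ) a : MonoidAlgebra 𝒪 Δ) • x)
    (Φχ : R →+* Module.End (MonoidAlgebra 𝒪 Δ) H.Mχ)
    (hΦχO : ∀ (a : 𝒪) (x : H.Mχ), Φχ (algebraMap 𝒪 R a) x =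
      (MonoidAlgebra.single (1 : Δ) a : MonoidAlgebra 𝒪 Δ) • x)
    (hcompat : ∀ (x : R) (y : H.M1) (z : H.Mχ), H.q1 y = H.qχ z →
      H.q1 (Φ₁ x y) = H.qχ (Φχ x z))
    -- the types at the stuck primes
    (hdetσ : ∀ i, (rR (σ i : GQ)).det = 1)
    (htr1 : ∀ i, Φ₁ ((rR (σ i : GQ)).trace) = 2)
    (ζ ζ' : ι → 𝒪) (nζ : ι → ℕ)
    (htrχ : ∀ i, Φχ ((rR (σ i : GQ)).trace) = Φχ (algebraMap 𝒪 R (ζ i + ζ' i)))
    (hζζ' : ∀ i, ζ i * ζ' i = 1) (hζτ : ∀ i, 2 * τχ i = ζ i + ζ' i)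
    (hζn : ∀ i, ζ i ^ nζ i = 1) (hζ'n : ∀ i, ζ' i ^ nζ i = 1) (hζne : ∀ i, ζ i ≠ ζ' i)
    (hℓn : ∀ i, ℓ i ≡ 1 [MOD nζ i])
    -- the diamonds at the Taylor--Wiles primes
    (hdisp₁ : ∀ i : Fin r, ∃ b : R, ∀ x : H.M1, Φ₁ b x = γ (sq 𝒪 (MvPowerSeries.X i)) • x)
    (hdispχ : ∀ i : Fin r, ∃ b : R, ∀ x : H.Mχ, Φχ b x = γ (sq 𝒪 (MvPowerSeries.X i)) • x)
    -- level zero
    {T0 : Type} [CommRing T0] [IsLocalRing T0] [Algebra 𝒪 T0] [Module.Finite 𝒪 T0]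
    [Module T0 M0] [IsScalarTower 𝒪 T0 M0] [Module.Finite 𝒪 M0]
    (θ₀ : P 𝒪 ι Empty →ₐ[𝒪] T0) (hθ₀m : ∀ v, θ₀ (X v) ∈ maximalIdeal T0)
    (S0 F0 : ι → Matrix (Fin 2) (Fin 2) T0)
    (hS0 : ∀ i, (SigmaU 𝒪 Empty 1 i).map θ₀ = S0 i)
    (hF0 : ∀ i, (PhiU 𝒪 Empty s i).map θ₀ = F0 i)
    (hentS : ∀ i a b (x : H.M1), H.p0 (Φ₁ (rR (σ i : GQ) a b) x) = S0 i a b • H.p0 x)
    (hentF : ∀ i a b (x : H.M1), H.p0 (Φ₁ (rR (φ i) a b) x) = F0 i a b • H.p0 x)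
    (hw0 : ∀ i, IsUnit ((F0 i).trace + 2 * algebraMap 𝒪 T0 (s i)))
    (n : ℕ) (hn : ∀ i, (2 * r + 2) * n ≤ N i) :
    Nonempty (DatumJ.{0} (MvPowerSeries (Fin r) 𝒪) (A1 (Fin g) q) (Achi (Fin g) e')
      (Abar (Fin g) ϖ q)
      (maximalIdeal (MvPowerSeries (Fin r) 𝒪)) (pi1 ϖ q) (pichi ϖ e' q he hq)
      (MvPowerSeries.C ϖ) (Ideal.Quotient.mk _ (C ϖ)) (Ideal.Quotient.mk _ (C ϖ))
      (augIdeal (Fin r) 𝒪) (Jzero (Fin g) q θ₀ (2 * r + 1)) (2 ^ r * d) n) := by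
  classical
  haveI : Nontrivial H.M1 := nontrivial_M1 H hd
  haveI : Nontrivial H.Mχ := by
    obtain ⟨b⟩ := H.basisχ
    exact ⟨⟨b ⟨0, hd⟩, 0, b.ne_zero _⟩⟩
  -- the two quotients
  have hJ1 : RingHom.ker Φ₁ ≠ ⊤ := RingHom.ker_ne_top Φ₁
  have hJχ : RingHom.ker Φχ ≠ ⊤ := RingHom.ker_ne_top Φχ
  letI m1 : Module (R ⧸ RingHom.ker Φ₁) H.M1 := Module.compHom H.M1 (RingHom.kerLift Φ₁)
  letI mχ : Module (R ⧸ RingHom.ker Φχ) H.Mχ := Module.compHom H.Mχ (RingHom.kerLift Φχ)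
  have hm1 : ∀ (x : R) (y : H.M1), (Ideal.Quotient.mk (RingHom.ker Φ₁) x) • y = Φ₁ x y :=
    fun _ _ => rfl
  have hmχ : ∀ (x : R) (y : H.Mχ), (Ideal.Quotient.mk (RingHom.ker Φχ) x) • y = Φχ x y :=
    fun _ _ => rfl
  have halg1 : ∀ a : 𝒪, algebraMap 𝒪 (R ⧸ RingHom.ker Φ₁) a =
      Ideal.Quotient.mk (RingHom.ker Φ₁) (algebraMap 𝒪 R a) := fun _ => rfl
  have halgχ : ∀ a : 𝒪, algebraMap 𝒪 (R ⧸ RingHom.ker Φχ) a =
      Ideal.Quotient.mk (RingHom.ker Φχ) (algebraMap 𝒪 R a) := fun _ => rfl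
  have hcomm1 : ∀ (a : R ⧸ RingHom.ker Φ₁) (t : MonoidAlgebra 𝒪 Δ) (x : H.M1),
      a • t • x = t • a • x := by
    intro a t x
    obtain ⟨a, rfl⟩ := Ideal.Quotient.mk_surjective a
    rw [hm1, hm1, map_smul]
  have hcommχ : ∀ (a : R ⧸ RingHom.ker Φχ) (t : MonoidAlgebra 𝒪 Δ) (x : H.Mχ),
      a • t • x = t • a • x := by
    intro a t x
    obtain ⟨a, rfl⟩ := Ideal.Quotient.mk_surjective a
    rw [hmχ, hmχ, map_smul]
  have hO1 : ∀ (a : 𝒪) (x : H.M1), algebraMap 𝒪 (R ⧸ RingHom.ker Φ₁) a • x =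
      (MonoidAlgebra.single (1 : Δ) a : MonoidAlgebra 𝒪 Δ) • x := fun a x => by
    rw [halg1, hm1, hΦ₁O]
  have hOχ : ∀ (a : 𝒪) (x : H.Mχ), algebraMap 𝒪 (R ⧸ RingHom.ker Φχ) a • x =
      (MonoidAlgebra.single (1 : Δ) a : MonoidAlgebra 𝒪 Δ) • x := fun a x => by
    rw [halgχ, hmχ, hΦχO]
  -- the images of `u`, `v`
  have hmk1 : ∀ {x y : R}, Φ₁ x = Φ₁ y →
      Ideal.Quotient.mk (RingHom.ker Φ₁) x = Ideal.Quotient.mk (RingHom.ker Φ₁) y := by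
    intro x y h
    rw [Ideal.Quotient.eq, RingHom.mem_ker, map_sub, h, sub_self]
  have hmkχ : ∀ {x y : R}, Φχ x = Φχ y →
      Ideal.Quotient.mk (RingHom.ker Φχ) x = Ideal.Quotient.mk (RingHom.ker Φχ) y := by
    intro x y h
    rw [Ideal.Quotient.eq, RingHom.mem_ker, map_sub, h, sub_self]
  -- generalities over `R`
  have hpR : (p : R) ∈ maximalIdeal R := by
    rw [mem_maximalIdeal, mem_nonunits_iff]
    intro hu
    have h1 : IsUnit (algebraMap 𝒪 R (p : 𝒪)) := by rwa [map_natCast]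
    exact (mem_maximalIdeal _).mp hp𝒪 (isUnit_of_map_unit (algebraMap 𝒪 R) _ h1)
  have hmax : ∀ a : 𝒪, a ∈ maximalIdeal 𝒪 → algebraMap 𝒪 R a ∈ maximalIdeal R := by
    intro a ha
    rw [mem_maximalIdeal, mem_nonunits_iff]
    intro hu
    exact (mem_maximalIdeal _).mp ha (isUnit_of_map_unit (algebraMap 𝒪 R) _ hu)
  have hτm : ∀ i, algebraMap 𝒪 R (τχ i) - 1 ∈ maximalIdeal R := by
    intro i
    obtain ⟨w, hw⟩ := hτχϖ i
    rw [← map_one (algebraMap 𝒪 R), ← map_sub, hw, map_mul]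
    exact Ideal.mul_mem_right _ _ (hmax _ hϖ)
  have h1m : ∀ i : ι, algebraMap 𝒪 R ((1 : ι → 𝒪) i) - 1 ∈ maximalIdeal R := by
    intro i
    rw [Pi.one_apply, map_one, sub_self]
    exact Ideal.zero_mem _
  have hsepR : ∀ x : R, (∀ n, x ∈ maximalIdeal R ^ n) → x = 0 := by
    intro x hx
    have h1 : x ∈ (⨅ n : ℕ, maximalIdeal R ^ n : Ideal R) := by
      rw [Ideal.mem_iInf]
      exact hx
    rw [Ideal.iInf_pow_eq_bot_of_isLocalRing _ (Ideal.IsMaximal.ne_top inferInstance)] at h1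
    exact h1
  have hconj : ∀ i, rR (φ i) * rR (σ i : GQ) = rR (σ i : GQ) ^ (ℓ i) * rR (φ i) := fun i =>
    conj_eq_pow (hℓp i).out (Fact.out : p.Prime) (hpℓ i) hpR hsepR
      (Fermat.Agent.CFT.LocalBridge.liesOverPrime_padicPlace (ℓ i)) rR hR (hresI i) (hφ i) (σ i).2
  have hconj' : ∀ (J : Ideal R) (i : ι),
      mapMat (bJ (𝒪 := 𝒪) J : R →+* R ⧸ J) rR (φ i) *
        mapMat (bJ (𝒪 := 𝒪) J : R →+* R ⧸ J) rR (σ i : GQ) =
      mapMat (bJ (𝒪 := 𝒪) J : R →+* R ⧸ J) rR (σ i : GQ) ^ (ℓ i) *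
        mapMat (bJ (𝒪 := 𝒪) J : R →+* R ⧸ J) rR (φ i) := by
    intro J i
    have h1 := congrArg (mapMatHom (bJ (𝒪 := 𝒪) J : R →+* R ⧸ J)) (hconj i)
    rw [map_mul, map_mul, map_pow] at h1
    exact h1
  -- the characteristic polynomials in the quotients
  have hcp1 : ∀ i, (mapMat (bJ (𝒪 := 𝒪) (RingHom.ker Φ₁) : R →+* R ⧸ RingHom.ker Φ₁) rR
      (σ i : GQ)).charpoly = (Polynomial.X - Polynomial.C 1) * (Polynomial.X - Polynomial.C 1) := by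
    intro i
    refine charpoly_of_trace_det _ 1 1 ?_ ?_
    · rw [trace_mapMat_apply]
      have h1 : Ideal.Quotient.mk (RingHom.ker Φ₁) ((rR (σ i : GQ)).trace) =
          Ideal.Quotient.mk (RingHom.ker Φ₁) 2 := hmk1 (by rw [htr1, map_ofNat])
      show Ideal.Quotient.mk (RingHom.ker Φ₁) ((rR (σ i : GQ)).trace) = 1 + 1
      rw [h1, map_ofNat]
      norm_num
    · rw [det_mapMat_apply, hdetσ, map_one, mul_one]
  have hcpχ : ∀ i, (mapMat (bJ (𝒪 := 𝒪) (RingHom.ker Φχ) : R →+* R ⧸ RingHom.ker Φχ) rR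
      (σ i : GQ)).charpoly =
      (Polynomial.X - Polynomial.C (algebraMap 𝒪 (R ⧸ RingHom.ker Φχ) (ζ i))) *
        (Polynomial.X - Polynomial.C (algebraMap 𝒪 (R ⧸ RingHom.ker Φχ) (ζ' i))) := by
    intro i
    refine charpoly_of_trace_det _ _ _ ?_ ?_
    · rw [trace_mapMat_apply, ← map_add, halgχ]
      exact hmkχ (htrχ i)
    · rw [det_mapMat_apply, hdetσ, map_one, ← map_mul, hζζ', map_one]
  -- the two maps from the local model
  obtain ⟨Θ₁, hΘ₁, hrel₁, hS₁, hF₁, hex₁, hnu₁⟩ := exists_theta_quot hres rR hR hrR p Smin T Q Pp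
    hH hSep (RingHom.ker Φ₁) hJ1 τg hτg c hc h2 h2k hpR ℓ hℓ 0 q 1 s
    (fun i => by simp) hs σ φ hσ hφ hresI h1m hresΦ hdetΦ
    (fun i => unip_htr (𝒪 := 𝒪) _ (hcp1 i))
    (fun i => unip_hdet _ (hcp1 i))
    (fun i => by
      have h := unip_hrel (𝒪 := 𝒪) _ _ (hcp1 i) (ℓ i) (hconj' _ i)
      rw [hqℓ i]
      exact h)
  obtain ⟨Θχ, hΘχ, hrelχ, hSχ, hFχ, hexχ, hnuχ⟩ := exists_theta_quot hres rR hR hrR p Smin T Q Pp
    hH hSep (RingHom.ker Φχ) hJχ τg hτg c hc h2 h2k hpR ℓ hℓ e' 1 τχ s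
    hτχ hs σ φ hσ hφ hresI hτm hresΦ hdetΦ
    (fun i => chi_htr _ (hζτ i) (hcpχ i))
    (fun i => chi_hdet _ (hζζ' i) (hcpχ i))
    (fun i => chi_hrel _ _ (hζn i) (hζ'n i) (hζne i) (hcpχ i) (hℓn i) (hconj' _ i))
  -- the kernel of the reduction of `Mχ` is stable
  have hkχ : ∀ (a : R ⧸ RingHom.ker Φχ) (x : H.Mχ), H.qχ.toAddMonoidHom x = 0 →
      H.qχ.toAddMonoidHom (a • x) = 0 := by
    intro a x hx
    obtain ⟨y, rfl⟩ := H.qχ_ker x hx
    show H.qχ _ = 0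
    rw [hcommχ, map_smul, hϖb]
  -- compatibility of every element of `R`
  have hall : ∀ x : R, Compat H.q1.toAddMonoidHom H.qχ.toAddMonoidHom
      (Ideal.Quotient.mk (RingHom.ker Φ₁) x) (Ideal.Quotient.mk (RingHom.ker Φχ) x) := by
    intro x y z hyz
    show H.q1 _ = H.qχ _
    rw [hm1, hmχ]
    exact hcompat x y z hyz
  -- compatibility of congruent constants
  have hconst : ∀ a b : 𝒪, ϖ ∣ a - b → Compat H.q1.toAddMonoidHom H.qχ.toAddMonoidHom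
      (algebraMap 𝒪 (R ⧸ RingHom.ker Φ₁) a) (algebraMap 𝒪 (R ⧸ RingHom.ker Φχ) b) := by
    intro a b hab y z hyz
    obtain ⟨w, hw⟩ := hab
    have hyz' : H.q1 y = H.qχ z := hyz
    show H.q1 _ = H.qχ _
    rw [hO1, hOχ, map_smul, map_smul, hyz']
    have h1 : a = b + ϖ * w := by rw [← hw]; ring
    rw [h1, MonoidAlgebra.single_add, add_smul]
    have h3 : (MonoidAlgebra.single (1 : Δ) (ϖ * w) : MonoidAlgebra 𝒪 Δ) =
        MonoidAlgebra.single (1 : Δ) ϖ * MonoidAlgebra.single (1 : Δ) w := by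
      rw [MonoidAlgebra.single_mul_single, one_mul]
    rw [h3, mul_smul, hϖb, add_zero]
  -- the units `tr Φ_i + 2 s_i`
  have hwR : ∀ i, IsUnit ((rR (φ i)).trace + 2 * algebraMap 𝒪 R (s i)) := by
    intro i
    have h1 : (rR (φ i)).trace - 2 * algebraMap 𝒪 R (s i) ∈ maximalIdeal R := by
      have h00 := hresΦ i 0 0
      have h11 := hresΦ i 1 1
      rw [Matrix.sub_apply, Matrix.smul_apply, Matrix.one_apply_eq, smul_eq_mul, mul_one] at h00 h11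
      have := Ideal.add_mem _ h00 h11
      rw [Matrix.trace_fin_two]
      convert this using 1
      ring
    have h4 : IsUnit (4 * algebraMap 𝒪 R (s i)) := by
      have h5 : IsUnit (algebraMap 𝒪 R (2 * 2 * s i)) :=
        ((h2.mul h2).mul (hs i)).map (algebraMap 𝒪 R)
      rw [map_mul, map_mul, map_ofNat] at h5
      convert h5 using 1
      ring
    by_contra hnu
    have h6 : (rR (φ i)).trace + 2 * algebraMap 𝒪 R (s i) ∈ maximalIdeal R :=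
      (mem_maximalIdeal _).mpr hnu
    have h7 := Ideal.sub_mem _ h6 h1
    have h8 : (rR (φ i)).trace + 2 * algebraMap 𝒪 R (s i) -
        ((rR (φ i)).trace - 2 * algebraMap 𝒪 R (s i)) = 4 * algebraMap 𝒪 R (s i) := by ring
    rw [h8] at h7
    exact (mem_maximalIdeal _).mp h7 h4
  have hwJ : ∀ (J : Ideal R) (i : ι),
      IsUnit ((mapMat (bJ (𝒪 := 𝒪) J : R →+* R ⧸ J) rR (φ i)).trace +
        2 * algebraMap 𝒪 (R ⧸ J) (s i)) := by
    intro J i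
    have h1 := (hwR i).map (Ideal.Quotient.mk J)
    have h3 : (mapMat (bJ (𝒪 := 𝒪) J : R →+* R ⧸ J) rR (φ i)).trace =
        Ideal.Quotient.mk J ((rR (φ i)).trace) := by
      rw [Matrix.trace_fin_two, Matrix.trace_fin_two, map_add]
      rfl
    rw [h3]
    rw [map_add, map_mul, map_ofNat] at h1
    exact h1
  -- `hX`
  have hX : ∀ v : Var ι (Fin g), Compat H.q1.toAddMonoidHom H.qχ.toAddMonoidHom
      (Θ₁ (X v)) (Θχ (X v)) :=
    compat_vars Θ₁ Θχ H.qχ_surj hkχ 1 τχ s _ _ _ _ hS₁ hSχ hF₁ hFχ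
      (fun i a b => hall _) (fun i a b => hall _)
      (fun i => hconst _ _ (by
        rw [Pi.one_apply]
        obtain ⟨w, hw⟩ := hτχϖ i
        exact ⟨-w, by rw [mul_neg, ← hw]; ring⟩))
      (fun i => hconst _ _ (by rw [sub_self]; exact dvd_zero _))
      (fun i => hwJ _ i) (fun i => hwJ _ i)
      (fun k => by
        rw [hex₁, hexχ]
        exact (hall _).sub (hconst _ _ (by rw [sub_self]; exact dvd_zero _)))
  -- `hX0`
  have hX0' : ∀ v : Var ι Empty, Compat H.p0 (AddMonoidHom.id M0)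
      ((Θ₁.comp (eps (Fin g))) (X v)) (θ₀ (X v)) :=
    compat_vars (q₁ := H.p0) (qχ := AddMonoidHom.id M0) (Θ₁.comp (eps (Fin g))) θ₀
      Function.surjective_id
      (fun a x hx => by
        have hx' : x = 0 := hx
        rw [hx', smul_zero, map_zero])
      1 1 s (fun i => mapMat (bJ (𝒪 := 𝒪) (RingHom.ker Φ₁) : R →+* R ⧸ RingHom.ker Φ₁) rR (σ i : GQ))
      (fun i => mapMat (bJ (𝒪 := 𝒪) (RingHom.ker Φ₁) : R →+* R ⧸ RingHom.ker Φ₁) rR (φ i)) S0 F0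
      (fun i => by
        rw [← hS₁ i, ← map_SigmaU (Fin g) (1 : ι → 𝒪) i, Matrix.map_map]
        rfl)
      hS0
      (fun i => by
        rw [← hF₁ i, ← map_PhiU (Fin g) s i, Matrix.map_map]
        rfl)
      hF0
      (fun i a b x y hxy => by
        have hxy' : H.p0 x = y := hxy
        show H.p0 _ = _
        rw [AddMonoidHom.id_apply, ← hxy']
        exact hentS i a b x)
      (fun i a b x y hxy => by
        have hxy' : H.p0 x = y := hxy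
        show H.p0 _ = _
        rw [AddMonoidHom.id_apply, ← hxy']
        exact hentF i a b x)
      (fun i x y hxy => by
        have hxy' : H.p0 x = y := hxy
        show H.p0 _ = _
        rw [AddMonoidHom.id_apply, ← hxy', hO1, H.p0_smul, algebraMap_smul])
      (fun i x y hxy => by
        have hxy' : H.p0 x = y := hxy
        show H.p0 _ = _
        rw [AddMonoidHom.id_apply, ← hxy', hO1, H.p0_smul, algebraMap_smul])
      (fun i => hwJ _ i) hw0 (fun k => k.elim)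
  have hX0 : ∀ (v : Var ι Empty) (x : H.M1),
      H.p0 (Θ₁ (X (incl (Fin g) v)) • x) = θ₀ (X v) • H.p0 x := by
    intro v x
    have h1 := hX0' v x (H.p0 x) rfl
    rw [AlgHom.comp_apply, eps_X] at h1
    exact h1
  -- level zero
  have hsep0 : ∀ y : M0, (∀ n, y ∈ ((maximalIdeal 𝒪) ^ n • ⊤ : Submodule 𝒪 M0)) → y = 0 := by
    intro y hy
    have h1 : y ∈ (⨅ n : ℕ, (maximalIdeal 𝒪) ^ n • ⊤ : Submodule 𝒪 M0) := by
      rw [Submodule.mem_iInf]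
      exact hy
    rw [Ideal.iInf_pow_smul_eq_bot_of_isLocalRing _ (Ideal.IsMaximal.ne_top inferInstance)] at h1
    exact h1
  have hnil0 : ∀ v : Var ι Empty, ∃ k : ℕ, ∀ y : M0,
      θ₀ (X v) ^ k • y ∈ ((maximalIdeal 𝒪) • ⊤ : Submodule 𝒪 M0) := by
    intro v
    obtain ⟨k, hk⟩ := exists_pow_mem_map_maximalIdeal (O := 𝒪) (θ₀ (X v)) (hθ₀m v)
    exact ⟨k, fun y => smul_mem_of_mem_map _ hk y⟩
  exact nonempty_datumJ_T H hd hϖb N e γ h2 hp𝒪 hsurj hγ hker e' q he hq h1top hχtop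
    hcomm1 hO1 hOχ Θ₁ hΘ₁ hrel₁ Θχ hΘχ hrelχ θ₀ hX hX0
    (fun i => by
      obtain ⟨b, hb⟩ := hdisp₁ i
      exact ⟨Ideal.Quotient.mk _ b, fun x => by rw [hm1, hb]⟩)
    (fun i => by
      obtain ⟨b, hb⟩ := hdispχ i
      exact ⟨Ideal.Quotient.mk _ b, fun x => by rw [hmχ, hb]⟩)
    hsep0 hnil0 n hn

/-- **RS16', the same with the residual hypotheses at the stuck primes stated on `rbar`** :
`rbar` is trivial on the inertia groups at the stuck primes and `rbar (φ i)` is the scalar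
`residue (s i)`. -/
theorem nonempty_datumJ_Q' (hd : 0 < d) [Finite H.Mb]
    (hϖb : ∀ y : H.Mb, (MonoidAlgebra.single (1 : Δ) ϖ : MonoidAlgebra 𝒪 Δ) • y = 0)
    {r : ℕ} {p : ℕ} [Fact p.Prime] (N : Fin r → ℕ)
    (e : Δ ≃* ((i : Fin r) → Multiplicative (ZMod (p ^ N i))))
    (γ : MvPowerSeries (Fin r) 𝒪 →ₐ[𝒪] MonoidAlgebra 𝒪 Δ)
    (h2 : IsUnit (2 : 𝒪)) (hp𝒪 : (p : 𝒪) ∈ maximalIdeal 𝒪)
    (hsurj : Function.Surjective γ)
    (hγ : ∀ i, γ (MvPowerSeries.X i) = zel 𝒪 (gen N e) i)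
    (hker : ∀ n, (∀ i, n ≤ N i) →
      RingHom.ker γ ≤ maximalIdeal (MvPowerSeries (Fin r) 𝒪) ^ n)
    -- the local model
    {ι : Type} [Fintype ι] {g : ℕ}
    (e' q : ι → 𝒪) (he : ∀ i, ϖ ∣ e' i) (hq : ∀ i, ϖ ∣ q i - 1)
    (h1top : relIdeal 𝒪 (Fin g) 0 q ≠ ⊤) (hχtop : relIdeal 𝒪 (Fin g) e' 1 ≠ ⊤)
    -- the ring `T_Q` and its representation
    {R : Type} [CommRing R] [IsLocalRing R] [IsNoetherianRing R] [Algebra 𝒪 R]
    [IsLocalHom (algebraMap 𝒪 R)] [IsAdicComplete (maximalIdeal R) R]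
    (hres : Function.Surjective (residue R ∘ algebraMap 𝒪 R))
    {rbar : GQ →* GL (Fin 2) (ResidueField 𝒪)}
    (rR : GQ →* Mat R) (hR : IsContMat R rR)
    (hrR : mapMat (residue R) rR = mapMat (ResidueField.map (algebraMap 𝒪 R)) (rbarM rbar))
    (Smin T Q : Finset ℕ) (Pp : GaloisRepAdic (DualNumber (ResidueField 𝒪)) → Prop)
    (hH : LiftHypM hres rR hR p Smin T Q Pp) (hSep : TraceSepM (𝒪 := 𝒪) rR)
    (τg : Fin g → GQ)
    (hτg : ∀ x : Sel (Smin ∪ T ∪ Q) (LocCond.ofLocal (LcFamT rbar p Smin T Pp)),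
      (∀ j, trSel _ _ (τg j) x = 0) → x = 0)
    (c : Fin g → 𝒪)
    (hc : ∀ j, residue 𝒪 (c j) =
      (rbar (τg j) : Matrix (Fin 2) (Fin 2) (ResidueField 𝒪)).trace)
    (h2k : (2 : ResidueField 𝒪) ≠ 0)
    -- the stuck primes
    (ℓ : ι → ℕ) [hℓp : ∀ i, Fact (ℓ i).Prime] (hℓ : ∀ l ∈ T, ∃ i, ℓ i = l)
    (hpℓ : ∀ i, p ≠ ℓ i) (hqℓ : ∀ i, q i = (ℓ i : 𝒪))
    (τχ s : ι → 𝒪) (hτχ : ∀ i, τχ i ^ 2 = 1 + e' i) (hτχϖ : ∀ i, ϖ ∣ τχ i - 1)
    (hϖ : ϖ ∈ maximalIdeal 𝒪) (hs : ∀ i, IsUnit (s i))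
    (σ : ∀ i, (padicPlace (ℓ i)).inertiaSubgroupIn ℚ) (φ : ι → GQ)
    (hσ : ∀ i, TameClause p (ℓ i) (σ i))
    (hφ : ∀ i, (padicPlace (ℓ i)).IsFrobeniusAt (φ i) (ℓ i))
    (hrbarI : ∀ i, ∀ u ∈ (padicPlace (ℓ i)).inertiaSubgroupIn ℚ, rbar u = 1)
    (hrbarΦ : ∀ i, (rbar (φ i) : Matrix (Fin 2) (Fin 2) (ResidueField 𝒪)) =
      residue 𝒪 (s i) • (1 : Matrix (Fin 2) (Fin 2) (ResidueField 𝒪)))
    (hdetΦ : ∀ i, (rR (φ i)).det = algebraMap 𝒪 R (s i) ^ 2)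
    -- the two actions
    (Φ₁ : R →+* Module.End (MonoidAlgebra 𝒪 Δ) H.M1)
    (hΦ₁O : ∀ (a : 𝒪) (x : H.M1), Φ₁ (algebraMap 𝒪 R a) x =
      (MonoidAlgebra.single (1 : Δ) a : MonoidAlgebra 𝒪 Δ) • x)
    (Φχ : R →+* Module.End (MonoidAlgebra 𝒪 Δ) H.Mχ)
    (hΦχO : ∀ (a : 𝒪) (x : H.Mχ), Φχ (algebraMap 𝒪 R a) x =
      (MonoidAlgebra.single (1 : Δ) a : MonoidAlgebra 𝒪 Δ) • x)
    (hcompat : ∀ (x : R) (y : H.M1) (z : H.Mχ), H.q1 y = H.qχ z →
      H.q1 (Φ₁ x y) = H.qχ (Φχ x z))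
    -- the types at the stuck primes
    (hdetσ : ∀ i, (rR (σ i : GQ)).det = 1)
    (htr1 : ∀ i, Φ₁ ((rR (σ i : GQ)).trace) = 2)
    (ζ ζ' : ι → 𝒪) (nζ : ι → ℕ)
    (htrχ : ∀ i, Φχ ((rR (σ i : GQ)).trace) = Φχ (algebraMap 𝒪 R (ζ i + ζ' i)))
    (hζζ' : ∀ i, ζ i * ζ' i = 1) (hζτ : ∀ i, 2 * τχ i = ζ i + ζ' i)
    (hζn : ∀ i, ζ i ^ nζ i = 1) (hζ'n : ∀ i, ζ' i ^ nζ i = 1) (hζne : ∀ i, ζ i ≠ ζ' i)
    (hℓn : ∀ i, ℓ i ≡ 1 [MOD nζ i])
    -- the diamonds at the Taylor--Wiles primes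
    (hdisp₁ : ∀ i : Fin r, ∃ b : R, ∀ x : H.M1, Φ₁ b x = γ (sq 𝒪 (MvPowerSeries.X i)) • x)
    (hdispχ : ∀ i : Fin r, ∃ b : R, ∀ x : H.Mχ, Φχ b x = γ (sq 𝒪 (MvPowerSeries.X i)) • x)
    -- level zero
    {T0 : Type} [CommRing T0] [IsLocalRing T0] [Algebra 𝒪 T0] [Module.Finite 𝒪 T0]
    [Module T0 M0] [IsScalarTower 𝒪 T0 M0] [Module.Finite 𝒪 M0]
    (θ₀ : P 𝒪 ι Empty →ₐ[𝒪] T0) (hθ₀m : ∀ v, θ₀ (X v) ∈ maximalIdeal T0)
    (S0 F0 : ι → Matrix (Fin 2) (Fin 2) T0)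
    (hS0 : ∀ i, (SigmaU 𝒪 Empty 1 i).map θ₀ = S0 i)
    (hF0 : ∀ i, (PhiU 𝒪 Empty s i).map θ₀ = F0 i)
    (hentS : ∀ i a b (x : H.M1), H.p0 (Φ₁ (rR (σ i : GQ) a b) x) = S0 i a b • H.p0 x)
    (hentF : ∀ i a b (x : H.M1), H.p0 (Φ₁ (rR (φ i) a b) x) = F0 i a b • H.p0 x)
    (hw0 : ∀ i, IsUnit ((F0 i).trace + 2 * algebraMap 𝒪 T0 (s i)))
    (n : ℕ) (hn : ∀ i, (2 * r + 2) * n ≤ N i) :
    Nonempty (DatumJ.{0} (MvPowerSeries (Fin r) 𝒪) (A1 (Fin g) q) (Achi (Fin g) e')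
      (Abar (Fin g) ϖ q)
      (maximalIdeal (MvPowerSeries (Fin r) 𝒪)) (pi1 ϖ q) (pichi ϖ e' q he hq)
      (MvPowerSeries.C ϖ) (Ideal.Quotient.mk _ (C ϖ)) (Ideal.Quotient.mk _ (C ϖ))
      (augIdeal (Fin r) 𝒪) (Jzero (Fin g) q θ₀ (2 * r + 1)) (2 ^ r * d) n) := by
  exact nonempty_datumJ_Q H hd hϖb N e γ h2 hp𝒪 hsurj hγ hker e' q he hq h1top hχtop hres rR hR hrR
    Smin T Q Pp hH hSep τg hτg c hc h2k ℓ hℓ hpℓ hqℓ τχ s hτχ hτχϖ hϖ hs σ φ hσ hφ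
    (fun i u hu => cong_of_rbar_one hres rR hrR u (hrbarI i u hu))
    (fun i => cong_of_rbar_scalar hres rR hrR (φ i) (s i) (hrbarΦ i)) hdetΦ
    Φ₁ hΦ₁O Φχ hΦχO hcompat hdetσ htr1 ζ ζ' nζ htrχ hζζ' hζτ hζn hζ'n hζne hℓn hdisp₁ hdispχ
    θ₀ hθ₀m S0 F0 hS0 hF0 hentS hentF hw0 n hn

end Main

end Fermat.Agent.S43.RSide.FeedQ
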