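/-
PROJECT R (S43, row 37), block RS (leader helper21), brick RS17: THE COMPATIBILITY WITH LEVEL ZERO.

`T₁` (`= T_Q` or its trace-generated subalgebra) and `T₀` (the level-zero Hecke algebra) local rings,
finite over the noetherian local ring `O`, acting on `M₁` and on the FINITE `O`-module `M₀`;
`p0 : M₁ → M₀` additive, `O`-semilinear (`hO`).  If for every `n` and `g` the two trace functions are
approximated modulo `𝔪 ^ n` by the SAME Lucas polynomial of a compatible pair of Hecke operators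
(`Rho/Props/JointRing.exists_joint_approx_ring` + "Frobenius traces are Hecke operators" +
`HeckeSide.p0_t`), then `p0 (t₁ g • x) = t₀ g • p0 x` for all `g` (`compat_of_joint`): the
difference lies in `𝔪_O ^ n M₀` for all `n`, and `M₀` is separated.
Then the entries of the two Cayley--Hamilton representations at the SAME normalisation
`(c, g₀, h₀)` are compatible (`ent_of_joint`, the hypotheses `hentS`, `hentF` of
`RSide/FeedQ.nonempty_datumJ_Q`), and `eq_of_compat` (`T₀` faithful on `M₀`): an element of `T₀` is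
determined by a compatible element of `T₁` (the unipotent type at level zero from ONE level).
-/
import Mathlib
import Fermat.Agent.S43.RSide.FeedQ

set_option autoImplicit false
set_option linter.unusedSectionVars false
set_option linter.style.haveILetI false

noncomputable section

namespace Fermat.Agent.S43.RSide.ZeroTrace

open IsLocalRing
open Fermat.Agent.S43.RSide.Out Fermat.Agent.S43.RSide.TraceCompat Fermat.Agent.S43.Rho
open Fermat.Agent.S43.Hecke.Seam
open Fermat.Agent.S31.Core (lucas)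

/-! ### powers of the maximal ideal of a finite local algebra -/

section Pow

variable {O : Type*} [CommRing O] [IsLocalRing O] {T : Type*} [CommRing T] [IsLocalRing T]
  [Algebra O T] [Module.Finite O T]

/-- a power of the maximal ideal of a local ring finite over the local ring `O` lies in `𝔪_O T` -/
theorem exists_pow_le_map_maximalIdeal :
    ∃ k : ℕ, maximalIdeal T ^ k ≤ (maximalIdeal O).map (algebraMap O T) := by
  set I : Ideal T := (maximalIdeal O).map (algebraMap O T) with hI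
  by_cases hItop : I = ⊤
  · exact ⟨0, by rw [hItop]; exact le_top⟩
  letI : Algebra (ResidueField O) (T ⧸ I) :=
    (Ideal.Quotient.lift (maximalIdeal O) ((Ideal.Quotient.mk I).comp (algebraMap O T))
      (fun a ha => by
        rw [RingHom.comp_apply, Ideal.Quotient.eq_zero_iff_mem]
        exact Ideal.mem_map_of_mem _ ha)).toAlgebra
  haveI : IsScalarTower O (ResidueField O) (T ⧸ I) := IsScalarTower.of_algebraMap_eq fun a => rfl
  haveI : Module.Finite O (T ⧸ I) :=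
    Module.Finite.of_surjective (Ideal.Quotient.mkₐ O I).toLinearMap
      (Ideal.Quotient.mkₐ_surjective O I)
  haveI : Module.Finite (ResidueField O) (T ⧸ I) := Module.Finite.of_restrictScalars_finite O _ _
  haveI : IsArtinianRing (T ⧸ I) := IsArtinianRing.of_finite (ResidueField O) (T ⧸ I)
  haveI : IsLocalRing (T ⧸ I) := Fermat.Agent.S43.Patch.Quot.isLocalRing_quotient I hItop
  have h3 : IsNilpotent (Ideal.jacobson (⊥ : Ideal (T ⧸ I))) :=
    IsArtinianRing.isNilpotent_jacobson_bot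
  rw [IsLocalRing.jacobson_eq_maximalIdeal _ bot_ne_top] at h3
  obtain ⟨k, hk⟩ := h3
  refine ⟨k, fun x hx => ?_⟩
  have h1 : (maximalIdeal T).map (Ideal.Quotient.mk I) ≤ maximalIdeal (T ⧸ I) := by
    rw [Ideal.map_le_iff_le_comap]
    intro y hy
    rw [Ideal.mem_comap, mem_maximalIdeal, mem_nonunits_iff]
    intro hu
    haveI h2 : IsLocalHom (Ideal.Quotient.mk I) :=
      IsLocalHom.of_surjective _ Ideal.Quotient.mk_surjective
    exact (mem_maximalIdeal _).mp hy (h2.map_nonunit _ hu)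
  have h4 : Ideal.Quotient.mk I x ∈ maximalIdeal (T ⧸ I) ^ k := by
    have h5 : Ideal.Quotient.mk I x ∈ ((maximalIdeal T) ^ k).map (Ideal.Quotient.mk I) :=
      Ideal.mem_map_of_mem _ hx
    rw [Ideal.map_pow] at h5
    exact Ideal.pow_right_mono h1 k h5
  rw [hk] at h4
  rwa [← Ideal.Quotient.eq_zero_iff_mem]

/-- the same for the `n`-th power of `𝔪_O` -/
theorem exists_pow_le_map_pow (n : ℕ) :
    ∃ k : ℕ, maximalIdeal T ^ k ≤ ((maximalIdeal O) ^ n).map (algebraMap O T) := by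
  obtain ⟨k, hk⟩ := exists_pow_le_map_maximalIdeal (O := O) (T := T)
  refine ⟨k * n, ?_⟩
  rw [pow_mul, Ideal.map_pow]
  exact Ideal.pow_right_mono hk n

end Pow

/-! ### the action of `𝔞 T` -/

section Act

variable {O : Type*} [CommRing O] {T₁ T₀ : Type*} [CommRing T₁] [CommRing T₀]
  [Algebra O T₁] [Algebra O T₀]
  {M₁ M₀ : Type*} [AddCommGroup M₁] [AddCommGroup M₀] [Module T₁ M₁] [Module O M₀]
  [Module T₀ M₀] [IsScalarTower O T₀ M₀] (p0 : M₁ →+ M₀)

theorem smul_mem_of_mem_map (𝔞 : Ideal O) (z : T₀) (hz : z ∈ 𝔞.map (algebraMap O T₀)) (y : M₀) :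
    z • y ∈ (𝔞 • ⊤ : Submodule O M₀) := by
  induction hz using Submodule.span_induction generalizing y with
  | mem w hw =>
    obtain ⟨a, ha, rfl⟩ := hw
    rw [algebraMap_smul]
    exact Submodule.smul_mem_smul ha Submodule.mem_top
  | zero =>
    rw [zero_smul]
    exact Submodule.zero_mem _
  | add w w' _ _ h1 h2 =>
    rw [add_smul]
    exact Submodule.add_mem _ (h1 y) (h2 y)
  | smul a w _ h1 =>
    rw [smul_eq_mul, mul_comm, mul_smul]
    exact h1 _

theorem p0_smul_mem_of_mem_map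
    (hO : ∀ (c : O) (x : M₁), p0 (algebraMap O T₁ c • x) = c • p0 x)
    (𝔞 : Ideal O) (z : T₁) (hz : z ∈ 𝔞.map (algebraMap O T₁)) (x : M₁) :
    p0 (z • x) ∈ (𝔞 • ⊤ : Submodule O M₀) := by
  induction hz using Submodule.span_induction generalizing x with
  | mem w hw =>
    obtain ⟨a, ha, rfl⟩ := hw
    rw [hO]
    exact Submodule.smul_mem_smul ha Submodule.mem_top
  | zero =>
    rw [zero_smul, map_zero]
    exact Submodule.zero_mem _
  | add w w' _ _ h1 h2 =>
    rw [add_smul, map_add]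
    exact Submodule.add_mem _ (h1 x) (h2 x)
  | smul a w _ h1 =>
    rw [smul_eq_mul, mul_comm, mul_smul]
    exact h1 _

end Act

/-! ### the compatibility of the traces with level zero -/

section Joint

variable {O : Type*} [CommRing O] [IsLocalRing O] [IsNoetherianRing O]
  {T₁ T₀ : Type*} [CommRing T₁] [CommRing T₀] [IsLocalRing T₁] [IsLocalRing T₀]
  [Algebra O T₁] [Algebra O T₀] [Module.Finite O T₁] [Module.Finite O T₀]
  {M₁ M₀ : Type*} [AddCommGroup M₁] [AddCommGroup M₀] [Module T₁ M₁] [Module O M₀]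
  [Module T₀ M₀] [IsScalarTower O T₀ M₀] [Module.Finite O M₀] {p0 : M₁ →+ M₀}

/-- **the trace functions are compatible with level zero** -/
theorem compat_of_joint {G : Type*}
    (hO : ∀ (c : O) (x : M₁), p0 (algebraMap O T₁ c • x) = c • p0 x)
    (t₁ : G → T₁) (t₀ : G → T₀)
    (hjoint : ∀ (n : ℕ) (g : G), ∃ (ℓ : ℕ) (τ : G) (j : ℕ),
      Compat p0 (AddMonoidHom.id M₀) (t₁ τ) (t₀ τ) ∧
      t₁ g - lucas (t₁ τ) ((ℓ : ℕ) : T₁) j ∈ maximalIdeal T₁ ^ n ∧
      t₀ g - lucas (t₀ τ) ((ℓ : ℕ) : T₀) j ∈ maximalIdeal T₀ ^ n)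
    (g : G) : Compat p0 (AddMonoidHom.id M₀) (t₁ g) (t₀ g) := by
  intro x y hxy
  have hxy' : p0 x = y := hxy
  show p0 (t₁ g • x) = t₀ g • y
  rw [← sub_eq_zero]
  -- the difference lies in every `𝔪 ^ n M₀`
  have key : ∀ n : ℕ, p0 (t₁ g • x) - t₀ g • y ∈
      ((maximalIdeal O) ^ n • ⊤ : Submodule O M₀) := by
    intro n
    obtain ⟨k₁, hk₁⟩ := exists_pow_le_map_pow (O := O) (T := T₁) n
    obtain ⟨k₀, hk₀⟩ := exists_pow_le_map_pow (O := O) (T := T₀) n
    obtain ⟨ℓ, τ, j, hτ, ha₁, ha₀⟩ := hjoint (k₁ + k₀) g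
    have hc : Compat p0 (AddMonoidHom.id M₀) (lucas (t₁ τ) ((ℓ : ℕ) : T₁) j)
        (lucas (t₀ τ) ((ℓ : ℕ) : T₀) j) := compat_lucas hτ (Compat.natCast ℓ) j
    have hc' : p0 (lucas (t₁ τ) ((ℓ : ℕ) : T₁) j • x) = lucas (t₀ τ) ((ℓ : ℕ) : T₀) j • y :=
      hc x y hxy
    have e1 : p0 (t₁ g • x) - t₀ g • y =
        p0 ((t₁ g - lucas (t₁ τ) ((ℓ : ℕ) : T₁) j) • x) -
          (t₀ g - lucas (t₀ τ) ((ℓ : ℕ) : T₀) j) • y := by
      rw [sub_smul, sub_smul, map_sub, hc']
      abel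
    rw [e1]
    refine Submodule.sub_mem _ ?_ ?_
    · exact p0_smul_mem_of_mem_map p0 hO _ _
        (hk₁ (Ideal.pow_le_pow_right (Nat.le_add_right k₁ k₀) ha₁)) x
    · exact smul_mem_of_mem_map _ _
        (hk₀ (Ideal.pow_le_pow_right (Nat.le_add_left k₀ k₁) ha₀)) y
  have h1 : p0 (t₁ g • x) - t₀ g • y ∈
      (⨅ n : ℕ, (maximalIdeal O) ^ n • ⊤ : Submodule O M₀) := by
    rw [Submodule.mem_iInf]
    exact key
  rw [Ideal.iInf_pow_smul_eq_bot_of_isLocalRing _ (Ideal.IsMaximal.ne_top inferInstance)] at h1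
  exact h1

end Joint

/-! ### the form consumed by `RSide/FeedQ` -/

section Feed

attribute [local instance] HeckeSide.acg1 HeckeSide.acgχ HeckeSide.acgb HeckeSide.mod1
  HeckeSide.modχ HeckeSide.modb

variable {𝒪 : Type} [CommRing 𝒪] [IsLocalRing 𝒪] [IsNoetherianRing 𝒪]
  {ϖ : 𝒪} {Δ : Type} [CommGroup Δ] {I : Type}
  {M0 : Type} [AddCommGroup M0] [Module 𝒪 M0] {t0 : I → Module.End 𝒪 M0} {d : ℕ}
  (H : HeckeSide 𝒪 ϖ Δ I M0 t0 d)
  {R : Type} [CommRing R] [Algebra 𝒪 R]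
  (Φ₁ : R →+* Module.End (MonoidAlgebra 𝒪 Δ) H.M1)
  (hΦ₁O : ∀ (a : 𝒪) (x : H.M1), Φ₁ (algebraMap 𝒪 R a) x =
    (MonoidAlgebra.single (1 : Δ) a : MonoidAlgebra 𝒪 Δ) • x)
  {T0 : Type} [CommRing T0] [Algebra 𝒪 T0] [Module T0 M0] [IsScalarTower 𝒪 T0 M0]

/-- an element of `T0` is determined by a compatible element of `R` (`T0` faithful on `M0`) -/
theorem eq_of_compat (hfaith : ∀ a : T0, (∀ y : M0, a • y = 0) → a = 0) {x : R} {y y' : T0}
    (h : ∀ z : H.M1, H.p0 (Φ₁ x z) = y • H.p0 z)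
    (h' : ∀ z : H.M1, H.p0 (Φ₁ x z) = y' • H.p0 z) : y = y' := by
  rw [← sub_eq_zero]
  refine hfaith _ fun w => ?_
  obtain ⟨z, rfl⟩ := H.p0_surj w
  rw [sub_smul, ← h z, ← h' z, sub_self]

include hΦ₁O in
/-- the image of a natural number -/
theorem compat_natCast (n : ℕ) (z : H.M1) : H.p0 (Φ₁ (n : R) z) = (n : T0) • H.p0 z := by
  have h1 : (n : R) = algebraMap 𝒪 R (n : 𝒪) := (map_natCast _ n).symm
  have h2 : (n : T0) = algebraMap 𝒪 T0 (n : 𝒪) := (map_natCast _ n).symm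
  rw [h1, hΦ₁O, H.p0_smul, h2, algebraMap_smul]

include hΦ₁O in
/-- **the traces at level `Q` and at level zero are compatible** -/
theorem trace_of_joint [IsLocalRing R] [IsLocalRing T0] [Module.Finite 𝒪 R] [Module.Finite 𝒪 T0]
    [Module.Finite 𝒪 M0] {G : Type*} (t₁ : G → R) (t₀ : G → T0)
    (hjoint : ∀ (n : ℕ) (g : G), ∃ (ℓ : ℕ) (τ : G) (j : ℕ),
      (∀ z : H.M1, H.p0 (Φ₁ (t₁ τ) z) = t₀ τ • H.p0 z) ∧
      t₁ g - lucas (t₁ τ) ((ℓ : ℕ) : R) j ∈ maximalIdeal R ^ n ∧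
      t₀ g - lucas (t₀ τ) ((ℓ : ℕ) : T0) j ∈ maximalIdeal T0 ^ n)
    (g : G) (z : H.M1) : H.p0 (Φ₁ (t₁ g) z) = t₀ g • H.p0 z := by
  letI m1 : Module R H.M1 := Module.compHom H.M1 Φ₁
  have hm1 : ∀ (x : R) (y : H.M1), x • y = Φ₁ x y := fun _ _ => rfl
  have h := compat_of_joint (O := 𝒪) (T₁ := R) (T₀ := T0) (M₁ := H.M1) (M₀ := M0) (p0 := H.p0)
    (fun c x => by rw [hm1, hΦ₁O, H.p0_smul]) t₁ t₀
    (fun n g => by
      obtain ⟨ℓ, τ, j, h1, h2, h3⟩ := hjoint n g
      refine ⟨ℓ, τ, j, fun x y hxy => ?_, h2, h3⟩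
      have hxy' : H.p0 x = y := hxy
      show H.p0 (t₁ τ • x) = t₀ τ • y
      rw [hm1, ← hxy']
      exact h1 x) g
  exact h z (H.p0 z) rfl

include hΦ₁O in
/-- **the entries of the two Cayley--Hamilton representations are compatible** (`hentS`, `hentF` of
`RSide/FeedQ.nonempty_datumJ_Q` at `rR := CH.rep H₁`, `S0 i := CH.rep H₀ (σ i)`,
`F0 i := CH.rep H₀ (φ i)`) -/
theorem ent_of_trace [Invertible (2 : R)] [Invertible (2 : T0)]
    {E₁ E₀ : Type*} [Ring E₁] [Ring E₀] [Algebra R E₁] [Algebra T0 E₀] {G : Type*} [Group G]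
    {r₁ : G →* E₁} {r₀ : G →* E₀} {t₁ : G → R} {t₀ : G → T0} {d₁ : G →* R} {d₀ : G →* T0}
    {c g₀ h₀ : G} (H₁ : CH.Input r₁ t₁ d₁ c g₀ h₀) (H₀ : CH.Input r₀ t₀ d₀ c g₀ h₀)
    (htr : ∀ (g : G) (z : H.M1), H.p0 (Φ₁ (t₁ g) z) = t₀ g • H.p0 z)
    (g : G) (a b : Fin 2) (z : H.M1) :
    H.p0 (Φ₁ (CH.rep H₁ g a b) z) = CH.rep H₀ g a b • H.p0 z := by
  letI m1 : Module R H.M1 := Module.compHom H.M1 Φ₁
  have hm1 : ∀ (x : R) (y : H.M1), x • y = Φ₁ x y := fun _ _ => rfl
  have h := compat_rep (q₁ := H.p0) (qχ := AddMonoidHom.id M0) Function.surjective_id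
    (fun a x hx => by
      have hx' : x = 0 := hx
      rw [hx', smul_zero, map_zero])
    (fun g x y hxy => by
      have hxy' : H.p0 x = y := hxy
      show H.p0 (t₁ g • x) = t₀ g • y
      rw [hm1, ← hxy']
      exact htr g x) H₁ H₀ g a b
  exact h z (H.p0 z) rfl

end Feed

end Fermat.Agent.S43.RSide.ZeroTrace
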