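/-
PROJECT R (S43, row 37), block RS (leader helper21), brick RS19: THE TRACE COMPATIBILITY WITH LEVEL
ZERO FROM TWO DENSITY DATA.

`h₁ : Dens.Datum Sg₁ 𝔪 r₁ ε₁ T₁` (the Taylor--Wiles level, `T₁ = T_Q` or its trace-generated
subalgebra), `h₂ : Dens.Datum Sg₂ 𝔪 r₂ ε₂ T₂` (level zero, `T₂ = TZ`), over the SAME coefficient ring
`𝒪`.  `T₁` acts on `H.M1` through `Φ₁`, `T₂` on `M0`.  If the traces of the Frobenius elements at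
the primes outside `Sg₁ ∪ Sg₂` (the Hecke operators) are compatible with `H.p0`, then so are the
traces of ALL elements (`helper15`'s `JointRing.exists_joint_approx_ring` +
`RSide/ZeroTrace.trace_of_joint`).
-/
import Mathlib
import Fermat.Agent.S43.RSide.ZeroTrace
import Fermat.Agent.S43.Rho.Props.JointRing

set_option autoImplicit false
set_option linter.unusedSectionVars false
set_option linter.style.haveILetI false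

noncomputable section

namespace Fermat.Agent.S43.RSide.ZeroDatum

open IsLocalRing
open Fermat.Agent.S31.Core Fermat.Agent.S43.Rho
open Fermat.Agent.S43.Hecke.Seam
open scoped IsMulCommutative

attribute [local instance] HeckeSide.acg1 HeckeSide.acgχ HeckeSide.acgb HeckeSide.mod1
  HeckeSide.modχ HeckeSide.modb

variable {𝒪 : Type} [CommRing 𝒪] [IsLocalRing 𝒪] [IsNoetherianRing 𝒪]
  {Λ₁ : Type} [AddCommGroup Λ₁] [Module 𝒪 Λ₁] [Module.Finite 𝒪 Λ₁]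
  {Sg₁ : Finset ℕ} {r₁ : GQ →* Module.End 𝒪 Λ₁} {ε₁ : GQ →* 𝒪}
  {T₁ : Subalgebra 𝒪 (Module.End 𝒪 Λ₁)} [IsMulCommutative ↥T₁] [IsLocalRing ↥T₁]
  [IsLocalHom (algebraMap 𝒪 ↥T₁)]
  {Λ₂ : Type} [AddCommGroup Λ₂] [Module 𝒪 Λ₂] [Module.Finite 𝒪 Λ₂]
  {Sg₂ : Finset ℕ} {r₂ : GQ →* Module.End 𝒪 Λ₂} {ε₂ : GQ →* 𝒪}
  {T₂ : Subalgebra 𝒪 (Module.End 𝒪 Λ₂)} [IsMulCommutative ↥T₂] [IsLocalRing ↥T₂]
  [IsLocalHom (algebraMap 𝒪 ↥T₂)]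
  {ϖ : 𝒪} {Δ : Type} [CommGroup Δ] {I : Type}
  {M0 : Type} [AddCommGroup M0] [Module 𝒪 M0] {t0 : I → Module.End 𝒪 M0} {d : ℕ}
  (H : HeckeSide 𝒪 ϖ Δ I M0 t0 d)

/-- a subalgebra of the endomorphisms of a finite module over a noetherian ring is finite -/
theorem finite_sub {Λ : Type} [AddCommGroup Λ] [Module 𝒪 Λ] [Module.Finite 𝒪 Λ]
    (T : Subalgebra 𝒪 (Module.End 𝒪 Λ)) : Module.Finite 𝒪 ↥T := by
  have h : IsNoetherian 𝒪 (Module.End 𝒪 Λ) := isNoetherian_linearMap 𝒪 Λ Λ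
  have h2 : IsNoetherian 𝒪 (Subalgebra.toSubmodule T) := isNoetherian_submodule' _
  exact Module.IsNoetherian.finite 𝒪 (Subalgebra.toSubmodule T)

/-- **the traces at the Taylor--Wiles level and at level zero are compatible** -/
theorem trace_of_datum (h₁ : Dens.Datum Sg₁ (maximalIdeal 𝒪) r₁ ε₁ T₁)
    (h₂ : Dens.Datum Sg₂ (maximalIdeal 𝒪) r₂ ε₂ T₂)
    (Φ₁ : ↥T₁ →+* Module.End (MonoidAlgebra 𝒪 Δ) H.M1)
    (hΦ₁O : ∀ (a : 𝒪) (x : H.M1), Φ₁ (algebraMap 𝒪 ↥T₁ a) x =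
      (MonoidAlgebra.single (1 : Δ) a : MonoidAlgebra 𝒪 Δ) • x)
    [Module ↥T₂ M0] [IsScalarTower 𝒪 ↥T₂ M0] [Module.Finite 𝒪 M0]
    (hfrob : ∀ (ℓ : ℕ) (A : ValuationSubring Qbar) (τ : GQ), ℓ.Prime → ℓ ∉ Sg₁ → ℓ ∉ Sg₂ →
      A.LiesOverPrime ℓ → A.IsFrobeniusAt τ ℓ →
      ∀ z : H.M1, H.p0 (Φ₁ (Dens.tT h₁ τ) z) = Dens.tT h₂ τ • H.p0 z)
    (g : GQ) (z : H.M1) : H.p0 (Φ₁ (Dens.tT h₁ g) z) = Dens.tT h₂ g • H.p0 z := by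
  haveI : Module.Finite 𝒪 ↥T₁ := finite_sub T₁
  haveI : Module.Finite 𝒪 ↥T₂ := finite_sub T₂
  refine Fermat.Agent.S43.RSide.ZeroTrace.trace_of_joint H Φ₁ hΦ₁O (Dens.tT h₁) (Dens.tT h₂)
    (fun n g => ?_) g z
  obtain ⟨ℓ, A, τ, j, hℓ, hℓ₁, hℓ₂, hA, hτ, ha₁, ha₂⟩ :=
    Fermat.Agent.S43.Rho.Props.JointRing.exists_joint_approx_ring h₁ h₂ g n
  exact ⟨ℓ, τ, j, hfrob ℓ A τ hℓ hℓ₁ hℓ₂ hA hτ, ha₁, ha₂⟩

end Fermat.Agent.S43.RSide.ZeroDatum
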