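/-
PROJECT R (S43, row 37), block RS (leader helper21), brick RS21: THE LEVEL-ZERO BLOCK IN ONE CALL.

`h₁`, `h₂` two density data over the same `𝒪` (the Taylor--Wiles level, on `T₁ = T_Q` or its
trace-generated subalgebra, and level zero, on `T₂ = TZ`), `H₁`, `H₀` their Cayley--Hamilton inputs at
the SAME normalisation `(c, g₀, h₀)`, `Φ₁ : T₁ → End (H.M1)` the bridge, `T₂` acting on `M0`, and the
compatibility `hfrob` of `H.p0` with the traces of the Frobenius elements at the primes outside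
`Sg₁ ∪ Sg₂` (the Hecke operators).  Then

* `ent_of_datum` : `H.p0 (Φ₁ (CH.rep H₁ g a b) z) = CH.rep H₀ g a b • H.p0 z` for ALL `g`
  (`hentS`, `hentF` of `RSide/FeedQ.nonempty_datumJ_Q` at `S0 i := CH.rep H₀ (σ i)`,
  `F0 i := CH.rep H₀ (φ i)`);
* `tT_eq_algebraMap_of_level`, `tT_eq_two_of_level` : `T₂` FAITHFUL on `M0` and
  `Φ₁ (t₁ g) = Φ₁ (algebraMap a)` (resp. `= 2`) imply `t₀ g = algebraMap a` (resp. `= 2`)
  (the chief's ruling (α) of #6494: the unipotent type at level zero from ONE Taylor--Wiles level);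
* `trace_rep_eq_two_of_level` : the same on `(CH.rep H₀ g).trace`.
-/
import Mathlib
import Fermat.Agent.S43.RSide.ZeroDatum
import Fermat.Agent.S43.Rho.Glue

set_option autoImplicit false
set_option linter.unusedSectionVars false
set_option linter.style.haveILetI false

noncomputable section

namespace Fermat.Agent.S43.RSide.ZeroBlock

open IsLocalRing
open Fermat.Agent.S31.Core Fermat.Agent.S43.Rho
open Fermat.Agent.S43.Hecke.Seam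
open scoped IsMulCommutative

attribute [local instance] HeckeSide.acg1 HeckeSide.acgχ HeckeSide.acgb HeckeSide.mod1
  HeckeSide.modχ HeckeSide.modb

attribute [local instance] Glue.smulCommClassT Glue.algebraEnd

variable {𝒪 : Type} [CommRing 𝒪] [IsLocalRing 𝒪] [IsNoetherianRing 𝒪]
  {Λ₁ : Type} [AddCommGroup Λ₁] [Module 𝒪 Λ₁] [Module.Finite 𝒪 Λ₁]
  {Sg₁ : Finset ℕ} {r₁ : GQ →* Module.End 𝒪 Λ₁} {ε₁ : GQ →* 𝒪}
  {T₁ : Subalgebra 𝒪 (Module.End 𝒪 Λ₁)} [IsMulCommutative ↥T₁] [IsLocalRing ↥T₁]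
  [IsLocalHom (algebraMap 𝒪 ↥T₁)]
  {Λ₂ : Type} [AddCommGroup Λ₂] [Module 𝒪 Λ₂] [Module.Finite 𝒪 Λ₂]
  {Sg₂ : Finset ℕ} {r₂ : GQ →* Module.End 𝒪 Λ₂} {ε₂ : GQ →* 𝒪}
  {T₂ : Subalgebra 𝒪 (Module.End 𝒪 Λ₂)} [IsMulCommutative ↥T₂] [IsLocalRing ↥T₂]
  [IsLocalHom (algebraMap 𝒪 ↥T₂)]
  {ϖ : 𝒪} {Δ : Type} [CommGroup Δ] {I : Type}
  {M0 : Type} [AddCommGroup M0] [Module 𝒪 M0] {t0 : I → Module.End 𝒪 M0} {d : ℕ}
  (H : HeckeSide 𝒪 ϖ Δ I M0 t0 d)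
  (h₁ : Dens.Datum Sg₁ (maximalIdeal 𝒪) r₁ ε₁ T₁)
  (h₂ : Dens.Datum Sg₂ (maximalIdeal 𝒪) r₂ ε₂ T₂)
  (Φ₁ : ↥T₁ →+* Module.End (MonoidAlgebra 𝒪 Δ) H.M1)
  (hΦ₁O : ∀ (a : 𝒪) (x : H.M1), Φ₁ (algebraMap 𝒪 ↥T₁ a) x =
    (MonoidAlgebra.single (1 : Δ) a : MonoidAlgebra 𝒪 Δ) • x)
  [Module ↥T₂ M0] [IsScalarTower 𝒪 ↥T₂ M0] [Module.Finite 𝒪 M0]
  (hfrob : ∀ (ℓ : ℕ) (A : ValuationSubring Qbar) (τ : GQ), ℓ.Prime → ℓ ∉ Sg₁ → ℓ ∉ Sg₂ →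
    A.LiesOverPrime ℓ → A.IsFrobeniusAt τ ℓ →
    ∀ z : H.M1, H.p0 (Φ₁ (Dens.tT h₁ τ) z) = Dens.tT h₂ τ • H.p0 z)

include hΦ₁O hfrob in
/-- **the entries of the two representations are compatible** (`hentS`, `hentF` of `FeedQ`) -/
theorem ent_of_datum [Invertible (2 : ↥T₁)] [Invertible (2 : ↥T₂)] {c g₀ h₀ : GQ}
    (H₁ : CH.Input (E := Module.End ↥T₁ Λ₁) (Dens.rT h₁) (Dens.tT h₁) (Glue.dHom ε₁ T₁) c g₀ h₀)
    (H₀ : CH.Input (E := Module.End ↥T₂ Λ₂) (Dens.rT h₂) (Dens.tT h₂) (Glue.dHom ε₂ T₂) c g₀ h₀)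
    (g : GQ) (a b : Fin 2) (z : H.M1) :
    H.p0 (Φ₁ (CH.rep H₁ g a b) z) = CH.rep H₀ g a b • H.p0 z :=
  Fermat.Agent.S43.RSide.ZeroTrace.ent_of_trace H Φ₁ hΦ₁O H₁ H₀
    (Fermat.Agent.S43.RSide.ZeroDatum.trace_of_datum H h₁ h₂ Φ₁ hΦ₁O hfrob) g a b z

include hΦ₁O hfrob in
/-- a trace at level zero is the constant `a` when its image at the Taylor--Wiles level is -/
theorem tT_eq_algebraMap_of_level (hfaith : ∀ a : ↥T₂, (∀ y : M0, a • y = 0) → a = 0) (g : GQ)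
    (a : 𝒪) (hg : Φ₁ (Dens.tT h₁ g) = Φ₁ (algebraMap 𝒪 ↥T₁ a)) :
    Dens.tT h₂ g = algebraMap 𝒪 ↥T₂ a := by
  refine Fermat.Agent.S43.RSide.ZeroTrace.eq_of_compat H Φ₁ hfaith (x := Dens.tT h₁ g)
    (Fermat.Agent.S43.RSide.ZeroDatum.trace_of_datum H h₁ h₂ Φ₁ hΦ₁O hfrob g) (fun z => ?_)
  rw [hg, hΦ₁O, H.p0_smul, algebraMap_smul]

include hΦ₁O hfrob in
/-- **the unipotent type at level zero from one Taylor--Wiles level**: `t₀ g = 2` when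
`Φ₁ (t₁ g) = 2` -/
theorem tT_eq_two_of_level (hfaith : ∀ a : ↥T₂, (∀ y : M0, a • y = 0) → a = 0) (g : GQ)
    (hg : Φ₁ (Dens.tT h₁ g) = 2) : Dens.tT h₂ g = 2 := by
  have h1 : Φ₁ (Dens.tT h₁ g) = Φ₁ (algebraMap 𝒪 ↥T₁ 2) := by
    rw [hg, map_ofNat, map_ofNat]
  rw [tT_eq_algebraMap_of_level H h₁ h₂ Φ₁ hΦ₁O hfrob hfaith g 2 h1, map_ofNat]

include hΦ₁O hfrob in
/-- the same on the trace of the Cayley--Hamilton representations -/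
theorem trace_rep_eq_two_of_level [Invertible (2 : ↥T₁)] [Invertible (2 : ↥T₂)] {c g₀ h₀ : GQ}
    {c' g₀' h₀' : GQ}
    (H₁ : CH.Input (E := Module.End ↥T₁ Λ₁) (Dens.rT h₁) (Dens.tT h₁) (Glue.dHom ε₁ T₁) c g₀ h₀)
    (H₀ : CH.Input (E := Module.End ↥T₂ Λ₂) (Dens.rT h₂) (Dens.tT h₂) (Glue.dHom ε₂ T₂)
      c' g₀' h₀')
    (hfaith : ∀ a : ↥T₂, (∀ y : M0, a • y = 0) → a = 0) (g : GQ)
    (hg : Φ₁ ((CH.rep H₁ g).trace) = 2) : (CH.rep H₀ g).trace = 2 := by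
  rw [CH.trace_rep] at hg ⊢
  exact tT_eq_two_of_level H h₁ h₂ Φ₁ hΦ₁O hfrob hfaith g hg

end Fermat.Agent.S43.RSide.ZeroBlock
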