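/-
PROJECT R (S43, row 37), block RS (leader helper21), brick RS26: THE HYPOTHESIS `hfrob` OF
`RSide/ZeroBlock` FROM THE THREE FACTS THE INSTANCE HAS.

`I` the index set of the Hecke operators at the Taylor--Wiles level (`J M p S₀`), `q k` the prime of
`k : I`, `tq k : T₁` the operator `T_{q k}` (helper27's `MainD.tqSub`), `t0 k` the operator of level
zero on `M0` (the `t0` of the `HeckeSide`).  If
* `hSg`  : every prime outside `Sg₁ ∪ Sg₂` is a `q k`,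
* `htq`  : the trace of a Frobenius element at `q k` is `tq k` (helper27's `MainD.tT_frob`),
* `hp0`  : `H.p0 (Φ₁ (tq k) x) = t0 k (H.p0 x)` (helper24's `p0`-clause),
* `hfr`  : at level zero the trace of a Frobenius element at `q k` acts on `M0` as `t0 k`
  (helper6's `Rho/Zero/BridgeFrob`),
then `hfrob` of `ZeroBlock` holds; `ent_of_p0`, `tT_eq_two_of_p0`, `trace_rep_eq_two_of_p0` are the
three exports of `ZeroBlock` with these hypotheses.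
-/
import Mathlib
import Fermat.Agent.S43.RSide.ZeroBlock

set_option autoImplicit false
set_option linter.unusedSectionVars false
set_option linter.style.haveILetI false

noncomputable section

namespace Fermat.Agent.S43.RSide.ZeroFrob

open IsLocalRing
open Fermat.Agent.S31.Core Fermat.Agent.S43.Rho
open Fermat.Agent.S43.Hecke.Seam
open scoped IsMulCommutative

attribute [local instance] HeckeSide.acg1 HeckeSide.acgχ HeckeSide.acgb HeckeSide.mod1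
  HeckeSide.modχ HeckeSide.modb

attribute [local instance] Glue.smulCommClassT Glue.algebraEnd

variable {𝒪 : Type} [CommRing 𝒪] [IsLocalRing 𝒪] [IsNoetherianRing 𝒪]
  {Λ₁ : Type} [AddCommGroup Λ₁] [Module 𝒪 Λ₁] [Module.Finite 𝒪 Λ₁]
  {Sg₁ : Finset ℕ} {r₁ : GQ →* Module.End 𝒪 Λ₁} {ε₁ : GQ →* 𝒪}
  {T₁ : Subalgebra 𝒪 (Module.End 𝒪 Λ₁)} [IsMulCommutative ↥T₁] [IsLocalRing ↥T₁]
  [IsLocalHom (algebraMap 𝒪 ↥T₁)]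
  {Λ₂ : Type} [AddCommGroup Λ₂] [Module 𝒪 Λ₂] [Module.Finite 𝒪 Λ₂]
  {Sg₂ : Finset ℕ} {r₂ : GQ →* Module.End 𝒪 Λ₂} {ε₂ : GQ →* 𝒪}
  {T₂ : Subalgebra 𝒪 (Module.End 𝒪 Λ₂)} [IsMulCommutative ↥T₂] [IsLocalRing ↥T₂]
  [IsLocalHom (algebraMap 𝒪 ↥T₂)]
  {ϖ : 𝒪} {Δ : Type} [CommGroup Δ] {I : Type}
  {M0 : Type} [AddCommGroup M0] [Module 𝒪 M0] {t0 : I → Module.End 𝒪 M0} {d : ℕ}
  (H : HeckeSide 𝒪 ϖ Δ I M0 t0 d)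
  (h₁ : Dens.Datum Sg₁ (maximalIdeal 𝒪) r₁ ε₁ T₁)
  (h₂ : Dens.Datum Sg₂ (maximalIdeal 𝒪) r₂ ε₂ T₂)
  (Φ₁ : ↥T₁ →+* Module.End (MonoidAlgebra 𝒪 Δ) H.M1)
  (hΦ₁O : ∀ (a : 𝒪) (x : H.M1), Φ₁ (algebraMap 𝒪 ↥T₁ a) x =
    (MonoidAlgebra.single (1 : Δ) a : MonoidAlgebra 𝒪 Δ) • x)
  [Module ↥T₂ M0] [IsScalarTower 𝒪 ↥T₂ M0] [Module.Finite 𝒪 M0]
  (q : I → ℕ) (tq : I → ↥T₁)
  (hSg : ∀ ℓ : ℕ, ℓ.Prime → ℓ ∉ Sg₁ → ℓ ∉ Sg₂ → ∃ k : I, q k = ℓ)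
  (htq : ∀ (k : I) (A : ValuationSubring Qbar) (τ : GQ), A.LiesOverPrime (q k) →
    A.IsFrobeniusAt τ (q k) → Dens.tT h₁ τ = tq k)
  (hp0 : ∀ (k : I) (x : H.M1), H.p0 (Φ₁ (tq k) x) = t0 k (H.p0 x))
  (hfr : ∀ (k : I) (A : ValuationSubring Qbar) (τ : GQ), A.LiesOverPrime (q k) →
    A.IsFrobeniusAt τ (q k) → ∀ z : M0, Dens.tT h₂ τ • z = t0 k z)

include hSg htq hp0 hfr in
/-- **`hfrob` of `RSide/ZeroBlock`** -/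
theorem hfrob_of_p0 (ℓ : ℕ) (A : ValuationSubring Qbar) (τ : GQ) (hℓ : ℓ.Prime)
    (hℓ₁ : ℓ ∉ Sg₁) (hℓ₂ : ℓ ∉ Sg₂) (hA : A.LiesOverPrime ℓ) (hτ : A.IsFrobeniusAt τ ℓ)
    (z : H.M1) : H.p0 (Φ₁ (Dens.tT h₁ τ) z) = Dens.tT h₂ τ • H.p0 z := by
  obtain ⟨k, rfl⟩ := hSg ℓ hℓ hℓ₁ hℓ₂
  rw [htq k A τ hA hτ, hp0, hfr k A τ hA hτ]

include hΦ₁O hSg htq hp0 hfr in
/-- `ZeroBlock.ent_of_datum` with the three facts -/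
theorem ent_of_p0 [Invertible (2 : ↥T₁)] [Invertible (2 : ↥T₂)] {c g₀ h₀ : GQ}
    (H₁ : CH.Input (E := Module.End ↥T₁ Λ₁) (Dens.rT h₁) (Dens.tT h₁) (Glue.dHom ε₁ T₁) c g₀ h₀)
    (H₀ : CH.Input (E := Module.End ↥T₂ Λ₂) (Dens.rT h₂) (Dens.tT h₂) (Glue.dHom ε₂ T₂) c g₀ h₀)
    (g : GQ) (a b : Fin 2) (z : H.M1) :
    H.p0 (Φ₁ (CH.rep H₁ g a b) z) = CH.rep H₀ g a b • H.p0 z :=
  Fermat.Agent.S43.RSide.ZeroBlock.ent_of_datum H h₁ h₂ Φ₁ hΦ₁O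
    (hfrob_of_p0 H h₁ h₂ Φ₁ q tq hSg htq hp0 hfr) H₁ H₀ g a b z

include hΦ₁O hSg htq hp0 hfr in
/-- `ZeroBlock.tT_eq_two_of_level` with the three facts -/
theorem tT_eq_two_of_p0 (hfaith : ∀ a : ↥T₂, (∀ y : M0, a • y = 0) → a = 0) (g : GQ)
    (hg : Φ₁ (Dens.tT h₁ g) = 2) : Dens.tT h₂ g = 2 :=
  Fermat.Agent.S43.RSide.ZeroBlock.tT_eq_two_of_level H h₁ h₂ Φ₁ hΦ₁O
    (hfrob_of_p0 H h₁ h₂ Φ₁ q tq hSg htq hp0 hfr) hfaith g hg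

include hΦ₁O hSg htq hp0 hfr in
/-- `ZeroBlock.trace_rep_eq_two_of_level` with the three facts -/
theorem trace_rep_eq_two_of_p0 [Invertible (2 : ↥T₁)] [Invertible (2 : ↥T₂)] {c g₀ h₀ : GQ}
    {c' g₀' h₀' : GQ}
    (H₁ : CH.Input (E := Module.End ↥T₁ Λ₁) (Dens.rT h₁) (Dens.tT h₁) (Glue.dHom ε₁ T₁) c g₀ h₀)
    (H₀ : CH.Input (E := Module.End ↥T₂ Λ₂) (Dens.rT h₂) (Dens.tT h₂) (Glue.dHom ε₂ T₂)
      c' g₀' h₀')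
    (hfaith : ∀ a : ↥T₂, (∀ y : M0, a • y = 0) → a = 0) (g : GQ)
    (hg : Φ₁ ((CH.rep H₁ g).trace) = 2) : (CH.rep H₀ g).trace = 2 :=
  Fermat.Agent.S43.RSide.ZeroBlock.trace_rep_eq_two_of_level H h₁ h₂ Φ₁ hΦ₁O
    (hfrob_of_p0 H h₁ h₂ Φ₁ q tq hSg htq hp0 hfr) H₁ H₀ hfaith g hg

end Fermat.Agent.S43.RSide.ZeroFrob
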