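/-
PROJECT R (S43, row 37), block RS (leader helper21), brick RS27: THE LEVEL-ZERO BLOCK ON helper27's
`Rho/MainD` PACKAGE.

`T' ≤ TQ M m p H O S₀ 𝔪` a subalgebra containing the operators `T'_r` (`T' = TQtr` or `TQ`), with its
density datum `MainD.datumSub`; `Φ₁` the bridge on the FULL `TQ` (helper24's
`BridgeSide.exists_Phi` / the chief's `LevelHecke.exists_heckeSide`) with its `p0`-clause
`Hs.p0 (Φ₁ (tQ k) x) = t0 k (Hs.p0 x)`; level zero abstract (`T₂`, `h₂`, acting on `M0`, with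
helper6's `BridgeFrob` clause `hfr` : the trace of a Frobenius element at the prime of `k` acts on
`M0` as `t0 k`).  Then, for `Φ₁' := Φ₁ ∘ inclusion : T' → End (Hs.M1)`, the three exports of
`RSide/ZeroBlock` hold: `ent_D` (`hentS`, `hentF` of `FeedQ`), `tT_eq_two_D`, `trace_rep_eq_two_D`
(the first conjunct of the per-level theorem).
-/
import Mathlib
import Fermat.Agent.S43.RSide.ZeroFrob
import Fermat.Agent.S43.Rho.MainD

set_option autoImplicit false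
set_option linter.unusedSectionVars false
set_option linter.style.haveILetI false

noncomputable section

namespace Fermat.Agent.S43.RSide.ZeroGlueD

open IsLocalRing
open Fermat.Agent.S31.Core Fermat.Agent.S43.Rho
open Fermat.Agent.S43.Rho.Lam Fermat.Agent.S43.Hecke.PolyModule
open Fermat.Agent.S43.Rho.Feed
open Fermat.Agent.S43.Rho.LamInst (J Sg)
open Fermat.Agent.S43.Rho.LamInstD (K tK hcommK rOcommK LamQ TQ rQ tQ dQ)
open Fermat.Agent.S43.Hecke.Seam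
open scoped IsMulCommutative

attribute [local instance] HeckeSide.acg1 HeckeSide.acgχ HeckeSide.acgb HeckeSide.mod1
  HeckeSide.modχ HeckeSide.modb

attribute [local instance] Glue.smulCommClassT Glue.algebraEnd

variable (M : ℕ) [NeZero M] (m : ℕ) (p : ℕ) [hp : Fact p.Prime] (H : Subgroup (ZMod M)ˣ)
  (O : Type) [CommRing O] [Algebra ℤ_[p] O] [IsLocalRing O] [IsNoetherianRing O]
  [IsAdicComplete (maximalIdeal O) O] (S₀ : Finset ℕ)
  (mI : Ideal (MvPolynomial (K M p S₀) O)) [mI.IsMaximal]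
  [Nontrivial (LamQ M m p H O S₀ mI)] [Module.Finite O (LamQ M m p H O S₀ mI)]
  (T' : Subalgebra O (Module.End O (LamQ M m p H O S₀ mI)))
  (hle : T' ≤ TQ M m p H O S₀ mI)
  (htq : ∀ j : J M p S₀, (ofP O mI (WithOps (tK M m p H O S₀) (hcommK M m p H O S₀))
    (MvPolynomial.X (Sum.inl j)) : Module.End O (LamQ M m p H O S₀ mI)) ∈ T')
  (hM : 5 ≤ M) (hH : ¬ p ∣ Nat.card H) (hHm : ∀ d : (ZMod M)ˣ, d ^ (2 * m + 1) ∈ H)
  (hpO : (p : O) ∈ maximalIdeal O)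
  [IsMulCommutative ↥T'] [IsLocalRing ↥T'] [IsLocalHom (algebraMap O ↥T')]
  -- the Hecke side
  {ϖ : O} {Δ : Type} [CommGroup Δ]
  {M0 : Type} [AddCommGroup M0] [Module O M0] {t0 : J M p S₀ → Module.End O M0} {d : ℕ}
  (Hs : HeckeSide O ϖ Δ (J M p S₀) M0 t0 d)
  (Φ₁ : ↥(TQ M m p H O S₀ mI) →+* Module.End (MonoidAlgebra O Δ) Hs.M1)
  (hΦ₁O : ∀ (a : O) (x : Hs.M1), Φ₁ (algebraMap O ↥(TQ M m p H O S₀ mI) a) x =
    (MonoidAlgebra.single (1 : Δ) a : MonoidAlgebra O Δ) • x)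
  (hp0 : ∀ (k : J M p S₀) (x : Hs.M1),
    Hs.p0 (Φ₁ (tQ M m p H O S₀ mI k) x) = t0 k (Hs.p0 x))
  -- level zero
  {Λ₂ : Type} [AddCommGroup Λ₂] [Module O Λ₂] [Module.Finite O Λ₂]
  {Sg₂ : Finset ℕ} {r₂ : GQ →* Module.End O Λ₂} {ε₂ : GQ →* O}
  {T₂ : Subalgebra O (Module.End O Λ₂)} [IsMulCommutative ↥T₂] [IsLocalRing ↥T₂]
  [IsLocalHom (algebraMap O ↥T₂)]
  (h₂ : Dens.Datum Sg₂ (maximalIdeal O) r₂ ε₂ T₂)
  [Module ↥T₂ M0] [IsScalarTower O ↥T₂ M0] [Module.Finite O M0]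
  (hfr : ∀ (k : J M p S₀) (A : ValuationSubring Qbar) (τ : GQ), A.LiesOverPrime ((k.1 : ℕ)) →
    A.IsFrobeniusAt τ ((k.1 : ℕ)) → ∀ z : M0, Dens.tT h₂ τ • z = t0 k z)

/-- the bridge restricted to `T'` -/
def PhiSub : ↥T' →+* Module.End (MonoidAlgebra O Δ) Hs.M1 :=
  Φ₁.comp (Subalgebra.inclusion hle).toRingHom

theorem phiSub_apply (a : ↥T') :
    PhiSub M m p H O S₀ mI T' hle Hs Φ₁ a = Φ₁ (Subalgebra.inclusion hle a) := rfl

include hΦ₁O in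
theorem phiSub_algebraMap (a : O) (x : Hs.M1) :
    PhiSub M m p H O S₀ mI T' hle Hs Φ₁ (algebraMap O ↥T' a) x =
      (MonoidAlgebra.single (1 : Δ) a : MonoidAlgebra O Δ) • x := by
  rw [phiSub_apply]
  exact hΦ₁O a x

include hp0 in
theorem phiSub_tqSub (k : J M p S₀) (x : Hs.M1) :
    Hs.p0 (PhiSub M m p H O S₀ mI T' hle Hs Φ₁ (MainD.tqSub M m p H O S₀ mI T' htq k) x) =
      t0 k (Hs.p0 x) := by
  rw [phiSub_apply]
  have h1 : Subalgebra.inclusion hle (MainD.tqSub M m p H O S₀ mI T' htq k) =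
      tQ M m p H O S₀ mI k := Subtype.ext rfl
  rw [h1]
  exact hp0 k x

include hΦ₁O hp0 hfr in
/-- **the entries of the two representations are compatible** (`hentS`, `hentF` of `FeedQ` at
`Φ₁ := PhiSub ..`) -/
theorem ent_D [Invertible (2 : ↥T')] [Invertible (2 : ↥T₂)] {c g₀ h₀ : GQ}
    (H₁ : MainGen.InputG (MainD.datumSub M m p H O S₀ mI T' hle htq hM hH hHm hpO) c g₀ h₀)
    (H₀ : CH.Input (E := Module.End ↥T₂ Λ₂) (Dens.rT h₂) (Dens.tT h₂) (Glue.dHom ε₂ T₂) c g₀ h₀)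
    (g : GQ) (a b : Fin 2) (z : Hs.M1) :
    Hs.p0 (PhiSub M m p H O S₀ mI T' hle Hs Φ₁ (CH.rep H₁ g a b) z) =
      CH.rep H₀ g a b • Hs.p0 z :=
  Fermat.Agent.S43.RSide.ZeroFrob.ent_of_p0 Hs
    (MainD.datumSub M m p H O S₀ mI T' hle htq hM hH hHm hpO) h₂
    (PhiSub M m p H O S₀ mI T' hle Hs Φ₁) (phiSub_algebraMap M m p H O S₀ mI T' hle Hs Φ₁ hΦ₁O)
    (fun k : J M p S₀ => ((k.1 : ℕ))) (MainD.tqSub M m p H O S₀ mI T' htq)
    (fun ℓ hℓ hℓ₁ _ => MainD.hidxD M p S₀ ℓ hℓ hℓ₁)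
    (fun k A τ hA hτ => MainD.tT_frob M m p H O S₀ mI T' hle htq hM hH hHm hpO k A hA τ hτ)
    (phiSub_tqSub M m p H O S₀ mI T' hle htq Hs Φ₁ hp0) hfr H₁ H₀ g a b z

include hΦ₁O hp0 hfr in
/-- **the unipotent type at level zero from the Taylor--Wiles level** -/
theorem tT_eq_two_D (hfaith : ∀ a : ↥T₂, (∀ y : M0, a • y = 0) → a = 0) (g : GQ)
    (hg : PhiSub M m p H O S₀ mI T' hle Hs Φ₁
      (Dens.tT (MainD.datumSub M m p H O S₀ mI T' hle htq hM hH hHm hpO) g) = 2) :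
    Dens.tT h₂ g = 2 :=
  Fermat.Agent.S43.RSide.ZeroFrob.tT_eq_two_of_p0 Hs
    (MainD.datumSub M m p H O S₀ mI T' hle htq hM hH hHm hpO) h₂
    (PhiSub M m p H O S₀ mI T' hle Hs Φ₁) (phiSub_algebraMap M m p H O S₀ mI T' hle Hs Φ₁ hΦ₁O)
    (fun k : J M p S₀ => ((k.1 : ℕ))) (MainD.tqSub M m p H O S₀ mI T' htq)
    (fun ℓ hℓ hℓ₁ _ => MainD.hidxD M p S₀ ℓ hℓ hℓ₁)
    (fun k A τ hA hτ => MainD.tT_frob M m p H O S₀ mI T' hle htq hM hH hHm hpO k A hA τ hτ)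
    (phiSub_tqSub M m p H O S₀ mI T' hle htq Hs Φ₁ hp0) hfr hfaith g hg

include hΦ₁O hp0 hfr in
/-- the same on the traces of the matrices, for ANY two normalisations -/
theorem trace_rep_eq_two_D [Invertible (2 : ↥T')] [Invertible (2 : ↥T₂)] {c g₀ h₀ : GQ}
    {c' g₀' h₀' : GQ}
    (H₁ : MainGen.InputG (MainD.datumSub M m p H O S₀ mI T' hle htq hM hH hHm hpO) c g₀ h₀)
    (H₀ : CH.Input (E := Module.End ↥T₂ Λ₂) (Dens.rT h₂) (Dens.tT h₂) (Glue.dHom ε₂ T₂)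
      c' g₀' h₀')
    (hfaith : ∀ a : ↥T₂, (∀ y : M0, a • y = 0) → a = 0) (g : GQ)
    (hg : PhiSub M m p H O S₀ mI T' hle Hs Φ₁ ((CH.rep H₁ g).trace) = 2) :
    (CH.rep H₀ g).trace = 2 := by
  rw [CH.trace_rep] at hg ⊢
  exact tT_eq_two_D M m p H O S₀ mI T' hle htq hM hH hHm hpO Hs Φ₁ hΦ₁O hp0 h₂ hfr hfaith g hg

end Fermat.Agent.S43.RSide.ZeroGlueD
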