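/-
PROJECT R (S43, row 37), block RS (leader helper21), brick RS28: THE `ζ`-BLOCK OF
`RSide/FeedQ.nonempty_datumJ_Q(')`.

`u : Oˣ` a `p`-th root of unity with `u ^ 2 ≠ 1` (the level-independent type-`χ` parameter
`ChiFix.uFix ζ p ℓ σ` of `RSide/SetupStuck`), `τ := Coeff.tauPar h2 u = (u + u⁻¹) / 2`,
`e := Coeff.ePar h2 u`.  Then, at `ζ := u`, `ζ' := u⁻¹`, `nζ := p` :
`hτχ` (`τ ^ 2 = 1 + e`), `hτχϖ` (`ϖ ∣ τ - 1`), `hζζ'`, `hζτ`, `hζn`, `hζ'n`, `hζne`, `hℓn`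
(`ℓ ≡ 1 mod p` from `p ∣ ℓ - 1`), in the literal of `FeedQ`.
-/
import Mathlib
import Fermat.Agent.S43.Assembly.Coeff
import Fermat.Agent.S43.Assembly.ChiChar

set_option autoImplicit false
set_option linter.unusedSectionVars false

noncomputable section

namespace Fermat.Agent.S43.RSide.ZetaBlock

open IsLocalRing
open Fermat.Agent.S43.Assembly.Coeff

variable {O : Type} [CommRing O] [IsLocalRing O] (h2 : IsUnit (2 : O)) (u : Oˣ)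

/-- `hζζ'` -/
theorem hζζ' : (u : O) * ((u⁻¹ : Oˣ) : O) = 1 := Units.mul_inv u

/-- `hζτ` -/
theorem hζτ : 2 * tauPar h2 u = (u : O) + ((u⁻¹ : Oˣ) : O) := two_mul_tauPar h2 u

/-- `hτχ` -/
theorem hτχ : tauPar h2 u ^ 2 = 1 + ePar h2 u := tauPar_sq h2 u

/-- `hζn` -/
theorem hζn {p : ℕ} (hu : u ^ p = 1) : (u : O) ^ p = 1 := by
  rw [← Units.val_pow_eq_pow_val, hu, Units.val_one]

/-- `hζ'n` -/
theorem hζ'n {p : ℕ} (hu : u ^ p = 1) : ((u⁻¹ : Oˣ) : O) ^ p = 1 := by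
  rw [← Units.val_pow_eq_pow_val, inv_pow, hu, inv_one, Units.val_one]

/-- `hζne` -/
theorem hζne (hu2 : u ^ 2 ≠ 1) : (u : O) ≠ ((u⁻¹ : Oˣ) : O) := by
  intro h
  apply hu2
  have h1 : u = u⁻¹ := Units.ext h
  rw [pow_two]
  nth_rewrite 2 [h1]
  exact mul_inv_cancel u

/-- `hℓn` -/
theorem hℓn {p ℓ : ℕ} (hℓ : 0 < ℓ) (hpℓ : p ∣ ℓ - 1) : ℓ ≡ 1 [MOD p] := by
  have h1 : 1 ≡ ℓ [MOD p] := (Nat.modEq_iff_dvd' hℓ).mpr hpℓ
  exact h1.symm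

/-- `hτχϖ` : `τ ≡ 1` modulo the maximal ideal -/
theorem tauPar_sub_one_mem {p : ℕ} [Fact p.Prime] (hpO : (p : O) ∈ maximalIdeal O)
    (hu : u ^ p = 1) : tauPar h2 u - 1 ∈ maximalIdeal O := by
  have h1 : (u : O) - 1 ∈ maximalIdeal O :=
    Fermat.Agent.S43.Assembly.ChiChar.sub_one_mem_maximalIdeal hpO (hζn u hu)
  have h1' : ((u⁻¹ : Oˣ) : O) - 1 ∈ maximalIdeal O :=
    Fermat.Agent.S43.Assembly.ChiChar.sub_one_mem_maximalIdeal hpO (hζ'n u hu)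
  have h3 : tauPar h2 u - 1 =
      ((h2.unit⁻¹ : Oˣ) : O) * (((u : O) - 1) + (((u⁻¹ : Oˣ) : O) - 1)) := by
    have h := two_mul_half h2
    unfold tauPar
    linear_combination (1 : O) * h
  rw [h3]
  exact Ideal.mul_mem_left _ _ (Ideal.add_mem _ h1 h1')

/-- `hτχϖ` in the literal of `FeedQ` -/
theorem hτχϖ {p : ℕ} [Fact p.Prime] (hpO : (p : O) ∈ maximalIdeal O) {ϖ : O}
    (hϖ : maximalIdeal O = Ideal.span {ϖ}) (hu : u ^ p = 1) : ϖ ∣ tauPar h2 u - 1 := by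
  have h := tauPar_sub_one_mem h2 u hpO hu
  rw [hϖ] at h
  exact Ideal.mem_span_singleton.mp h

end Fermat.Agent.S43.RSide.ZetaBlock
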