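/-
PROJECT R (S43), block RS = the R-side (leader helper21), file RS1: FLATNESS TRANSFERS.

`IsFlatAt p` (Prelude) only sees, for every ideal `I` of finite index, the finite `ℤ[G_ℚ]`-module
`V/IV`.  Main's S32 machine (`OrderTransfer`) says: if `(T, a)` is flat and every `x ∈ ℤ[G_ℚ]`
killing `T` kills `T'`, then `(T', b)` is flat (`T'` is then a subquotient of a power of `T`).
Here this is turned into the three hard clauses of `GaloisRep.IsDeformationCondition` for
`IsFlatAt p`:

* `isFlatMod_transfer`         : the transfer, in the language of `S56/Tan/FlatMod.IsFlatMod`;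
* `isFlatAt_baseChangeAlong`   : along ANY local homomorphism `φ : A → B` (stock has surjective `φ`);
* `isFlatAt_of_baseChangeAlong_injective` : descent along an injective `φ`, `B` finite;
* `isFlatAt_of_fibreProduct`   : `P ↪ A × B`, `A`, `B` finite.
-/
import Fermat.Agent.S56.Tan.BaseChange
import Fermat.Agent.S56.Flat.Dict.OfPrelude
import Fermat.Agent.S32.OrderTransfer
import Fermat.Agent.S32.LevelActs
import Fermat.Agent.S32.BridgePack

set_option autoImplicit false
set_option linter.style.haveILetI false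

noncomputable section

namespace Fermat.Agent.S43.RSide.FlatTransfer

open scoped TensorProduct
open Fermat.Agent.S56.Tan.FlatMod Fermat.Agent.S32.Subquot Fermat.Agent.S32.LevelActs

local notation "Γ" => (AlgebraicClosure ℚ ≃ₐ[ℚ] AlgebraicClosure ℚ)

variable {p : ℕ} [Fact p.Prime]

/-- **the transfer**: `T` flat, every integral combination of Galois elements killing `T` kills
`T'` ⟹ `T'` flat. -/
theorem isFlatMod_transfer {T T' : Type} [AddCommGroup T] [AddCommGroup T'] [Finite T] [Finite T']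
    (a : Γ →* AddMonoid.End T) (b : Γ →* AddMonoid.End T')
    (h : IsFlatMod p T (fun σ t => a σ t))
    (hTR : ∀ x : Γ →₀ ℤ, act a x = 0 → act b x = 0) :
    IsFlatMod p T' (fun σ t => b σ t) := by
  obtain ⟨H, i1, i2, h1, h2, h3, e, he1, he2⟩ := h
  obtain ⟨H₀, hH₀⟩ := Fermat.Agent.S56.Flat.Dict.exists_isHopfOrderZl_of_points
    (fun σ t => a σ t) e he1 he2
  obtain ⟨H', hH'⟩ := Fermat.Agent.S32.OrderTransfer.exists_isHopfOrderZl_of_transfer
    (a := a) (b := b) hTR hH₀
  have hs : ∀ σ : Γ, Function.Surjective (fun t => b σ t) := by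
    intro σ t
    refine ⟨b σ⁻¹ t, ?_⟩
    change (b σ * b σ⁻¹) t = t
    rw [← map_mul, mul_inv_cancel, map_one]
    rfl
  have hpack := Fermat.Agent.S32.BridgePack.pack_of_isHopfOrderZl hH' hs (fun σ => map_zero (b σ))
  exact Fermat.Agent.S19.HopfOrder.exists_hopfAlgebra_of_isHopfOrder hpack

/-! ### products of actions -/

section ProdHom

variable {G : Type*} [Group G] {T₁ T₂ : Type*} [AddCommGroup T₁] [AddCommGroup T₂]

/-- the diagonal action on a product -/
def prodHom (a₁ : G →* AddMonoid.End T₁) (a₂ : G →* AddMonoid.End T₂) :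
    G →* AddMonoid.End (T₁ × T₂) where
  toFun σ := AddMonoidHom.prodMap (a₁ σ) (a₂ σ)
  map_one' := by
    rw [map_one, map_one]
    exact AddMonoidHom.ext fun x => rfl
  map_mul' σ τ := by
    rw [map_mul, map_mul]
    exact AddMonoidHom.ext fun x => rfl

theorem prodHom_apply (a₁ : G →* AddMonoid.End T₁) (a₂ : G →* AddMonoid.End T₂) (σ : G)
    (x : T₁ × T₂) : prodHom a₁ a₂ σ x = (a₁ σ x.1, a₂ σ x.2) := rfl

theorem act_prodHom_apply (a₁ : G →* AddMonoid.End T₁) (a₂ : G →* AddMonoid.End T₂)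
    (x : G →₀ ℤ) (t : T₁ × T₂) :
    act (prodHom a₁ a₂) x t = (act a₁ x t.1, act a₂ x t.2) := by
  rw [act_apply, act_apply, act_apply]
  refine Prod.ext ?_ ?_
  · rw [Prod.fst_sum]
    exact Finset.sum_congr rfl fun g _ => rfl
  · rw [Prod.snd_sum]
    exact Finset.sum_congr rfl fun g _ => rfl

theorem act_fst_eq_zero {a₁ : G →* AddMonoid.End T₁} {a₂ : G →* AddMonoid.End T₂}
    {x : G →₀ ℤ} (h : act (prodHom a₁ a₂) x = 0) : act a₁ x = 0 := by
  ext t
  have := congrArg Prod.fst (act_prodHom_apply a₁ a₂ x (t, 0))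
  rw [h] at this
  exact this.symm

theorem act_snd_eq_zero {a₁ : G →* AddMonoid.End T₁} {a₂ : G →* AddMonoid.End T₂}
    {x : G →₀ ℤ} (h : act (prodHom a₁ a₂) x = 0) : act a₂ x = 0 := by
  ext t
  have := congrArg Prod.snd (act_prodHom_apply a₁ a₂ x (0, t))
  rw [h] at this
  exact this.symm

end ProdHom

/-! ### the level modules `V/IV` -/

section Level

variable {A : Type} [CommRing A] [IsLocalRing A] (ρ : GaloisRepAdic A) (I : Ideal A)

theorem act_levelHom_mk (x : Γ →₀ ℤ) (v : ρ.V) :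
    act (levelHom ρ I) x (Submodule.Quotient.mk v) =
      Submodule.Quotient.mk ((∑ g ∈ x.support, x g • ρ.ρ g) v) := by
  rw [act_apply]
  simp only [levelHom_mk]
  rw [LinearMap.sum_apply, ← Submodule.mkQ_apply, map_sum]
  refine Finset.sum_congr rfl fun g _ => ?_
  rw [LinearMap.smul_apply, map_zsmul]
  rfl

/-- converse of `LevelActs.act_levelHom_eq_zero` -/
theorem mem_of_act_levelHom_eq_zero (x : Γ →₀ ℤ) (h : act (levelHom ρ I) x = 0) (v : ρ.V) :
    (∑ g ∈ x.support, x g • ρ.ρ g) v ∈ I • (⊤ : Submodule A ρ.V) := by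
  rw [← Submodule.Quotient.mk_eq_zero, ← act_levelHom_mk, h]
  rfl

/-- **transfer between level modules** of two representations (over possibly different rings) -/
theorem isFlatMod_level_of_transfer {A' : Type} [CommRing A'] [IsLocalRing A']
    (ρ' : GaloisRepAdic A') (J : Ideal A') (hI : Finite (A ⧸ I)) (hJ : Finite (A' ⧸ J))
    (h : IsFlatMod p (ρ.V ⧸ (I • (⊤ : Submodule A ρ.V))) (fun σ => ρ.levelAction I σ))
    (htr : ∀ x : Γ →₀ ℤ,
      (∀ v : ρ.V, (∑ g ∈ x.support, x g • ρ.ρ g) v ∈ I • (⊤ : Submodule A ρ.V)) →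
      ∀ v' : ρ'.V, (∑ g ∈ x.support, x g • ρ'.ρ g) v' ∈ J • (⊤ : Submodule A' ρ'.V)) :
    IsFlatMod p (ρ'.V ⧸ (J • (⊤ : Submodule A' ρ'.V))) (fun σ => ρ'.levelAction J σ) := by
  have hV : Finite (ρ.V ⧸ (I • (⊤ : Submodule A ρ.V))) := Module.finite_of_finite (A ⧸ I)
  have hV' : Finite (ρ'.V ⧸ (J • (⊤ : Submodule A' ρ'.V))) := Module.finite_of_finite (A' ⧸ J)
  exact isFlatMod_transfer (levelHom ρ I) (levelHom ρ' J) h fun x hx =>
    act_levelHom_eq_zero ρ' J x (htr x (mem_of_act_levelHom_eq_zero ρ I x hx))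

end Level

/-! ### base change, generic: the combination on pure tensors, and `v ↦ 1 ⊗ v` by coordinates -/

section Generic

variable {R S V : Type} [CommRing R] [CommRing S] [Algebra R S] [AddCommGroup V] [Module R V]
  {G : Type} (f : G → (V →ₗ[R] V)) (s : Finset G) (n : G → ℤ)

/-- a linear map sending all pure tensors into a submodule sends everything there -/
theorem mem_of_tmul_mem (L : S ⊗[R] V →ₗ[S] S ⊗[R] V) (N : Submodule S (S ⊗[R] V))
    (h : ∀ (b : S) (v : V), L (b ⊗ₜ[R] v) ∈ N) (w : S ⊗[R] V) : L w ∈ N := by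
  induction w using TensorProduct.induction_on with
  | zero => rw [map_zero]; exact Submodule.zero_mem _
  | tmul b v => exact h b v
  | add y z hy hz =>
    rw [map_add]
    exact Submodule.add_mem _ hy hz

theorem comb_baseChange_tmul (b : S) (v : V) :
    (∑ g ∈ s, n g • (f g).baseChange S) (b ⊗ₜ[R] v) = b ⊗ₜ[R] ((∑ g ∈ s, n g • f g) v) := by
  rw [LinearMap.sum_apply, LinearMap.sum_apply, TensorProduct.tmul_sum]
  refine Finset.sum_congr rfl fun g _ => ?_
  rw [LinearMap.smul_apply, LinearMap.smul_apply, LinearMap.baseChange_tmul]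
  exact (map_zsmul (TensorProduct.mk R S V b) (n g) (f g v)).symm

theorem tmul_mem_smul_top (J : Ideal S) (b : S) {w : V}
    (hw : w ∈ (J.comap (algebraMap R S)) • (⊤ : Submodule R V)) :
    b ⊗ₜ[R] w ∈ J • (⊤ : Submodule S (S ⊗[R] V)) := by
  refine Submodule.smul_induction_on (p := fun w => b ⊗ₜ[R] w ∈
    J • (⊤ : Submodule S (S ⊗[R] V))) hw ?_ ?_
  · intro a ha w _
    rw [TensorProduct.tmul_smul, TensorProduct.smul_tmul', Algebra.smul_def, ← smul_eq_mul,
      ← TensorProduct.smul_tmul']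
    exact Submodule.smul_mem_smul (Ideal.mem_comap.mp ha) Submodule.mem_top
  · intro y z hy hz
    rw [TensorProduct.tmul_add]
    exact Submodule.add_mem _ hy hz

/-- `x V ⊆ (φ⁻¹ J) V ⟹ x (S ⊗ V) ⊆ J (S ⊗ V)` -/
theorem comb_baseChange_mem (J : Ideal S)
    (hx : ∀ v : V, (∑ g ∈ s, n g • f g) v ∈ (J.comap (algebraMap R S)) • (⊤ : Submodule R V))
    (w : S ⊗[R] V) :
    (∑ g ∈ s, n g • (f g).baseChange S) w ∈ J • (⊤ : Submodule S (S ⊗[R] V)) := by
  refine mem_of_tmul_mem _ _ (fun b v => ?_) w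
  rw [comb_baseChange_tmul]
  exact tmul_mem_smul_top J b (hx v)

/-- `1 ⊗ w = 0` iff all coordinates of `w` die in `S` -/
theorem one_tmul_eq_zero_iff (bas : Module.Basis (Fin 2) R V) (w : V) :
    ((1 : S) ⊗ₜ[R] w = 0) ↔ ∀ i, algebraMap R S (bas.repr w i) = 0 := by
  rw [← (bas.baseChange S).repr.map_eq_zero_iff]
  constructor
  · intro h i
    have := DFunLike.congr_fun h i
    rw [Module.Basis.baseChange_repr_tmul, Algebra.smul_def, mul_one] at this
    exact this
  · intro h
    ext i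
    rw [Module.Basis.baseChange_repr_tmul, Algebra.smul_def, mul_one]
    exact h i

/-- the combination dies on `V`, coordinatewise in `S`, if it dies on `S ⊗ V` modulo `⊥` -/
theorem repr_comb_eq_zero_generic (bas : Module.Basis (Fin 2) R V)
    (hx : ∀ w : S ⊗[R] V, (∑ g ∈ s, n g • (f g).baseChange S) w ∈
      (⊥ : Ideal S) • (⊤ : Submodule S (S ⊗[R] V))) (v : V) (i : Fin 2) :
    algebraMap R S (bas.repr ((∑ g ∈ s, n g • f g) v) i) = 0 := by
  have h1 := hx ((1 : S) ⊗ₜ[R] v)
  rw [Submodule.bot_smul, Submodule.mem_bot, comb_baseChange_tmul] at h1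
  exact (one_tmul_eq_zero_iff bas _).mp h1 i

end Generic

/-! ### base change of representations -/

section BaseChange

variable {A : Type} [CommRing A] [IsLocalRing A] {B : Type} [CommRing B] [IsLocalRing B]
variable (φ : A →+* B) (hφ : IsLocalHom φ) (ρ : GaloisRepAdic A)

/-- `x V ⊆ (φ⁻¹ J) V ⟹ x (B ⊗ V) ⊆ J (B ⊗ V)` -/
theorem comb_baseChangeAlong_mem (J : Ideal B) (x : Γ →₀ ℤ)
    (hx : ∀ v : ρ.V, (∑ g ∈ x.support, x g • ρ.ρ g) v ∈ (J.comap φ) • (⊤ : Submodule A ρ.V))
    (v' : (ρ.baseChangeAlong φ hφ).V) :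
    (∑ g ∈ x.support, x g • (ρ.baseChangeAlong φ hφ).ρ g) v' ∈
      J • (⊤ : Submodule B (ρ.baseChangeAlong φ hφ).V) := by
  letI : Algebra A B := φ.toAlgebra
  exact comb_baseChange_mem (R := A) (S := B) (fun g => ρ.ρ g) x.support (fun g => x g) J hx v'

/-- the combination dies on `V`, coordinatewise in `B`, if it dies on `B ⊗ V` modulo `⊥` -/
theorem repr_comb_eq_zero (bas : Module.Basis (Fin 2) A ρ.V) (x : Γ →₀ ℤ)
    (hx : ∀ v' : (ρ.baseChangeAlong φ hφ).V,
      (∑ g ∈ x.support, x g • (ρ.baseChangeAlong φ hφ).ρ g) v'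
        ∈ (⊥ : Ideal B) • (⊤ : Submodule B (ρ.baseChangeAlong φ hφ).V)) (v : ρ.V) (i : Fin 2) :
    φ (bas.repr ((∑ g ∈ x.support, x g • ρ.ρ g) v) i) = 0 := by
  letI : Algebra A B := φ.toAlgebra
  exact repr_comb_eq_zero_generic (R := A) (S := B) (fun g => ρ.ρ g) x.support (fun g => x g)
    bas hx v i

/-- **`IsFlatAt p` along an arbitrary local homomorphism** -/
theorem isFlatAt_baseChangeAlong (hB : Finite (IsLocalRing.ResidueField B))
    (h : ρ.IsFlatAt p) : (ρ.baseChangeAlong φ hφ).IsFlatAt p := by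
  refine ⟨hB, fun J hJ => ?_⟩
  have hI : Finite (A ⧸ J.comap φ) :=
    Finite.of_injective _ (Ideal.quotientMap_injective (I := J) (f := φ))
  exact isFlatMod_level_of_transfer ρ (J.comap φ) (ρ.baseChangeAlong φ hφ) J hI hJ
    (h.2 (J.comap φ) hI) fun x hx v' => comb_baseChangeAlong_mem φ hφ ρ J x hx v'

theorem finite_quot_bot (B : Type) [CommRing B] [Finite B] : Finite (B ⧸ (⊥ : Ideal B)) :=
  Finite.of_surjective (Ideal.Quotient.mk ⊥) Ideal.Quotient.mk_surjective

include hφ in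
theorem finite_residueField_of_isLocalHom (hB : Finite (IsLocalRing.ResidueField B)) :
    Finite (IsLocalRing.ResidueField A) :=
  haveI := hφ
  Finite.of_injective _ (IsLocalRing.ResidueField.map φ).injective

/-- **descent of `IsFlatAt p` along an injective local homomorphism into a finite ring** -/
theorem isFlatAt_of_baseChangeAlong_injective (hinj : Function.Injective φ) [Finite B]
    (h : (ρ.baseChangeAlong φ hφ).IsFlatAt p) : ρ.IsFlatAt p := by
  have bas : Module.Basis (Fin 2) A ρ.V := Module.finBasisOfFinrankEq A ρ.V ρ.finrank_eq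
  refine ⟨finite_residueField_of_isLocalHom φ hφ h.1, fun I hI => ?_⟩
  have hbot := finite_quot_bot B
  refine isFlatMod_level_of_transfer (ρ.baseChangeAlong φ hφ) ⊥ ρ I hbot hI (h.2 ⊥ hbot)
    fun x hx v => ?_
  have h0 : (∑ g ∈ x.support, x g • ρ.ρ g) v = 0 := by
    rw [← bas.repr.map_eq_zero_iff]
    ext i
    exact hinj ((repr_comb_eq_zero φ hφ ρ bas x hx v i).trans (map_zero φ).symm)
  rw [h0]
  exact Submodule.zero_mem _

end BaseChange

/-! ### fibre products -/

section FibreProduct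

variable {P A B : Type} [CommRing P] [IsLocalRing P] [CommRing A] [IsLocalRing A]
  [CommRing B] [IsLocalRing B]

/-- **`IsFlatAt p` for a subring of a product of two finite rings** -/
theorem isFlatAt_of_fibreProduct (pA : P →+* A) (pB : P →+* B) (hpA : IsLocalHom pA)
    (hpB : IsLocalHom pB) (hinj : Function.Injective fun x => (pA x, pB x)) [Finite A] [Finite B]
    (ρ : GaloisRepAdic P) (hA : (ρ.baseChangeAlong pA hpA).IsFlatAt p)
    (hB : (ρ.baseChangeAlong pB hpB).IsFlatAt p) : ρ.IsFlatAt p := by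
  have bas : Module.Basis (Fin 2) P ρ.V := Module.finBasisOfFinrankEq P ρ.V ρ.finrank_eq
  refine ⟨finite_residueField_of_isLocalHom pA hpA hA.1, fun I hI => ?_⟩
  have hbotA := finite_quot_bot A
  have hbotB := finite_quot_bot B
  have hVA : Finite ((ρ.baseChangeAlong pA hpA).V ⧸
      ((⊥ : Ideal A) • (⊤ : Submodule A (ρ.baseChangeAlong pA hpA).V))) :=
    Module.finite_of_finite (A ⧸ (⊥ : Ideal A))
  have hVB : Finite ((ρ.baseChangeAlong pB hpB).V ⧸
      ((⊥ : Ideal B) • (⊤ : Submodule B (ρ.baseChangeAlong pB hpB).V))) :=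
    Module.finite_of_finite (B ⧸ (⊥ : Ideal B))
  have hV : Finite (ρ.V ⧸ (I • (⊤ : Submodule P ρ.V))) := Module.finite_of_finite (P ⧸ I)
  have hprod := IsFlatMod.prod
    ((Fermat.Agent.S56.Tan.FlatMod.isFlatAt_iff _ p).mp hA |>.2 ⊥ hbotA)
    ((Fermat.Agent.S56.Tan.FlatMod.isFlatAt_iff _ p).mp hB |>.2 ⊥ hbotB)
  show IsFlatMod p (ρ.V ⧸ (I • (⊤ : Submodule P ρ.V))) (fun σ => ρ.levelAction I σ)
  refine isFlatMod_transfer
    (prodHom (levelHom (ρ.baseChangeAlong pA hpA) ⊥) (levelHom (ρ.baseChangeAlong pB hpB) ⊥))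
    (levelHom ρ I) hprod fun x hx => ?_
  refine act_levelHom_eq_zero ρ I x fun v => ?_
  have h1 := mem_of_act_levelHom_eq_zero _ _ x (act_fst_eq_zero hx)
  have h2 := mem_of_act_levelHom_eq_zero _ _ x (act_snd_eq_zero hx)
  have h0 : (∑ g ∈ x.support, x g • ρ.ρ g) v = 0 := by
    rw [← bas.repr.map_eq_zero_iff]
    ext i
    apply hinj
    refine Prod.ext ?_ ?_
    · exact (repr_comb_eq_zero pA hpA ρ bas x h1 v i).trans (map_zero pA).symm
    · exact (repr_comb_eq_zero pB hpB ρ bas x h2 v i).trans (map_zero pB).symm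
  rw [h0]
  exact Submodule.zero_mem _

end FibreProduct

end Fermat.Agent.S43.RSide.FlatTransfer
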