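/-
PROJECT R (S43), block RS (leader helper21), brick (N1): THE HYPOTHESIS `LiftHypM` OF
`Num/RelTanT.exists_surjective_traces` FROM THE PROPERTIES OF `ρ_T`.

`R` a local `𝒪`-algebra with residue field `k` (finite), `rR : G_ℚ → M₂(R)` continuous,
`ρR : GaloisRepAdic R` equivalent to `ofMat rR` (for the route (gamma) `ρR = ofMat rR` itself).
If `ρR` has cyclotomic determinant, is flat at `p` (resp. strictly ordinary at `p`), is unipotent
on inertia at the primes of `Smin` and unramified outside `Smin ∪ T ∪ Q`, then every push-forward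
of `rR` along a tangent vector `R → k[ε]` has the same properties: `LiftHypM … (Pfl p)`
(resp. `(Pso p)`).

All the base-change lemmas are main's `S56/Tan/BaseChange`, except flatness along an ARBITRARY
local homomorphism, which is `RSide/FlatTransfer.isFlatAt_baseChangeAlong` (RS1).
-/
import Fermat.Agent.S43.Num.RelTanT
import Fermat.Agent.S43.RSide.FlatTransfer

set_option autoImplicit false
set_option linter.unusedSectionVars false

noncomputable section

namespace Fermat.Agent.S43.RSide.LiftHyp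

open IsLocalRing
open Fermat.Agent.CFT.Bridge
open Fermat.Agent.S56.Coh Fermat.Agent.S56.Coh.CocDefs
open Fermat.Agent.S53.Dictionary hiding GQ
open Fermat.Agent.S53.TangentBound
open Fermat.Agent.S56.Tan.DualHom Fermat.Agent.S56.Tan.Universal
open Fermat.Agent.S56.Tan.BaseChange
open Fermat.Agent.S43.Num.RelTanT Fermat.Agent.S43.RSide.FlatTransfer

attribute [local instance] algDual

variable {𝒪 : Type} [CommRing 𝒪] [IsLocalRing 𝒪]
  {R : Type} [CommRing R] [IsLocalRing R] [Algebra 𝒪 R] [IsLocalHom (algebraMap 𝒪 R)]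
  (hres : Function.Surjective (residue R ∘ algebraMap 𝒪 R))
  (rR : GQ →* Mat R) (hR : IsContMat R rR)
  (p : ℕ) [Fact p.Prime]

/-- the residue field of the dual numbers over a finite field is finite -/
theorem finite_residueField_dual (k : Type) [Field k] [Finite k] :
    Finite (ResidueField (DualNumber k)) := by
  have e : k × k ≃ DualNumber k :=
    { toFun := fun x => TrivSqZeroExt.inl x.1 + TrivSqZeroExt.inr x.2
      invFun := fun x => (TrivSqZeroExt.fst x, TrivSqZeroExt.snd x)
      left_inv := fun x => by simp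
      right_inv := fun x => by apply TrivSqZeroExt.ext <;> simp }
  have : Finite (DualNumber k) := Finite.of_equiv _ e
  exact Finite.of_surjective (residue (DualNumber k)) Ideal.Quotient.mk_surjective

include hres in
/-- the push-forward of `rR` along a tangent vector is the base change of `ρR` -/
theorem isEquiv_pushRep (ρR : GaloisRepAdic R) (heq : ρR.IsEquiv (ofMat rR hR))
    (φ : R →ₐ[𝒪] DualNumber (ResidueField 𝒪)) :
    (ρR.baseChangeAlong (φ : R →+* DualNumber (ResidueField 𝒪))
      (isLocalHom_algHom hres φ)).IsEquiv (pushRep hres rR hR φ) :=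
  isEquiv_trans (isEquiv_baseChangeAlong _ (isLocalHom_algHom hres φ) heq)
    (baseChangeAlong_ofMat _ (isLocalHom_algHom hres φ) rR hR)

variable (Smin T Q : Finset ℕ)

include hres in
/-- the clauses of `LiftHypM` which do not depend on the condition at `p` -/
theorem liftHypM_of (ρR : GaloisRepAdic R) (heq : ρR.IsEquiv (ofMat rR hR))
    (Pp : GaloisRepAdic (DualNumber (ResidueField 𝒪)) → Prop)
    (hdet : ρR.DetIsCyclotomic p)
    (hPp : ∀ φ : R →ₐ[𝒪] DualNumber (ResidueField 𝒪), Pp (pushRep hres rR hR φ))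
    (hunip : ∀ q ∈ Smin, q.Prime → q ≠ p → ρR.IsUnipotentOnInertiaAt q)
    (hunr : ∀ q : ℕ, q.Prime → q ∉ Smin ∪ (T ∪ Q) → ρR.IsUnramifiedAt q) :
    LiftHypM hres rR hR p Smin T Q Pp := by
  intro φ
  have he := isEquiv_pushRep hres rR hR ρR heq φ
  have hdet' : (pushRep hres rR hR φ).DetIsCyclotomic p :=
    detIsCyclotomic_of_isEquiv he (detIsCyclotomic_baseChangeAlong _ _ ρR hdet)
  refine ⟨hdet', hPp φ, fun q hq hqp hqne => ⟨hdet', ?_⟩, fun q hq hqn => ?_⟩
  · exact isUnipotentOnInertiaAt_of_isEquiv he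
      (isUnipotentOnInertiaAt_baseChangeAlong _ _ ρR (hunip q hq hqp hqne))
  · exact isUnramifiedAt_of_isEquiv he (isUnramifiedAt_baseChangeAlong _ _ ρR (hunr q hq hqn))

include hres in
/-- **(N1), flat case** -/
theorem liftHypM_fl [Finite (ResidueField 𝒪)] (ρR : GaloisRepAdic R)
    (heq : ρR.IsEquiv (ofMat rR hR))
    (hdet : ρR.DetIsCyclotomic p) (hfl : ρR.IsFlatAt p)
    (hunip : ∀ q ∈ Smin, q.Prime → q ≠ p → ρR.IsUnipotentOnInertiaAt q)
    (hunr : ∀ q : ℕ, q.Prime → q ∉ Smin ∪ (T ∪ Q) → ρR.IsUnramifiedAt q) :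
    LiftHypM hres rR hR p Smin T Q (Pfl p) := by
  refine liftHypM_of hres rR hR p Smin T Q ρR heq (Pfl p) hdet (fun φ => ?_) hunip hunr
  have he := isEquiv_pushRep hres rR hR ρR heq φ
  exact ⟨detIsCyclotomic_of_isEquiv he (detIsCyclotomic_baseChangeAlong _ _ ρR hdet),
    isFlatAt_of_isEquiv he (isFlatAt_baseChangeAlong _ _ ρR
      (finite_residueField_dual (ResidueField 𝒪)) hfl)⟩

include hres in
/-- **(N1), strictly ordinary case** -/
theorem liftHypM_so (ρR : GaloisRepAdic R)
    (heq : ρR.IsEquiv (ofMat rR hR))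
    (hdet : ρR.DetIsCyclotomic p) (hso : ρR.IsStrictOrdinaryAt p)
    (hunip : ∀ q ∈ Smin, q.Prime → q ≠ p → ρR.IsUnipotentOnInertiaAt q)
    (hunr : ∀ q : ℕ, q.Prime → q ∉ Smin ∪ (T ∪ Q) → ρR.IsUnramifiedAt q) :
    LiftHypM hres rR hR p Smin T Q (Pso p) := by
  refine liftHypM_of hres rR hR p Smin T Q ρR heq (Pso p) hdet (fun φ => ?_) hunip hunr
  have he := isEquiv_pushRep hres rR hR ρR heq φ
  exact ⟨detIsCyclotomic_of_isEquiv he (detIsCyclotomic_baseChangeAlong _ _ ρR hdet),
    isStrictOrdinaryAt_of_isEquiv he (isStrictOrdinaryAt_baseChangeAlong _ _ ρR hso)⟩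

end Fermat.Agent.S43.RSide.LiftHyp
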