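/-
PROJECT R (S43), block RS (leader helper21), file RS6a: ONE TAME GENERATOR FOR ALL FINITE LEVELS.

Main's `S56/Tame/Global.exists_generator_inertia_uniform` gives, for ONE finite Galois level `F`,
an element `τ` of the inertia group `I` at `q` such that `f(I) = ⟨f τ⟩` for every homomorphism `f`
from `I` to a group, trivial on `I ∩ Gal(Ω/F)`, with `p`-group range (`p ≠ q`).  Here:

* `exists_tame_generator` : ONE `σ ∈ I` which does this for EVERY finite Galois level at once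
  (a topological generator of the pro-`p` tame quotient, without any profinite limit): if some
  `f₁` of this kind is non-trivial, a generator for `f₁` generates for every `f` (apply the stock
  to `(f, f₁)` at the compositum level: the range is cyclic, generated by the image of `τ'`, and
  `σ ≡ τ'^j` with `p ∤ j` because `f₁ σ` generates the non-trivial cyclic `p`-group `f₁(I)`);
  if there is no such `f₁`, `σ = 1` works.
-/
import Fermat.Agent.S56.Tame.Global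

set_option autoImplicit false

namespace Fermat.Agent.S43.RSide.TameGen

/-! ### two facts on elements of `p`-power order -/

section Group

variable {G : Type*} [Group G] {p : ℕ}

/-- in a `p`-group, `y` is a power of `y ^ j` if `p ∤ j` -/
theorem exists_pow_pow_eq (hp : p.Prime) {y : G} {b : ℕ} (hy : y ^ p ^ b = 1) {j : ℕ}
    (hj : ¬ p ∣ j) : ∃ u : ℕ, (y ^ j) ^ u = y := by
  have hcop : Nat.Coprime j (p ^ b) := Nat.Coprime.pow_right b
    ((Nat.Prime.coprime_iff_not_dvd hp).mpr hj).symm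
  rcases Nat.eq_or_lt_of_le (Nat.one_le_pow b p hp.pos) with h1 | h1
  · refine ⟨0, ?_⟩
    rw [← h1, pow_one] at hy
    rw [pow_zero, hy]
  · obtain ⟨u, -, hu⟩ := Nat.exists_mul_mod_eq_one_of_coprime hcop h1
    refine ⟨u, ?_⟩
    rw [← pow_mul, pow_eq_pow_mod (j * u) hy, hu, pow_one]

/-- if `x ≠ 1` has `p`-power order and `x = x ^ (i * j)` then `p ∤ j` -/
theorem not_dvd_of_pow_eq (hp : p.Prime) {x : G} {a : ℕ} (hx : x ^ p ^ a = 1) (hx1 : x ≠ 1)
    {i j : ℕ} (h : x ^ (i * j) = x) : ¬ p ∣ j := by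
  intro hpj
  have hord : orderOf x ∣ p ^ a := orderOf_dvd_of_pow_eq_one hx
  obtain ⟨c, -, hc⟩ := (Nat.dvd_prime_pow hp).mp hord
  have hc0 : c ≠ 0 := by
    rintro rfl
    rw [pow_zero, orderOf_eq_one_iff] at hc
    exact hx1 hc
  have hpo : p ∣ orderOf x := by
    rw [hc]
    exact dvd_pow_self p hc0
  have h1 : x ^ (i * j) = x ^ 1 := by rw [h, pow_one]
  have h2 : i * j ≡ 1 [MOD orderOf x] := pow_eq_pow_iff_modEq.mp h1
  have h3 : i * j ≡ 1 [MOD p] := h2.of_dvd hpo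
  have h4 : i * j ≡ 0 [MOD p] := Nat.modEq_zero_iff_dvd.mpr (Dvd.dvd.mul_left hpj i)
  have h5 : (1 : ℕ) ≡ 0 [MOD p] := h3.symm.trans h4
  exact hp.one_lt.ne' (Nat.dvd_one.mp (Nat.modEq_zero_iff_dvd.mp h5))

end Group

/-! ### the compositum of two finite Galois levels (the two `ℚ`-algebra structures on a subfield) -/

section Sup

variable {Ω : Type*} [Field Ω] [Algebra ℚ Ω]

theorem isGalois_congr (E : Type*) [Field E] (a b : Algebra ℚ E) (h : @IsGalois ℚ _ E _ a) :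
    @IsGalois ℚ _ E _ b := by
  have : a = b := Subsingleton.elim _ _
  subst this
  exact h

attribute [-instance] DivisionRing.toRatAlgebra in
theorem isGalois_sup_aux (F F₁ : IntermediateField ℚ Ω) [IsGalois ℚ F] [IsGalois ℚ F₁] :
    IsGalois ℚ (F ⊔ F₁ : IntermediateField ℚ Ω) := by
  have : Normal ℚ (F ⊔ F₁ : IntermediateField ℚ Ω) := IntermediateField.normal_sup ℚ Ω F F₁
  exact IsGalois.mk

theorem isGalois_sup (F F₁ : IntermediateField ℚ Ω) [h1 : IsGalois ℚ F] [h2 : IsGalois ℚ F₁] :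
    IsGalois ℚ (F ⊔ F₁ : IntermediateField ℚ Ω) := by
  have h1' := isGalois_congr F _ (IntermediateField.algebra' F) h1
  have h2' := isGalois_congr F₁ _ (IntermediateField.algebra' F₁) h2
  exact isGalois_congr _ _ _ (@isGalois_sup_aux Ω _ _ F F₁ h1' h2')

end Sup

/-! ### the generator -/

section Main

variable {Ω : Type*} [Field Ω] [Algebra ℚ Ω] (A : ValuationSubring Ω)

/-- a homomorphism from the inertia group which is trivial on `I ∩ Gal(Ω/F)` -/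
def FactorsThrough (F : IntermediateField ℚ Ω) {Γ : Type*} [Group Γ]
    (f : A.inertiaSubgroupIn ℚ →* Γ) : Prop :=
  ∀ s : A.inertiaSubgroupIn ℚ, (s : Ω ≃ₐ[ℚ] Ω) ∈ F.fixingSubgroup → f s = 1

variable {A}

theorem isPGroup_range_prod {p : ℕ} {Γ Γ₁ : Type*} [Group Γ] [Group Γ₁]
    {f : A.inertiaSubgroupIn ℚ →* Γ} {f₁ : A.inertiaSubgroupIn ℚ →* Γ₁}
    (hf : IsPGroup p f.range) (hf₁ : IsPGroup p f₁.range) : IsPGroup p (f.prod f₁).range := by
  rintro ⟨_, s, rfl⟩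
  obtain ⟨a, ha⟩ := hf ⟨f s, s, rfl⟩
  obtain ⟨b, hb⟩ := hf₁ ⟨f₁ s, s, rfl⟩
  have ha' : f s ^ p ^ a = 1 := congrArg Subtype.val ha
  have hb' : f₁ s ^ p ^ b = 1 := congrArg Subtype.val hb
  refine ⟨a + b, Subtype.ext ?_⟩
  change (f.prod f₁ s) ^ p ^ (a + b) = 1
  rw [MonoidHom.prod_apply, Prod.pow_mk, pow_add, pow_mul, ha', one_pow, mul_comm, pow_mul, hb',
    one_pow]
  rfl

theorem factorsThrough_prod_sup (F F₁ : IntermediateField ℚ Ω) {Γ Γ₁ : Type*} [Group Γ] [Group Γ₁]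
    {f : A.inertiaSubgroupIn ℚ →* Γ} {f₁ : A.inertiaSubgroupIn ℚ →* Γ₁}
    (hf : FactorsThrough A F f) (hf₁ : FactorsThrough A F₁ f₁) :
    FactorsThrough A (F ⊔ F₁) (f.prod f₁) := by
  intro s hs
  have h1 : (s : Ω ≃ₐ[ℚ] Ω) ∈ F.fixingSubgroup :=
    (IntermediateField.fixingSubgroup_le (le_sup_left : F ≤ F ⊔ F₁)) hs
  have h2 : (s : Ω ≃ₐ[ℚ] Ω) ∈ F₁.fixingSubgroup :=
    (IntermediateField.fixingSubgroup_le (le_sup_right : F₁ ≤ F ⊔ F₁)) hs
  rw [MonoidHom.prod_apply, hf s h1, hf₁ s h2]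
  rfl

/-- **ONE tame generator for all finite Galois levels** -/
theorem exists_tame_generator {q : ℕ} (hq : q.Prime) (hA : A.LiesOverPrime q) {p : ℕ}
    (hp : p.Prime) (hpq : p ≠ q) :
    ∃ σ : A.inertiaSubgroupIn ℚ, ∀ (F : IntermediateField ℚ Ω) [IsGalois ℚ F]
      [FiniteDimensional ℚ F] (Γ : Type) [Group Γ] (f : A.inertiaSubgroupIn ℚ →* Γ),
      FactorsThrough A F f → IsPGroup p f.range →
        ∀ s : A.inertiaSubgroupIn ℚ, ∃ m : ℕ, f s = f σ ^ m := by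
  classical
  by_cases hex : ∃ (F₁ : IntermediateField ℚ Ω) (_ : IsGalois ℚ F₁) (_ : FiniteDimensional ℚ F₁)
      (Γ₁ : Type) (_ : Group Γ₁) (f₁ : A.inertiaSubgroupIn ℚ →* Γ₁),
      FactorsThrough A F₁ f₁ ∧ IsPGroup p f₁.range ∧ ∃ s, f₁ s ≠ 1
  · obtain ⟨F₁, iG₁, iF₁, Γ₁, iΓ₁, f₁, hF₁, hP₁, s₁, hs₁⟩ := hex
    obtain ⟨τ₁, hτ₁⟩ := Fermat.Agent.S56.Tame.exists_generator_inertia_uniform.{0, _} F₁ hq hA hp hpq
    have hgen₁ := hτ₁ Γ₁ f₁ hF₁ hP₁
    -- `f₁ τ₁ ≠ 1`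
    have hx1 : f₁ τ₁ ≠ 1 := by
      intro h1
      obtain ⟨m, hm⟩ := hgen₁ s₁
      rw [h1, one_pow] at hm
      exact hs₁ hm
    obtain ⟨a, ha⟩ := hP₁ ⟨f₁ τ₁, τ₁, rfl⟩
    have ha' : f₁ τ₁ ^ p ^ a = 1 := congrArg Subtype.val ha
    refine ⟨τ₁, fun F _ _ Γ _ f hF hP s => ?_⟩
    have : IsGalois ℚ (F ⊔ F₁ : IntermediateField ℚ Ω) := isGalois_sup F F₁
    have : FiniteDimensional ℚ (F ⊔ F₁ : IntermediateField ℚ Ω) :=
      IntermediateField.finiteDimensional_sup F F₁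
    obtain ⟨τ', hτ'⟩ := Fermat.Agent.S56.Tame.exists_generator_inertia_uniform.{0, _} (F ⊔ F₁)
      hq hA hp hpq
    have hgen' := hτ' (Γ × Γ₁) (f.prod f₁) (factorsThrough_prod_sup F F₁ hF hF₁)
      (isPGroup_range_prod hP hP₁)
    -- `τ₁ ≡ τ'^j`
    obtain ⟨j, hj⟩ := hgen' τ₁
    rw [MonoidHom.prod_apply, MonoidHom.prod_apply, Prod.pow_mk, Prod.mk.injEq] at hj
    -- `f₁ τ' = f₁ τ₁ ^ i`
    obtain ⟨i, hi⟩ := hgen₁ τ'
    have hij : f₁ τ₁ ^ (i * j) = f₁ τ₁ := by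
      rw [pow_mul, ← hi, ← hj.2]
    have hpj : ¬ p ∣ j := not_dvd_of_pow_eq hp ha' hx1 hij
    -- `f τ'` is a power of `f τ₁ = f τ' ^ j`
    obtain ⟨b, hb⟩ := hP ⟨f τ', τ', rfl⟩
    have hb' : f τ' ^ p ^ b = 1 := congrArg Subtype.val hb
    obtain ⟨u, hu⟩ := exists_pow_pow_eq hp hb' hpj
    obtain ⟨m, hm⟩ := hgen' s
    rw [MonoidHom.prod_apply, MonoidHom.prod_apply, Prod.pow_mk, Prod.mk.injEq] at hm
    refine ⟨u * m, ?_⟩
    rw [hm.1, hj.1, pow_mul, hu]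
  · refine ⟨1, fun F iG iF Γ iΓ f hF hP s => ⟨0, ?_⟩⟩
    rw [pow_zero]
    by_contra hne
    exact hex ⟨F, iG, iF, Γ, iΓ, f, hF, hP, s, hne⟩

end Main

end Fermat.Agent.S43.RSide.TameGen
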