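/-
PROJECT R (S43, row 37), block RS (leader helper21), brick RS25: THE DATA AT THE STUCK PRIMES, CHOSEN
ONCE (the `SETUP` half of `Assembly/Stuck` that feeds `RSide/FeedQ.nonempty_datumJ_Q'`,
`RSide/Theta0.exists_theta0'` and `RSide/StuckR.exists_prime_of_levels`).

`P` a Frey package, `T` a finite set of stuck odd primes `ℓ ≠ p`, indexed by `ι := ↥T`, `ℓ i := i`;
`O` the coefficient ring with its primitive `p`-th root of unity `ζ : Oˣ`; `rbarM` a matrix form of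
`rbar P (ResidueField O)`.  Then there are, for every `i`,
* a tame generator `σ i` of the inertia group at `padicPlace (ℓ i)` (`RSide/TameGen`),
* a Frobenius element `φ i` at `padicPlace (ℓ i)`,
* `s i : O`, `s i ^ 2 = ℓ i`, a unit, with `rbarM (φ i) = residue (s i) • 1` (helper12's
  `Assembly/Sqrt`),
such that `rbarM` is trivial on the inertia groups at the `ℓ i` (S05), and the LEVEL-INDEPENDENT
type-`χ` parameter `u i := ChiFix.uFix ζ p (ℓ i) (σ i)` is a primitive `p`-th root of unity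
(`u i ^ p = 1`, `u i ^ 2 ≠ 1` : `hu`, `hu2` of `Assembly/Coeff.params`).
-/
import Mathlib
import Fermat.Agent.S43.Assembly.Sqrt
import Fermat.Agent.S43.RSide.TameGen
import Fermat.Agent.S43.RSide.ChiFix
import Fermat.Agent.Lib.FrobeniusExists

set_option autoImplicit false
set_option linter.unusedSectionVars false

noncomputable section

namespace Fermat.Agent.S43.RSide.SetupStuck

open IsLocalRing
open Fermat.Agent.CFT.Bridge
open Fermat.Agent.S43.Assembly.Reduce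
open Fermat.Agent.S43.Rbar.Frey Fermat.Agent.S43.Rbar.Export
open Fermat.Agent.S43.RSide.TrivBase (TameClause)
open Fermat.Agent.S43.RSide.ChiFix
open WeierstrassCurve WeierstrassCurve.Affine WeierstrassCurve.Affine.Point
open scoped WeierstrassCurve.Affine

local notation "Qbar" => AlgebraicClosure ℚ
local notation "GQ" => (AlgebraicClosure ℚ ≃ₐ[ℚ] AlgebraicClosure ℚ)

/-- a tame generator at `padicPlace l`, in the literal of `TrivBase.TameClause` -/
theorem exists_tameClause (p l : ℕ) [hl : Fact l.Prime] (hp : p.Prime) (hpl : p ≠ l) :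
    ∃ σ : (padicPlace l).inertiaSubgroupIn ℚ, TameClause p l σ := by
  obtain ⟨σ, hσ⟩ := Fermat.Agent.S43.RSide.TameGen.exists_tame_generator hl.out
    (Fermat.Agent.CFT.LocalBridge.liesOverPrime_padicPlace l) hp hpl
  exact ⟨σ, fun F _ _ Γ _ f hf hP s => hσ F Γ f hf hP s⟩

section Frey

variable (P : FreyPackage) [Fact P.p.Prime]
  {O : Type} [CommRing O] [IsLocalRing O] [IsAdicComplete (maximalIdeal O) O]
  [Algebra (ZMod P.p) (ResidueField O)]

/-- a matrix form of `rbar P k` is trivial on the inertia groups at the odd primes `q ≠ p` -/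
theorem rbarM_eq_one_of_inertia {k : Type} [Field k] [Algebra (ZMod P.p) k]
    (b : Module.Basis (Fin 2) k (rbar P k).V) (rbarM : GQ →* GL (Fin 2) k)
    (hb : ∀ g, (rbarM g : Matrix (Fin 2) (Fin 2) k) = LinearMap.toMatrix b b ((rbar P k).ρ g))
    {q : ℕ} (hq : q.Prime) (hq2 : q ≠ 2) (hqp : q ≠ P.p) {A : ValuationSubring Qbar}
    (hA : A.LiesOverPrime q) {u : GQ} (hu : u ∈ A.inertiaSubgroupIn ℚ) : rbarM u = 1 := by
  apply Units.ext
  rw [hb, Units.val_one, rbar_apply, isUnramifiedAt P hq hq2 hqp A hA u hu,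
    LinearMap.baseChange_one]
  exact LinearMap.toMatrix_one b

/-- **THE DATA AT THE STUCK PRIMES.** -/
theorem exists_stuck_data (h2 : IsUnit (2 : O))
    (hirr : GaloisRepIsIrreducible (K := Qbar) ℚ P.freyCurve P.p)
    (hp2 : P.p ≠ 2) (ζ : Oˣ) (hζ : IsPrimitiveRoot ζ P.p)
    (T : Finset ℕ) (hT : ∀ ℓ ∈ T, ℓ.Prime ∧ ℓ ≠ 2 ∧ ℓ ≠ P.p ∧ IsStuck P ℓ)
    [hℓp : ∀ i : ↥T, Fact ((i : ℕ)).Prime]
    (b : Module.Basis (Fin 2) (ResidueField O) (rbar P (ResidueField O)).V)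
    (rbarM : GQ →* GL (Fin 2) (ResidueField O))
    (hb : ∀ g, (rbarM g : Matrix (Fin 2) (Fin 2) (ResidueField O)) =
      LinearMap.toMatrix b b ((rbar P (ResidueField O)).ρ g)) :
    ∃ (σ : ∀ i : ↥T, (padicPlace (i : ℕ)).inertiaSubgroupIn ℚ) (φ : ↥T → GQ) (s : ↥T → O),
      (∀ i : ↥T, TameClause P.p (i : ℕ) (σ i)) ∧
      (∀ i : ↥T, (padicPlace (i : ℕ)).IsFrobeniusAt (φ i) (i : ℕ)) ∧
      (∀ i : ↥T, s i ^ 2 = (((i : ℕ) : ℕ) : O)) ∧ (∀ i : ↥T, IsUnit (s i)) ∧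
      (∀ i : ↥T, (rbarM (φ i) : Matrix (Fin 2) (Fin 2) (ResidueField O)) =
        residue O (s i) • (1 : Matrix (Fin 2) (Fin 2) (ResidueField O))) ∧
      (∀ i : ↥T, ∀ u ∈ (padicPlace (i : ℕ)).inertiaSubgroupIn ℚ, rbarM u = 1) ∧
      (∀ i : ↥T, IsPrimitiveRoot (uFix ζ P.p (i : ℕ) (σ i : GQ)) P.p) ∧
      (∀ i : ↥T, uFix ζ P.p (i : ℕ) (σ i : GQ) ^ P.p = 1) ∧
      (∀ i : ↥T, uFix ζ P.p (i : ℕ) (σ i : GQ) ^ 2 ≠ 1) := by
  have hp : P.p.Prime := Fact.out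
  have hTi : ∀ i : ↥T, (i : ℕ).Prime ∧ (i : ℕ) ≠ 2 ∧ (i : ℕ) ≠ P.p ∧ IsStuck P (i : ℕ) :=
    fun i => hT i.1 i.2
  choose σ hσ using fun i : ↥T =>
    exists_tameClause P.p (i : ℕ) hp (fun h => (hTi i).2.2.1 h.symm)
  choose φ hφ using fun i : ↥T =>
    Fermat.Agent.Lib.FrobeniusExists.exists_isFrobeniusAt (L := AlgebraicClosure ℚ)
      (padicPlace (i : ℕ)) (hTi i).1
      (Fermat.Agent.CFT.LocalBridge.liesOverPrime_padicPlace (i : ℕ))
  obtain ⟨s, hs2, hsu, hsφ⟩ := Fermat.Agent.S43.Assembly.Sqrt.exists_sqrt_family_matrix P h2 hirr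
    (fun i : ↥T => (i : ℕ)) (fun i => (hTi i).1) (fun i => (hTi i).2.2.1)
    (fun i => (hTi i).2.2.2) (fun i : ↥T => padicPlace (i : ℕ))
    (fun i => Fermat.Agent.CFT.LocalBridge.liesOverPrime_padicPlace (i : ℕ)) φ hφ b rbarM hb
  refine ⟨σ, φ, s, hσ, hφ, hs2, hsu, hsφ, fun i u hu => ?_, fun i => ?_, fun i => ?_, fun i => ?_⟩
  · exact rbarM_eq_one_of_inertia P b rbarM hb (hTi i).1 (hTi i).2.1 (hTi i).2.2.1
      (Fermat.Agent.CFT.LocalBridge.liesOverPrime_padicPlace (i : ℕ)) hu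
  · exact isPrimitiveRoot_uFix ζ hp hp2 hζ (hTi i).2.2.2.1 (hσ i)
  · exact uFix_pow ζ hζ.pow_eq_one (i : ℕ) (σ i : GQ)
  · exact uFix_sq_ne ζ hp hp2 hζ (hTi i).2.2.2.1 (hσ i)

end Frey

end Fermat.Agent.S43.RSide.SetupStuck
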