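/-
PROJECT R (S43, row 37), block RS (leader helper21), brick RS13: E2 ∘ (E2 → E3).

The chief's `Local/ToPatchJ.exists_point_mv` (LOC ∘ PATCH at `S = O⟦y_1, …, y_r⟧`) composed with
`RSide/Exit0.exists_prime_of_point` : from the `DatumJ` of ALL levels, for the level-independent
ideal `Jzero κ q θ₀ (2 r + 1)`, a prime `𝔭₀` of characteristic `0` of the LEVEL ZERO Hecke algebra
`T0` at which `θ₀` kills every `Σ`-variable.
-/
import Mathlib
import Fermat.Agent.S43.Local.ToPatchJ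
import Fermat.Agent.S43.RSide.Exit0

set_option autoImplicit false

noncomputable section

namespace Fermat.Agent.S43.RSide.Spine

open MvPowerSeries IsLocalRing
open Fermat.Agent.S43.Local.Model Fermat.Agent.S43.Local.Export
open Fermat.Agent.S43.Patch.LevelJ Fermat.Agent.S43.RSide.Exit0

universe u

variable {O : Type*} [CommRing O] [IsDomain O] [IsNoetherianRing O] [IsLocalRing O]
  {ι κ : Type*} [Fintype ι] [Fintype κ]
  [IsAdicComplete (maximalIdeal O) O] [Finite (ResidueField O)]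

/-- **E2 ∘ (E2 → E3)** : the point of the level-zero Hecke algebra. -/
theorem exists_prime_T0 (π : O) (hπ : Prime π) (hπO : maximalIdeal O = Ideal.span {π})
    (h2 : IsUnit (2 : O)) (e d q : ι → O) (hed : ∀ i, e i = d i ^ 2) (hd : ∀ i, π ∣ d i)
    (he : ∀ i, π ∣ e i) (he' : ∀ i, ∃ N : ℕ, e i ∣ π ^ N) (hq : ∀ i, π ∣ q i - 1)
    {r : ℕ} (hr : r = 3 * Fintype.card ι + Fintype.card κ)
    {T0 : Type*} [CommRing T0] [Algebra O T0] [Algebra.IsIntegral O T0]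
    (θ₀ : P O ι Empty →ₐ[O] T0) {m : ℕ} (hm : 0 < m)
    (D : ∀ n, Nonempty (DatumJ.{u} (MvPowerSeries (Fin r) O) (A1 κ q) (Achi κ e) (Abar κ π q)
      (maximalIdeal (MvPowerSeries (Fin r) O)) (pi1 π q) (pichi π e q he hq)
      (C π) (Ideal.Quotient.mk _ (C π)) (Ideal.Quotient.mk _ (C π))
      (Fermat.Agent.S43.Patch.Points.augIdeal (Fin r) O) (Jzero κ q θ₀ (2 * r + 1)) m n)) :
    ∃ 𝔭₀ : Ideal T0, 𝔭₀.IsPrime ∧ algebraMap O T0 π ∉ 𝔭₀ ∧
      ∀ i j, θ₀ (sg O Empty i j) ∈ 𝔭₀ := by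
  obtain ⟨𝔮, h𝔮, hsg, hJ, hπ𝔮⟩ := Fermat.Agent.S43.Local.ToPatchJ.exists_point_mv π hπ hπO h2 e d q
    hed hd he he' hq hr (Jzero κ q θ₀ (2 * r + 1)) hm (fun n => (D n).some)
  have := h𝔮
  exact exists_prime_of_point κ q π θ₀ (2 * r + 1) 𝔮 hsg hJ hπ𝔮

end Fermat.Agent.S43.RSide.Spine
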