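/-
PROJECT R (S43, row 37), block RS (leader helper21), brick RS23: THE SPINE UP TO THE EXIT, IN ONE CALL.

`RSide/Spine.exists_prime_T0` (from the `DatumJ` of all levels: a prime `𝔭₀` of the level-zero Hecke
algebra `T0`, of characteristic `0`, at which `θ₀` kills every `Σ`-variable) composed with helper19's
`Exit/UnramQuotB.map_mk_eq_one_of_generator` (the tame generator goes to `1` modulo `𝔭₀` ⟹ the whole
inertia group does) :

**`exists_prime_unramified`** : a prime `𝔭₀` of `T0` with `π ∉ 𝔭₀` such that `r0` (`= CH.rep hin₀`)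
is trivial modulo `𝔭₀` on the whole inertia group at EVERY stuck prime `ℓ_i` : the `𝔭`, `h𝔭`
(via `Exit/Assoc.comap_eq_bot_of_notMem`) and `hunr` of helper1's
`Exit/OfPoint.modularRepOfLevel_of_point_of_embedding`.

`map_mk_eq_one_of_sg` : `(SigmaU O κ 1 i).map θ` is `1` modulo an ideal containing the `θ (sg i j)`.
-/
import Mathlib
import Fermat.Agent.S43.RSide.Spine
import Fermat.Agent.S43.RSide.TrivBase
import Fermat.Agent.S43.Exit.UnramQuotB

set_option autoImplicit false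
set_option linter.unusedSectionVars false

noncomputable section

namespace Fermat.Agent.S43.RSide.SpineExit

open MvPowerSeries IsLocalRing
open Fermat.Agent.CFT.Bridge
open Fermat.Agent.S43.Local.Model Fermat.Agent.S43.Local.Export
open Fermat.Agent.S43.Patch.LevelJ Fermat.Agent.S43.RSide.Exit0
open Fermat.Agent.S43.RSide.LocalMat Fermat.Agent.S43.RSide.TrivBase

set_option linter.unusedSimpArgs false in
/-- the image of the universal tame generator is `1` modulo an ideal containing the images of the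
`Σ`-variables -/
theorem map_mk_eq_one_of_sg {O : Type*} [CommRing O] {ι κ : Type*} {T0 : Type*} [CommRing T0]
    [Algebra O T0] (θ : P O ι κ →ₐ[O] T0) (I : Ideal T0) (i : ι)
    (h : ∀ j, θ (sg O κ i j) ∈ I) {S : Matrix (Fin 2) (Fin 2) T0}
    (hS : (SigmaU O κ (1 : ι → O) i).map θ = S) : S.map (Ideal.Quotient.mk I) = 1 := by
  have h0 : Ideal.Quotient.mk I (θ (sg O κ i 0)) = 0 := Ideal.Quotient.eq_zero_iff_mem.mpr (h 0)
  have h1 : Ideal.Quotient.mk I (θ (sg O κ i 1)) = 0 := Ideal.Quotient.eq_zero_iff_mem.mpr (h 1)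
  have h2 : Ideal.Quotient.mk I (θ (sg O κ i 2)) = 0 := Ideal.Quotient.eq_zero_iff_mem.mpr (h 2)
  have hSU : SigmaU O κ (1 : ι → O) i = (C ((1 : ι → O) i) : P O ι κ) •
      (1 : Matrix (Fin 2) (Fin 2) (P O ι κ)) +
        !![sg O κ i 0, sg O κ i 1; sg O κ i 2, -sg O κ i 0] := rfl
  rw [← hS, hSU]
  ext a b
  fin_cases a <;> fin_cases b <;>
    simp [Matrix.map_apply, Matrix.add_apply, Matrix.smul_apply, h0, h1, h2]

variable {O : Type} [CommRing O] [IsDomain O] [IsNoetherianRing O] [IsLocalRing O]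
  {ι κ : Type} [Fintype ι] [Fintype κ]
  [IsAdicComplete (maximalIdeal O) O] [Finite (ResidueField O)]

/-- **THE SPINE UP TO THE EXIT** : a prime of characteristic `0` of the level-zero Hecke algebra at
which the representation is unramified at every stuck prime. -/
theorem exists_prime_unramified (π : O) (hπ : Prime π) (hπO : maximalIdeal O = Ideal.span {π})
    (h2 : IsUnit (2 : O)) (e d q : ι → O) (hed : ∀ i, e i = d i ^ 2) (hd : ∀ i, π ∣ d i)
    (he : ∀ i, π ∣ e i) (he' : ∀ i, ∃ N : ℕ, e i ∣ π ^ N) (hq : ∀ i, π ∣ q i - 1)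
    {r : ℕ} (hr : r = 3 * Fintype.card ι + Fintype.card κ)
    {T0 : Type} [CommRing T0] [IsLocalRing T0] [IsNoetherianRing T0] [Algebra O T0]
    [Algebra.IsIntegral O T0]
    (θ₀ : P O ι Empty →ₐ[O] T0) {m : ℕ} (hm : 0 < m)
    (D : ∀ n, Nonempty (DatumJ.{0} (MvPowerSeries (Fin r) O) (A1 κ q) (Achi κ e) (Abar κ π q)
      (maximalIdeal (MvPowerSeries (Fin r) O)) (pi1 π q) (pichi π e q he hq)
      (C π) (Ideal.Quotient.mk _ (C π)) (Ideal.Quotient.mk _ (C π))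
      (Fermat.Agent.S43.Patch.Points.augIdeal (Fin r) O) (Jzero κ q θ₀ (2 * r + 1)) m n))
    {p : ℕ} (hp : p.Prime) (hpT : (p : T0) ∈ maximalIdeal T0)
    (ℓ : ι → ℕ) [hℓp : ∀ i, Fact (ℓ i).Prime]
    (σ : ∀ i, (padicPlace (ℓ i)).inertiaSubgroupIn ℚ) (hσ : ∀ i, TameClause p (ℓ i) (σ i))
    (r0 : GQ →* Matrix (Fin 2) (Fin 2) T0) (hcont : AdicCont r0)
    (hresI : ∀ i, ∀ u ∈ (padicPlace (ℓ i)).inertiaSubgroupIn ℚ,
      Cong (maximalIdeal T0) (r0 u - 1))
    (hS0 : ∀ i, (SigmaU O Empty 1 i).map θ₀ = r0 (σ i : GQ)) :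
    ∃ 𝔭₀ : Ideal T0, 𝔭₀.IsPrime ∧ algebraMap O T0 π ∉ 𝔭₀ ∧
      ∀ i, ∀ s ∈ (padicPlace (ℓ i)).inertiaSubgroupIn ℚ,
        (r0 s).map (Ideal.Quotient.mk 𝔭₀) = 1 := by
  obtain ⟨𝔭₀, h𝔭₀, hπ𝔭, hsg⟩ := Fermat.Agent.S43.RSide.Spine.exists_prime_T0 π hπ hπO h2 e d q hed
    hd he he' hq hr θ₀ hm D
  refine ⟨𝔭₀, h𝔭₀, hπ𝔭, fun i s hs => ?_⟩
  exact Fermat.Agent.S43.Exit.UnramQuotB.map_mk_eq_one_of_generator hp hpT 𝔭₀ h𝔭₀.ne_top r0 hcont
    (hresI i) (σ i) (hσ i) (map_mk_eq_one_of_sg θ₀ 𝔭₀ i (hsg i) (hS0 i)) s hs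

end Fermat.Agent.S43.RSide.SpineExit
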