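/-
PROJECT R (S43, row 37), block RS (leader helper21), brick RS22: THE MAP `θ₀` AT LEVEL ZERO.

`T0` a complete noetherian local `𝒪`-algebra (the level-zero Hecke algebra), `r0 : G_ℚ → M₂(T0)`
adically continuous (`CH.rep hin₀`), at each stuck prime `ℓ_i` a tame generator `σ_i` of inertia and a
Frobenius element `φ_i`, with
* `r0 ≡ 1` on inertia at `ℓ_i` and `r0 (φ_i) ≡ s_i` modulo the maximal ideal (`ρ̄` unramified at `ℓ_i`
  with scalar Frobenius),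
* `tr r0 (σ_i) = 2` (THE FIRST CONJUNCT OF THE PER-LEVEL THEOREM, `RSide/ZeroBlock`),
  `det r0 (σ_i) = 1`, `det r0 (φ_i) = s_i ^ 2`.
Then the universal property of the local model (`Local/Universal.exists_theta` at `κ := Empty`,
`τ := 1`, `e := 0`) gives `θ₀ : P 𝒪 ι Empty →ₐ[𝒪] T0` with `SigmaU ↦ r0 (σ_i)`, `PhiU ↦ r0 (φ_i)`,
variables in the maximal ideal and `relIdeal 𝒪 Empty 0 q ≤ ker θ₀`: the `θ₀`, `hθ₀m`, `hS0`, `hF0` of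
`RSide/FeedQ.nonempty_datumJ_Q` and of `RSide/Spine.exists_prime_T0`.  The tame relation
`r0 φ_i * r0 σ_i = r0 σ_i ^ ℓ_i * r0 φ_i` is `RSide/LocalMat.conj_eq_pow`.

`exists_theta0'` : the same with the two residual hypotheses stated on `rbar`.
-/
import Mathlib
import Fermat.Agent.S43.RSide.FeedQ

set_option autoImplicit false
set_option linter.unusedSectionVars false
set_option linter.style.haveILetI false

noncomputable section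

namespace Fermat.Agent.S43.RSide.Theta0

open MvPowerSeries IsLocalRing
open Fermat.Agent.CFT.Bridge
open Fermat.Agent.S53.Dictionary hiding GQ
open Fermat.Agent.S53.TangentBound
open Fermat.Agent.S56.Tan.DualHom Fermat.Agent.S56.Tan.Cocycle
open Fermat.Agent.S43.Num.RelTanT Fermat.Agent.S43.RSide.LocalMat Fermat.Agent.S43.RSide.TrivBase
open Fermat.Agent.S43.Local.Model Fermat.Agent.S43.Local.Universal Fermat.Agent.S43.Local.Export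
open Fermat.Agent.S43.RSide.LocalData Fermat.Agent.S43.RSide.FeedQ

variable {𝒪 : Type} [CommRing 𝒪] [IsLocalRing 𝒪] [IsAdicComplete (maximalIdeal 𝒪) 𝒪]
  {T0 : Type} [CommRing T0] [IsLocalRing T0] [IsNoetherianRing T0] [Algebra 𝒪 T0]
  [IsLocalHom (algebraMap 𝒪 T0)] [IsAdicComplete (maximalIdeal T0) T0]

/-- **THE MAP `θ₀` FROM THE LOCAL MODEL TO THE LEVEL-ZERO HECKE ALGEBRA.** -/
theorem exists_theta0 (h2 : IsUnit (2 : 𝒪)) {p : ℕ} [Fact p.Prime]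
    (hpT : (p : T0) ∈ maximalIdeal T0)
    {ι : Type} [Fintype ι] (ℓ : ι → ℕ) [hℓp : ∀ i, Fact (ℓ i).Prime] (hpℓ : ∀ i, p ≠ ℓ i)
    (q s : ι → 𝒪) (hqℓ : ∀ i, q i = (ℓ i : 𝒪)) (hs : ∀ i, IsUnit (s i))
    (σ : ∀ i, (padicPlace (ℓ i)).inertiaSubgroupIn ℚ) (φ : ι → GQ)
    (hφ : ∀ i, (padicPlace (ℓ i)).IsFrobeniusAt (φ i) (ℓ i))
    (r0 : GQ →* Mat T0) (hcont : IsContMat T0 r0)
    (hresI : ∀ i, ∀ u ∈ (padicPlace (ℓ i)).inertiaSubgroupIn ℚ,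
      Cong (maximalIdeal T0) (r0 u - 1))
    (hresΦ : ∀ i a b,
      (r0 (φ i) - algebraMap 𝒪 T0 (s i) • (1 : Matrix (Fin 2) (Fin 2) T0)) a b ∈ maximalIdeal T0)
    (htr : ∀ i, (r0 (σ i : GQ)).trace = 2) (hdetσ : ∀ i, (r0 (σ i : GQ)).det = 1)
    (hdetΦ : ∀ i, (r0 (φ i)).det = algebraMap 𝒪 T0 (s i) ^ 2) :
    ∃ θ₀ : P 𝒪 ι Empty →ₐ[𝒪] T0, (∀ v, θ₀ (MvPowerSeries.X v) ∈ maximalIdeal T0) ∧
      (∀ i, (SigmaU 𝒪 Empty 1 i).map θ₀ = r0 (σ i : GQ)) ∧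
      (∀ i, (PhiU 𝒪 Empty s i).map θ₀ = r0 (φ i)) ∧
      relIdeal 𝒪 Empty 0 q ≤ RingHom.ker (θ₀ : P 𝒪 ι Empty →+* T0) := by
  have hsep : ∀ x : T0, (∀ n, x ∈ maximalIdeal T0 ^ n) → x = 0 := by
    intro x hx
    have h1 : x ∈ (⨅ n : ℕ, maximalIdeal T0 ^ n : Ideal T0) := by
      rw [Ideal.mem_iInf]
      exact hx
    rw [Ideal.iInf_pow_eq_bot_of_isLocalRing _ (Ideal.IsMaximal.ne_top inferInstance)] at h1
    exact h1
  have hconj : ∀ i, r0 (φ i) * r0 (σ i : GQ) = r0 (σ i : GQ) ^ (ℓ i) * r0 (φ i) := fun i =>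
    conj_eq_pow (hℓp i).out (Fact.out : p.Prime) (hpℓ i) hpT hsep
      (Fermat.Agent.CFT.LocalBridge.liesOverPrime_padicPlace (ℓ i)) r0 hcont (hresI i) (hφ i)
      (σ i).2
  have hcp : ∀ i, (r0 (σ i : GQ)).charpoly =
      (Polynomial.X - Polynomial.C 1) * (Polynomial.X - Polynomial.C 1) := by
    intro i
    refine charpoly_of_trace_det _ 1 1 ?_ ?_
    · rw [htr]
      norm_num
    · rw [hdetσ, mul_one]
  obtain ⟨θ, hS, hF, -, hm, hrel, htriv⟩ := exists_theta (O := 𝒪) (T := T0) (κ := Empty) h2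
    (0 : ι → 𝒪) q (1 : ι → 𝒪) s (fun i => by simp) hs (fun i => r0 (φ i))
    (fun i => r0 (σ i : GQ)) (fun k => k.elim)
    (fun i => unip_htr (𝒪 := 𝒪) _ (hcp i))
    (fun i => unip_hdet _ (hcp i))
    hdetΦ
    (fun i => by
      have h := unip_hrel (𝒪 := 𝒪) _ _ (hcp i) (ℓ i) (hconj i)
      rw [hqℓ i]
      exact h)
    (fun i a b => by
      have h := hresI i (σ i : GQ) (σ i).2 a b
      rwa [Pi.one_apply, map_one, one_smul])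
    hresΦ (fun k => k.elim)
  have _h := htriv (D := T0) (RingHom.id T0)
  exact ⟨θ, hm, hS, hF, hrel⟩

/-- **the same with the residual hypotheses on `rbar`** -/
theorem exists_theta0' (h2 : IsUnit (2 : 𝒪)) {p : ℕ} [Fact p.Prime]
    (hpT : (p : T0) ∈ maximalIdeal T0)
    (hres : Function.Surjective (residue T0 ∘ algebraMap 𝒪 T0))
    {rbar : GQ →* GL (Fin 2) (ResidueField 𝒪)}
    {ι : Type} [Fintype ι] (ℓ : ι → ℕ) [hℓp : ∀ i, Fact (ℓ i).Prime] (hpℓ : ∀ i, p ≠ ℓ i)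
    (q s : ι → 𝒪) (hqℓ : ∀ i, q i = (ℓ i : 𝒪)) (hs : ∀ i, IsUnit (s i))
    (σ : ∀ i, (padicPlace (ℓ i)).inertiaSubgroupIn ℚ) (φ : ι → GQ)
    (hφ : ∀ i, (padicPlace (ℓ i)).IsFrobeniusAt (φ i) (ℓ i))
    (r0 : GQ →* Mat T0) (hcont : IsContMat T0 r0)
    (hr0 : mapMat (residue T0) r0 = mapMat (ResidueField.map (algebraMap 𝒪 T0)) (rbarM rbar))
    (hrbarI : ∀ i, ∀ u ∈ (padicPlace (ℓ i)).inertiaSubgroupIn ℚ, rbar u = 1)
    (hrbarΦ : ∀ i, (rbar (φ i) : Matrix (Fin 2) (Fin 2) (ResidueField 𝒪)) =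
      residue 𝒪 (s i) • (1 : Matrix (Fin 2) (Fin 2) (ResidueField 𝒪)))
    (htr : ∀ i, (r0 (σ i : GQ)).trace = 2) (hdetσ : ∀ i, (r0 (σ i : GQ)).det = 1)
    (hdetΦ : ∀ i, (r0 (φ i)).det = algebraMap 𝒪 T0 (s i) ^ 2) :
    ∃ θ₀ : P 𝒪 ι Empty →ₐ[𝒪] T0, (∀ v, θ₀ (MvPowerSeries.X v) ∈ maximalIdeal T0) ∧
      (∀ i, (SigmaU 𝒪 Empty 1 i).map θ₀ = r0 (σ i : GQ)) ∧
      (∀ i, (PhiU 𝒪 Empty s i).map θ₀ = r0 (φ i)) ∧
      relIdeal 𝒪 Empty 0 q ≤ RingHom.ker (θ₀ : P 𝒪 ι Empty →+* T0) :=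
  exists_theta0 h2 hpT ℓ hpℓ q s hqℓ hs σ φ hφ r0 hcont
    (fun i u hu => cong_of_rbar_one hres r0 hr0 u (hrbarI i u hu))
    (fun i => cong_of_rbar_scalar hres r0 hr0 (φ i) (s i) (hrbarΦ i)) htr hdetσ hdetΦ

end Fermat.Agent.S43.RSide.Theta0
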