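/-
PROJECT R (S43, row 37), block RS (leader helper21), brick RS24: THE R-SIDE OF `Assembly/Stuck`.

FROM THE PER-LEVEL THEOREM (the chief's literal of #6494 (3): for every `n`, the unipotent trace at the
tame generators at level zero AND, for every `θ₀` with `SigmaU ↦ r0 σ_i`, `PhiU ↦ r0 φ_i`, a `DatumJ`
for the level-independent ideal `Jzero (Fin g) q θ₀ (2 r + 1)`) TO THE POINT OF THE EXIT:
`RSide/Theta0.exists_theta0'` (the map `θ₀`, from the first conjunct at `n = 0`) then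
`RSide/SpineExit.exists_prime_unramified` (the second conjunct at every `n`).

**`exists_prime_of_levels`** : a prime `𝔭₀` of `T0` with `π ∉ 𝔭₀` modulo which `r0` is trivial on the
whole inertia group at every stuck prime (the `𝔭`, `hunr` of helper1's `Exit/OfPoint`).
-/
import Mathlib
import Fermat.Agent.S43.RSide.Theta0
import Fermat.Agent.S43.RSide.SpineExit

set_option autoImplicit false
set_option linter.unusedSectionVars false

noncomputable section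

namespace Fermat.Agent.S43.RSide.StuckR

open MvPowerSeries IsLocalRing
open Fermat.Agent.CFT.Bridge
open Fermat.Agent.S53.Dictionary hiding GQ
open Fermat.Agent.S53.TangentBound
open Fermat.Agent.S56.Tan.DualHom Fermat.Agent.S56.Tan.Cocycle
open Fermat.Agent.S43.Num.RelTanT Fermat.Agent.S43.RSide.LocalMat Fermat.Agent.S43.RSide.TrivBase
open Fermat.Agent.S43.Local.Model Fermat.Agent.S43.Local.Export
open Fermat.Agent.S43.Patch.LevelJ Fermat.Agent.S43.RSide.Exit0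
open Fermat.Agent.S43.RSide.FeedQ

variable {O : Type} [CommRing O] [IsDomain O] [IsNoetherianRing O] [IsLocalRing O]
  {ι : Type} [Fintype ι] [IsAdicComplete (maximalIdeal O) O] [Finite (ResidueField O)]

/-- **THE R-SIDE OF `Assembly/Stuck`.** -/
theorem exists_prime_of_levels (π : O) (hπ : Prime π) (hπO : maximalIdeal O = Ideal.span {π})
    (h2 : IsUnit (2 : O)) (e d q : ι → O) (hed : ∀ i, e i = d i ^ 2) (hd : ∀ i, π ∣ d i)
    (he : ∀ i, π ∣ e i) (he' : ∀ i, ∃ N : ℕ, e i ∣ π ^ N) (hq : ∀ i, π ∣ q i - 1)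
    {r g : ℕ} (hr : r = 3 * Fintype.card ι + g)
    {T0 : Type} [CommRing T0] [IsLocalRing T0] [IsNoetherianRing T0] [Algebra O T0]
    [Algebra.IsIntegral O T0] [IsLocalHom (algebraMap O T0)]
    [IsAdicComplete (maximalIdeal T0) T0]
    {p : ℕ} [Fact p.Prime] (hpT : (p : T0) ∈ maximalIdeal T0)
    (hres : Function.Surjective (residue T0 ∘ algebraMap O T0))
    {rbar : GQ →* GL (Fin 2) (ResidueField O)}
    (ℓ : ι → ℕ) [hℓp : ∀ i, Fact (ℓ i).Prime] (hpℓ : ∀ i, p ≠ ℓ i)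
    (s : ι → O) (hqℓ : ∀ i, q i = (ℓ i : O)) (hs : ∀ i, IsUnit (s i))
    (σ : ∀ i, (padicPlace (ℓ i)).inertiaSubgroupIn ℚ) (φ : ι → GQ)
    (hσ : ∀ i, TameClause p (ℓ i) (σ i))
    (hφ : ∀ i, (padicPlace (ℓ i)).IsFrobeniusAt (φ i) (ℓ i))
    (r0 : GQ →* Mat T0) (hcont : IsContMat T0 r0)
    (hr0 : mapMat (residue T0) r0 = mapMat (ResidueField.map (algebraMap O T0)) (rbarM rbar))
    (hrbarI : ∀ i, ∀ u ∈ (padicPlace (ℓ i)).inertiaSubgroupIn ℚ, rbar u = 1)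
    (hrbarΦ : ∀ i, (rbar (φ i) : Matrix (Fin 2) (Fin 2) (ResidueField O)) =
      residue O (s i) • (1 : Matrix (Fin 2) (Fin 2) (ResidueField O)))
    (hdetσ : ∀ i, (r0 (σ i : GQ)).det = 1)
    (hdetΦ : ∀ i, (r0 (φ i)).det = algebraMap O T0 (s i) ^ 2)
    {m : ℕ} (hm : 0 < m)
    (hlevel : ∀ n : ℕ, (∀ i, (r0 (σ i : GQ)).trace = 2) ∧
      ∀ θ₀ : P O ι Empty →ₐ[O] T0, (∀ v, θ₀ (MvPowerSeries.X v) ∈ maximalIdeal T0) →
        (∀ i, (SigmaU O Empty 1 i).map θ₀ = r0 (σ i : GQ)) →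
        (∀ i, (PhiU O Empty s i).map θ₀ = r0 (φ i)) →
        Nonempty (DatumJ.{0} (MvPowerSeries (Fin r) O) (A1 (Fin g) q) (Achi (Fin g) e)
          (Abar (Fin g) π q)
          (maximalIdeal (MvPowerSeries (Fin r) O)) (pi1 π q) (pichi π e q he hq)
          (C π) (Ideal.Quotient.mk _ (C π)) (Ideal.Quotient.mk _ (C π))
          (Fermat.Agent.S43.Patch.Points.augIdeal (Fin r) O)
          (Jzero (Fin g) q θ₀ (2 * r + 1)) m n)) :
    ∃ 𝔭₀ : Ideal T0, 𝔭₀.IsPrime ∧ algebraMap O T0 π ∉ 𝔭₀ ∧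
      ∀ i, ∀ u ∈ (padicPlace (ℓ i)).inertiaSubgroupIn ℚ,
        (r0 u).map (Ideal.Quotient.mk 𝔭₀) = 1 := by
  obtain ⟨θ₀, hθm, hS0, hF0, -⟩ := Fermat.Agent.S43.RSide.Theta0.exists_theta0' h2 hpT hres ℓ hpℓ
    q s hqℓ hs σ φ hφ r0 hcont hr0 hrbarI hrbarΦ (hlevel 0).1 hdetσ hdetΦ
  exact Fermat.Agent.S43.RSide.SpineExit.exists_prime_unramified (κ := Fin g) π hπ hπO h2 e d q hed
    hd he he' hq (by rw [hr, Fintype.card_fin]) θ₀ hm
    (fun n => (hlevel n).2 θ₀ hθm hS0 hF0) (Fact.out : p.Prime) hpT ℓ σ hσ r0 hcont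
    (fun i u hu => cong_of_rbar_one hres r0 hr0 u (hrbarI i u hu)) hS0

end Fermat.Agent.S43.RSide.StuckR
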