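/-
PROJECT R (S43, row 37), block RS (leader helper21), brick RS20: THE TAYLOR--WILES CONDITIONS OF THE
DESCENT (`Hecke/Descent/Main.Good`) FROM THE TAYLOR--WILES CLAUSES OF NUM (`S56/Main/Unpack.IsTWPrime`).

At a prime `q = p j` with `pp ^ (n + 1) ∣ q - 1` at which `ρbar (Frob_q)` has two DISTINCT eigenvalues
`α ≠ β`, and whose Hecke eigenvalue is `θ j` (`charpoly ρbar (Frob_q) = X² - θ_j X + q`): `q = 1` in
the residue field, so `β = α⁻¹`, `θ j = α + q α⁻¹`, `α ≠ q α⁻¹`, `α² ≠ 1`, `(q α⁻¹)² ≠ 1`.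
`exists_alpha` : ONE function `α` good at every index of a list.
-/
import Mathlib
import Fermat.Agent.S43.Hecke.Descent.Main
import Fermat.Agent.S56.Main.Unpack
import Fermat.Agent.Lib.FrobeniusExists

set_option autoImplicit false
set_option linter.unusedSectionVars false

noncomputable section

namespace Fermat.Agent.S43.RSide.GoodTW

open Polynomial IsLocalRing
open Fermat.Agent.S56.Main.Unpack Fermat.Agent.S43.Hecke.Descent.Main

/-- the algebra: two distinct roots of `X² - θ X + 1` -/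
theorem good_of_roots {k : Type} [Field k] (θ α β : k) (hne : α ≠ β)
    (h : (X - C α) * (X - C β) = (X : k[X]) ^ 2 - C θ * X + C 1) :
    θ = α + 1 * α⁻¹ ∧ α ≠ 0 ∧ α ≠ 1 * α⁻¹ ∧ α ^ 2 ≠ 1 ∧ (1 * α⁻¹) ^ 2 ≠ 1 := by
  have h1 : (X - C α) * (X - C β) = (X : k[X]) ^ 2 - C (α + β) * X + C (α * β) := by
    rw [C_add, C_mul]
    ring
  rw [h1] at h
  have hc1 := congrArg (fun f => f.coeff 1) h
  have hc0 := congrArg (fun f => f.coeff 0) h
  simp only [coeff_add, coeff_sub, coeff_X_pow, coeff_C_mul, coeff_X_one, coeff_C,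
    coeff_X_zero] at hc1 hc0
  norm_num at hc1 hc0
  have hα0 : α ≠ 0 := by
    rintro rfl
    rw [zero_mul] at hc0
    exact zero_ne_one hc0
  have hβ : β = α⁻¹ := by
    field_simp
    rw [mul_comm]
    exact hc0
  have hne' : α ≠ α⁻¹ := hβ ▸ hne
  refine ⟨?_, hα0, ?_, ?_, ?_⟩
  · rw [one_mul, ← hβ]
    linear_combination hc1
  · rwa [one_mul]
  · intro hsq
    apply hne'
    field_simp
    exact hsq
  · intro hsq
    apply hne'
    rw [one_mul, inv_pow] at hsq
    have h2 : α ^ 2 = 1 := by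
      have := congrArg (fun x => x⁻¹) hsq
      simpa using this
    field_simp
    exact h2

variable (R : Type) [CommRing R] [IsLocalRing R] {J : Type} [DecidableEq J] (p : J → ℕ)

/-- a Taylor--Wiles prime is `1` in the residue field -/
theorem natCast_eq_one {pp n q : ℕ} (hpp : ((pp : ℕ) : ResidueField R) = 0) (hq : q.Prime)
    (hdvd : pp ^ (n + 1) ∣ q - 1) : ((q : ℕ) : ResidueField R) = 1 := by
  obtain ⟨c, hc⟩ := hdvd
  have h1 : q = 1 + pp ^ (n + 1) * c := by
    have := hq.one_le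
    omega
  rw [h1]
  push_cast
  rw [hpp, zero_pow (Nat.succ_ne_zero n), zero_mul, add_zero]

/-- **`Good` at one Taylor--Wiles prime** -/
theorem exists_good (θ : J → ResidueField R) {pp n : ℕ}
    (hpp : ((pp : ℕ) : ResidueField R) = 0) (ρbar : ResidualGaloisRep (ResidueField R))
    (S : Finset ℕ) (j : J) (hTW : IsTWPrime pp n ρbar S (p j))
    (hfrob : ∀ (A : ValuationSubring (AlgebraicClosure ℚ))
      (τ : AlgebraicClosure ℚ ≃ₐ[ℚ] AlgebraicClosure ℚ), A.LiesOverPrime (p j) →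
      A.IsFrobeniusAt τ (p j) →
      LinearMap.charpoly (ρbar.ρ τ) = X ^ 2 - C (θ j) * X + C ((p j : ℕ) : ResidueField R)) :
    ∃ a : ResidueField R, ∀ α : J → ResidueField R, α j = a → Good R p θ α j := by
  obtain ⟨⟨hq, -, hdvd⟩, hTW'⟩ := hTW
  obtain ⟨A, τ, hA, hτ⟩ :=
    Fermat.Agent.Lib.FrobeniusExists.exists_valuationSubring_isFrobeniusAt (p j) hq
  obtain ⟨a, b, hab, hcp⟩ := hTW' A hA τ hτ
  have h1 : ((p j : ℕ) : ResidueField R) = 1 := natCast_eq_one R hpp hq hdvd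
  have h2 := hfrob A τ hA hτ
  rw [hcp, h1] at h2
  obtain ⟨g1, g2, g3, g4, g5⟩ := good_of_roots (θ j) a b hab h2
  have h3 : residue R ((p j : ℕ) : R) = 1 := by rw [map_natCast, h1]
  refine ⟨a, fun α hα => ⟨?_, ?_, ?_, ?_, ?_⟩⟩
  · rw [hα, h3]
    exact g1
  · rw [hα]
    exact g2
  · rw [hα, h3]
    exact g3
  · rw [hα]
    exact g4
  · rw [hα, h3]
    exact g5

/-- **one function `α` good at every index of a list of Taylor--Wiles primes** -/
theorem exists_alpha (θ : J → ResidueField R) {pp n : ℕ}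
    (hpp : ((pp : ℕ) : ResidueField R) = 0) (ρbar : ResidualGaloisRep (ResidueField R))
    (S : Finset ℕ) (Q : List J) (hTW : ∀ j ∈ Q, IsTWPrime pp n ρbar S (p j))
    (hfrob : ∀ j ∈ Q, ∀ (A : ValuationSubring (AlgebraicClosure ℚ))
      (τ : AlgebraicClosure ℚ ≃ₐ[ℚ] AlgebraicClosure ℚ), A.LiesOverPrime (p j) →
      A.IsFrobeniusAt τ (p j) →
      LinearMap.charpoly (ρbar.ρ τ) = X ^ 2 - C (θ j) * X + C ((p j : ℕ) : ResidueField R)) :
    ∃ α : J → ResidueField R, ∀ j ∈ Q, Good R p θ α j := by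
  classical
  have h : ∀ j : J, ∃ a : ResidueField R, j ∈ Q →
      ∀ α : J → ResidueField R, α j = a → Good R p θ α j := by
    intro j
    by_cases hj : j ∈ Q
    · obtain ⟨a, ha⟩ := exists_good R p θ hpp ρbar S j (hTW j hj) (hfrob j hj)
      exact ⟨a, fun _ => ha⟩
    · exact ⟨0, fun h => absurd h hj⟩
  choose a ha using h
  exact ⟨a, fun j hj => ha j hj a rfl⟩

end Fermat.Agent.S43.RSide.GoodTW
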