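/-
PROJECT R (S43, row 37), block RS (leader helper21), instance lemma `DispPush` (helper18;
helper21's cut #6563 (D)): **THE DIAMONDS AT THE TAYLOR--WILES PRIMES**, i.e. the hypotheses
`hdisp₁`, `hdispχ` of `RSide/FeedQ.nonempty_datumJ_Q`:

  `∀ i : Fin r, ∃ b : R, ∀ x, Φ b x = γ (sq 𝒪 (X i)) • x`.

`R` is the (trace-generated) Hecke algebra, `incl : R →+* R'` its inclusion in the full Hecke
algebra `R'` (diamonds included), `Φ' : R' →+* End(M)` helper24's bridge, `Φ = Φ' ∘ incl`.  At the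
`i`-th Taylor--Wiles prime the gate gives `u v ∈ R'`, `u v = 1`, with `tr ρ(τ²) = u² + v²`
(`Rho/Props/TypeRhoT.trace_sq_ofMat_of_gate`, the sign-free display), and the bridge sends `u` to the
diamond `single δ 1 •`, `δ = gen N e i` or its inverse.  Then `b := tr ρ(τ²) - 2 ∈ R` acts as
`(single δ 1 - single δ⁻¹ 1)² = (zel 𝒪 (gen N e) i)² = γ (X i ^ 2) = γ (sq 𝒪 (X i))`.

* `zel_sq`, `gamma_sq_X` : the group-ring side;
* `apply_inv_of_mul_eq_one`, `apply_disp` : the pure algebra (`Φ' v = a⁻¹ •`, `Φ' (u² + v² - 2) =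
  (a - a⁻¹)² •`);
* `hdisp_of_trace` : from `incl t = u * u + v * v`;
* `hdisp_of_gate` : from the gate cubic over `R'` and ANY `t_R ∈ R` over `t (τ * τ)`;
* `hdisp_of_rep` : the same with `t_R := tr (rR (τ * τ))`, `rep h g = (rR g).map incl`
  (`Rho/Props/TypeExt.rep_eq_map`).
-/
import Mathlib
import Fermat.Agent.S43.Patch.GroupRingInv
import Fermat.Agent.S43.Rho.Props.TypeRhoT

set_option autoImplicit false
set_option linter.unusedSectionVars false

noncomputable section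

namespace Fermat.Agent.S43.RSide.DispPush

open MvPowerSeries IsLocalRing
open Fermat.Agent.CFT.Bridge Fermat.Agent.S43.RSide.LocalMat
open Fermat.Agent.S43.Rho.CH
open Fermat.Agent.S53.Dictionary (IsContMat ofMat)
open Fermat.Agent.S43.Patch.GroupRing Fermat.Agent.S43.Patch.GroupRingInv
  Fermat.Agent.S43.Patch.EvenOdd

/-! ### the group-ring side -/

section GroupRing

variable {𝒪 : Type*} [CommRing 𝒪] {Δ : Type*} [CommGroup Δ]

theorem single_mul_single_inv (δ : Δ) :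
    (MonoidAlgebra.single δ (1 : 𝒪) : MonoidAlgebra 𝒪 Δ) * MonoidAlgebra.single δ⁻¹ 1 = 1 := by
  rw [MonoidAlgebra.single_mul_single, mul_inv_cancel, mul_one]
  rfl

/-- `z_i = single (η i) 1 - single (η i)⁻¹ 1` -/
theorem zel_eq_single {ι : Type*} (η : ι → Δ) (i : ι) :
    zel 𝒪 η i = MonoidAlgebra.single (η i) (1 : 𝒪) - MonoidAlgebra.single (η i)⁻¹ 1 := rfl

/-- `z_i` only depends on `η i` up to inversion, up to a sign; its square does not -/
theorem zel_sq_eq {ι : Type*} (η : ι → Δ) (i : ι) (δ : Δ) (hδ : η i = δ ∨ η i = δ⁻¹) :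
    zel 𝒪 η i ^ 2 =
      (MonoidAlgebra.single δ (1 : 𝒪) - MonoidAlgebra.single δ⁻¹ 1 : MonoidAlgebra 𝒪 Δ) ^ 2 := by
  rw [zel_eq_single]
  rcases hδ with h | h
  · rw [h]
  · rw [h, inv_inv]
    ring

variable {r : ℕ}

/-- `γ (sq (X i)) = z_i ^ 2` -/
theorem gamma_sq_X (γ : MvPowerSeries (Fin r) 𝒪 →ₐ[𝒪] MonoidAlgebra 𝒪 Δ) (η : Fin r → Δ)
    (hγ : ∀ i, γ (MvPowerSeries.X i) = zel 𝒪 η i) (i : Fin r) :
    γ (sq 𝒪 (MvPowerSeries.X i)) = zel 𝒪 η i ^ 2 := by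
  rw [sq_X, map_pow, hγ]

end GroupRing

/-! ### the pure algebra -/

section Core

variable {A : Type*} [CommRing A] {M : Type*} [AddCommGroup M] [Module A M]
  {A' : Type*} [Semiring A'] [Module A' M]
  {R' : Type*} [CommRing R'] (Φ' : R' →+* Module.End A' M)

/-- if `u` acts as `a •` and `u v = 1`, `a a' = 1`, then `v` acts as `a' •` -/
theorem apply_inv_of_mul_eq_one (u v : R') (huv : u * v = 1) (a a' : A) (haa' : a * a' = 1)
    (hu : ∀ x : M, Φ' u x = a • x) (x : M) : Φ' v x = a' • x := by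
  have h1 : Φ' u (Φ' v x) = x := by
    rw [← Module.End.mul_apply, ← map_mul, huv, map_one, Module.End.one_apply]
  have h2 : a • Φ' v x = x := by rw [← hu, h1]
  calc Φ' v x = (a' * a) • Φ' v x := by rw [mul_comm, haa', one_smul]
    _ = a' • x := by rw [mul_smul, h2]

/-- **the sign-free display pushed to the module**: `u² + v² - 2` acts as `(a - a')² •` -/
theorem apply_disp (u v : R') (huv : u * v = 1) (a a' : A) (haa' : a * a' = 1)
    (hu : ∀ x : M, Φ' u x = a • x) (x : M) :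
    Φ' (u * u + v * v - 2) x = ((a - a') ^ 2) • x := by
  have hv := apply_inv_of_mul_eq_one Φ' u v huv a a' haa' hu
  have h2 : (2 : R') = 1 + 1 := by norm_num
  have h3 : (a - a') ^ 2 = a * a + a' * a' - (1 + 1) := by
    linear_combination (-2 : A) * haa'
  rw [h2, map_sub, map_add, map_mul, map_mul, map_add, map_one, LinearMap.sub_apply,
    LinearMap.add_apply, Module.End.mul_apply, Module.End.mul_apply, LinearMap.add_apply,
    Module.End.one_apply, hu, hu, hv, hv, h3, sub_smul, add_smul, add_smul, one_smul, mul_smul,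
    mul_smul]

end Core

/-! ### the statement of `FeedQ` -/

section Main

variable {𝒪 : Type*} [CommRing 𝒪] {Δ : Type*} [CommGroup Δ] {r : ℕ}
  (γ : MvPowerSeries (Fin r) 𝒪 →ₐ[𝒪] MonoidAlgebra 𝒪 Δ) (η : Fin r → Δ)
  (hγ : ∀ i, γ (MvPowerSeries.X i) = zel 𝒪 η i)
  {M : Type*} [AddCommGroup M] [Module (MonoidAlgebra 𝒪 Δ) M]
  {A' : Type*} [Semiring A'] [Module A' M]
  {R : Type*} [CommRing R] {R' : Type*} [CommRing R'] (incl : R →+* R')
  (Φ' : R' →+* Module.End A' M) (Φ : R →+* Module.End A' M) (hΦ : ∀ b : R, Φ b = Φ' (incl b))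

include hγ hΦ in
/-- **`hdisp` from the sign-free display**: `t ∈ R` with `incl t = u² + v²`, `u v = 1`, `u` acting
as the diamond `single δ 1 •`, `δ = η i` or `(η i)⁻¹`: `b := t - 2` acts as `γ (sq (X i))`. -/
theorem apply_of_trace (i : Fin r) (t : R) (u v : R') (huv : u * v = 1)
    (ht : incl t = u * u + v * v) (δ : Δ) (hδ : η i = δ ∨ η i = δ⁻¹)
    (hu : ∀ x : M, Φ' u x = (MonoidAlgebra.single δ (1 : 𝒪) : MonoidAlgebra 𝒪 Δ) • x) (x : M) :
    Φ (t - 2) x = γ (sq 𝒪 (MvPowerSeries.X i)) • x := by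
  have h2 : incl (2 : R) = 2 := map_ofNat incl 2
  rw [hΦ, map_sub, ht, h2, gamma_sq_X γ η hγ, zel_sq_eq η i δ hδ]
  exact apply_disp Φ' u v huv _ _ (single_mul_single_inv δ) hu x

include hγ hΦ in
theorem hdisp_of_trace (i : Fin r) (t : R) (u v : R') (huv : u * v = 1)
    (ht : incl t = u * u + v * v) (δ : Δ) (hδ : η i = δ ∨ η i = δ⁻¹)
    (hu : ∀ x : M, Φ' u x = (MonoidAlgebra.single δ (1 : 𝒪) : MonoidAlgebra 𝒪 Δ) • x) :
    ∃ b : R, ∀ x : M, Φ b x = γ (sq 𝒪 (MvPowerSeries.X i)) • x :=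
  ⟨t - 2, apply_of_trace γ η hγ incl Φ' Φ hΦ i t u v huv ht δ hδ hu⟩

end Main

/-! ### from the gate cubic -/

section Gate

variable {T : Type} [CommRing T] [IsLocalRing T] [Invertible (2 : T)] {E : Type*} [Ring E]
  [Algebra T E] {rE : GQ →* E} {t : GQ → T} {d : GQ →* T} {c g₀ h₀ : GQ}
  {𝒪 : Type*} [CommRing 𝒪] {Δ : Type*} [CommGroup Δ] {r : ℕ}
  (γ : MvPowerSeries (Fin r) 𝒪 →ₐ[𝒪] MonoidAlgebra 𝒪 Δ) (η : Fin r → Δ)
  (hγ : ∀ i, γ (MvPowerSeries.X i) = zel 𝒪 η i)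
  {M : Type*} [AddCommGroup M] [Module (MonoidAlgebra 𝒪 Δ) M]
  {A' : Type*} [Semiring A'] [Module A' M]
  {R : Type*} [CommRing R] (incl : R →+* T)
  (Φ' : T →+* Module.End A' M) (Φ : R →+* Module.End A' M) (hΦ : ∀ b : R, Φ b = Φ' (incl b))

include hγ hΦ in
/-- **`hdisp` from the gate cubic** at a Taylor--Wiles prime `l`: `h` the input of (CL+) over the
full Hecke algebra `T`, `τ` in an inertia group at `l`, `u v : T` the diamonds of the gate, `t_R ∈ R`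
over `t (τ * τ)`. -/
theorem hdisp_of_gate (h : Input rE t d c g₀ h₀) (hcont : IsContMat T (rep h))
    {l p : ℕ} (hl : l.Prime) (hp : p.Prime) (hpl : p ≠ l) (hpT : (p : T) ∈ maximalIdeal T)
    (hsep : ∀ x : T, (∀ n, x ∈ maximalIdeal T ^ n) → x = 0)
    {A : ValuationSubring Qbar} (hA : A.LiesOverPrime l)
    (hres : ∀ s ∈ A.inertiaSubgroupIn ℚ, Cong (maximalIdeal T) (rep h s - 1))
    {τ : GQ} (hτ : τ ∈ A.inertiaSubgroupIn ℚ)
    (u v : T) (huv : u * v = 1) (hd : d τ = 1)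
    (hcube : (rE τ - u • (1 : E)) * (rE τ - u • (1 : E)) * (rE τ - v • (1 : E)) = 0)
    (hul : u ^ l = u) (htf : ∀ x : T, ((l : T) ^ 2 - 1) * x = 0 → x = 0)
    (i : Fin r) (tR : R) (htR : incl tR = t (τ * τ)) (δ : Δ) (hδ : η i = δ ∨ η i = δ⁻¹)
    (hu : ∀ x : M, Φ' u x = (MonoidAlgebra.single δ (1 : 𝒪) : MonoidAlgebra 𝒪 Δ) • x) :
    ∃ b : R, ∀ x : M, Φ b x = γ (sq 𝒪 (MvPowerSeries.X i)) • x := by
  have h1 := Fermat.Agent.S43.Rho.Props.TypeRhoT.trace_sq_ofMat_of_gate h hcont hl hp hpl hpT hsep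
    hA hres hτ u v huv hd hcube hul htf
  rw [Fermat.Agent.S43.Rho.Props.TypeRhoT.trace_ofMat, trace_rep] at h1
  exact hdisp_of_trace γ η hγ incl Φ' Φ hΦ i tR u v huv (htR.trans h1) δ hδ hu

include hγ hΦ in
/-- the same with `t_R := tr (rR (τ * τ))` for a matrix representation `rR` over `R` with
`rep h g = (rR g).map incl` (`Rho/Props/TypeExt.rep_eq_map`) -/
theorem hdisp_of_rep (h : Input rE t d c g₀ h₀) (hcont : IsContMat T (rep h))
    {l p : ℕ} (hl : l.Prime) (hp : p.Prime) (hpl : p ≠ l) (hpT : (p : T) ∈ maximalIdeal T)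
    (hsep : ∀ x : T, (∀ n, x ∈ maximalIdeal T ^ n) → x = 0)
    {A : ValuationSubring Qbar} (hA : A.LiesOverPrime l)
    (hres : ∀ s ∈ A.inertiaSubgroupIn ℚ, Cong (maximalIdeal T) (rep h s - 1))
    {τ : GQ} (hτ : τ ∈ A.inertiaSubgroupIn ℚ)
    (u v : T) (huv : u * v = 1) (hd : d τ = 1)
    (hcube : (rE τ - u • (1 : E)) * (rE τ - u • (1 : E)) * (rE τ - v • (1 : E)) = 0)
    (hul : u ^ l = u) (htf : ∀ x : T, ((l : T) ^ 2 - 1) * x = 0 → x = 0)
    (rR : GQ →* Matrix (Fin 2) (Fin 2) R) (hrR : ∀ g, rep h g = (rR g).map incl)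
    (i : Fin r) (δ : Δ) (hδ : η i = δ ∨ η i = δ⁻¹)
    (hu : ∀ x : M, Φ' u x = (MonoidAlgebra.single δ (1 : 𝒪) : MonoidAlgebra 𝒪 Δ) • x) :
    ∃ b : R, ∀ x : M, Φ b x = γ (sq 𝒪 (MvPowerSeries.X i)) • x := by
  refine hdisp_of_gate γ η hγ incl Φ' Φ hΦ h hcont hl hp hpl hpT hsep hA hres hτ u v huv hd hcube
    hul htf i ((rR (τ * τ)).trace) ?_ δ hδ hu
  rw [← trace_rep h (τ * τ), hrR, Matrix.trace_fin_two, Matrix.trace_fin_two, map_add]
  rfl

end Gate

end Fermat.Agent.S43.RSide.DispPush
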